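import Mathlib
import Fermat.Agent.S16.SD.Main
import Fermat.Agent.S16.Two.QSeries

set_option autoImplicit false

/-!
# S40x / Thick / ModM : the level-one modular input `(M)` of the thickness computation

For a prime `p ≥ 3` put `m = (p - 1)/2`, `j = jqModC (ZMod p)` (the reduction mod `p` of the
`q`-expansion of the modular invariant) and `θ = q d/dq` (`thetaL`).  Then there is a nonzero
polynomial `H` over `ZMod p`, of degree `≤ m`, with

  `H(j) · (θ j)^(p-1) = (j - 1728)^m · j^(p-1)`        in `(ZMod p)((q))`,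

i.e. `(θ j / j)^(p-1) = (j-1728)^m / H(j)` is a rational function of `j`.

Proof: `θ j = - j E₆/E₄` (`Two.thetaL_jq`), `E₆² = E₄³ - 1728 Δ`, and for `p ≥ 5`
`E₄^(p-1) ≡ E₄^(p-1) E_{p-1}²`, an isobaric polynomial of weight `12 m` in `E₄, E₆` (Hasse
polynomial `SD.HasseData`), hence `Δ^m` times a polynomial of degree `≤ m` in `j = E₄³/Δ`.  For
`p = 3`: `E₄ ≡ E₆ ≡ 1`.
-/

namespace Fermat.Agent.S40x.Thick.ModM

open ModularCurve
open Fermat.Agent.S23.IntSeries Fermat.Agent.S16.SD Fermat.Agent.S16.Two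

noncomputable section

section General

variable (K : Type*) [CommRing K]

/-- power series to Laurent series over `K`. -/
abbrev iK : PowerSeries K →+* LaurentSeries K := HahnSeries.ofPowerSeries ℤ K

/-- reduction of coefficients `ℤ((q)) → K((q))`. -/
abbrev cK : LaurentSeries ℤ →+* LaurentSeries K := coeffMap (Int.castRingHom K)

theorem cK_ofPowerSeries (f : PowerSeries ℤ) :
    cK K (HahnSeries.ofPowerSeries ℤ ℤ f) = iK K (PowerSeries.map (Int.castRingHom K) f) := by
  ext k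
  rw [coeffMap_coeff]
  rcases le_or_gt 0 k with hk | hk
  · lift k to ℕ using hk
    rw [HahnSeries.ofPowerSeries_apply_coeff, HahnSeries.ofPowerSeries_apply_coeff,
      PowerSeries.coeff_map]
  · rw [ofPowerSeries_coeff_of_neg _ hk, ofPowerSeries_coeff_of_neg _ hk, map_zero]

theorem cK_jq : cK K (jqModC ℤ) = jqModC K :=
  map_jqModC (Int.castRingHom K)

theorem cK_thetaL (f : LaurentSeries ℤ) : cK K (thetaL f) = thetaL (cK K f) := by
  ext n
  rw [coeffMap_coeff, thetaL_coeff, thetaL_coeff, coeffMap_coeff]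
  simp

/-- `E₄ · θ j = - E₆ · j` over any coefficient ring. -/
theorem thetaL_jqK :
    iK K (Qq K) * thetaL (jqModC K) = -(iK K (Rq K) * jqModC K) := by
  have h := congrArg (cK K) thetaL_jq
  rw [map_mul, map_neg, map_mul, cK_ofPowerSeries, cK_ofPowerSeries, cK_thetaL, cK_jq] at h
  exact h

/-- `Δ · j = E₄³` over any coefficient ring. -/
theorem Dq_mul_jqK : iK K (Dq K) * jqModC K = iK K (Qq K) ^ 3 := by
  have h := congrArg (cK K) QS.DeltaZ_mul_jq
  rw [map_mul, map_pow, cK_ofPowerSeries, cK_ofPowerSeries, cK_jq] at h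
  exact h

/-- `E₆² = Δ · (j - 1728)`. -/
theorem Rq_sqK : iK K (Rq K) ^ 2 = iK K (Dq K) * (jqModC K - 1728) := by
  have h := congrArg (iK K) (Qq_cube_sub_Rq_sq K)
  rw [map_sub, map_pow, map_pow, map_mul, map_ofNat] at h
  rw [mul_sub, Dq_mul_jqK]
  linear_combination -h

/-- Evaluation of a polynomial over `K` at `j` (instance-free form of `aeval`). -/
def evJ : Polynomial K →+* LaurentSeries K :=
  Polynomial.eval₂RingHom (HahnSeries.C : K →+* LaurentSeries K) (jqModC K)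

theorem evJ_apply (H : Polynomial K) :
    evJ K H = Polynomial.eval₂ (HahnSeries.C : K →+* LaurentSeries K) (jqModC K) H := rfl

@[simp] theorem evJ_X : evJ K Polynomial.X = jqModC K := by
  simp [evJ]

@[simp] theorem evJ_C (c : K) : evJ K (Polynomial.C c) = HahnSeries.C c := by
  simp [evJ]

/-- The set of power series of the form `Δ^m · H(j)`, `deg H ≤ m`. -/
def IsHom (m : ℕ) (x : PowerSeries K) : Prop :=
  ∃ H : Polynomial K, H.natDegree ≤ m ∧ iK K x = iK K (Dq K) ^ m * evJ K H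

variable {K}

theorem IsHom.mul {a b : ℕ} {x y : PowerSeries K} (hx : IsHom K a x) (hy : IsHom K b y) :
    IsHom K (a + b) (x * y) := by
  obtain ⟨H1, h1, e1⟩ := hx
  obtain ⟨H2, h2, e2⟩ := hy
  refine ⟨H1 * H2, (Polynomial.natDegree_mul_le).trans (add_le_add h1 h2), ?_⟩
  rw [map_mul, e1, e2, map_mul, pow_add]
  ring

theorem IsHom.add {a : ℕ} {x y : PowerSeries K} (hx : IsHom K a x) (hy : IsHom K a y) :
    IsHom K a (x + y) := by
  obtain ⟨H1, h1, e1⟩ := hx
  obtain ⟨H2, h2, e2⟩ := hy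
  refine ⟨H1 + H2, (Polynomial.natDegree_add_le _ _).trans (max_le h1 h2), ?_⟩
  rw [map_add, e1, e2, map_add]
  ring

theorem IsHom.C_mul {a : ℕ} {x : PowerSeries K} (hx : IsHom K a x) (c : K) :
    IsHom K a (PowerSeries.C c * x) := by
  obtain ⟨H1, h1, e1⟩ := hx
  refine ⟨Polynomial.C c * H1, (Polynomial.natDegree_C_mul_le _ _).trans h1, ?_⟩
  rw [map_mul, e1, map_mul, evJ_C]
  have : iK K (PowerSeries.C c) = HahnSeries.C c := by
    simp only [iK, HahnSeries.ofPowerSeries_C]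
  rw [this]
  ring

theorem isHom_zero (a : ℕ) : IsHom K a 0 :=
  ⟨0, by simp, by simp⟩

theorem isHom_one : IsHom K 0 1 :=
  ⟨1, by simp, by simp⟩

theorem IsHom.pow {a : ℕ} {x : PowerSeries K} (hx : IsHom K a x) (n : ℕ) :
    IsHom K (n * a) (x ^ n) := by
  induction n with
  | zero => simpa using isHom_one
  | succ n ih =>
    have := ih.mul hx
    rw [pow_succ]
    convert this using 1
    ring

theorem isHom_Q_cube : IsHom K 1 (Qq K ^ 3) :=
  ⟨Polynomial.X, Polynomial.natDegree_X_le,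
    by rw [map_pow, pow_one, evJ_X, Dq_mul_jqK]⟩

theorem isHom_R_sq : IsHom K 1 (Rq K ^ 2) := by
  refine ⟨Polynomial.X - Polynomial.C 1728, ?_, ?_⟩
  · exact (Polynomial.natDegree_X_sub_C_le _)
  · rw [map_pow, Rq_sqK, pow_one, map_sub, evJ_X, evJ_C]
    congr 2

theorem IsHom.sum {ι : Type*} (s : Finset ι) (f : ι → PowerSeries K) (a : ℕ)
    (h : ∀ i ∈ s, IsHom K a (f i)) : IsHom K a (∑ i ∈ s, f i) := by
  classical
  induction s using Finset.induction_on with
  | empty => simpa using isHom_zero a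
  | insert i s hi ih =>
    rw [Finset.sum_insert hi]
    exact (h i (Finset.mem_insert_self i s)).add
      (ih fun j hj => h j (Finset.mem_insert_of_mem hj))

/-- An isobaric polynomial of weight `12 m` in `E₄, E₆`, evaluated at the `q`-series, is
`Δ^m · H(j)` with `deg H ≤ m`. -/
theorem isHom_of_isIso {Φ : MvPolynomial (Fin 2) K} {m : ℕ} (h : IsIso Φ (12 * m)) :
    IsHom K m (evQ K Φ) := by
  classical
  rw [Φ.as_sum, map_sum]
  refine IsHom.sum _ _ _ fun d hd => ?_
  have hc : MvPolynomial.coeff d Φ ≠ 0 := MvPolynomial.mem_support_iff.1 hd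
  have hw := h hc
  rw [weight_wt] at hw
  -- `d 0 = 3 a`, `d 1 = 2 b`, `a + b = m`
  obtain ⟨b, hb⟩ : ∃ b, d 1 = 2 * b := ⟨d 1 / 2, by omega⟩
  obtain ⟨a, ha⟩ : ∃ a, d 0 = 3 * a := ⟨d 0 / 3, by omega⟩
  have hab : a + b = m := by omega
  rw [monomial_eq_X_pow, map_mul, map_mul, map_pow, map_pow, evQ_C, evQ_X, evQ_X, qr_zero, qr_one,
    ha, hb, pow_mul, pow_mul]
  refine IsHom.C_mul ?_ _
  have := (isHom_Q_cube (K := K).pow a).mul (isHom_R_sq (K := K).pow b)
  rw [mul_one, mul_one, hab] at this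
  exact this

end General

section Main

variable (p : ℕ) [Fact p.Prime]

/-- `E₄^(p-1) = Δ^m · H(j)` mod `p`, `p ≥ 5`, `m = (p-1)/2`. -/
theorem isHom_Qq_pow (hp : 5 ≤ p) : IsHom (ZMod p) ((p - 1) / 2) (Qq (ZMod p) ^ (p - 1)) := by
  obtain ⟨H⟩ := nonempty_hasseData (l := p) ramanujanZ hp
  have hodd : Odd p := (Fact.out : p.Prime).odd_of_ne_two (by omega)
  obtain ⟨i, hi⟩ := hodd
  have hm : (p - 1) / 2 = i := by omega
  have hiso : IsIso (MvPolynomial.X 0 ^ (p - 1) * H.A ^ 2 : MvPolynomial (Fin 2) (ZMod p))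
      (12 * ((p - 1) / 2)) := by
    have h1 := ((isIso_X (K := ZMod p) 0).pow (p - 1)).mul (H.isIso.pow 2)
    refine h1.weight_cast ?_
    rw [hm]
    simp only [wt_zero]
    omega
  have := isHom_of_isIso hiso
  rwa [map_mul, map_pow, map_pow, evQ_X, qr_zero, H.evQ_eq, one_pow, mul_one] at this

/-- `E₄ ≡ 1 mod 3`. -/
theorem Qq_three : Qq (ZMod 3) = 1 := by
  rw [Qq, E4Z_eq_one_add]
  simp only [map_add, map_one, map_mul, map_ofNat]
  have h : (30 : PowerSeries (ZMod 3)) = 0 := by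
    have h30 : ((30 : ℕ) : PowerSeries (ZMod 3)) = 0 := by
      rw [← map_natCast (PowerSeries.C (R := ZMod 3)) 30,
        (ZMod.natCast_eq_zero_iff 30 3).2 (by norm_num), map_zero]
    exact_mod_cast h30
  rw [h]
  ring

/-- `E₆ ≡ 1 mod 3`. -/
theorem Rq_three : Rq (ZMod 3) = 1 := by
  rw [Rq, E6Z_eq_one_sub]
  simp only [map_sub, map_one, map_mul, map_ofNat]
  have h : (63 : PowerSeries (ZMod 3)) = 0 := by
    have h63 : ((63 : ℕ) : PowerSeries (ZMod 3)) = 0 := by
      rw [← map_natCast (PowerSeries.C (R := ZMod 3)) 63,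
        (ZMod.natCast_eq_zero_iff 63 3).2 (by norm_num), map_zero]
    exact_mod_cast h63
  rw [h]
  ring

theorem iK_Dq_ne_zero : iK (ZMod p) (Dq (ZMod p)) ≠ 0 := by
  intro h
  have h1 : (iK (ZMod p) (Dq (ZMod p))).coeff ((1 : ℕ) : ℤ) = 1 := by
    rw [HahnSeries.ofPowerSeries_apply_coeff, coeff_one_Dq]
  rw [h] at h1
  simp at h1

/-- **Modular input (M)**, `p ≥ 5`. -/
theorem exists_hasse_poly_of_five_le (hp : 5 ≤ p) :
    ∃ H : Polynomial (ZMod p), H ≠ 0 ∧ H.natDegree ≤ (p - 1) / 2 ∧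
      evJ (ZMod p) H * thetaL (jqModC (ZMod p)) ^ (p - 1) =
        (jqModC (ZMod p) - 1728) ^ ((p - 1) / 2) * jqModC (ZMod p) ^ (p - 1) := by
  obtain ⟨H, hdeg, hH⟩ := isHom_Qq_pow p hp
  have hodd : Odd p := (Fact.out : p.Prime).odd_of_ne_two (by omega)
  obtain ⟨i, hi⟩ := hodd
  have hm : (p - 1) / 2 = i := by omega
  have hp1 : p - 1 = 2 * i := by omega
  refine ⟨H, ?_, hdeg, ?_⟩
  · rintro rfl
    rw [map_zero, mul_zero] at hH
    have h1 : Qq (ZMod p) ^ (p - 1) = 0 :=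
      HahnSeries.ofPowerSeries_injective (Γ := ℤ) (by rw [map_zero]; exact hH)
    have h2 := congrArg PowerSeries.constantCoeff h1
    rw [map_pow, constantCoeff_Qq, one_pow, map_zero] at h2
    exact one_ne_zero h2
  · have hθ := thetaL_jqK (ZMod p)
    have h1 : (iK (ZMod p) (Qq (ZMod p)) * thetaL (jqModC (ZMod p))) ^ (2 * i) =
        (iK (ZMod p) (Rq (ZMod p)) ^ 2) ^ i * jqModC (ZMod p) ^ (2 * i) := by
      rw [hθ, pow_mul, neg_sq, ← pow_mul, mul_pow, pow_mul]
    rw [Rq_sqK, mul_pow, mul_pow] at h1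
    rw [hm, hp1] at hH ⊢
    rw [map_pow] at hH
    rw [hH] at h1
    apply mul_left_cancel₀ (pow_ne_zero i (iK_Dq_ne_zero p))
    linear_combination h1

/-- **Modular input (M)**, `p = 3`. -/
theorem exists_hasse_poly_three :
    ∃ H : Polynomial (ZMod 3), H ≠ 0 ∧ H.natDegree ≤ (3 - 1) / 2 ∧
      evJ (ZMod 3) H * thetaL (jqModC (ZMod 3)) ^ (3 - 1) =
        (jqModC (ZMod 3) - 1728) ^ ((3 - 1) / 2) * jqModC (ZMod 3) ^ (3 - 1) := by
  refine ⟨Polynomial.X, Polynomial.X_ne_zero, Polynomial.natDegree_X_le, ?_⟩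
  have hθ := thetaL_jqK (ZMod 3)
  rw [Qq_three, Rq_three, map_one, one_mul, one_mul] at hθ
  have h1728 : (1728 : LaurentSeries (ZMod 3)) = 0 := by
    have h : ((1728 : ℕ) : LaurentSeries (ZMod 3)) = 0 := by
      rw [← map_natCast (HahnSeries.C : ZMod 3 →+* LaurentSeries (ZMod 3)) 1728,
        (ZMod.natCast_eq_zero_iff 1728 3).2 (by norm_num), map_zero]
    exact_mod_cast h
  rw [evJ_X, hθ, h1728, sub_zero]
  norm_num

/-- **Modular input (M)** of the thickness computation, all odd primes: with `m = (p-1)/2` there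
is a nonzero polynomial `H` of degree `≤ m` over `𝔽_p` with
`H(j) (θ j)^(p-1) = (j - 1728)^m j^(p-1)` in `𝔽_p((q))`. -/
theorem exists_hasse_poly (hp2 : p ≠ 2) :
    ∃ H : Polynomial (ZMod p), H ≠ 0 ∧ H.natDegree ≤ (p - 1) / 2 ∧
      evJ (ZMod p) H * thetaL (jqModC (ZMod p)) ^ (p - 1) =
        (jqModC (ZMod p) - 1728) ^ ((p - 1) / 2) * jqModC (ZMod p) ^ (p - 1) := by
  have hpr : p.Prime := Fact.out
  rcases Nat.lt_or_ge p 5 with h | h
  · have h3 : p = 3 := by
      have h2 := hpr.two_le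
      interval_cases p
      · exact absurd rfl hp2
      · rfl
      · exact absurd hpr (by norm_num)
    subst h3
    exact exists_hasse_poly_three
  · exact exists_hasse_poly_of_five_le p h

end Main

end

end Fermat.Agent.S40x.Thick.ModM
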