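import Mathlib
import Fermat.Agent.S40x.Thick.ModM
import Fermat.Agent.Gateway.AuxLevel.Level4Cusps
import Fermat.Agent.S28.Laurent
import Fermat.Agent.S28.ModEq.Triangular

set_option autoImplicit false

/-!
# S40x / Thick / ThetaX4 : `θ x₄` for the Hauptmodul `x₄` of `X₀(4)` (items T7/T8 of R1-T)

`j = J(x)`, `J = N4/D4`, `N4 = A4³`, `A4 = x² + 224 x + 256`, `D4 = x (x-16)⁴`,
`C4 = x³ - 528 x² - 8448 x + 4096`, `N4 - 1728 D4 = C4²`, Wronskian `W4 = A4² (x-16)³ C4`.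

* `thetaL_x4` (over `ℤ`): `E₄ · θx · C4(x) = - E₆ · x (x-16) A4(x)`;
* `exists_theta_x4_pow` (mod `p`, `p` odd, `m = (p-1)/2`): there are `h_0, …, h_m ∈ 𝔽_p`, `h_m = 1`,
  with `G(x) · (θ x)^(p-1) = (x (x-16) A4(x))^(p-1)`, `G := ∑ h_i N4^i D4^(m-i)`,
  i.e. `(θx/x)^(p-1) = ((x-16) A4(x))^(p-1) / G(x)` is a rational function of `x`.
-/

namespace Fermat.Agent.S40x.Thick.ThetaX4

open Polynomial ModularCurve
open Fermat.Agent.S23.IntSeries Fermat.Agent.S16.SD Fermat.Agent.S16.Two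
open Fermat.Agent.Gateway.AuxLevel Fermat.Agent.S40x.Thick.ModM

noncomputable section

local notation "ι" => HahnSeries.ofPowerSeries ℤ ℤ

/-- `A4 = X² + 224 X + 256`. -/
def A4 : ℤ[X] := X ^ 2 + 224 * X + 256
/-- numerator of `J`. -/
def N4 : ℤ[X] := A4 ^ 3
/-- denominator of `J`. -/
def D4 : ℤ[X] := X * (X - 16) ^ 4
/-- `C4 = X³ - 528 X² - 8448 X + 4096`, `J - 1728 = C4² / D4`. -/
def C4 : ℤ[X] := X ^ 3 - 528 * X ^ 2 - 8448 * X + 4096
/-- the Wronskian of `J = N4 / D4`. -/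
def W4 : ℤ[X] := derivative N4 * D4 - N4 * derivative D4

theorem W4_eq : W4 = A4 ^ 2 * (X - 16) ^ 3 * C4 := by
  have hC2 : (C (2 : ℤ) : ℤ[X]) = 2 := by simp
  have hC3 : (C (3 : ℤ) : ℤ[X]) = 3 := by simp
  have hC4 : (C (4 : ℤ) : ℤ[X]) = 4 := by simp
  simp only [W4, N4, D4, A4, C4, derivative_mul, derivative_pow, derivative_sub, derivative_add,
    derivative_X, derivative_ofNat]
  push_cast
  rw [hC2, hC3, hC4]
  ring

theorem N4_sub : N4 - 1728 * D4 = C4 ^ 2 := by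
  simp only [N4, D4, A4, C4]
  ring

theorem aeval_A4 (x : LaurentSeries ℤ) : aeval x A4 = x ^ 2 + 224 * x + 256 := by
  simp only [A4, map_add, map_mul, map_pow, aeval_X, map_ofNat]

theorem aeval_N4 (x : LaurentSeries ℤ) : aeval x N4 = (x ^ 2 + 224 * x + 256) ^ 3 := by
  rw [N4, map_pow, aeval_A4]

theorem aeval_D4 (x : LaurentSeries ℤ) : aeval x D4 = x * (x - 16) ^ 4 := by
  simp only [D4, map_sub, map_mul, map_pow, aeval_X, map_ofNat]

theorem aeval_C4 (x : LaurentSeries ℤ) :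
    aeval x C4 = x ^ 3 - 528 * x ^ 2 - 8448 * x + 4096 := by
  simp only [C4, map_add, map_sub, map_mul, map_pow, aeval_X, map_ofNat]

/-- `j · D4(x₄) = N4(x₄)`. -/
theorem jq_rel : jqModC ℤ * aeval L4.x4 D4 = aeval L4.x4 N4 := by
  rw [aeval_D4, aeval_N4]
  exact L4.jq_x4'

theorem aeval_A4_ne_zero : aeval L4.x4 A4 ≠ 0 := by
  intro h
  have h1 := jq_rel
  rw [N4, map_pow, h, zero_pow (by norm_num), aeval_D4] at h1
  have h2 : jqModC ℤ ≠ 0 := Fermat.Agent.S28.jqModC_ne_zero ℤ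
  have h3 : L4.x4 * (L4.x4 - 16) ^ 4 ≠ 0 :=
    mul_ne_zero L4.x4_ne_zero (pow_ne_zero _ L4.x4_sub_ne_zero)
  exact mul_ne_zero h2 h3 h1

/-- `E₄ · θx · W4(x) = - E₆ · N4(x) · D4(x)`. -/
theorem thetaL_x4_W :
    ι E4Z * thetaL L4.x4 * aeval L4.x4 W4 = -(ι E6Z * aeval L4.x4 N4 * aeval L4.x4 D4) := by
  have hrel := jq_rel
  have hd : thetaL (jqModC ℤ * aeval L4.x4 D4) = thetaL (aeval L4.x4 N4) := by rw [hrel]
  rw [thetaL_mul, thetaL_aeval, thetaL_aeval] at hd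
  have hE := thetaL_jq
  have hW : aeval L4.x4 W4 = aeval L4.x4 (derivative N4) * aeval L4.x4 D4 -
      aeval L4.x4 N4 * aeval L4.x4 (derivative D4) := by
    simp only [W4, map_sub, map_mul]
  rw [hW]
  linear_combination
    (-(ι E4Z) * aeval L4.x4 D4) * hd +
    (ι E4Z * aeval L4.x4 (derivative D4) * thetaL L4.x4 - ι E6Z * aeval L4.x4 D4) * hrel +
    (aeval L4.x4 D4) ^ 2 * hE

/-- **`θ x₄` over `ℤ`**: `E₄ · θx · C4(x) = - E₆ · x (x - 16) A4(x)`. -/
theorem thetaL_x4 :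
    ι E4Z * thetaL L4.x4 * aeval L4.x4 C4 =
      -(ι E6Z * L4.x4 * (L4.x4 - 16) * aeval L4.x4 A4) := by
  have h := thetaL_x4_W
  rw [W4_eq, map_mul, map_mul, map_pow, map_pow, map_sub, aeval_X, N4, D4, map_pow, map_mul,
    map_pow, map_sub, aeval_X] at h
  have h16 : aeval L4.x4 (16 : ℤ[X]) = (16 : LaurentSeries ℤ) := map_ofNat _ 16
  rw [h16] at h
  have hne : aeval L4.x4 A4 ^ 2 * (L4.x4 - 16) ^ 3 ≠ 0 :=
    mul_ne_zero (pow_ne_zero _ aeval_A4_ne_zero) (pow_ne_zero _ L4.x4_sub_ne_zero)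
  apply mul_left_cancel₀ hne
  linear_combination h

/-! ### Reduction modulo `p` -/

section ModP

variable (K : Type*) [CommRing K]

theorem cK_aeval (P : ℤ[X]) (x : LaurentSeries ℤ) :
    cK K (aeval x P) = aeval (cK K x) P := by
  rw [aeval_def, aeval_def, hom_eval₂]
  congr 1
  exact RingHom.ext_int _ _

/-- the reduction of `x₄` with coefficients in `K`. -/
def xK : LaurentSeries K := cK K L4.x4

theorem cK_ofNat (n : ℕ) [n.AtLeastTwo] :
    cK K (OfNat.ofNat n : LaurentSeries ℤ) = (OfNat.ofNat n : LaurentSeries K) :=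
  map_ofNat (cK K) n

/-- `E₄ · θx · C4(x) = - E₆ · x (x - 16) A4(x)` over any coefficient ring. -/
theorem thetaL_xK :
    iK K (Qq K) * thetaL (xK K) * aeval (xK K) C4 =
      -(iK K (Rq K) * xK K * (xK K - 16) * aeval (xK K) A4) := by
  have h := congrArg (cK K) thetaL_x4
  rw [map_mul, map_mul, map_neg, map_mul, map_mul, map_mul, map_sub, cK_ofPowerSeries,
    cK_ofPowerSeries, cK_thetaL, cK_aeval, cK_aeval, cK_ofNat] at h
  exact h

/-- `j · D4(x) = N4(x)` over any coefficient ring. -/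
theorem jq_relK : jqModC K * aeval (xK K) D4 = aeval (xK K) N4 := by
  have h := congrArg (cK K) jq_rel
  rw [map_mul, cK_jq, cK_aeval, cK_aeval] at h
  exact h

theorem aeval_N4_sub (x : LaurentSeries K) :
    aeval x N4 - 1728 * aeval x D4 = aeval x C4 ^ 2 := by
  have h := congrArg (aeval x) N4_sub
  rw [map_sub, map_mul, map_pow, map_ofNat] at h
  exact h

/-- the "homogenised" value `∑_{i ≤ m} h_i N4(x)^i D4(x)^(m-i)`. -/
def gSum (h : ℕ → K) (m : ℕ) : LaurentSeries K :=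
  ∑ i ∈ Finset.range (m + 1), HahnSeries.C (h i) * aeval (xK K) N4 ^ i * aeval (xK K) D4 ^ (m - i)

/-- `D4(x)^m · H(j) = ∑ h_i N4(x)^i D4(x)^(m-i)` for `deg H ≤ m`. -/
theorem D4_pow_mul_evJ (H : Polynomial K) {m : ℕ} (hH : H.natDegree ≤ m) :
    aeval (xK K) D4 ^ m * evJ K H = gSum K H.coeff m := by
  rw [evJ_apply, Polynomial.eval₂_eq_sum_range' (HahnSeries.C : K →+* LaurentSeries K)
    (Nat.lt_succ_of_le hH), Finset.mul_sum, gSum]
  refine Finset.sum_congr rfl fun i hi => ?_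
  have hi' : i ≤ m := Nat.lt_succ_iff.mp (Finset.mem_range.mp hi)
  obtain ⟨k, rfl⟩ := Nat.exists_eq_add_of_le hi'
  rw [Nat.add_sub_cancel_left, ← jq_relK, mul_pow, pow_add]
  ring

end ModP

section Main

variable (p : ℕ) [Fact p.Prime]

/-- `E₄^(p-1) = Δ^m · H(j)` mod `p` for every odd prime (for `p = 3`: `E₄ = 1`, `H = X`). -/
theorem isHom_Qq_pow_odd (hp2 : p ≠ 2) :
    IsHom (ZMod p) ((p - 1) / 2) (Qq (ZMod p) ^ (p - 1)) := by
  have hpr : p.Prime := Fact.out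
  rcases Nat.lt_or_ge p 5 with h | h
  · have h3 : p = 3 := by
      have h2 := hpr.two_le
      interval_cases p
      · exact absurd rfl hp2
      · rfl
      · exact absurd hpr (by norm_num)
    subst h3
    refine ⟨Polynomial.X, Polynomial.natDegree_X_le, ?_⟩
    have h1 := Dq_mul_jqK (ZMod 3)
    rw [Qq_three, map_one, one_pow] at h1
    rw [Qq_three, one_pow, map_one, evJ_X]
    norm_num
    exact h1.symm
  · exact isHom_Qq_pow p h

theorem xK_coeff_neg_one (K : Type*) [CommRing K] : (xK K).coeff (-1) = 1 := by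
  have h : (L4.x4).coeff (-1) = 1 := by
    rw [L4.x4, Fermat.Agent.S28.H2.qInv, HahnSeries.coeff_single_mul, one_mul, sub_neg_eq_add,
      neg_add_cancel, show (0 : ℤ) = ((0 : ℕ) : ℤ) from rfl, HahnSeries.ofPowerSeries_apply_coeff,
      PowerSeries.coeff_zero_eq_constantCoeff, L4.constantCoeff_u4]
  rw [xK, coeffMap_coeff, h, map_one]

theorem xK_ne_zero (K : Type*) [CommRing K] [Nontrivial K] : xK K ≠ 0 := by
  intro h
  have := xK_coeff_neg_one K
  rw [h] at this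
  simp at this

theorem ofNat_coeff_neg_one (K : Type*) [CommRing K] (n : ℕ) [n.AtLeastTwo] :
    (OfNat.ofNat n : LaurentSeries K).coeff (-1) = 0 := by
  have h : (OfNat.ofNat n : LaurentSeries K) = HahnSeries.C (OfNat.ofNat n : K) :=
    (map_ofNat (HahnSeries.C : K →+* LaurentSeries K) n).symm
  rw [h, HahnSeries.C_apply, HahnSeries.coeff_single_of_ne (by norm_num)]

theorem xK_sub_ne_zero (K : Type*) [CommRing K] [Nontrivial K] : xK K - 16 ≠ 0 := by
  intro h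
  have h1 : (xK K - 16).coeff (-1) = 1 := by
    rw [HahnSeries.coeff_sub, xK_coeff_neg_one, ofNat_coeff_neg_one, sub_zero]
  rw [h] at h1
  simp at h1

theorem jq_sub_ne_zero (K : Type*) [CommRing K] [Nontrivial K] : jqModC K - 1728 ≠ 0 := by
  intro h
  have h1 : (jqModC K - 1728).coeff (-1) = 1 := by
    rw [HahnSeries.coeff_sub, Fermat.Agent.S28.jqModC_coeff_neg_one, ofNat_coeff_neg_one, sub_zero]
  rw [h] at h1
  simp at h1

/-- `C4(x)² = D4(x) (j - 1728)`. -/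
theorem aeval_C4_sq (K : Type*) [CommRing K] :
    aeval (xK K) C4 ^ 2 = aeval (xK K) D4 * (jqModC K - 1728) := by
  rw [← aeval_N4_sub, ← jq_relK]
  ring

theorem aeval_D4K (K : Type*) [CommRing K] :
    aeval (xK K) D4 = xK K * (xK K - 16) ^ 4 := by
  simp only [D4, map_sub, map_mul, map_pow, aeval_X, map_ofNat]

theorem aeval_C4_ne_zero : aeval (xK (ZMod p)) C4 ≠ 0 := by
  intro h
  have h1 := aeval_C4_sq (ZMod p)
  rw [h, aeval_D4K] at h1
  have h2 : xK (ZMod p) * (xK (ZMod p) - 16) ^ 4 * (jqModC (ZMod p) - 1728) ≠ 0 :=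
    mul_ne_zero (mul_ne_zero (xK_ne_zero _) (pow_ne_zero _ (xK_sub_ne_zero _)))
      (jq_sub_ne_zero _)
  exact h2 (by rw [← h1]; ring)

theorem iK_Qq_ne_zero : iK (ZMod p) (Qq (ZMod p)) ≠ 0 := by
  intro h
  have h1 : Qq (ZMod p) = 0 :=
    HahnSeries.ofPowerSeries_injective (Γ := ℤ) (by rw [map_zero]; exact h)
  have h2 := constantCoeff_Qq (ZMod p)
  rw [h1, map_zero] at h2
  exact zero_ne_one h2

/-- The top coefficient of the Hasse polynomial `H` (`E₄^(2m) = Δ^m H(j)`, `deg H ≤ m`) is `1`. -/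
theorem coeff_top_of_isHom {m : ℕ} {H : Polynomial (ZMod p)} (hH : H.natDegree ≤ m)
    (h : iK (ZMod p) (Qq (ZMod p) ^ (2 * m)) = iK (ZMod p) (Dq (ZMod p)) ^ m * evJ (ZMod p) H) :
    H.coeff m = 1 := by
  -- `j^m = E₄^m · H(j)`
  have h1 : jqModC (ZMod p) ^ m = iK (ZMod p) (Qq (ZMod p) ^ m) * evJ (ZMod p) H := by
    have h2 := Dq_mul_jqK (ZMod p)
    apply mul_left_cancel₀ (pow_ne_zero (2 * m) (iK_Qq_ne_zero p))
    rw [map_pow] at h ⊢
    calc iK (ZMod p) (Qq (ZMod p)) ^ (2 * m) * jqModC (ZMod p) ^ m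
        = (iK (ZMod p) (Dq (ZMod p)) * jqModC (ZMod p)) ^ m * evJ (ZMod p) H := by
          rw [h]; ring
      _ = iK (ZMod p) (Qq (ZMod p)) ^ (2 * m) *
            (iK (ZMod p) (Qq (ZMod p)) ^ m * evJ (ZMod p) H) := by
          rw [h2]; ring
  set x := iK (ZMod p) (Qq (ZMod p) ^ m) with hx
  set y := evJ (ZMod p) H with hy
  have hjm : jqModC (ZMod p) ^ m ≠ 0 := pow_ne_zero _ (Fermat.Agent.S28.jqModC_ne_zero _)
  have hx0 : x ≠ 0 := fun h0 => hjm (by rw [h1, h0, zero_mul])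
  have hy0 : y ≠ 0 := fun h0 => hjm (by rw [h1, h0, mul_zero])
  have hxc : x.coeff 0 = 1 := by
    rw [hx, show (0 : ℤ) = ((0 : ℕ) : ℤ) from rfl, HahnSeries.ofPowerSeries_apply_coeff,
      PowerSeries.coeff_zero_eq_constantCoeff, map_pow, constantCoeff_Qq, one_pow]
  have hxo : x.order = 0 := by
    apply le_antisymm
    · exact HahnSeries.order_le_of_coeff_ne_zero (by rw [hxc]; exact one_ne_zero)
    · rw [HahnSeries.le_order_iff_forall hx0]
      intro n hn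
      exact ofPowerSeries_coeff_of_neg _ hn
  have hjo : (jqModC (ZMod p) ^ m).order = -(m : ℤ) := by
    rw [HahnSeries.order_pow, Fermat.Agent.S28.jqModC_order, nsmul_eq_mul, mul_neg, mul_one]
  have hyo : y.order = -(m : ℤ) := by
    have := HahnSeries.order_mul hx0 hy0
    rw [← h1, hjo, hxo, zero_add] at this
    exact this.symm
  have hl := HahnSeries.leadingCoeff_mul x y
  rw [← h1, HahnSeries.leadingCoeff_eq, HahnSeries.leadingCoeff_eq, HahnSeries.leadingCoeff_eq,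
    hjo, hxo, hyo, coeff_jqModC_pow_self, hxc, one_mul, hy, evJ_apply,
    Fermat.Agent.S28.ModEq.coeff_eval₂_jqModC H hH] at hl
  exact hl.symm

/-- **T7**: `(θ x₄ / x₄)^(p-1)` is a rational function of `x₄` modulo `p`.  With `m = (p-1)/2`
there are `h_0, …, h_m ∈ 𝔽_p`, `h_m = 1`, such that
`(∑_{i ≤ m} h_i N4(x)^i D4(x)^(m-i)) · (θx)^(p-1) = (x (x-16) A4(x))^(p-1)` in `𝔽_p((q))`. -/
theorem exists_theta_x4_pow (hp2 : p ≠ 2) :
    ∃ h : ℕ → ZMod p, h ((p - 1) / 2) = 1 ∧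
      gSum (ZMod p) h ((p - 1) / 2) * thetaL (xK (ZMod p)) ^ (p - 1) =
        (xK (ZMod p) * (xK (ZMod p) - 16) * aeval (xK (ZMod p)) A4) ^ (p - 1) := by
  obtain ⟨H, hdeg, hH⟩ := isHom_Qq_pow_odd p hp2
  have hodd : Odd p := (Fact.out : p.Prime).odd_of_ne_two hp2
  obtain ⟨i, hi⟩ := hodd
  have hm : (p - 1) / 2 = i := by omega
  have hp1 : p - 1 = 2 * i := by omega
  rw [hm, hp1] at hH
  rw [hm] at hdeg
  refine ⟨H.coeff, ?_, ?_⟩
  · rw [hm]
    exact coeff_top_of_isHom p hdeg hH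
  · rw [hm, hp1, ← D4_pow_mul_evJ (ZMod p) H hdeg]
    have hθ := thetaL_xK (ZMod p)
    set B := xK (ZMod p) * (xK (ZMod p) - 16) * aeval (xK (ZMod p)) A4 with hB
    have h1 : (iK (ZMod p) (Qq (ZMod p)) * thetaL (xK (ZMod p)) * aeval (xK (ZMod p)) C4) ^ (2 * i) =
        (iK (ZMod p) (Rq (ZMod p)) ^ 2) ^ i * B ^ (2 * i) := by
      have hθ' : iK (ZMod p) (Qq (ZMod p)) * thetaL (xK (ZMod p)) * aeval (xK (ZMod p)) C4 =
          -(iK (ZMod p) (Rq (ZMod p)) * B) := by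
        rw [hθ, hB]; ring
      rw [hθ', Even.neg_pow (even_two_mul i), mul_pow, pow_mul]
    rw [Rq_sqK, mul_pow, mul_pow, mul_pow] at h1
    rw [map_pow] at hH
    rw [hH] at h1
    -- cancel `Δ^m`
    have h2 : evJ (ZMod p) H * thetaL (xK (ZMod p)) ^ (2 * i) * aeval (xK (ZMod p)) C4 ^ (2 * i) =
        (jqModC (ZMod p) - 1728) ^ i * B ^ (2 * i) := by
      apply mul_left_cancel₀ (pow_ne_zero i (iK_Dq_ne_zero p))
      linear_combination h1
    -- multiply by `D4(x)^m` and cancel `C4(x)^(2m)`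
    have h3 : aeval (xK (ZMod p)) D4 ^ i * (jqModC (ZMod p) - 1728) ^ i =
        aeval (xK (ZMod p)) C4 ^ (2 * i) := by
      rw [← mul_pow, ← aeval_C4_sq, ← pow_mul]
    apply mul_left_cancel₀ (pow_ne_zero (2 * i) (aeval_C4_ne_zero p))
    linear_combination aeval (xK (ZMod p)) D4 ^ i * h2 + B ^ (2 * i) * h3

end Main

end

end Fermat.Agent.S40x.Thick.ThetaX4
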