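/-
helper73 (P-S44/S40, R1 T-block, items T11 + T12-abs + Bezout packaging; board `S44_R1T`).
Mathlib only.

* `node_coprime` (T11): the node ideal `I1` of `k[X]` and the polynomial `ψ` (the reduction of
  `Ψ = u u' / p` on the component `C_∞`) are comaximal, from the pole count (T9) and the node
  count (T10).
* `exists_bezout`: lifting of the comaximality to the chart ring (consumer form of (T-b)).
* `not_sq_of_not_mem` (T12-abs): semistable node + `Ψ ∉ m` implies that `ρ₁ u'` is not in the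
  square of the maximal ideal (so `e = 1` at level `p M''`).
* `span_pair_eq`: the maximal ideal is generated by `u, u'` (regularity).
-/
import Mathlib

set_option autoImplicit false
set_option linter.unusedSectionVars false

namespace Fermat.Agent.S40x.Thick.Main

open Polynomial

section T11

variable (k : Type*) [Field k] (p : ℕ) [Fact p.Prime] [CharP k p]

theorem separable_frob_sq : (X ^ (p ^ 2) - X : k[X]).Separable :=
  galois_poly_separable p (p ^ 2) (dvd_pow_self p two_ne_zero)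

theorem frob_sq_ne_zero : (X ^ (p ^ 2) - X : k[X]) ≠ 0 := (separable_frob_sq k p).ne_zero

variable {k p}

/-- **T11.**  `r` is `δ = red_∞ (u / p)` as a rational function of `x̄`, `ψ` is `red_∞ Ψ`,
`I1` is the ideal of the nodes. -/
theorem node_coprime (I1 : Ideal k[X]) (r : RatFunc k) (ψ : k[X])
    (hψ : r * algebraMap k[X] (RatFunc k) (X - X ^ (p ^ 2)) = algebraMap k[X] (RatFunc k) ψ)
    (hu' : (X - X ^ (p ^ 2) : k[X]) ∈ I1)
    (hT5 : ∀ f ∈ I1, ∃ n : ℕ, ∃ c : k[X],
      algebraMap k[X] (RatFunc k) (f ^ n) * r = algebraMap k[X] (RatFunc k) c)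
    (hT9 : p - 1 ≤ 2 * r.denom.natDegree)
    (hT10 : ∃ f : k[X], f ≠ 0 ∧ f ∈ I1 ∧ 2 * f.natDegree ≤ p - 1) :
    I1 ⊔ Ideal.span {ψ} = ⊤ := by
  classical
  set w : k[X] := X - X ^ (p ^ 2) with hw
  have hwneg : w = -(X ^ (p ^ 2) - X) := by rw [hw]; ring
  have hwsep : w.Separable := by
    have h := separable_frob_sq k p
    refine h.of_dvd ?_
    rw [hwneg, neg_dvd]
  have hw0 : w ≠ 0 := hwsep.ne_zero
  have hwK : algebraMap k[X] (RatFunc k) w ≠ 0 := RatFunc.algebraMap_ne_zero hw0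
  set den := r.denom with hden
  have hden0 : den ≠ 0 := RatFunc.denom_ne_zero r
  -- `den ∣ w`
  have hdw : den ∣ w := by
    rw [hden, RatFunc.denom_dvd hw0]
    exact ⟨ψ, by rw [← hψ, mul_div_assoc, div_self hwK, mul_one]⟩
  -- generator of `I1`
  have : I1.IsPrincipal := IsPrincipalIdealRing.principal I1
  set g := Submodule.IsPrincipal.generator I1 with hg
  have hgmem : g ∈ I1 := Submodule.IsPrincipal.generator_mem I1
  have hgdvd : ∀ f ∈ I1, g ∣ f := fun f hf =>
    (Submodule.IsPrincipal.mem_iff_generator_dvd I1).mp hf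
  have hg0 : g ≠ 0 := by
    intro h0
    have := hgdvd w hu'
    rw [h0, zero_dvd_iff] at this
    exact hw0 this
  -- `den ∣ g ^ n`
  obtain ⟨n, c, hc⟩ := hT5 g hgmem
  have hgn0 : g ^ n ≠ 0 := pow_ne_zero n hg0
  have hgnK : algebraMap k[X] (RatFunc k) (g ^ n) ≠ 0 := RatFunc.algebraMap_ne_zero hgn0
  have hdgn : den ∣ g ^ n := by
    rw [hden, RatFunc.denom_dvd hgn0]
    exact ⟨c, by rw [← hc, mul_comm, mul_div_assoc, div_self hgnK, mul_one]⟩
  have hdsq : Squarefree den := hwsep.squarefree.squarefree_of_dvd hdw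
  have hdg : den ∣ g := by
    rcases Nat.eq_zero_or_pos n with hn | hn
    · rw [hn, pow_zero] at hdgn
      exact (isUnit_of_dvd_one hdgn).dvd
    · exact (hdsq.dvd_pow_iff_dvd hn.ne').mp hdgn
  -- degrees
  obtain ⟨f, hf0, hfI, hfdeg⟩ := hT10
  have h1 : g.natDegree ≤ f.natDegree := natDegree_le_of_dvd (hgdvd f hfI) hf0
  have h2 : den.natDegree ≤ g.natDegree := natDegree_le_of_dvd hdg hg0
  have hdeg : g.natDegree = den.natDegree := by omega
  -- `g = den * C a`
  obtain ⟨e, he⟩ := hdg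
  have he0 : e ≠ 0 := by
    rintro rfl
    rw [mul_zero] at he
    exact hg0 he
  have hedeg : e.natDegree = 0 := by
    have := natDegree_mul hden0 he0
    rw [← he] at this
    omega
  obtain ⟨a, ha⟩ : ∃ a : k, e = C a := ⟨e.coeff 0, eq_C_of_natDegree_eq_zero hedeg⟩
  have ha0 : a ≠ 0 := by
    rintro rfl
    rw [map_zero] at ha
    exact he0 ha
  have hdenI : den ∈ I1 := by
    have : den = g * C a⁻¹ := by
      rw [he, ha, mul_assoc, ← C_mul, mul_inv_cancel₀ ha0, C_1, mul_one]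
    rw [this]
    exact I1.mul_mem_right _ hgmem
  -- `ψ = num * e'` with `w = den * e'`
  obtain ⟨e', he'⟩ := hdw
  have hcop1 : IsCoprime den e' := by
    rw [he'] at hwsep
    exact hwsep.isCoprime
  have hcop2 : IsCoprime den r.num := (RatFunc.isCoprime_num_denom r).symm
  have hψeq : ψ = r.num * e' := by
    have hdenK : algebraMap k[X] (RatFunc k) den ≠ 0 := RatFunc.algebraMap_ne_zero hden0
    have h3 : algebraMap k[X] (RatFunc k) ψ = algebraMap k[X] (RatFunc k) (r.num * e') := by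
      rw [← hψ, he', map_mul, map_mul]
      conv_lhs => rw [← RatFunc.num_div_denom r]
      rw [← hden]
      field_simp
    exact RatFunc.algebraMap_injective k h3
  have hcop : IsCoprime den ψ := by
    rw [hψeq]
    exact hcop2.mul_right hcop1
  obtain ⟨s, t, hst⟩ := hcop
  rw [Ideal.eq_top_iff_one, ← hst]
  exact Submodule.add_mem_sup (I1.mul_mem_left s hdenI)
    (Ideal.mul_mem_left _ t (Ideal.subset_span rfl))

/-- **Consumer form of (T-b)**: the Bezout identity in the chart ring. -/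
theorem exists_bezout {B κ : Type*} [CommRing B] [CommRing κ] (ρ1 : B →+* κ) (ev : k[X] →+* κ)
    (K0 : Ideal B) (I1 : Ideal k[X]) (hI1 : ∀ f ∈ I1, ∃ E ∈ K0, ρ1 E = ev f)
    (hlift : ∀ b : k[X], ∃ b' : B, ρ1 b' = ev b) (Ψ : B) (ψ : k[X]) (hΨ : ρ1 Ψ = ev ψ)
    (h : I1 ⊔ Ideal.span {ψ} = ⊤) :
    ∃ E ∈ K0, ∃ b E' : B, ρ1 E' = 0 ∧ E + b * Ψ + E' = 1 := by
  have h1 : (1 : k[X]) ∈ I1 ⊔ Ideal.span {ψ} := by rw [h]; trivial
  obtain ⟨f, hf, y, hy, hfy⟩ := Submodule.mem_sup.mp h1
  obtain ⟨b, rfl⟩ := Ideal.mem_span_singleton'.mp hy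
  obtain ⟨E, hE, hEf⟩ := hI1 f hf
  obtain ⟨b', hb'⟩ := hlift b
  refine ⟨E, hE, b', 1 - E - b' * Ψ, ?_, by ring⟩
  rw [map_sub, map_sub, map_one, map_mul, hEf, hb', hΨ, ← map_mul, ← map_one ev, ← map_sub,
    ← map_sub, ← hfy]
  have : f + b * ψ - f - b * ψ = 0 := by ring
  rw [this, map_zero]

end T11

section T12

variable {R O1 O2 : Type*} [CommRing R] [CommRing O1] [CommRing O2]
  (ρ1 : R →+* O1) (ρ2 : R →+* O2) (m : Ideal R) {π U U' u u' Ψ : R}

/-- **T12-abs.**  `R` the local ring of the arithmetic surface at a node, `ρ₁, ρ₂` the reductions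
to the two branches (`ker ρ₁ ∩ ker ρ₂ = π R`), `U, U'` lifts of the two local parameters
(`ρ₁ U = 0`, `ρ₂ U' = 0`), `u u' = π Ψ` with `ρ₁ u = 0 = ρ₂ u'` and `Ψ ∉ m`.  Then `ρ₁ u'` is not
divisible by `(ρ₁ U')²`: it is a local parameter of the first branch. -/
theorem not_sq_of_not_mem
    (hπ : ∀ a b : R, π * a = π * b → a = b)
    (hker : ∀ r, ρ1 r = 0 → ρ2 r = 0 → π ∣ r)
    (hπm : π ∈ m) (hU : U ∈ m) (hU' : U' ∈ m)
    (h1U : ρ1 U = 0) (h2U' : ρ2 U' = 0) (h1u : ρ1 u = 0) (h2u' : ρ2 u' = 0)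
    (huu' : u * u' = π * Ψ) (hΨ : Ψ ∉ m)
    (hc' : ∃ c', ρ2 u = ρ2 U * ρ2 c') :
    ¬ ∃ c, ρ1 u' = ρ1 U' ^ 2 * ρ1 c := by
  rintro ⟨c, hc⟩
  obtain ⟨c', hc'⟩ := hc'
  obtain ⟨a, ha⟩ : π ∣ u' - U' ^ 2 * c :=
    hker _ (by rw [map_sub, map_mul, map_pow, hc, sub_self])
      (by rw [map_sub, map_mul, map_pow, h2u', h2U']; ring)
  obtain ⟨a', ha'⟩ : π ∣ u - U * c' :=
    hker _ (by rw [map_sub, map_mul, h1u, h1U]; ring) (by rw [map_sub, map_mul, hc', sub_self])
  obtain ⟨Ψ0, hΨ0⟩ : π ∣ U * U' :=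
    hker _ (by rw [map_mul, h1U, zero_mul]) (by rw [map_mul, h2U', mul_zero])
  have hu'eq : u' = U' ^ 2 * c + π * a := by rw [← ha]; ring
  have hueq : u = U * c' + π * a' := by rw [← ha']; ring
  have key : π * Ψ = π * (Ψ0 * U' * c * c' + a * U * c' + a' * U' ^ 2 * c + π * a * a') := by
    rw [← huu', hueq, hu'eq]
    have : (U * c' + π * a') * (U' ^ 2 * c + π * a) =
        (U * U') * (U' * c * c') + π * (a * U * c' + a' * U' ^ 2 * c + π * a * a') := by ring
    rw [this, hΨ0]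
    ring
  have hΨeq := hπ _ _ key
  apply hΨ
  rw [hΨeq]
  refine m.add_mem (m.add_mem (m.add_mem ?_ ?_) ?_) ?_
  · have : Ψ0 * U' * c * c' = (Ψ0 * c * c') * U' := by ring
    rw [this]; exact m.mul_mem_left _ hU'
  · have : a * U * c' = (a * c') * U := by ring
    rw [this]; exact m.mul_mem_left _ hU
  · have : a' * U' ^ 2 * c = (a' * U' * c) * U' := by ring
    rw [this]; exact m.mul_mem_left _ hU'
  · have : π * a * a' = (a * a') * π := by ring
    rw [this]; exact m.mul_mem_left _ hπm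

/-- **Regularity**: if `u = U c' + π a'`, `u' = U' c + π a` with `c, c'` units and
`u u' = π Ψ` with `Ψ` a unit, then `(π, U, U') = (u, u')`. -/
theorem span_pair_eq {c c' a a' : R} (hc : IsUnit c) (hc' : IsUnit c') (hΨ : IsUnit Ψ)
    (hu : u = U * c' + π * a') (hu' : u' = U' * c + π * a) (huu' : u * u' = π * Ψ) :
    Ideal.span {π, U, U'} = Ideal.span {u, u'} := by
  have hπmem : π ∈ Ideal.span {u, u'} := by
    obtain ⟨Ψi, hΨi⟩ := hΨ.exists_right_inv
    have : π = (u' * Ψi) * u := by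
      calc π = π * (Ψ * Ψi) := by rw [hΨi, mul_one]
        _ = (π * Ψ) * Ψi := by ring
        _ = (u * u') * Ψi := by rw [huu']
        _ = (u' * Ψi) * u := by ring
    rw [this]
    exact Ideal.mul_mem_left _ _ (Ideal.subset_span (by simp))
  have hUmem : U ∈ Ideal.span {u, u'} := by
    obtain ⟨ci, hci⟩ := hc'.exists_right_inv
    have : U = ci * u - (ci * a') * π := by
      rw [hu]
      calc U = U * (c' * ci) := by rw [hci, mul_one]
        _ = ci * (U * c' + π * a') - ci * a' * π := by ring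
    rw [this]
    exact Ideal.sub_mem _ (Ideal.mul_mem_left _ _ (Ideal.subset_span (by simp)))
      (Ideal.mul_mem_left _ _ hπmem)
  have hU'mem : U' ∈ Ideal.span {u, u'} := by
    obtain ⟨ci, hci⟩ := hc.exists_right_inv
    have : U' = ci * u' - (ci * a) * π := by
      rw [hu']
      calc U' = U' * (c * ci) := by rw [hci, mul_one]
        _ = ci * (U' * c + π * a) - ci * a * π := by ring
    rw [this]
    exact Ideal.sub_mem _ (Ideal.mul_mem_left _ _ (Ideal.subset_span (by simp)))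
      (Ideal.mul_mem_left _ _ hπmem)
  apply le_antisymm
  · rw [Ideal.span_le]
    rintro x hx
    simp only [Set.mem_insert_iff, Set.mem_singleton_iff] at hx
    rcases hx with rfl | rfl | rfl
    · exact hπmem
    · exact hUmem
    · exact hU'mem
  · rw [Ideal.span_le]
    rintro x hx
    simp only [Set.mem_insert_iff, Set.mem_singleton_iff] at hx
    have hπs : π ∈ Ideal.span {π, U, U'} := Ideal.subset_span (by simp)
    have hUs : U ∈ Ideal.span {π, U, U'} := Ideal.subset_span (by simp)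
    have hU's : U' ∈ Ideal.span {π, U, U'} := Ideal.subset_span (by simp)
    rcases hx with rfl | rfl
    · rw [hu]
      exact Ideal.add_mem _ (Ideal.mul_mem_right _ _ hUs) (Ideal.mul_mem_right _ _ hπs)
    · rw [hu']
      exact Ideal.add_mem _ (Ideal.mul_mem_right _ _ hU's) (Ideal.mul_mem_right _ _ hπs)

end T12

end Fermat.Agent.S40x.Thick.Main
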