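/-
P-S44/S40, block R1-T (thickness), leaves T4 + T5 (helper24): poles of `δ = red_∞(u / ϖ)`.

GENERIC two-valuation chart: `O₁ O₂` two valuation subrings of `F` (think `v_∞`, `v_0`), both
unramified over the rank-one valuation ring `A` of `K` (`R₁ R₂ : Gateway.C0.RedSetup`),
`R := redSetupTwoVal R₁ R₂ hπ`, `C : ChartCoord R`, `B := BxAlg C` the chart ring
(`= ⋃ Lam(a,b)`: poles only at the cusps, integral for BOTH valuations).

`u ∈ B`, `ϖ ∈ A` nonzero (think `ϖ = p`), `w = u / ϖ` integral for `O₁` (`u = ϖ • w`, `w ∈ O₁`);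
`δ := R₁.res w`.

* `smul_mem_BxAlg` (SATURATION): `x ∈ B`, `c ∈ K`, `c • x ∈ O₁ ⊓ O₂` imply `c • x ∈ B`;
* `exists_pow_eq_smul` (the value group of `O₂` is archimedean over `A`): `v₂ e < 1` implies
  `e ^ n = ϖ • y` for some `n` and some `y ∈ O₂`;
* **T5** `exists_pow_mul_mem_BxAlg` / `exists_res_eq_pow_mul`: for every `e ∈ B` with `v₂ e < 1`
  (i.e. `red_0 e = 0`: the pair `(red_∞ e, 0)` lies in the reduced chart ring) there are `n` and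
  `f ∈ B` with `red_∞ f = (red_∞ e) ^ n * δ`.  So `δ` is regular wherever some element of the
  Goursat ideal `I1` does not vanish: the poles of `δ` on the chart are NODES;
* **T4** `res_eq_mul_delta`: if `u * u' = ϖ • Ψ` with `u', Ψ` integral for `O₁` then
  `red_∞ Ψ = red_∞ u' * δ`; and `mul_mem_BxAlg_of_smul`: `Ψ = u u' / ϖ ∈ B` when moreover
  `u' = ϖ • w'` with `w'` integral for `O₂` ((T-a));
* `separable_X_sub_X_pow`: `X - X ^ (p ^ n)` is separable in characteristic `p` (`n ≥ 1`), so the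
  zeros of `red_∞ u' = x̄ - x̄ ^ (p ^ 2)` are simple and the poles of `δ` are at most simple.
-/
import Mathlib
import Fermat.Agent.S33x.H1.InstBBasic
import Fermat.Agent.S34x.C0two.Pair
import Fermat.Agent.S34x.Inst.IntegralRed2
import Fermat.Agent.S34x.Lattice2.ProdIntegral

set_option autoImplicit false
set_option linter.unusedSectionVars false
set_option linter.style.haveILetI false

noncomputable section

namespace Fermat.Agent.S40x.Thick.PolesNodes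

open IsLocalRing
open Fermat.Agent.S34x Fermat.Agent.S34x.C0two Fermat.Agent.S34x.Lattice2
open Fermat.Agent.S33x.H1.InstC1 Fermat.Agent.S33x.H1.InstBBasic

section Generic

variable {K : Type*} [Field K] {A : ValuationSubring K} {F : Type*} [Field F] [Algebra K F]
  {O₁ O₂ : ValuationSubring F} {k κ₁ κ₂ : Type*} [Field k] [Field κ₁] [Field κ₂]
  [Algebra k κ₁] [Algebra k κ₂]
  (R₁ : Fermat.Agent.Gateway.C0.RedSetup A O₁ k κ₁)
  (R₂ : Fermat.Agent.Gateway.C0.RedSetup A O₂ k κ₂) (hπ : R₁.π = R₂.π)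

/-- **Saturation of the chart ring**: a `K`-multiple of an element of `B` which is integral for
both valuations lies in `B`. -/
theorem smul_mem_BxAlg (C : ChartCoord (redSetupTwoVal R₁ R₂ hπ)) {x : F} (hx : x ∈ BxAlg C)
    (c : K) (hc : c • x ∈ (twoVal O₁ O₂).O) : c • x ∈ BxAlg C := by
  obtain ⟨a, b, hxL, -⟩ := hx
  exact ⟨a, b, (C.LN a b).smul_mem c hxL, hc⟩

include R₂ in
/-- **Archimedean step**: an element small for `O₂` has a power divisible by `ϖ` in `O₂`. -/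
theorem exists_pow_eq_smul {e : F} (he : O₂.valuation e < 1) {ϖ : A} (hϖ : ϖ ≠ 0) :
    ∃ (n : ℕ) (y : F), y ∈ O₂ ∧ e ^ n = ϖ • y := by
  obtain ⟨ϖ', hϖ', y, hy, rfl⟩ := R₂.base.unram e he
  obtain ⟨j, c, hc⟩ := R₂.rank_one ϖ' hϖ' ϖ hϖ
  refine ⟨j, c • y ^ j, R₂.base.smul_mem_O c (O₂.pow_mem hy j), ?_⟩
  rw [smul_pow, hc, mul_smul]

/-- **T5, membership form**: `e ^ n * (u / ϖ) ∈ B` for some `n`, when `red_0 e = 0`. -/
theorem exists_pow_mul_mem_BxAlg (C : ChartCoord (redSetupTwoVal R₁ R₂ hπ)) {u w e : F} {ϖ : A}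
    (hϖ : ϖ ≠ 0) (hu : u ∈ BxAlg C) (huw : u = ϖ • w) (hw : w ∈ O₁) (he : e ∈ BxAlg C)
    (he0 : O₂.valuation e < 1) : ∃ n : ℕ, e ^ n * w ∈ BxAlg C := by
  obtain ⟨n, y, hy, hn⟩ := exists_pow_eq_smul R₂ he0 hϖ
  refine ⟨n, ?_⟩
  have hϖK : (ϖ : K) ≠ 0 := fun h => hϖ (Subtype.ext h)
  have hsmul : ∀ z : F, ϖ • z = (ϖ : K) • z := fun _ => rfl
  -- `e ^ n * w = ϖ⁻¹ • (e ^ n * u)`
  have h1 : e ^ n * w = ((ϖ : K))⁻¹ • (e ^ n * u) := by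
    rw [huw, hsmul, mul_smul_comm, smul_smul, inv_mul_cancel₀ hϖK, one_smul]
  have heO := BxAlg_le_O C he
  have huO := BxAlg_le_O C hu
  -- integrality for both valuations
  have hO : e ^ n * w ∈ (twoVal O₁ O₂).O := by
    refine ⟨O₁.mul_mem _ _ (O₁.pow_mem heO.1 n) hw, ?_⟩
    have h2 : e ^ n * w = y * u := by
      rw [hn, huw, hsmul, hsmul, smul_mul_assoc, mul_smul_comm]
    rw [h2]
    exact O₂.mul_mem _ _ hy huO.2
  have h3 : e ^ n * u ∈ BxAlg C := (BxAlg C).mul_mem ((BxAlg C).pow_mem he n) hu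
  rw [h1] at hO ⊢
  exact smul_mem_BxAlg R₁ R₂ hπ C h3 _ hO

/-- **T5, reduction form**: there are `n` and `f ∈ B` with `red_∞ f = (red_∞ e) ^ n * δ`,
`δ = red_∞ (u / ϖ)`, for every `e ∈ B` with `red_0 e = 0`. -/
theorem exists_res_eq_pow_mul (C : ChartCoord (redSetupTwoVal R₁ R₂ hπ)) {u w e : F} {ϖ : A}
    (hϖ : ϖ ≠ 0) (hu : u ∈ BxAlg C) (huw : u = ϖ • w) (hw : w ∈ O₁) (he : e ∈ BxAlg C)
    (he0 : O₂.valuation e < 1) :
    ∃ (n : ℕ) (f : F) (hf : f ∈ BxAlg C),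
      R₁.res ⟨f, (BxAlg_le_O C hf).1⟩ =
        R₁.res ⟨e, (BxAlg_le_O C he).1⟩ ^ n * R₁.res ⟨w, hw⟩ := by
  obtain ⟨n, hn⟩ := exists_pow_mul_mem_BxAlg R₁ R₂ hπ C hϖ hu huw hw he he0
  refine ⟨n, e ^ n * w, hn, ?_⟩
  rw [← map_pow, ← map_mul]
  rfl

/-- the same with the hypothesis `red_0 e = 0` stated through the residue map. -/
theorem exists_res_eq_pow_mul' (C : ChartCoord (redSetupTwoVal R₁ R₂ hπ)) {u w e : F} {ϖ : A}
    (hϖ : ϖ ≠ 0) (hu : u ∈ BxAlg C) (huw : u = ϖ • w) (hw : w ∈ O₁) (he : e ∈ BxAlg C)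
    (he0 : R₂.res ⟨e, (BxAlg_le_O C he).2⟩ = 0) :
    ∃ (n : ℕ) (f : F) (hf : f ∈ BxAlg C),
      R₁.res ⟨f, (BxAlg_le_O C hf).1⟩ =
        R₁.res ⟨e, (BxAlg_le_O C he).1⟩ ^ n * R₁.res ⟨w, hw⟩ :=
  exists_res_eq_pow_mul R₁ R₂ hπ C hϖ hu huw hw he ((R₂.res_ker _).mp he0)

include R₁ in
/-- **T4**: `red_∞ Ψ = red_∞ u' * δ` when `u * u' = ϖ • Ψ`. -/
theorem res_eq_mul_delta {u u' Ψ w : F} {ϖ : A} (hϖ : ϖ ≠ 0) (huw : u = ϖ • w) (hw : w ∈ O₁)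
    (hu' : u' ∈ O₁) (hΨ : Ψ ∈ O₁) (huu : u * u' = ϖ • Ψ) :
    R₁.res ⟨Ψ, hΨ⟩ = R₁.res ⟨u', hu'⟩ * R₁.res ⟨w, hw⟩ := by
  have hϖK : (ϖ : K) ≠ 0 := fun h => hϖ (Subtype.ext h)
  have hsmul : ∀ z : F, ϖ • z = (ϖ : K) • z := fun _ => rfl
  have h1 : Ψ = u' * w := by
    have h2 : (ϖ : K) • Ψ = (ϖ : K) • (u' * w) := by
      rw [← hsmul, ← huu, huw, hsmul, smul_mul_assoc, mul_comm]
    have h3 := congrArg (fun z => ((ϖ : K))⁻¹ • z) h2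
    simpa only [smul_smul, inv_mul_cancel₀ hϖK, one_smul] using h3
  rw [← map_mul]
  congr 1
  exact Subtype.ext h1

/-- **(T-a)**: `Ψ = u u' / ϖ` lies in the chart ring `B` when `u / ϖ` is integral for `O₁` and
`u' / ϖ` is integral for `O₂`. -/
theorem mul_mem_BxAlg_of_smul (C : ChartCoord (redSetupTwoVal R₁ R₂ hπ)) {u u' w w' : F} {ϖ : A}
    (hϖ : ϖ ≠ 0) (hu : u ∈ BxAlg C) (hu' : u' ∈ BxAlg C) (huw : u = ϖ • w) (hw : w ∈ O₁)
    (huw' : u' = ϖ • w') (hw' : w' ∈ O₂) : w * u' ∈ BxAlg C ∧ u * u' = ϖ • (w * u') := by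
  have hϖK : (ϖ : K) ≠ 0 := fun h => hϖ (Subtype.ext h)
  have hsmul : ∀ z : F, ϖ • z = (ϖ : K) • z := fun _ => rfl
  have huO := BxAlg_le_O C hu
  have hu'O := BxAlg_le_O C hu'
  have h1 : w * u' = ((ϖ : K))⁻¹ • (u * u') := by
    rw [huw, hsmul, smul_mul_assoc, smul_smul, inv_mul_cancel₀ hϖK, one_smul]
  have hO : w * u' ∈ (twoVal O₁ O₂).O := by
    refine ⟨O₁.mul_mem _ _ hw hu'O.1, ?_⟩
    have h2 : w * u' = u * w' := by
      rw [huw', huw, hsmul, hsmul, smul_mul_assoc, mul_smul_comm]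
    rw [h2]
    exact O₂.mul_mem _ _ huO.2 hw'
  refine ⟨?_, ?_⟩
  · rw [h1] at hO ⊢
    exact smul_mem_BxAlg R₁ R₂ hπ C ((BxAlg C).mul_mem hu hu') _ hO
  · rw [huw, smul_mul_assoc]

end Generic

section Boo

variable {K : Type*} [Field K] {A : ValuationSubring K} {F : Type*} [Field F] [Algebra K F]
  {O₁ O₂ : ValuationSubring F} {k κ₁ κ₂ : Type*} [Field k] [Field κ₁] [Field κ₂]
  [Algebra k κ₁] [Algebra k κ₂]
  (R₁ : Fermat.Agent.Gateway.C0.RedSetup A O₁ k κ₁)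
  (R₂ : Fermat.Agent.Gateway.C0.RedSetup A O₂ k κ₂) (hπ : R₁.π = R₂.π)
  (C : ChartCoord (redSetupTwoVal R₁ R₂ hπ))

theorem BooAlg_le_O {x : F} (hx : x ∈ BooAlg C) : x ∈ (twoVal O₁ O₂).O :=
  BxAlg_le_O C (BooAlg_le_BxAlg C hx)

/-- **Saturation of the chart ring `B∞`**. -/
theorem smul_mem_BooAlg {x : F} (hx : x ∈ BooAlg C) (c : K)
    (hc : c • x ∈ (twoVal O₁ O₂).O) : c • x ∈ BooAlg C := by
  obtain ⟨b, hxL, -⟩ := hx
  exact ⟨b, (C.LN 0 b).smul_mem c hxL, hc⟩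

/-- **T5, membership form, chart `B∞`**. -/
theorem exists_pow_mul_mem_BooAlg {u w e : F} {ϖ : A}
    (hϖ : ϖ ≠ 0) (hu : u ∈ BooAlg C) (huw : u = ϖ • w) (hw : w ∈ O₁) (he : e ∈ BooAlg C)
    (he0 : O₂.valuation e < 1) : ∃ n : ℕ, e ^ n * w ∈ BooAlg C := by
  obtain ⟨n, y, hy, hn⟩ := exists_pow_eq_smul R₂ he0 hϖ
  refine ⟨n, ?_⟩
  have hϖK : (ϖ : K) ≠ 0 := fun h => hϖ (Subtype.ext h)
  have hsmul : ∀ z : F, ϖ • z = (ϖ : K) • z := fun _ => rfl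
  have h1 : e ^ n * w = ((ϖ : K))⁻¹ • (e ^ n * u) := by
    rw [huw, hsmul, mul_smul_comm, smul_smul, inv_mul_cancel₀ hϖK, one_smul]
  have heO := BooAlg_le_O R₁ R₂ hπ C he
  have huO := BooAlg_le_O R₁ R₂ hπ C hu
  have hO : e ^ n * w ∈ (twoVal O₁ O₂).O := by
    refine ⟨O₁.mul_mem _ _ (O₁.pow_mem heO.1 n) hw, ?_⟩
    have h2 : e ^ n * w = y * u := by
      rw [hn, huw, hsmul, hsmul, smul_mul_assoc, mul_smul_comm]
    rw [h2]
    exact O₂.mul_mem _ _ hy huO.2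
  have h3 : e ^ n * u ∈ BooAlg C := (BooAlg C).mul_mem ((BooAlg C).pow_mem he n) hu
  rw [h1] at hO ⊢
  exact smul_mem_BooAlg R₁ R₂ hπ C h3 _ hO

/-- **(T-a), chart `B∞`**: `Ψ = u u' / ϖ ∈ B∞`. -/
theorem mul_mem_BooAlg_of_smul {u u' w w' : F} {ϖ : A}
    (hϖ : ϖ ≠ 0) (hu : u ∈ BooAlg C) (hu' : u' ∈ BooAlg C) (huw : u = ϖ • w) (hw : w ∈ O₁)
    (huw' : u' = ϖ • w') (hw' : w' ∈ O₂) : w * u' ∈ BooAlg C := by
  have hϖK : (ϖ : K) ≠ 0 := fun h => hϖ (Subtype.ext h)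
  have hsmul : ∀ z : F, ϖ • z = (ϖ : K) • z := fun _ => rfl
  have huO := BooAlg_le_O R₁ R₂ hπ C hu
  have hu'O := BooAlg_le_O R₁ R₂ hπ C hu'
  have h1 : w * u' = ((ϖ : K))⁻¹ • (u * u') := by
    rw [huw, hsmul, smul_mul_assoc, smul_smul, inv_mul_cancel₀ hϖK, one_smul]
  have hO : w * u' ∈ (twoVal O₁ O₂).O := by
    refine ⟨O₁.mul_mem _ _ hw hu'O.1, ?_⟩
    have h2 : w * u' = u * w' := by
      rw [huw', huw, hsmul, hsmul, smul_mul_assoc, mul_smul_comm]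
    rw [h2]
    exact O₂.mul_mem _ _ huO.2 hw'
  rw [h1] at hO ⊢
  exact smul_mem_BooAlg R₁ R₂ hπ C ((BooAlg C).mul_mem hu hu') _ hO

/-! ### Polynomial form: the first component is a rational curve with coordinate `x̄ = (C.T).1` -/

open Polynomial

/-- the first coordinate of the reduction of the chart coordinate: `x̄ = red_∞ t`. -/
def xb : κ₁ := R₁.res ⟨C.t, C.t_mem.1⟩

/-- the second coordinate of the reduction of the chart coordinate: `red_0 t`. -/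
def xb' : κ₂ := R₂.res ⟨C.t, C.t_mem.2⟩

theorem T_eq : C.T = (xb R₁ R₂ hπ C, xb' R₁ R₂ hπ C) := rfl

/-- **(o5), lifting of polynomials**: every `b ∈ k[X]` is the reduction of an element of `B∞`
(a polynomial in `t` with coefficients in `A`), on BOTH components. -/
theorem exists_mem_BooAlg_res_eq (b : k[X]) :
    ∃ (b' : F) (hb' : b' ∈ BooAlg C),
      R₁.res ⟨b', (BooAlg_le_O R₁ R₂ hπ C hb').1⟩ = aeval (xb R₁ R₂ hπ C) b ∧
      R₂.res ⟨b', (BooAlg_le_O R₁ R₂ hπ C hb').2⟩ = aeval (xb' R₁ R₂ hπ C) b := by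
  obtain ⟨P, rfl⟩ : ∃ P : A[X], P.map R₁.π = b := Polynomial.map_surjective _ R₁.π_surj b
  have htB : C.t ∈ BooAlg C := ⟨1, C.t_mem_LN, C.t_mem⟩
  have hmem : aeval C.t (P.map A.subtype) ∈ BooAlg C := by
    have h1 : aeval C.t (P.map A.subtype) = aeval C.t P := by
      rw [show (A.subtype : A →+* K) = algebraMap A K from rfl, aeval_map_algebraMap]
    have h2 : aeval C.t P = ((aeval (⟨C.t, htB⟩ : BooAlg C) P : BooAlg C) : F) :=
      Subalgebra.aeval_coe (BooAlg C) ⟨C.t, htB⟩ P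
    rw [h1, h2]
    exact (aeval (⟨C.t, htB⟩ : BooAlg C) P).2
  refine ⟨aeval C.t (P.map A.subtype), hmem, ?_, ?_⟩
  · have h2 : (⟨aeval C.t (P.map A.subtype), (BooAlg_le_O R₁ R₂ hπ C hmem).1⟩ : O₁) =
        Polynomial.eval₂ (Fermat.Agent.S34x.IntegralRed2.cst R₁) ⟨C.t, C.t_mem.1⟩ P :=
      Subtype.ext (Fermat.Agent.S34x.IntegralRed2.coe_eval₂_cst R₁ C.t_mem.1 P).symm
    rw [h2, Fermat.Agent.S34x.IntegralRed2.res_eval₂_cst]
    rfl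
  · have h2 : (⟨aeval C.t (P.map A.subtype), (BooAlg_le_O R₁ R₂ hπ C hmem).2⟩ : O₂) =
        Polynomial.eval₂ (Fermat.Agent.S34x.IntegralRed2.cst R₂) ⟨C.t, C.t_mem.2⟩ P :=
      Subtype.ext (Fermat.Agent.S34x.IntegralRed2.coe_eval₂_cst R₂ C.t_mem.2 P).symm
    rw [h2, Fermat.Agent.S34x.IntegralRed2.res_eval₂_cst, ← hπ]
    rfl

/-- **The Goursat ideal `I1` in polynomial form**: `f ∈ I1` iff `(f(x̄), 0)` is the reduction of an
element of the chart ring `B∞`. -/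
def I1 : Ideal k[X] where
  carrier := {f | ∃ (E : F) (hE : E ∈ BooAlg C),
    R₁.res ⟨E, (BooAlg_le_O R₁ R₂ hπ C hE).1⟩ = aeval (xb R₁ R₂ hπ C) f ∧
    R₂.res ⟨E, (BooAlg_le_O R₁ R₂ hπ C hE).2⟩ = 0}
  add_mem' := by
    rintro f g ⟨E, hE, h1, h2⟩ ⟨E', hE', h1', h2'⟩
    refine ⟨E + E', (BooAlg C).add_mem hE hE', ?_, ?_⟩
    · rw [map_add, ← h1, ← h1', ← map_add]
      rfl
    · rw [← add_zero (0 : κ₂)]
      nth_rewrite 1 [← h2]
      rw [← h2', ← map_add]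
      rfl
  zero_mem' := ⟨0, (BooAlg C).zero_mem, by rw [map_zero]; exact map_zero R₁.res,
    map_zero R₂.res⟩
  smul_mem' := by
    rintro c f ⟨E, hE, h1, h2⟩
    obtain ⟨b', hb', hb1, -⟩ := exists_mem_BooAlg_res_eq R₁ R₂ hπ C c
    refine ⟨b' * E, (BooAlg C).mul_mem hb' hE, ?_, ?_⟩
    · rw [smul_eq_mul, map_mul, ← h1, ← hb1, ← map_mul]
      rfl
    · have h3 : (⟨b' * E, (BooAlg_le_O R₁ R₂ hπ C ((BooAlg C).mul_mem hb' hE)).2⟩ : O₂) =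
          ⟨b', (BooAlg_le_O R₁ R₂ hπ C hb').2⟩ * ⟨E, (BooAlg_le_O R₁ R₂ hπ C hE).2⟩ := rfl
      rw [h3, map_mul, h2, mul_zero]

theorem mem_I1 {f : k[X]} : f ∈ I1 R₁ R₂ hπ C ↔ ∃ (E : F) (hE : E ∈ BooAlg C),
    R₁.res ⟨E, (BooAlg_le_O R₁ R₂ hπ C hE).1⟩ = aeval (xb R₁ R₂ hπ C) f ∧
    R₂.res ⟨E, (BooAlg_le_O R₁ R₂ hπ C hE).2⟩ = 0 := Iff.rfl

variable (ev : RatFunc k →+* κ₁)
  (hev : ∀ P : k[X], ev (algebraMap k[X] (RatFunc k) P) = aeval (xb R₁ R₂ hπ C) P)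
  (hgen : Function.Surjective ev)

include hev hgen in
/-- **(o1')**: the first reduction of an element of `B∞` is a POLYNOMIAL in `x̄` (`κ₁ = k(x̄)`,
`k[x̄]` is integrally closed). -/
theorem exists_poly_of_mem_BooAlg {f : F} (hf : f ∈ BooAlg C) :
    ∃ c : k[X], R₁.res ⟨f, (BooAlg_le_O R₁ R₂ hπ C hf).1⟩ = aeval (xb R₁ R₂ hπ C) c := by
  obtain ⟨b, hfL, hfO⟩ := hf
  have hint : IsIntegral (Algebra.adjoin K {C.t}) f := by
    have := hfL.1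
    rwa [pow_zero, one_mul] at this
  have h1 := C.hint1 f hfO hint
  have h2 : IsIntegral (Algebra.adjoin k {((xb R₁ R₂ hπ C, xb' R₁ R₂ hπ C) : κ₁ × κ₂)})
      ((R₁.res ⟨f, hfO.1⟩, R₂.res ⟨f, hfO.2⟩) : κ₁ × κ₂) := h1
  rw [isIntegral_adjoin_prod_iff] at h2
  have h3 := (isIntegral_adjoin_iff_isIntegralElem (xb R₁ R₂ hπ C) _).mp h2.1
  obtain ⟨r, hr⟩ := hgen (R₁.res ⟨f, hfO.1⟩)
  obtain ⟨P, hP, hPx⟩ := h3
  -- `r` is integral over `k[X]`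
  have hcomp : ((aeval (xb R₁ R₂ hπ C) : k[X] →ₐ[k] κ₁) : k[X] →+* κ₁) =
      ev.comp (algebraMap k[X] (RatFunc k)) := by
    refine RingHom.ext fun Q => ?_
    rw [RingHom.comp_apply, hev]
    rfl
  have hr' : IsIntegral k[X] r := by
    refine ⟨P, hP, ?_⟩
    apply ev.injective
    rw [map_zero, Polynomial.hom_eval₂, ← hcomp, hr]
    exact hPx
  obtain ⟨c, hc⟩ := IsIntegrallyClosed.algebraMap_eq_of_integral hr'
  refine ⟨c, ?_⟩
  show R₁.res ⟨f, hfO.1⟩ = _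
  rw [← hr, ← hc, hev]

include hev hgen in
/-- **(o4) = T5, polynomial form**: for `r` with `ev r = δ = red_∞ (u / ϖ)` and every `f ∈ I1`
some power `f ^ n` clears the denominator of `r`. -/
theorem exists_pow_mul_eq_poly {u w : F} {ϖ : A} (hϖ : ϖ ≠ 0) (hu : u ∈ BooAlg C)
    (huw : u = ϖ • w) (hw : w ∈ O₁) {r : RatFunc k} (hr : ev r = R₁.res ⟨w, hw⟩)
    {f : k[X]} (hf : f ∈ I1 R₁ R₂ hπ C) :
    ∃ (n : ℕ) (c : k[X]),
      algebraMap k[X] (RatFunc k) (f ^ n) * r = algebraMap k[X] (RatFunc k) c := by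
  obtain ⟨E, hE, hE1, hE2⟩ := hf
  obtain ⟨n, hn⟩ := exists_pow_mul_mem_BooAlg R₁ R₂ hπ C hϖ hu huw hw hE
    ((R₂.res_ker _).mp hE2)
  obtain ⟨c, hc⟩ := exists_poly_of_mem_BooAlg R₁ R₂ hπ C ev hev hgen hn
  refine ⟨n, c, ev.injective ?_⟩
  rw [map_mul, hev, hev, ← hc, map_pow, ← hE1, hr, ← map_pow, ← map_mul]
  rfl

include hev hgen in
/-- **(o1) + (o2) + (o3) + (o4): the package consumed by `node_coprime`.**  `g` is the polynomial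
with `red_∞ u' = g(x̄)` (`g = X - X ^ (p ^ 2)` at level `4p`). -/
theorem exists_package {u u' w w' : F} {ϖ : A} (hϖ : ϖ ≠ 0) (hu : u ∈ BooAlg C)
    (hu' : u' ∈ BooAlg C) (huw : u = ϖ • w) (hw : w ∈ O₁) (huw' : u' = ϖ • w') (hw' : w' ∈ O₂)
    (g : k[X])
    (hg : R₁.res ⟨u', (BooAlg_le_O R₁ R₂ hπ C hu').1⟩ = aeval (xb R₁ R₂ hπ C) g)
    (hg0 : R₂.res ⟨u', (BooAlg_le_O R₁ R₂ hπ C hu').2⟩ = 0) :
    ∃ (r : RatFunc k) (ψ : k[X]) (hΨ : w * u' ∈ BooAlg C),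
      ev r = R₁.res ⟨w, hw⟩ ∧
      R₁.res ⟨w * u', (BooAlg_le_O R₁ R₂ hπ C hΨ).1⟩ = aeval (xb R₁ R₂ hπ C) ψ ∧
      r * algebraMap k[X] (RatFunc k) g = algebraMap k[X] (RatFunc k) ψ ∧
      g ∈ I1 R₁ R₂ hπ C ∧
      ∀ f ∈ I1 R₁ R₂ hπ C, ∃ (n : ℕ) (c : k[X]),
        algebraMap k[X] (RatFunc k) (f ^ n) * r = algebraMap k[X] (RatFunc k) c := by
  obtain ⟨r, hr⟩ := hgen (R₁.res ⟨w, hw⟩)
  have hΨ := mul_mem_BooAlg_of_smul R₁ R₂ hπ C hϖ hu hu' huw hw huw' hw'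
  obtain ⟨ψ, hψ⟩ := exists_poly_of_mem_BooAlg R₁ R₂ hπ C ev hev hgen hΨ
  refine ⟨r, ψ, hΨ, hr, hψ, ev.injective ?_, ⟨u', hu', hg, hg0⟩, fun f hf =>
    exists_pow_mul_eq_poly R₁ R₂ hπ C ev hev hgen hϖ hu huw hw hr hf⟩
  rw [map_mul, hev, hev, ← hψ, ← hg, hr, ← map_mul]
  rfl

end Boo

section Separable

open Polynomial

/-- `X - X ^ (p ^ n)` is separable in characteristic `p` (`n ≥ 1`): its derivative is `1`. -/
theorem separable_X_sub_X_pow (k : Type*) [Field k] (p : ℕ) [CharP k p] {n : ℕ} (hn : n ≠ 0) :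
    (X - X ^ (p ^ n) : k[X]).Separable := by
  rw [separable_def]
  have h1 : derivative (X - X ^ (p ^ n) : k[X]) = 1 := by
    rw [derivative_sub, derivative_X, derivative_X_pow]
    have h2 : ((p ^ n : ℕ) : k) = 0 := by
      rw [Nat.cast_pow, CharP.cast_eq_zero k p, zero_pow hn]
    rw [h2, map_zero, zero_mul, sub_zero]
  rw [h1]
  exact isCoprime_one_right

/-- `X - X ^ (p ^ n)` is squarefree in characteristic `p` (`n ≥ 1`). -/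
theorem squarefree_X_sub_X_pow (k : Type*) [Field k] (p : ℕ) [CharP k p] {n : ℕ} (hn : n ≠ 0) :
    Squarefree (X - X ^ (p ^ n) : k[X]) :=
  (separable_X_sub_X_pow k p hn).squarefree

end Separable

end Fermat.Agent.S40x.Thick.PolesNodes
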