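/-
P-S44/S40, block R1-T (thickness), assembly (helper73).

GENERIC two-valuation chart (vocabulary of `PolesNodes`, helper24): from
* the UPsi facts `u = ϖ • w`, `u' = ϖ • w'`, `red_∞ u' = x̄ - x̄ ^ (p ^ 2)`, `red_0 u' = 0` (T2/T3),
* the pole count `hT9` (T6-T9: `p - 1 ≤ 2 deg denom δ`),
* the node count `hT10` (T10: a nonzero element of the Goursat ideal `I1` of degree `≤ (p-1)/2`),
we get **(T-b)** in its consumer form: a Bezout identity `E + b Ψ + E' = 1` in the chart ring `B∞`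
with `red_0 E = 0`, `red_∞ E' = 0`, `Ψ = u u' / ϖ`.  Hence `Ψ` is a unit at every node, at every
level to which the identity is pulled back.
-/
import Fermat.Agent.S40x.Thick.Main
import Fermat.Agent.S40x.Thick.PolesNodes

set_option autoImplicit false
set_option linter.unusedSectionVars false
set_option linter.style.haveILetI false

noncomputable section

namespace Fermat.Agent.S40x.Thick.Assemble

open IsLocalRing Polynomial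
open Fermat.Agent.S34x Fermat.Agent.S34x.C0two Fermat.Agent.S34x.Lattice2
open Fermat.Agent.S33x.H1.InstC1 Fermat.Agent.S33x.H1.InstBBasic
open Fermat.Agent.S40x.Thick.PolesNodes

variable {K : Type*} [Field K] {A : ValuationSubring K} {F : Type*} [Field F] [Algebra K F]
  {O₁ O₂ : ValuationSubring F} {k κ₁ κ₂ : Type*} [Field k] [Field κ₁] [Field κ₂]
  [Algebra k κ₁] [Algebra k κ₂]
  (R₁ : Fermat.Agent.Gateway.C0.RedSetup A O₁ k κ₁)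
  (R₂ : Fermat.Agent.Gateway.C0.RedSetup A O₂ k κ₂) (hπ : R₁.π = R₂.π)
  (C : ChartCoord (redSetupTwoVal R₁ R₂ hπ))

/-- the inclusion `B∞ → O₁` -/
def toO₁ : BooAlg C →+* O₁ where
  toFun x := ⟨(x : F), (BooAlg_le_O R₁ R₂ hπ C x.2).1⟩
  map_one' := rfl
  map_mul' _ _ := rfl
  map_zero' := rfl
  map_add' _ _ := rfl

/-- the inclusion `B∞ → O₂` -/
def toO₂ : BooAlg C →+* O₂ where
  toFun x := ⟨(x : F), (BooAlg_le_O R₁ R₂ hπ C x.2).2⟩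
  map_one' := rfl
  map_mul' _ _ := rfl
  map_zero' := rfl
  map_add' _ _ := rfl

/-- `red_∞` on the chart ring `B∞` -/
def rho₁ : BooAlg C →+* κ₁ := R₁.res.comp (toO₁ R₁ R₂ hπ C)

/-- `red_0` on the chart ring `B∞` -/
def rho₂ : BooAlg C →+* κ₂ := R₂.res.comp (toO₂ R₁ R₂ hπ C)

theorem rho₁_mk {x : F} (hx : x ∈ BooAlg C) :
    rho₁ R₁ R₂ hπ C ⟨x, hx⟩ = R₁.res ⟨x, (BooAlg_le_O R₁ R₂ hπ C hx).1⟩ := rfl

theorem rho₂_mk {x : F} (hx : x ∈ BooAlg C) :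
    rho₂ R₁ R₂ hπ C ⟨x, hx⟩ = R₂.res ⟨x, (BooAlg_le_O R₁ R₂ hπ C hx).2⟩ := rfl

variable (ev : RatFunc k →+* κ₁)
  (hev : ∀ P : k[X], ev (algebraMap k[X] (RatFunc k) P) = aeval (xb R₁ R₂ hπ C) P)
  (hgen : Function.Surjective ev)

include hev hgen in
/-- **(T-b), consumer form, generic chart.** -/
theorem thick_bezout (p : ℕ) [Fact p.Prime] [CharP k p]
    {u u' w w' : F} {ϖ : A} (hϖ : ϖ ≠ 0) (hu : u ∈ BooAlg C)
    (hu' : u' ∈ BooAlg C) (huw : u = ϖ • w) (hw : w ∈ O₁) (huw' : u' = ϖ • w') (hw' : w' ∈ O₂)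
    (hg : R₁.res ⟨u', (BooAlg_le_O R₁ R₂ hπ C hu').1⟩ =
      aeval (xb R₁ R₂ hπ C) (X - X ^ (p ^ 2) : k[X]))
    (hg0 : R₂.res ⟨u', (BooAlg_le_O R₁ R₂ hπ C hu').2⟩ = 0)
    (hT9 : ∀ r : RatFunc k, ev r = R₁.res ⟨w, hw⟩ → p - 1 ≤ 2 * r.denom.natDegree)
    (hT10 : ∃ f : k[X], f ≠ 0 ∧ f ∈ I1 R₁ R₂ hπ C ∧ 2 * f.natDegree ≤ p - 1) :
    ∃ (hΨ : w * u' ∈ BooAlg C) (E b E' : BooAlg C),
      rho₂ R₁ R₂ hπ C E = 0 ∧ rho₁ R₁ R₂ hπ C E' = 0 ∧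
        E + b * ⟨w * u', hΨ⟩ + E' = 1 := by
  obtain ⟨r, ψ, hΨ, hr, hψ, hrel, hgI, hT5⟩ :=
    exists_package R₁ R₂ hπ C ev hev hgen hϖ hu hu' huw hw huw' hw' (X - X ^ (p ^ 2)) hg hg0
  have hcop : I1 R₁ R₂ hπ C ⊔ Ideal.span {ψ} = ⊤ :=
    Main.node_coprime (I1 R₁ R₂ hπ C) r ψ hrel hgI hT5 (hT9 r hr) hT10
  -- `K0 = ker red_0` in the chart ring
  obtain ⟨E, hE, b, E', hE', hsum⟩ := Main.exists_bezout (k := k) (rho₁ R₁ R₂ hπ C)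
    ((aeval (xb R₁ R₂ hπ C) : k[X] →ₐ[k] κ₁) : k[X] →+* κ₁)
    (RingHom.ker (rho₂ R₁ R₂ hπ C)) (I1 R₁ R₂ hπ C)
    (fun f hf => by
      obtain ⟨E, hE, h1, h2⟩ := hf
      exact ⟨⟨E, hE⟩, h2, h1⟩)
    (fun c => by
      obtain ⟨b', hb', h1, -⟩ := exists_mem_BooAlg_res_eq R₁ R₂ hπ C c
      exact ⟨⟨b', hb'⟩, h1⟩)
    ⟨w * u', hΨ⟩ ψ hψ hcop
  exact ⟨hΨ, E, b, E', hE, hE', hsum⟩

/-- Consequence: at a prime `m` of `B∞` containing both kernels (a node), `Ψ ∉ m`. -/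
theorem psi_not_mem {Ψ E b E' : BooAlg C} (hE : rho₂ R₁ R₂ hπ C E = 0)
    (hE' : rho₁ R₁ R₂ hπ C E' = 0) (hsum : E + b * Ψ + E' = 1) (m : Ideal (BooAlg C))
    (hm : m ≠ ⊤) (h1 : RingHom.ker (rho₁ R₁ R₂ hπ C) ≤ m) (h2 : RingHom.ker (rho₂ R₁ R₂ hπ C) ≤ m) :
    Ψ ∉ m := by
  intro hΨ
  apply hm
  rw [Ideal.eq_top_iff_one, ← hsum]
  exact m.add_mem (m.add_mem (h2 hE) (m.mul_mem_left b hΨ)) (h1 hE')

end Fermat.Agent.S40x.Thick.Assemble
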