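import Mathlib
import Fermat.Agent.S40x.Thick.ThetaX4

set_option autoImplicit false

/-!
# S40x / Thick / ThetaX4K : `(θx/x)^(p-1) = A/B` over any field of characteristic `p` (T7/T8)

Coefficient base change `ZMod p → k` of `ThetaX4.exists_theta_x4_pow`, and the polynomial
`G = ∑_{i ≤ m} h_i N4^i D4^(m-i) ∈ k[X]` (`h_m = 1`) with its elementary properties:
monic of degree `6 m`, `G(0) = 2^(24 m)`, `G(16) = 2^(36 m)`.  So
`Rb := (θ x̄ / x̄)^(p-1) = A / B`, `A = ((X-16) A4)^(p-1)`, `B = G`, `deg A = deg B = 3 (p-1)`,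
`A(0) ≠ 0 ≠ B(0)`, `(X-16)^(p-1) ∣ A`, `B(16) ≠ 0`.
-/

namespace Fermat.Agent.S40x.Thick.ThetaX4K

open Polynomial ModularCurve
open Fermat.Agent.S16.Two Fermat.Agent.Gateway.AuxLevel
open Fermat.Agent.S40x.Thick.ModM Fermat.Agent.S40x.Thick.ThetaX4

noncomputable section

section BaseChange

variable {K L : Type*} [CommRing K] [CommRing L] (φ : K →+* L)

theorem coeffMap_thetaL (f : LaurentSeries K) : coeffMap φ (thetaL f) = thetaL (coeffMap φ f) := by
  ext n
  rw [coeffMap_coeff, thetaL_coeff, thetaL_coeff, coeffMap_coeff, map_mul, map_intCast]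

theorem coeffMap_aeval (P : ℤ[X]) (x : LaurentSeries K) :
    coeffMap φ (aeval x P) = aeval (coeffMap φ x) P := by
  rw [aeval_def, aeval_def, hom_eval₂]
  congr 1
  exact RingHom.ext_int _ _

theorem coeffMap_xK : coeffMap φ (xK K) = xK L := by
  rw [xK, xK, cK, cK, coeffMap_coeffMap]
  exact coeffMap_congr (RingHom.ext_int _ _) _

theorem coeffMap_C (c : K) : coeffMap φ (HahnSeries.C c) = HahnSeries.C (φ c) := by
  rw [HahnSeries.C_apply, HahnSeries.C_apply, coeffMap_single]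

theorem coeffMap_gSum (h : ℕ → K) (m : ℕ) :
    coeffMap φ (gSum K h m) = gSum L (fun i => φ (h i)) m := by
  rw [gSum, gSum, map_sum]
  refine Finset.sum_congr rfl fun i _ => ?_
  rw [map_mul, map_mul, map_pow, map_pow, coeffMap_C, coeffMap_aeval, coeffMap_aeval, coeffMap_xK]

theorem coeffMap_ofNat (n : ℕ) [n.AtLeastTwo] :
    coeffMap φ (OfNat.ofNat n : LaurentSeries K) = (OfNat.ofNat n : LaurentSeries L) :=
  map_ofNat (coeffMap φ) n

end BaseChange

section Field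

variable (p : ℕ) [Fact p.Prime] (k : Type*) [Field k] [CharP k p]

/-- **T7 over any field of characteristic `p`** (`p` odd, `m = (p-1)/2`): there are
`h_0, …, h_m ∈ k`, `h_m = 1`, with
`(∑_{i ≤ m} h_i N4(x̄)^i D4(x̄)^(m-i)) (θ x̄)^(p-1) = (x̄ (x̄-16) A4(x̄))^(p-1)` in `k((q))`. -/
theorem exists_theta_x4_pow_field (hp2 : p ≠ 2) :
    ∃ h : ℕ → k, h ((p - 1) / 2) = 1 ∧
      gSum k h ((p - 1) / 2) * thetaL (xK k) ^ (p - 1) =
        (xK k * (xK k - 16) * aeval (xK k) A4) ^ (p - 1) := by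
  obtain ⟨h, h1, h2⟩ := exists_theta_x4_pow p hp2
  let φ : ZMod p →+* k := ZMod.castHom (dvd_refl p) k
  refine ⟨fun i => φ (h i), by simp only [h1, map_one], ?_⟩
  have h3 := congrArg (coeffMap φ) h2
  rw [map_mul, map_pow, map_pow, map_mul, map_mul, map_sub, coeffMap_gSum, coeffMap_thetaL,
    coeffMap_aeval, coeffMap_xK, coeffMap_ofNat] at h3
  exact h3

end Field

section Poly

variable (k : Type*) [Field k]

/-- `N4` with coefficients in `k`. -/
def N4k : k[X] := N4.map (Int.castRingHom k)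
/-- `D4` with coefficients in `k`. -/
def D4k : k[X] := D4.map (Int.castRingHom k)
/-- `A4` with coefficients in `k`. -/
def A4k : k[X] := A4.map (Int.castRingHom k)

theorem A4k_eq : A4k k = X ^ 2 + 224 * X + 256 := by
  simp only [A4k, A4, Polynomial.map_add, Polynomial.map_mul, Polynomial.map_pow, map_X,
    Polynomial.map_ofNat]

theorem N4k_eq : N4k k = (X ^ 2 + 224 * X + 256) ^ 3 := by
  rw [N4k, N4, Polynomial.map_pow, ← A4k, A4k_eq]

theorem D4k_eq : D4k k = X * (X - 16) ^ 4 := by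
  simp only [D4k, D4, Polynomial.map_sub, Polynomial.map_mul, Polynomial.map_pow, map_X,
    Polynomial.map_ofNat]

/-- the denominator polynomial `G = ∑_{i ≤ m} h_i N4^i D4^(m-i)`. -/
def Gpoly (h : ℕ → k) (m : ℕ) : k[X] :=
  ∑ i ∈ Finset.range (m + 1), C (h i) * N4k k ^ i * D4k k ^ (m - i)

theorem eval₂_map_int (P : ℤ[X]) (x : LaurentSeries k) :
    (P.map (Int.castRingHom k)).eval₂ (HahnSeries.C : k →+* LaurentSeries k) x = aeval x P := by
  rw [eval₂_map, aeval_def]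
  congr 1
  exact RingHom.ext_int _ _

/-- `G(x̄) = gSum`. -/
theorem eval₂_Gpoly (h : ℕ → k) (m : ℕ) :
    (Gpoly k h m).eval₂ (HahnSeries.C : k →+* LaurentSeries k) (xK k) = gSum k h m := by
  rw [Gpoly, gSum, eval₂_finsetSum]
  refine Finset.sum_congr rfl fun i _ => ?_
  rw [eval₂_mul, eval₂_mul, eval₂_pow, eval₂_pow, eval₂_C, N4k, D4k, eval₂_map_int, eval₂_map_int]

theorem N4k_monic : (N4k k).Monic := by
  rw [N4k_eq]
  apply Monic.pow
  monicity!

theorem X_sub_sixteen : ((X : k[X]) - 16) = X - C 16 := by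
  rw [← map_ofNat (C : k →+* k[X]) 16]

theorem D4k_monic : (D4k k).Monic := by
  rw [D4k_eq, X_sub_sixteen]
  exact monic_X.mul ((monic_X_sub_C (16 : k)).pow 4)

theorem natDegree_N4k : (N4k k).natDegree = 6 := by
  rw [N4k_eq]
  have h : (X ^ 2 + 224 * X + 256 : k[X]).Monic := by monicity!
  rw [h.natDegree_pow]
  have : (X ^ 2 + 224 * X + 256 : k[X]).natDegree = 2 := by compute_degree!
  rw [this]

theorem natDegree_D4k : (D4k k).natDegree = 5 := by
  rw [D4k_eq]
  rw [X_sub_sixteen, (monic_X).natDegree_mul ((monic_X_sub_C (16 : k)).pow 4),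
    (monic_X_sub_C (16 : k)).natDegree_pow, natDegree_X, natDegree_X_sub_C]

theorem natDegree_term_le (h : ℕ → k) {m i : ℕ} (hi : i < m) :
    (C (h i) * N4k k ^ i * D4k k ^ (m - i)).natDegree ≤ 6 * m - 1 := by
  have h1 : (C (h i) * N4k k ^ i * D4k k ^ (m - i)).natDegree ≤ 0 + i * 6 + (m - i) * 5 := by
    refine natDegree_mul_le.trans (add_le_add (natDegree_mul_le.trans (add_le_add ?_ ?_)) ?_)
    · exact (natDegree_C _).le
    · exact natDegree_pow_le.trans (by rw [natDegree_N4k])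
    · exact natDegree_pow_le.trans (by rw [natDegree_D4k])
  omega

/-- splitting off the top term of `G`. -/
theorem Gpoly_eq (h : ℕ → k) (m : ℕ) (hm : h m = 1) :
    Gpoly k h m =
      (∑ i ∈ Finset.range m, C (h i) * N4k k ^ i * D4k k ^ (m - i)) + N4k k ^ m := by
  rw [Gpoly, Finset.sum_range_succ, hm, map_one, one_mul, Nat.sub_self, pow_zero, mul_one]

theorem natDegree_lower_lt (h : ℕ → k) {m : ℕ} (hm0 : 0 < m) :
    (∑ i ∈ Finset.range m, C (h i) * N4k k ^ i * D4k k ^ (m - i)).natDegree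
      < (N4k k ^ m).natDegree := by
  rw [(N4k_monic k).natDegree_pow, natDegree_N4k]
  have h1 : (∑ i ∈ Finset.range m, C (h i) * N4k k ^ i * D4k k ^ (m - i)).natDegree ≤ 6 * m - 1 :=
    natDegree_sum_le_of_forall_le _ _ fun i hi => natDegree_term_le k h (Finset.mem_range.mp hi)
  omega

/-- `G` is monic. -/
theorem Gpoly_monic (h : ℕ → k) (m : ℕ) (hm : h m = 1) : (Gpoly k h m).Monic := by
  rw [Gpoly_eq k h m hm]
  rcases Nat.eq_zero_or_pos m with rfl | hm0
  · simp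
  · exact ((N4k_monic k).pow m).add_of_right (degree_lt_degree (natDegree_lower_lt k h hm0))

/-- `deg G = 6 m`. -/
theorem natDegree_Gpoly (h : ℕ → k) (m : ℕ) (hm : h m = 1) : (Gpoly k h m).natDegree = 6 * m := by
  rw [Gpoly_eq k h m hm]
  rcases Nat.eq_zero_or_pos m with rfl | hm0
  · simp
  · rw [natDegree_add_eq_right_of_natDegree_lt (natDegree_lower_lt k h hm0),
      (N4k_monic k).natDegree_pow, natDegree_N4k, mul_comm]

/-- the value of `G` at a zero of `D4`. -/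
theorem eval_Gpoly_of_D4 (h : ℕ → k) (m : ℕ) (hm : h m = 1) {a : k} (ha : (D4k k).eval a = 0) :
    (Gpoly k h m).eval a = (N4k k).eval a ^ m := by
  rw [Gpoly_eq k h m hm, eval_add, eval_finsetSum, eval_pow]
  have h0 : ∑ i ∈ Finset.range m, eval a (C (h i) * N4k k ^ i * D4k k ^ (m - i)) = 0 := by
    refine Finset.sum_eq_zero fun i hi => ?_
    have hi' : m - i ≠ 0 := by
      have := Finset.mem_range.mp hi
      omega
    rw [eval_mul, eval_pow, ha, zero_pow hi', mul_zero]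
  rw [h0, zero_add]

theorem eval_D4k_zero : (D4k k).eval 0 = 0 := by
  rw [D4k_eq]; simp

theorem eval_D4k_sixteen : (D4k k).eval 16 = 0 := by
  rw [D4k_eq]; simp

theorem eval_N4k_zero : (N4k k).eval 0 = 2 ^ 24 := by
  rw [N4k_eq]
  simp only [eval_pow, eval_add, eval_mul, eval_X, eval_ofNat]
  norm_num

theorem eval_N4k_sixteen : (N4k k).eval 16 = 2 ^ 36 := by
  rw [N4k_eq]
  simp only [eval_pow, eval_add, eval_mul, eval_X, eval_ofNat]
  norm_num

/-- `G(0) = 2^(24 m)`. -/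
theorem eval_Gpoly_zero (h : ℕ → k) (m : ℕ) (hm : h m = 1) :
    (Gpoly k h m).eval 0 = 2 ^ (24 * m) := by
  rw [eval_Gpoly_of_D4 k h m hm (eval_D4k_zero k), eval_N4k_zero, ← pow_mul]

/-- `G(16) = 2^(36 m)`. -/
theorem eval_Gpoly_sixteen (h : ℕ → k) (m : ℕ) (hm : h m = 1) :
    (Gpoly k h m).eval 16 = 2 ^ (36 * m) := by
  rw [eval_Gpoly_of_D4 k h m hm (eval_D4k_sixteen k), eval_N4k_sixteen, ← pow_mul]

end Poly

section Package

variable (p : ℕ) [Fact p.Prime] (k : Type*) [Field k] [CharP k p]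

theorem two_ne_zero_of_odd (hp2 : p ≠ 2) : (2 : k) ≠ 0 := by
  intro h
  have h2 : ((2 : ℕ) : k) = 0 := by exact_mod_cast h
  rw [CharP.cast_eq_zero_iff k p] at h2
  have hpr : p.Prime := Fact.out
  exact hp2 ((Nat.prime_dvd_prime_iff_eq hpr Nat.prime_two).mp h2)

/-- **T7 + T8 package** over any field `k` of odd characteristic `p`, `m = (p-1)/2`: a monic
`B ∈ k[X]` of degree `6 m = 3 (p-1)` with `B(0) ≠ 0`, `B(16) ≠ 0` and
`B(x̄) (θ x̄)^(p-1) = (x̄ (x̄-16) A4(x̄))^(p-1)` in `k((q))`, i.e.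
`(θ x̄ / x̄)^(p-1) = ((X-16) A4)^(p-1) / B` evaluated at `x̄`. -/
theorem exists_denominator (hp2 : p ≠ 2) :
    ∃ B : k[X], B.Monic ∧ B.natDegree = 6 * ((p - 1) / 2) ∧ B.eval 0 ≠ 0 ∧ B.eval 16 ≠ 0 ∧
      B.eval₂ (HahnSeries.C : k →+* LaurentSeries k) (xK k) * thetaL (xK k) ^ (p - 1) =
        (xK k * (xK k - 16) * aeval (xK k) A4) ^ (p - 1) := by
  obtain ⟨h, hm, hh⟩ := exists_theta_x4_pow_field p k hp2
  refine ⟨Gpoly k h ((p - 1) / 2), Gpoly_monic k h _ hm, natDegree_Gpoly k h _ hm, ?_, ?_, ?_⟩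
  · rw [eval_Gpoly_zero k h _ hm]
    exact pow_ne_zero _ (two_ne_zero_of_odd p k hp2)
  · rw [eval_Gpoly_sixteen k h _ hm]
    exact pow_ne_zero _ (two_ne_zero_of_odd p k hp2)
  · rw [eval₂_Gpoly]
    exact hh

end Package

end

end Fermat.Agent.S40x.Thick.ThetaX4K
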