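/-
helper84 (P-S44/S40, block R1, thickness leaves T8 + T9 + the pigeonhole of T10/T11; Mathlib only).

Setting of helper73's lemma list (note 2529): `x = x4` the Hauptmodul of `X_0(4)`,
`J(x) = (x^2+224x+256)^3 / (x (x-16)^4)`, `rho(x) = J/(x J') = (x^2+224x+256)(x-16)/C(x)`,
`C(x) = x^3 - 528 x^2 - 8448 x + 4096`, `delta = red_inf((x(q^p) - x^p)/p)` a rational function of
the reduced Hauptmodul with `d delta/dx = x^(p-1) (Rb - 1)`, `Rb = rho^(p-1) * r1(J)`,
`r1 = P1/P2` of degree `0` at infinity.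

Contents.
* explicit polynomials `q2, l16, cC, NJ, DJ` over any commutative ring, the polynomial identity
  `logDeriv_J` (`x J' (x^2+224x+256)(x-16) = C(x) J`, chain rule input of T7), their degrees and
  values at `0`, `16` (all powers of `2`);
* `hom m P N D = D^m P(N/D)` (homogenisation): value at a root of `D`, exact degree,
  image in `RatFunc k`;
* **core count** `le_two_mul_natDegree` / `dvd_of_natDegree_le`: if `delta = A/B`,
  `delta' = X^e (Num/Den - 1)` with `Num/Den` regular at `∞`, a unit at `0`, regular at `c`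
  with a zero of order `≥ m` there, and `B ∣ X^a (X-c)^b H`, then `m ≤ 2 deg H`; and if
  `2 deg H ≤ m` then `H ∣ B` (every zero of `H` is a pole of `delta`).  Finset forms
  `le_two_mul_card`, `isRoot_of_card_le`;
* the instance `thick_count` / `thick_dvd` for `Num/Den = rho^e * P1(J)/P2(J)` at `c = 16`,
  needing only `(2 : k) ≠ 0` and `P1_m ≠ 0 ≠ P2_m`; `RatFunc` bridges `ratFunc_NumR_div_DenR`,
  `rel_of_ratFunc`.
-/
import Mathlib

set_option autoImplicit false
set_option linter.unusedSectionVars false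

open Polynomial

namespace Fermat.Agent.S40x.Thick.RatOrders

/-! ### the explicit polynomials, over any commutative ring -/

section Defs

variable (R : Type*) [CommRing R]

/-- `x^2 + 224 x + 256` -/
noncomputable def q2 : R[X] := X ^ 2 + C 224 * X + C 256
/-- `x - 16` -/
noncomputable def l16 : R[X] := X - C 16
/-- `C(x) = x^3 - 528 x^2 - 8448 x + 4096`, the numerator of `x J'(x)/J(x)` -/
noncomputable def cC : R[X] := X ^ 3 - C 528 * X ^ 2 - C 8448 * X + C 4096
/-- numerator of `J(x) = (x^2+224x+256)^3 / (x (x-16)^4)` -/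
noncomputable def NJ : R[X] := q2 R ^ 3
/-- denominator of `J` -/
noncomputable def DJ : R[X] := X * l16 R ^ 4

/-- the chain-rule identity `x J'(x) (x^2+224x+256)(x-16) = C(x) J(x)`, cleared of denominators:
`X (NJ' DJ - NJ DJ') (q2 l16) = cC NJ DJ` -/
theorem logDeriv_J :
    X * (derivative (NJ R) * DJ R - NJ R * derivative (DJ R)) * (q2 R * l16 R) =
      cC R * (NJ R * DJ R) := by
  simp only [NJ, DJ, q2, l16, cC, derivative_pow, derivative_mul, derivative_add, derivative_sub,
    derivative_X, derivative_C]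
  simp only [map_ofNat, Nat.cast_ofNat]
  ring_nf

variable {R} {S : Type*} [CommRing S] (f : R →+* S)

theorem map_q2 : (q2 R).map f = q2 S := by simp [q2, map_ofNat]
theorem map_l16 : (l16 R).map f = l16 S := by simp [l16, map_ofNat]
theorem map_cC : (cC R).map f = cC S := by simp [cC, map_ofNat]
theorem map_NJ : (NJ R).map f = NJ S := by simp [NJ, map_q2]
theorem map_DJ : (DJ R).map f = DJ S := by simp [DJ, map_l16]

variable (R)

theorem eval_zero_q2 : (q2 R).eval 0 = 2 ^ 8 := by
  simp [q2]; norm_num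

theorem eval_sixteen_q2 : (q2 R).eval 16 = 2 ^ 12 := by
  simp [q2]; norm_num

theorem eval_zero_l16 : (l16 R).eval 0 = - 2 ^ 4 := by
  simp [l16]; norm_num

theorem eval_sixteen_l16 : (l16 R).eval 16 = 0 := by
  simp [l16]

theorem eval_zero_cC : (cC R).eval 0 = 2 ^ 12 := by
  simp [cC]; norm_num

theorem eval_sixteen_cC : (cC R).eval 16 = - 2 ^ 18 := by
  simp [cC]; norm_num

theorem eval_zero_DJ : (DJ R).eval 0 = 0 := by
  simp [DJ]

theorem eval_sixteen_DJ : (DJ R).eval 16 = 0 := by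
  simp [DJ, l16]

theorem eval_zero_NJ : (NJ R).eval 0 = 2 ^ 24 := by
  rw [NJ, eval_pow, eval_zero_q2]; ring

theorem eval_sixteen_NJ : (NJ R).eval 16 = 2 ^ 36 := by
  rw [NJ, eval_pow, eval_sixteen_q2]; ring

/-- `rho(0) = -1` in the form `q2(0) l16(0) = - cC(0)` -/
theorem rho_zero : (q2 R * l16 R).eval 0 = - (cC R).eval 0 := by
  rw [eval_mul, eval_zero_q2, eval_zero_l16, eval_zero_cC]; ring

variable [Nontrivial R]

theorem q2_monic : (q2 R).Monic := by
  unfold q2
  monicity!

theorem l16_monic : (l16 R).Monic := monic_X_sub_C 16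

theorem cC_monic : (cC R).Monic := by
  unfold cC
  monicity!

theorem natDegree_q2 : (q2 R).natDegree = 2 := by
  unfold q2
  compute_degree!

theorem natDegree_l16 : (l16 R).natDegree = 1 := natDegree_X_sub_C 16

theorem natDegree_cC : (cC R).natDegree = 3 := by
  unfold cC
  compute_degree!

theorem NJ_monic : (NJ R).Monic := (q2_monic R).pow 3

theorem DJ_monic : (DJ R).Monic := monic_X.mul ((l16_monic R).pow 4)

theorem natDegree_NJ : (NJ R).natDegree = 6 := by
  rw [NJ, (q2_monic R).natDegree_pow, natDegree_q2]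

theorem natDegree_DJ : (DJ R).natDegree = 5 := by
  rw [DJ, monic_X.natDegree_mul ((l16_monic R).pow 4), natDegree_X,
    (l16_monic R).natDegree_pow, natDegree_l16]

end Defs

variable {k : Type*} [Field k]

/-! ### homogenisation -/

/-- homogenisation: `hom m P N D = ∑_{i ≤ m} P_i N^i D^(m-i) = D^m P(N/D)` -/
noncomputable def hom (m : ℕ) (P N D : k[X]) : k[X] :=
  ∑ i ∈ Finset.range (m + 1), C (P.coeff i) * N ^ i * D ^ (m - i)

/-- value of the homogenisation at a root of `D` -/
theorem eval_hom_of_root (m : ℕ) (P N D : k[X]) (c : k) (hD : D.eval c = 0) :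
    (hom m P N D).eval c = P.coeff m * N.eval c ^ m := by
  unfold hom
  rw [eval_finsetSum, Finset.sum_eq_single m]
  · simp
  · intro i hi him
    have : 0 < m - i := by
      have := Finset.mem_range.mp hi
      omega
    simp [eval_pow, hD, zero_pow this.ne']
  · intro h
    exact absurd (Finset.mem_range.mpr (Nat.lt_succ_self m)) h

/-- degree bound for the homogenisation -/
theorem natDegree_hom_le (m a : ℕ) (P N D : k[X]) (hN : N.natDegree ≤ a)
    (hD : D.natDegree ≤ a) : (hom m P N D).natDegree ≤ a * m := by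
  unfold hom
  apply natDegree_sum_le_of_forall_le
  intro i hi
  have him : i ≤ m := by
    have := Finset.mem_range.mp hi
    omega
  calc (C (P.coeff i) * N ^ i * D ^ (m - i)).natDegree
      ≤ (C (P.coeff i) * N ^ i).natDegree + (D ^ (m - i)).natDegree := natDegree_mul_le
    _ ≤ ((C (P.coeff i)).natDegree + (N ^ i).natDegree) + (D ^ (m - i)).natDegree := by
        gcongr
        exact natDegree_mul_le
    _ ≤ (0 + i * a) + (m - i) * a := by
        gcongr
        · simp
        · exact natDegree_pow_le_of_le i hN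
        · exact natDegree_pow_le_of_le (m - i) hD
    _ = a * m := by
        rw [zero_add, ← add_mul, Nat.add_sub_cancel' him, mul_comm]

/-- lower degree bound for the homogenisation when `deg D < deg N`, `N` monic, `P_m ≠ 0` -/
theorem natDegree_hom_ge (m : ℕ) (P N D : k[X]) (hN : N.Monic)
    (hD : D.natDegree < N.natDegree) (hP : P.coeff m ≠ 0) :
    N.natDegree * m ≤ (hom m P N D).natDegree := by
  apply le_natDegree_of_ne_zero
  unfold hom
  rw [finsetSum_coeff, Finset.sum_eq_single m]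
  · rw [Nat.sub_self, pow_zero, mul_one, coeff_C_mul]
    have : (N ^ m).coeff (N.natDegree * m) = 1 := by
      have h1 := (hN.pow m).coeff_natDegree
      rwa [hN.natDegree_pow, mul_comm] at h1
    rw [this, mul_one]
    exact hP
  · intro i hi him
    have hlt : i < m := by
      have := Finset.mem_range.mp hi
      omega
    apply coeff_eq_zero_of_natDegree_lt
    calc (C (P.coeff i) * N ^ i * D ^ (m - i)).natDegree
        ≤ (C (P.coeff i) * N ^ i).natDegree + (D ^ (m - i)).natDegree := natDegree_mul_le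
      _ ≤ ((C (P.coeff i)).natDegree + (N ^ i).natDegree) + (D ^ (m - i)).natDegree := by
          gcongr
          exact natDegree_mul_le
      _ ≤ (0 + i * N.natDegree) + (m - i) * (N.natDegree - 1) := by
          gcongr
          · simp
          · exact natDegree_pow_le_of_le i le_rfl
          · exact natDegree_pow_le_of_le (m - i) (by omega)
      _ < N.natDegree * m := by
          obtain ⟨j, hj⟩ : ∃ j, m = i + (j + 1) := ⟨m - i - 1, by omega⟩
          obtain ⟨a, ha⟩ : ∃ a, N.natDegree = a + 1 := ⟨N.natDegree - 1, by omega⟩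
          rw [hj, ha]
          simp only [Nat.add_sub_cancel_left, Nat.add_sub_cancel, zero_add]
          nlinarith
  · intro h
    exact absurd (Finset.mem_range.mpr (Nat.lt_succ_self m)) h

/-- the homogenisation in the fraction field: `hom m P N D = D^m * P(N/D)` -/
theorem algebraMap_hom (m : ℕ) (P N D : k[X]) (hD : D ≠ 0) (hP : P.natDegree ≤ m) :
    algebraMap k[X] (RatFunc k) (hom m P N D) =
      algebraMap k[X] (RatFunc k) D ^ m *
        aeval (algebraMap k[X] (RatFunc k) N / algebraMap k[X] (RatFunc k) D) P := by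
  have hD' : algebraMap k[X] (RatFunc k) D ≠ 0 := by
    rwa [Ne, map_eq_zero_iff _ (IsFractionRing.injective k[X] (RatFunc k))]
  rw [aeval_eq_sum_range' (Nat.lt_succ_of_le hP), hom, map_sum, Finset.mul_sum]
  apply Finset.sum_congr rfl
  intro i hi
  have him : i ≤ m := by
    have := Finset.mem_range.mp hi
    omega
  rw [map_mul, map_mul, map_pow, map_pow, div_pow, Algebra.smul_def]
  have : algebraMap k[X] (RatFunc k) D ^ m =
      algebraMap k[X] (RatFunc k) D ^ i * algebraMap k[X] (RatFunc k) D ^ (m - i) := by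
    rw [← pow_add, Nat.add_sub_cancel' him]
  rw [this]
  have h2 : algebraMap k[X] (RatFunc k) (C (P.coeff i)) =
      algebraMap k (RatFunc k) (P.coeff i) := by
    rw [← algebraMap_eq, ← IsScalarTower.algebraMap_apply]
  rw [h2]
  field_simp

/-! ### the core count -/

theorem exists_coprime_factor (n d : k[X]) (hd : d ≠ 0) :
    ∃ g n' d' : k[X], g ≠ 0 ∧ n = g * n' ∧ d = g * d' ∧ IsCoprime n' d' := by
  obtain ⟨n', hn'⟩ := IsBezout.gcd_dvd_left n d
  obtain ⟨d', hd'⟩ := IsBezout.gcd_dvd_right n d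
  have hg : IsBezout.gcd n d ≠ 0 := by
    intro h
    rw [h, zero_mul] at hd'
    exact hd hd'
  obtain ⟨a, b, hab⟩ := IsBezout.gcd_eq_sum n d
  refine ⟨IsBezout.gcd n d, n', d', hg, hn', hd', a, b, ?_⟩
  apply mul_left_cancel₀ hg
  have h1 : IsBezout.gcd n d * (a * n' + b * d') =
      a * (IsBezout.gcd n d * n') + b * (IsBezout.gcd n d * d') := by ring
  rw [h1, ← hn', ← hd', hab, mul_one]

/-- a polynomial not vanishing at `c` is coprime to `X - C c` -/
theorem isCoprime_X_sub_C_of_eval_ne_zero {d : k[X]} {c : k} (h : d.eval c ≠ 0) :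
    IsCoprime (X - C c) d := by
  rw [(irreducible_X_sub_C c).coprime_iff_not_dvd, dvd_iff_isRoot]
  exact h

/-- **core divisibility**: if `δ = A/B` satisfies `δ' = X^e (Num/Den - 1)` and `Den(0) ≠ 0`,
then the reduced denominator of `Num/Den` divides `B^2`. -/
theorem core_dvd (e : ℕ) (A B Num Den : k[X]) (hDen0 : Den.eval 0 ≠ 0)
    (hrel : (derivative A * B - A * derivative B) * Den = X ^ e * (Num - Den) * B ^ 2) :
    ∃ g n d : k[X], g ≠ 0 ∧ Num = g * n ∧ Den = g * d ∧ IsCoprime n d ∧ d ∣ B ^ 2 := by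
  have hDen : Den ≠ 0 := by
    rintro rfl
    simp at hDen0
  obtain ⟨g, n, d, hg, hn, hd, hnd⟩ := exists_coprime_factor Num Den hDen
  refine ⟨g, n, d, hg, hn, hd, hnd, ?_⟩
  have h1 : (derivative A * B - A * derivative B) * d = X ^ e * (n - d) * B ^ 2 := by
    apply mul_left_cancel₀ hg
    rw [hn, hd] at hrel
    linear_combination hrel
  have hd0 : d.eval 0 ≠ 0 := by
    intro h
    apply hDen0
    rw [hd, eval_mul, h, mul_zero]
  have h2 : d ∣ X ^ e * (n - d) * B ^ 2 := by
    rw [← h1]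
    exact dvd_mul_left d _
  have h3 : IsCoprime d (X ^ e) := by
    have := isCoprime_X_sub_C_of_eval_ne_zero hd0
    rw [C_0, sub_zero] at this
    exact (this.pow_left).symm
  have h4 : IsCoprime d (n - d) := by
    have : IsCoprime (n + d * (-1)) d := hnd.add_mul_left_left (-1)
    rw [mul_neg_one, ← sub_eq_add_neg] at this
    exact this.symm
  have h5 : IsCoprime d (X ^ e * (n - d)) := h3.mul_right h4
  exact h5.dvd_of_dvd_mul_left h2

/-- the reduced denominator `d` of `Num/Den`: `deg d ≥ m`, `d ∣ H^2`. -/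
theorem exists_denom (e m : ℕ) (c : k) (A B Num Den H : k[X]) (a b : ℕ)
    (hDen0 : Den.eval 0 ≠ 0) (hDenc : Den.eval c ≠ 0)
    (hNum0 : Num ≠ 0) (hNum : (X - C c) ^ m ∣ Num) (hdeg : Num.natDegree ≤ Den.natDegree)
    (hrel : (derivative A * B - A * derivative B) * Den = X ^ e * (Num - Den) * B ^ 2)
    (hden : B ∣ X ^ a * (X - C c) ^ b * H) :
    ∃ d : k[X], d ≠ 0 ∧ m ≤ d.natDegree ∧ d ∣ H ^ 2 ∧ d ∣ B ^ 2 := by
  obtain ⟨g, n, d, hg, hn, hd, hnd, hdB⟩ := core_dvd e A B Num Den hDen0 hrel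
  have hn0 : n ≠ 0 := by
    rintro rfl
    exact hNum0 (by rw [hn, mul_zero])
  have hd0' : d ≠ 0 := by
    rintro rfl
    apply hDen0
    rw [hd, mul_zero, eval_zero]
  have hdeg' : n.natDegree ≤ d.natDegree := by
    rw [hn, hd, natDegree_mul hg hn0, natDegree_mul hg hd0'] at hdeg
    omega
  have hgc : g.eval c ≠ 0 := by
    intro h
    apply hDenc
    rw [hd, eval_mul, h, zero_mul]
  have hmn : (X - C c) ^ m ∣ n := by
    have h1 : IsCoprime ((X - C c) ^ m) g := (isCoprime_X_sub_C_of_eval_ne_zero hgc).pow_left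
    rw [hn] at hNum
    exact h1.dvd_of_dvd_mul_left hNum
  have hm : m ≤ n.natDegree := by
    have := natDegree_le_of_dvd hmn hn0
    rwa [natDegree_pow, natDegree_X_sub_C, mul_one] at this
  have hdc : d.eval c ≠ 0 := by
    intro h
    apply hDenc
    rw [hd, eval_mul, h, mul_zero]
  have hd0 : d.eval 0 ≠ 0 := by
    intro h
    apply hDen0
    rw [hd, eval_mul, h, mul_zero]
  have h2 : d ∣ (X ^ a * (X - C c) ^ b * H) ^ 2 := hdB.trans (pow_dvd_pow_of_dvd hden 2)
  have h3 : (X ^ a * (X - C c) ^ b * H) ^ 2 =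
      (X ^ (2 * a) * (X - C c) ^ (2 * b)) * H ^ 2 := by ring
  rw [h3] at h2
  have h4 : IsCoprime d (X ^ (2 * a) * (X - C c) ^ (2 * b)) := by
    apply IsCoprime.mul_right
    · have := isCoprime_X_sub_C_of_eval_ne_zero hd0
      rw [C_0, sub_zero] at this
      exact (this.pow_left).symm
    · exact ((isCoprime_X_sub_C_of_eval_ne_zero hdc).pow_left).symm
  exact ⟨d, hd0', hm.trans hdeg', h4.dvd_of_dvd_mul_left h2, hdB⟩

/-- **(T8+T9) count, polynomial form.**  `δ = A/B`, `δ' = X^e (Num/Den - 1)`; `Num/Den` has no pole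
at `∞`, no pole at `0`, a zero of order `≥ m` at `c` and no pole at `c`; `B ∣ X^a (X-c)^b H`
(the poles of `δ` away from `0, c` are among the zeros of `H`, with at most the multiplicity).
Then `m ≤ 2 deg H`. -/
theorem le_two_mul_natDegree (e m : ℕ) (c : k) (A B Num Den H : k[X]) (a b : ℕ) (hH : H ≠ 0)
    (hDen0 : Den.eval 0 ≠ 0) (hDenc : Den.eval c ≠ 0)
    (hNum0 : Num ≠ 0) (hNum : (X - C c) ^ m ∣ Num) (hdeg : Num.natDegree ≤ Den.natDegree)
    (hrel : (derivative A * B - A * derivative B) * Den = X ^ e * (Num - Den) * B ^ 2)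
    (hden : B ∣ X ^ a * (X - C c) ^ b * H) :
    m ≤ 2 * H.natDegree := by
  obtain ⟨d, -, hm, hdH, -⟩ :=
    exists_denom e m c A B Num Den H a b hDen0 hDenc hNum0 hNum hdeg hrel hden
  have := natDegree_le_of_dvd hdH (pow_ne_zero 2 hH)
  rw [natDegree_pow] at this
  omega

/-- **(T10/T11 pigeonhole), polynomial form.**  In the situation of `le_two_mul_natDegree`, if
moreover `2 deg H ≤ m` then `H ∣ B`: every zero of `H` is a pole of `δ = A/B`. -/
theorem dvd_of_natDegree_le (e m : ℕ) (c : k) (A B Num Den H : k[X]) (a b : ℕ) (hH : H ≠ 0)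
    (hDen0 : Den.eval 0 ≠ 0) (hDenc : Den.eval c ≠ 0)
    (hNum0 : Num ≠ 0) (hNum : (X - C c) ^ m ∣ Num) (hdeg : Num.natDegree ≤ Den.natDegree)
    (hrel : (derivative A * B - A * derivative B) * Den = X ^ e * (Num - Den) * B ^ 2)
    (hden : B ∣ X ^ a * (X - C c) ^ b * H)
    (hS : 2 * H.natDegree ≤ m) :
    H ∣ B := by
  obtain ⟨d, hd0, hm, hdH, hdB⟩ :=
    exists_denom e m c A B Num Den H a b hDen0 hDenc hNum0 hNum hdeg hrel hden
  have h1 : Associated d (H ^ 2) := by
    apply associated_of_dvd_of_natDegree_le hdH (pow_ne_zero 2 hH)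
    rw [natDegree_pow]
    omega
  have h2 : H ^ 2 ∣ B ^ 2 := h1.symm.dvd.trans hdB
  exact (UniqueFactorizationMonoid.pow_dvd_pow_iff_dvd two_ne_zero).mp h2

/-- Finset form of `le_two_mul_natDegree` -/
theorem le_two_mul_card (e m : ℕ) (c : k) (A B Num Den : k[X]) (S : Finset k) (a b : ℕ)
    (hDen0 : Den.eval 0 ≠ 0) (hDenc : Den.eval c ≠ 0)
    (hNum0 : Num ≠ 0) (hNum : (X - C c) ^ m ∣ Num) (hdeg : Num.natDegree ≤ Den.natDegree)
    (hrel : (derivative A * B - A * derivative B) * Den = X ^ e * (Num - Den) * B ^ 2)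
    (hden : B ∣ X ^ a * (X - C c) ^ b * ∏ s ∈ S, (X - C s)) :
    m ≤ 2 * S.card := by
  have hmonic : (∏ s ∈ S, (X - C s)).Monic := monic_prod_of_monic _ _ fun s _ => monic_X_sub_C s
  have h := le_two_mul_natDegree e m c A B Num Den (∏ s ∈ S, (X - C s)) a b hmonic.ne_zero hDen0
    hDenc hNum0 hNum hdeg hrel hden
  rwa [natDegree_finsetProd_X_sub_C_eq_card S (fun s => s)] at h

/-- Finset form of `dvd_of_natDegree_le`: every `s ∈ S` is a root of `B` (a pole of `δ`). -/
theorem isRoot_of_card_le (e m : ℕ) (c : k) (A B Num Den : k[X]) (S : Finset k) (a b : ℕ)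
    (hDen0 : Den.eval 0 ≠ 0) (hDenc : Den.eval c ≠ 0)
    (hNum0 : Num ≠ 0) (hNum : (X - C c) ^ m ∣ Num) (hdeg : Num.natDegree ≤ Den.natDegree)
    (hrel : (derivative A * B - A * derivative B) * Den = X ^ e * (Num - Den) * B ^ 2)
    (hden : B ∣ X ^ a * (X - C c) ^ b * ∏ s ∈ S, (X - C s))
    (hS : 2 * S.card ≤ m) :
    ∀ s ∈ S, B.IsRoot s := by
  have hmonic : (∏ s ∈ S, (X - C s)).Monic := monic_prod_of_monic _ _ fun s _ => monic_X_sub_C s
  have hdegS : (∏ s ∈ S, (X - C s)).natDegree = S.card :=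
    natDegree_finsetProd_X_sub_C_eq_card S (fun s => s)
  have hS' : 2 * (∏ s ∈ S, (X - C s)).natDegree ≤ m := by rw [hdegS]; exact hS
  have h := dvd_of_natDegree_le e m c A B Num Den (∏ s ∈ S, (X - C s)) a b hmonic.ne_zero hDen0
    hDenc hNum0 hNum hdeg hrel hden hS'
  intro s hs
  rw [← dvd_iff_isRoot]
  exact (Finset.dvd_prod_of_mem (fun s => X - C s) hs).trans h

/-! ### the instance `Num/Den = rho^e * P1(J)/P2(J)` -/

/-- numerator of `rho^e * P1(J)/P2(J)` (common denominator `DJ^m` cancelled) -/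
noncomputable def NumR (e m : ℕ) (P1 : k[X]) : k[X] := (q2 k * l16 k) ^ e * hom m P1 (NJ k) (DJ k)

/-- denominator of `rho^e * P1(J)/P2(J)` -/
noncomputable def DenR (e m : ℕ) (P2 : k[X]) : k[X] := cC k ^ e * hom m P2 (NJ k) (DJ k)

variable (e m : ℕ) (P1 P2 : k[X])

theorem eval_zero_DenR : (DenR e m P2).eval 0 = (2 ^ 12) ^ e * (P2.coeff m * (2 ^ 24) ^ m) := by
  rw [DenR, eval_mul, eval_pow, eval_zero_cC, eval_hom_of_root m P2 _ _ 0 (eval_zero_DJ k),
    eval_zero_NJ]

theorem eval_sixteen_DenR :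
    (DenR e m P2).eval 16 = (- 2 ^ 18) ^ e * (P2.coeff m * (2 ^ 36) ^ m) := by
  rw [DenR, eval_mul, eval_pow, eval_sixteen_cC, eval_hom_of_root m P2 _ _ 16 (eval_sixteen_DJ k),
    eval_sixteen_NJ]

theorem eval_zero_NumR :
    (NumR e m P1).eval 0 = (- 2 ^ 12) ^ e * (P1.coeff m * (2 ^ 24) ^ m) := by
  rw [NumR, eval_mul, eval_pow, rho_zero, eval_zero_cC,
    eval_hom_of_root m P1 _ _ 0 (eval_zero_DJ k), eval_zero_NJ]

variable {e m P1 P2}

theorem eval_zero_DenR_ne (h2 : (2 : k) ≠ 0) (hP2 : P2.coeff m ≠ 0) :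
    (DenR e m P2).eval 0 ≠ 0 := by
  rw [eval_zero_DenR]
  exact mul_ne_zero (pow_ne_zero _ (pow_ne_zero _ h2))
    (mul_ne_zero hP2 (pow_ne_zero _ (pow_ne_zero _ h2)))

theorem eval_sixteen_DenR_ne (h2 : (2 : k) ≠ 0) (hP2 : P2.coeff m ≠ 0) :
    (DenR e m P2).eval 16 ≠ 0 := by
  rw [eval_sixteen_DenR]
  exact mul_ne_zero (pow_ne_zero _ (neg_ne_zero.mpr (pow_ne_zero _ h2)))
    (mul_ne_zero hP2 (pow_ne_zero _ (pow_ne_zero _ h2)))

theorem NumR_ne_zero (h2 : (2 : k) ≠ 0) (hP1 : P1.coeff m ≠ 0) : NumR e m P1 ≠ 0 := by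
  intro h
  have h1 := eval_zero_NumR e m P1
  rw [h, eval_zero] at h1
  exact (mul_ne_zero (pow_ne_zero _ (neg_ne_zero.mpr (pow_ne_zero _ h2)))
    (mul_ne_zero hP1 (pow_ne_zero _ (pow_ne_zero _ h2)))) h1.symm

variable (e m P1 P2)

theorem pow_dvd_NumR : (X - C (16 : k)) ^ e ∣ NumR e m P1 := by
  rw [NumR, mul_pow]
  exact Dvd.dvd.mul_right (Dvd.intro_left _ rfl) _

theorem natDegree_NumR_le : (NumR e m P1).natDegree ≤ 3 * e + 6 * m := by
  rw [NumR]
  refine natDegree_mul_le.trans (add_le_add ?_ ?_)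
  · have h3 : (q2 k * l16 k).natDegree ≤ 3 := by
      refine natDegree_mul_le.trans ?_
      rw [natDegree_q2, natDegree_l16]
    exact (natDegree_pow_le_of_le e h3).trans (by omega)
  · exact natDegree_hom_le m 6 P1 _ _ (natDegree_NJ k).le (by rw [natDegree_DJ]; omega)

variable {m P2}

theorem le_natDegree_DenR (hP2 : P2.coeff m ≠ 0) : 3 * e + 6 * m ≤ (DenR e m P2).natDegree := by
  have h1 : hom m P2 (NJ k) (DJ k) ≠ 0 := by
    intro h
    have h2 := natDegree_hom_ge m P2 (NJ k) (DJ k) (NJ_monic k)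
      (by rw [natDegree_NJ, natDegree_DJ]; omega) hP2
    have h3 : (hom m P2 (NJ k) (DJ k)).coeff (6 * m) ≠ 0 := by
      -- recompute: the coefficient at `6 m` is `P2_m`
      unfold hom
      rw [finsetSum_coeff, Finset.sum_eq_single m]
      · rw [Nat.sub_self, pow_zero, mul_one, coeff_C_mul]
        have : (NJ k ^ m).coeff (6 * m) = 1 := by
          have h1 := ((NJ_monic k).pow m).coeff_natDegree
          rwa [(NJ_monic k).natDegree_pow, natDegree_NJ, mul_comm] at h1
        rw [this, mul_one]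
        exact hP2
      · intro i hi him
        have hlt : i < m := by
          have := Finset.mem_range.mp hi
          omega
        apply coeff_eq_zero_of_natDegree_lt
        calc (C (P2.coeff i) * NJ k ^ i * DJ k ^ (m - i)).natDegree
            ≤ (C (P2.coeff i) * NJ k ^ i).natDegree + (DJ k ^ (m - i)).natDegree :=
              natDegree_mul_le
          _ ≤ ((C (P2.coeff i)).natDegree + (NJ k ^ i).natDegree) + (DJ k ^ (m - i)).natDegree := by
              gcongr
              exact natDegree_mul_le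
          _ ≤ (0 + i * 6) + (m - i) * 5 := by
              gcongr
              · simp
              · exact natDegree_pow_le_of_le i (natDegree_NJ k).le
              · exact natDegree_pow_le_of_le (m - i) (natDegree_DJ k).le
          _ < 6 * m := by omega
      · intro h
        exact absurd (Finset.mem_range.mpr (Nat.lt_succ_self m)) h
    rw [h, coeff_zero] at h3
    exact h3 rfl
  rw [DenR, ((cC_monic k).pow e).natDegree_mul' h1, (cC_monic k).natDegree_pow, natDegree_cC]
  have h2 := natDegree_hom_ge m P2 (NJ k) (DJ k) (NJ_monic k)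
    (by rw [natDegree_NJ, natDegree_DJ]; omega) hP2
  rw [natDegree_NJ] at h2
  omega

variable {e P1}

/-- **(T8+T9) for `Rb = rho^e * P1(J)/P2(J)`**: `e ≤ 2 deg H`. -/
theorem thick_count (h2 : (2 : k) ≠ 0) (hP1 : P1.coeff m ≠ 0) (hP2 : P2.coeff m ≠ 0)
    (A B H : k[X]) (a b : ℕ) (hH : H ≠ 0)
    (hrel : (derivative A * B - A * derivative B) * DenR e m P2 =
      X ^ e * (NumR e m P1 - DenR e m P2) * B ^ 2)
    (hden : B ∣ X ^ a * (X - C 16) ^ b * H) :
    e ≤ 2 * H.natDegree :=
  le_two_mul_natDegree e e 16 A B (NumR e m P1) (DenR e m P2) H a b hH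
    (eval_zero_DenR_ne h2 hP2) (eval_sixteen_DenR_ne h2 hP2) (NumR_ne_zero h2 hP1)
    (pow_dvd_NumR e m P1) ((natDegree_NumR_le e m P1).trans (le_natDegree_DenR e hP2)) hrel hden

/-- **(T10/T11) for `Rb = rho^e * P1(J)/P2(J)`**: if `2 deg H ≤ e` then `H ∣ B`. -/
theorem thick_dvd (h2 : (2 : k) ≠ 0) (hP1 : P1.coeff m ≠ 0) (hP2 : P2.coeff m ≠ 0)
    (A B H : k[X]) (a b : ℕ) (hH : H ≠ 0)
    (hrel : (derivative A * B - A * derivative B) * DenR e m P2 =
      X ^ e * (NumR e m P1 - DenR e m P2) * B ^ 2)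
    (hden : B ∣ X ^ a * (X - C 16) ^ b * H) (hS : 2 * H.natDegree ≤ e) :
    H ∣ B :=
  dvd_of_natDegree_le e e 16 A B (NumR e m P1) (DenR e m P2) H a b hH
    (eval_zero_DenR_ne h2 hP2) (eval_sixteen_DenR_ne h2 hP2) (NumR_ne_zero h2 hP1)
    (pow_dvd_NumR e m P1) ((natDegree_NumR_le e m P1).trans (le_natDegree_DenR e hP2)) hrel hden hS

/-! ### `RatFunc` bridges -/

/-- `rho` as a rational function -/
noncomputable def rhoK (k : Type*) [Field k] : RatFunc k :=
  algebraMap k[X] (RatFunc k) (q2 k * l16 k) / algebraMap k[X] (RatFunc k) (cC k)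

/-- `J` as a rational function -/
noncomputable def JK (k : Type*) [Field k] : RatFunc k :=
  algebraMap k[X] (RatFunc k) (NJ k) / algebraMap k[X] (RatFunc k) (DJ k)

variable (e m P1 P2)

/-- `NumR/DenR = rho^e * P1(J)/P2(J)` in `RatFunc k` -/
theorem ratFunc_NumR_div_DenR (hP1 : P1.natDegree ≤ m) (hP2 : P2.natDegree ≤ m) :
    algebraMap k[X] (RatFunc k) (NumR e m P1) / algebraMap k[X] (RatFunc k) (DenR e m P2) =
      rhoK k ^ e * (aeval (JK k) P1 / aeval (JK k) P2) := by
  have hD : DJ k ≠ 0 := (DJ_monic k).ne_zero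
  have hD' : algebraMap k[X] (RatFunc k) (DJ k) ≠ 0 := by
    rwa [Ne, map_eq_zero_iff _ (IsFractionRing.injective k[X] (RatFunc k))]
  rw [NumR, DenR, map_mul, map_mul, map_pow, map_pow, algebraMap_hom m P1 _ _ hD hP1,
    algebraMap_hom m P2 _ _ hD hP2, rhoK, JK, div_pow, mul_div_mul_comm,
    mul_div_mul_left _ _ (pow_ne_zero m hD')]

/-- the polynomial relation from the `RatFunc` relation `δ' = X^e (Num/Den - 1)`, `δ = A/B` -/
theorem rel_of_ratFunc (A B Num Den : k[X]) (hB : B ≠ 0) (hDen : Den ≠ 0)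
    (h : algebraMap k[X] (RatFunc k) (derivative A * B - A * derivative B) /
        algebraMap k[X] (RatFunc k) B ^ 2 =
      RatFunc.X ^ e * (algebraMap k[X] (RatFunc k) Num / algebraMap k[X] (RatFunc k) Den - 1)) :
    (derivative A * B - A * derivative B) * Den = X ^ e * (Num - Den) * B ^ 2 := by
  have hB' : algebraMap k[X] (RatFunc k) B ≠ 0 := by
    rwa [Ne, map_eq_zero_iff _ (IsFractionRing.injective k[X] (RatFunc k))]
  have hDen' : algebraMap k[X] (RatFunc k) Den ≠ 0 := by
    rwa [Ne, map_eq_zero_iff _ (IsFractionRing.injective k[X] (RatFunc k))]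
  apply IsFractionRing.injective k[X] (RatFunc k)
  rw [div_eq_iff (pow_ne_zero 2 hB')] at h
  rw [map_mul, h, map_mul, map_mul, map_pow, map_pow, map_sub, RatFunc.algebraMap_X]
  field_simp

/-- **(L8/9), final T9 literal in `num/denom` form** (board S44_R1T): `r : RatFunc k` with
`r' = X^e (Num/Den - 1)` where `r'` is written out by the quotient rule on `r.num / r.denom`;
`Num/Den` regular at `∞` and at `0`, regular at `c` with a zero of order `≥ m` there.
Then `m ≤ 2 deg (r.denom)`.  (With `e = m = p - 1`, `c = 16`: `p - 1 ≤ 2 * r.denom.natDegree`.) -/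
theorem le_two_mul_natDegree_denom (m : ℕ) (c : k) (r : RatFunc k) (Num Den : k[X])
    (hDen0 : Den.eval 0 ≠ 0) (hDenc : Den.eval c ≠ 0)
    (hNum0 : Num ≠ 0) (hNum : (X - C c) ^ m ∣ Num) (hdeg : Num.natDegree ≤ Den.natDegree)
    (h : algebraMap k[X] (RatFunc k) (derivative r.num * r.denom - r.num * derivative r.denom) /
        algebraMap k[X] (RatFunc k) r.denom ^ 2 =
      RatFunc.X ^ e * (algebraMap k[X] (RatFunc k) Num / algebraMap k[X] (RatFunc k) Den - 1)) :
    m ≤ 2 * r.denom.natDegree := by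
  have hDen : Den ≠ 0 := by
    rintro rfl
    simp at hDen0
  have hrel := rel_of_ratFunc e r.num r.denom Num Den r.denom_ne_zero hDen h
  refine le_two_mul_natDegree e m c r.num r.denom Num Den r.denom 0 0 r.denom_ne_zero hDen0 hDenc
    hNum0 hNum hdeg hrel ?_
  rw [pow_zero, pow_zero, one_mul, one_mul]

/-- pigeonhole companion of `le_two_mul_natDegree_denom`: if `r.denom ∣ X^a (X-c)^b H` and
`2 deg H ≤ m` then `H ∣ r.denom`. -/
theorem dvd_denom_of_natDegree_le (m : ℕ) (c : k) (r : RatFunc k) (Num Den H : k[X]) (a b : ℕ)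
    (hH : H ≠ 0) (hDen0 : Den.eval 0 ≠ 0) (hDenc : Den.eval c ≠ 0)
    (hNum0 : Num ≠ 0) (hNum : (X - C c) ^ m ∣ Num) (hdeg : Num.natDegree ≤ Den.natDegree)
    (h : algebraMap k[X] (RatFunc k) (derivative r.num * r.denom - r.num * derivative r.denom) /
        algebraMap k[X] (RatFunc k) r.denom ^ 2 =
      RatFunc.X ^ e * (algebraMap k[X] (RatFunc k) Num / algebraMap k[X] (RatFunc k) Den - 1))
    (hden : r.denom ∣ X ^ a * (X - C c) ^ b * H) (hS : 2 * H.natDegree ≤ m) :
    H ∣ r.denom := by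
  have hDen : Den ≠ 0 := by
    rintro rfl
    simp at hDen0
  have hrel := rel_of_ratFunc e r.num r.denom Num Den r.denom_ne_zero hDen h
  exact dvd_of_natDegree_le e m c r.num r.denom Num Den H a b hH hDen0 hDenc hNum0 hNum hdeg hrel
    hden hS

end Fermat.Agent.S40x.Thick.RatOrders
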