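/-
helper84 (P-S44/S40, block R1, thickness leaf T9, consumer literal (L9) of board S44_R1T).

`RatOrders.lean` proves the count for `r' = X^e (Num/Den - 1)` with `r'` written out by the quotient
rule.  Here the same statement for ANY map `D : RatFunc k → RatFunc k` obeying the quotient rule
(`hD`; e.g. `RatDeriv.rderiv` with `rderiv_div`), and the instance for the package of
`ThetaX4K.exists_denominator`:  `Rb = ((X - 16) (X^2 + 224 X + 256))^(p-1) / B`, `B` monic of degree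
`6 ((p-1)/2)`, `B(0) ≠ 0`, `B(16) ≠ 0`  ⟹  `p - 1 ≤ 2 * r.denom.natDegree` whenever
`D r = X^(p-1) (Rb - 1)`.  Mathlib + `RatOrders` only.
-/
import Fermat.Agent.S40x.Thick.RatOrders

set_option autoImplicit false

open Polynomial

namespace Fermat.Agent.S40x.Thick.RatOrdersT9

open Fermat.Agent.S40x.Thick.RatOrders

variable {k : Type*} [Field k]

/-- the quotient rule, as a property of a map `D : RatFunc k → RatFunc k` -/
def QuotientRule (D : RatFunc k → RatFunc k) : Prop :=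
  ∀ N Dn : k[X], Dn ≠ 0 →
    D (algebraMap k[X] (RatFunc k) N / algebraMap k[X] (RatFunc k) Dn) =
      algebraMap k[X] (RatFunc k) (derivative N * Dn - N * derivative Dn) /
        algebraMap k[X] (RatFunc k) Dn ^ 2

/-- **(L8/9)** for any `D` with the quotient rule -/
theorem le_two_mul_natDegree_denom_of_rule (D : RatFunc k → RatFunc k) (hD : QuotientRule D)
    (e m : ℕ) (c : k) (r : RatFunc k) (Num Den : k[X])
    (hDen0 : Den.eval 0 ≠ 0) (hDenc : Den.eval c ≠ 0)
    (hNum0 : Num ≠ 0) (hNum : (X - C c) ^ m ∣ Num) (hdeg : Num.natDegree ≤ Den.natDegree)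
    (h : D r =
      RatFunc.X ^ e * (algebraMap k[X] (RatFunc k) Num / algebraMap k[X] (RatFunc k) Den - 1)) :
    m ≤ 2 * r.denom.natDegree := by
  have h1 := hD r.num r.denom r.denom_ne_zero
  rw [RatFunc.num_div_denom, h] at h1
  exact le_two_mul_natDegree_denom e m c r Num Den hDen0 hDenc hNum0 hNum hdeg h1.symm

/-- pigeonhole companion -/
theorem dvd_denom_of_rule (D : RatFunc k → RatFunc k) (hD : QuotientRule D)
    (e m : ℕ) (c : k) (r : RatFunc k) (Num Den H : k[X]) (a b : ℕ) (hH : H ≠ 0)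
    (hDen0 : Den.eval 0 ≠ 0) (hDenc : Den.eval c ≠ 0)
    (hNum0 : Num ≠ 0) (hNum : (X - C c) ^ m ∣ Num) (hdeg : Num.natDegree ≤ Den.natDegree)
    (h : D r =
      RatFunc.X ^ e * (algebraMap k[X] (RatFunc k) Num / algebraMap k[X] (RatFunc k) Den - 1))
    (hden : r.denom ∣ X ^ a * (X - C c) ^ b * H) (hS : 2 * H.natDegree ≤ m) :
    H ∣ r.denom := by
  have h1 := hD r.num r.denom r.denom_ne_zero
  rw [RatFunc.num_div_denom, h] at h1
  exact dvd_denom_of_natDegree_le e m c r Num Den H a b hH hDen0 hDenc hNum0 hNum hdeg h1.symm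
    hden hS

/-- the numerator of `Rb = (θ x̄ / x̄)^(p-1)`: `((X - 16) (X^2 + 224 X + 256))^e` -/
noncomputable def numRb (k : Type*) [Field k] (e : ℕ) : k[X] :=
  ((X - 16) * (X ^ 2 + 224 * X + 256)) ^ e

theorem numRb_eq (e : ℕ) : numRb k e = (l16 k * q2 k) ^ e := by
  have h1 : (16 : k[X]) = C 16 := (map_ofNat C 16).symm
  have h2 : (224 : k[X]) = C 224 := (map_ofNat C 224).symm
  have h3 : (256 : k[X]) = C 256 := (map_ofNat C 256).symm
  rw [numRb, l16, q2, h1, h2, h3]

theorem numRb_monic (e : ℕ) : (numRb k e).Monic := by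
  rw [numRb_eq]
  exact ((l16_monic k).mul (q2_monic k)).pow e

theorem natDegree_numRb (e : ℕ) : (numRb k e).natDegree = 3 * e := by
  rw [numRb_eq, ((l16_monic k).mul (q2_monic k)).natDegree_pow,
    (l16_monic k).natDegree_mul (q2_monic k), natDegree_l16, natDegree_q2]
  ring

theorem pow_dvd_numRb (e : ℕ) : (X - C (16 : k)) ^ e ∣ numRb k e := by
  rw [numRb_eq, mul_pow, l16]
  exact Dvd.intro _ rfl

/-- **(L9), instance for the package of `ThetaX4K.exists_denominator`**: `B` of degree `≥ 3 e`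
with `B(0) ≠ 0 ≠ B(16)`, `D r = X^e (numRb e / B - 1)`  ⟹  `e ≤ 2 deg(r.denom)`.
(With `e = p - 1`, `deg B = 6 ((p-1)/2) = 3 (p-1)` for odd `p`.) -/
theorem t9 (D : RatFunc k → RatFunc k) (hD : QuotientRule D) (e : ℕ) (B : k[X])
    (hBdeg : 3 * e ≤ B.natDegree) (hB0 : B.eval 0 ≠ 0) (hB16 : B.eval 16 ≠ 0)
    (r : RatFunc k)
    (h : D r = RatFunc.X ^ e *
      (algebraMap k[X] (RatFunc k) (numRb k e) / algebraMap k[X] (RatFunc k) B - 1)) :
    e ≤ 2 * r.denom.natDegree :=
  le_two_mul_natDegree_denom_of_rule D hD e e 16 r (numRb k e) B hB0 hB16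
    (numRb_monic e).ne_zero (pow_dvd_numRb e) (by rw [natDegree_numRb]; exact hBdeg) h

/-- `(L9)` literally: odd prime `p`, `deg B = 6 ((p-1)/2)`. -/
theorem t9_prime (p : ℕ) (hp : p.Prime) (hp2 : p ≠ 2)
    (D : RatFunc k → RatFunc k) (hD : QuotientRule D) (B : k[X])
    (hBdeg : B.natDegree = 6 * ((p - 1) / 2)) (hB0 : B.eval 0 ≠ 0) (hB16 : B.eval 16 ≠ 0)
    (r : RatFunc k)
    (h : D r = RatFunc.X ^ (p - 1) *
      (algebraMap k[X] (RatFunc k) (numRb k (p - 1)) / algebraMap k[X] (RatFunc k) B - 1)) :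
    p - 1 ≤ 2 * r.denom.natDegree := by
  refine t9 D hD (p - 1) B ?_ hB0 hB16 r h
  rw [hBdeg]
  obtain ⟨j, hj⟩ := hp.eq_two_or_odd'.resolve_left hp2
  omega

end Fermat.Agent.S40x.Thick.RatOrdersT9
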