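/-
P-S44/S40, block R1-T (thickness), leaf T1 (helper72): the `q`-series calculus of the node element
`u = f(q^p) - f(q)^p` for an ARBITRARY integral Laurent series `f ∈ ℤ((q))` (in the application
`f = L4.x4`, the Hauptmodul of `X₀(4)`; also `f = j`).

* `frobQuot p f` : the integral series `(f(q^p) - f^p) / p`, with `C_mul_frobQuot`:
  `p * frobQuot p f = f(q^p) - f^p` (Kronecker congruence, Frobenius on `ℤ((q))`);
* `thetaL_frobQuot` : `θ (frobQuot p f) = (θ f)(q^p) - f^(p-1) * θ f` in `ℤ((q))` (`θ = q d/dq`);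
* `coeffMap_thetaL` : `θ` commutes with coefficient maps;
* `qExpand_coeffMap_int` : over a ring `k` of characteristic `p`, `g(q^p) = g^p` for the reduction
  `g` of an integral series;
* `thetaL_frobQuot_bar` : modulo `p` (coefficients in any ring `k` of characteristic `p`), with
  `fb`, `δ` the reductions of `f`, `frobQuot p f`:  `θ δ = (θ fb)^p - fb^(p-1) * θ fb`;
* `thetaL_frobQuot_bar_of_eq` : if `θ f = f * G` in `ℤ((q))` (logarithmic derivative `G`), then
  `θ δ = fb^p * (Gb^p - Gb)`;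
* `G4`, `thetaL_x4`, `constantCoeff_G4` : the logarithmic derivative `G = θ x₄ / x₄ = -1 + O(q)` of
  the Hauptmodul `x₄` as an integral POWER series; `thetaL_frobQuot_x4_bar` : the instance.
-/
import Fermat.Agent.S16.Two.QSeries
import Fermat.Agent.S34x.TwoVal.KroneckerInt
import Fermat.Agent.Gateway.AuxLevel.Level4Cusps

set_option autoImplicit false
set_option linter.style.haveILetI false
set_option linter.unusedSectionVars false

noncomputable section

namespace Fermat.Agent.S40x.Thick.T1QSeries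

open ModularCurve HahnSeries
open Fermat.Agent.S16.Two

/-! ### The Frobenius quotient over `ℤ` -/

section Int

variable (p : ℕ) [hp : Fact p.Prime]

/-- `f(q^p) - f^p` has all its coefficients divisible by `p`. -/
theorem dvd_coeff_qExpand_sub_pow (f : LaurentSeries ℤ) (n : ℤ) :
    haveI : NeZero p := ⟨hp.out.ne_zero⟩
    (p : ℤ) ∣ (qExpand ℤ p f - f ^ p).coeff n := by
  haveI : NeZero p := ⟨hp.out.ne_zero⟩
  have hred : coeffMap (Int.castRingHom (ZMod p)) (qExpand ℤ p f - f ^ p) = 0 := by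
    rw [map_sub, map_pow, Fermat.Agent.Gateway.Kummer.coeffMap_qExpand,
      Fermat.Agent.Gateway.ES.pow_char_eq_qExpand_coeffMap_frobenius p
        (coeffMap (Int.castRingHom (ZMod p)) f)]
    have hfrob : frobenius (ZMod p) p = RingHom.id (ZMod p) := by
      ext x
      simp
    rw [hfrob, coeffMap_id, sub_self]
  have := congrArg (fun x : LaurentSeries (ZMod p) => x.coeff n) hred
  simp only [coeffMap_coeff, HahnSeries.coeff_zero] at this
  exact (ZMod.intCast_zmod_eq_zero_iff_dvd _ _).mp this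

/-- **The Frobenius quotient** `(f(q^p) - f^p) / p ∈ ℤ((q))`. -/
def frobQuot (f : LaurentSeries ℤ) : LaurentSeries ℤ :=
  haveI : NeZero p := ⟨hp.out.ne_zero⟩
  ⟨fun n => (qExpand ℤ p f - f ^ p).coeff n / (p : ℤ),
    (qExpand ℤ p f - f ^ p).isPWO_support.mono (by
      intro n hn
      simp only [Function.mem_support, ne_eq] at hn ⊢
      intro h0
      apply hn
      rw [h0, Int.zero_ediv])⟩

theorem frobQuot_coeff (f : LaurentSeries ℤ) (n : ℤ) :
    haveI : NeZero p := ⟨hp.out.ne_zero⟩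
    (frobQuot p f).coeff n = (qExpand ℤ p f - f ^ p).coeff n / (p : ℤ) := rfl

/-- `p * frobQuot p f = f(q^p) - f^p`. -/
theorem C_mul_frobQuot (f : LaurentSeries ℤ) :
    haveI : NeZero p := ⟨hp.out.ne_zero⟩
    HahnSeries.C (p : ℤ) * frobQuot p f = qExpand ℤ p f - f ^ p := by
  haveI : NeZero p := ⟨hp.out.ne_zero⟩
  ext n
  rw [HahnSeries.C_mul_eq_smul, HahnSeries.coeff_smul, frobQuot_coeff, smul_eq_mul,
    Int.mul_ediv_cancel' (dvd_coeff_qExpand_sub_pow p f n)]

/-- the same with the natural-number cast -/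
theorem natCast_mul_frobQuot (f : LaurentSeries ℤ) :
    haveI : NeZero p := ⟨hp.out.ne_zero⟩
    (p : LaurentSeries ℤ) * frobQuot p f = qExpand ℤ p f - f ^ p := by
  haveI : NeZero p := ⟨hp.out.ne_zero⟩
  have h : ((p : LaurentSeries ℤ)) = HahnSeries.C ((p : ℕ) : ℤ) := by simp
  rw [h]
  exact C_mul_frobQuot p f

/-- multiplication by `p` is injective on `ℤ((q))` -/
theorem natCast_mul_cancel {a b : LaurentSeries ℤ}
    (h : (p : LaurentSeries ℤ) * a = (p : LaurentSeries ℤ) * b) : a = b := by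
  have hp0 : ((p : ℕ) : ℤ) ≠ 0 := by exact_mod_cast hp.out.ne_zero
  have hC : ((p : LaurentSeries ℤ)) = HahnSeries.C ((p : ℕ) : ℤ) := by simp
  rw [hC] at h
  ext n
  have := congrArg (fun x : LaurentSeries ℤ => x.coeff n) h
  simp only [HahnSeries.C_mul_eq_smul, HahnSeries.coeff_smul, smul_eq_mul] at this
  exact mul_left_cancel₀ hp0 this

/-- **`θ` of the Frobenius quotient**: `θ ((f(q^p) - f^p)/p) = (θ f)(q^p) - f^(p-1) θ f`. -/
theorem thetaL_frobQuot (f : LaurentSeries ℤ) :
    haveI : NeZero p := ⟨hp.out.ne_zero⟩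
    thetaL (frobQuot p f) = qExpand ℤ p (thetaL f) - f ^ (p - 1) * thetaL f := by
  haveI : NeZero p := ⟨hp.out.ne_zero⟩
  apply natCast_mul_cancel p
  have h1 : thetaL ((p : LaurentSeries ℤ) * frobQuot p f) =
      (p : LaurentSeries ℤ) * thetaL (frobQuot p f) := by
    have := thetaL_intCast_mul (R := ℤ) ((p : ℕ) : ℤ) (frobQuot p f)
    simpa using this
  rw [← h1, natCast_mul_frobQuot, thetaL_sub, thetaL_qExpand]
  obtain ⟨m, hm⟩ : ∃ m, p = m + 1 := ⟨p - 1, (Nat.succ_pred_eq_of_pos hp.out.pos).symm⟩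
  have hm' : p - 1 = m := by omega
  rw [hm', mul_sub]
  congr 1
  conv_lhs => rw [hm]
  rw [thetaL_pow_succ, ← hm]
  ring

end Int

/-! ### Reduction modulo `p` -/

section Bar

variable {R S : Type*} [CommRing R] [CommRing S]

/-- `θ` commutes with coefficient maps. -/
theorem coeffMap_thetaL (φ : R →+* S) (f : LaurentSeries R) :
    coeffMap φ (thetaL f) = thetaL (coeffMap φ f) := by
  ext n
  rw [coeffMap_coeff, thetaL_coeff, thetaL_coeff, coeffMap_coeff, map_mul, map_intCast]

variable (p : ℕ) [hp : Fact p.Prime] (k : Type*) [CommRing k] [CharP k p]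

/-- over a ring of characteristic `p`, the reduction `g` of an integral series satisfies
`g(q^p) = g^p`. -/
theorem qExpand_coeffMap_int (f : LaurentSeries ℤ) :
    haveI : NeZero p := ⟨hp.out.ne_zero⟩
    qExpand k p (coeffMap (Int.castRingHom k) f) = coeffMap (Int.castRingHom k) f ^ p := by
  haveI : NeZero p := ⟨hp.out.ne_zero⟩
  rw [Fermat.Agent.Gateway.ES.pow_char_eq_qExpand_coeffMap_frobenius p, coeffMap_coeffMap]
  congr 1
  apply coeffMap_congr
  ext x
  simp

/-- **`θ δ = (θ fb)^p - fb^(p-1) θ fb`** for the reductions `fb`, `δ` of `f`, `frobQuot p f`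
modulo `p`. -/
theorem thetaL_frobQuot_bar (f : LaurentSeries ℤ) :
    thetaL (coeffMap (Int.castRingHom k) (frobQuot p f)) =
      thetaL (coeffMap (Int.castRingHom k) f) ^ p -
        coeffMap (Int.castRingHom k) f ^ (p - 1) * thetaL (coeffMap (Int.castRingHom k) f) := by
  haveI : NeZero p := ⟨hp.out.ne_zero⟩
  rw [← coeffMap_thetaL, thetaL_frobQuot, map_sub, map_mul, map_pow,
    Fermat.Agent.Gateway.Kummer.coeffMap_qExpand, qExpand_coeffMap_int, coeffMap_thetaL]

/-- with a logarithmic derivative: if `θ f = f * G` over `ℤ`, then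
`θ δ = fb^p * (Gb^p - Gb)`. -/
theorem thetaL_frobQuot_bar_of_eq (f G : LaurentSeries ℤ) (hG : thetaL f = f * G) :
    thetaL (coeffMap (Int.castRingHom k) (frobQuot p f)) =
      coeffMap (Int.castRingHom k) f ^ p *
        (coeffMap (Int.castRingHom k) G ^ p - coeffMap (Int.castRingHom k) G) := by
  have h1 : thetaL (coeffMap (Int.castRingHom k) f) =
      coeffMap (Int.castRingHom k) f * coeffMap (Int.castRingHom k) G := by
    rw [← coeffMap_thetaL, hG, map_mul]
  rw [thetaL_frobQuot_bar, h1, mul_pow]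
  obtain ⟨m, hm⟩ : ∃ m, p = m + 1 := ⟨p - 1, (Nat.succ_pred_eq_of_pos hp.out.pos).symm⟩
  have hm' : p - 1 = m := by omega
  rw [hm']
  conv_lhs => rw [hm]
  conv_rhs => rw [hm]
  ring

end Bar

/-! ### The Hauptmodul `x₄` -/

section X4

open PowerSeries Fermat.Agent.Gateway.AuxLevel Fermat.Agent.S16.SD
open Fermat.Agent.S28.H2 (qInv)

/-- `θ q⁻¹ = - q⁻¹` -/
theorem thetaL_qInv : thetaL (qInv : LaurentSeries ℤ) = -qInv := by
  ext n
  rw [thetaL_coeff, HahnSeries.coeff_neg', qInv]
  by_cases hn : n = -1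
  · subst hn
    simp
  · have h0 : ((HahnSeries.single (-1 : ℤ)) (1 : ℤ)).coeff n = 0 :=
      HahnSeries.coeff_single_of_ne hn
    rw [h0]
    simp [h0]

/-- **the logarithmic derivative of `x₄`**, an integral power series `-1 + O(q)`. -/
def G4 : PowerSeries ℤ := theta L4.u4 * L4.u4inv - 1

theorem constantCoeff_G4 : constantCoeff G4 = -1 := by
  have h0 : constantCoeff (theta L4.u4) = 0 := by
    have := coeff_theta L4.u4 0
    simpa using this
  rw [G4, map_sub, map_mul, h0, zero_mul, map_one, zero_sub]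

/-- `θ x₄ = x₄ * G₄`. -/
theorem thetaL_x4 : thetaL L4.x4 = L4.x4 * ι G4 := by
  have hinv : ι L4.u4 * ι L4.u4inv = 1 := by
    rw [← map_mul, L4.u4_mul_inv, map_one]
  rw [L4.x4, thetaL_mul, thetaL_qInv, thetaL_ofPowerSeries, G4, map_sub, map_mul, map_one]
  linear_combination (-(qInv * ι (theta L4.u4))) * hinv

/-- **T1 for `x₄`**: `θ δ = x̄₄^p (Ḡ^p - Ḡ)` for `δ = ((x₄(q^p) - x₄^p)/p mod p)`. -/
theorem thetaL_frobQuot_x4_bar (p : ℕ) [hp : Fact p.Prime] (k : Type*) [CommRing k] [CharP k p] :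
    thetaL (coeffMap (Int.castRingHom k) (frobQuot p L4.x4)) =
      coeffMap (Int.castRingHom k) L4.x4 ^ p *
        (coeffMap (Int.castRingHom k) (ι G4) ^ p - coeffMap (Int.castRingHom k) (ι G4)) :=
  thetaL_frobQuot_bar_of_eq p k L4.x4 (ι G4) thetaL_x4

end X4

end Fermat.Agent.S40x.Thick.T1QSeries
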