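import Mathlib
import Fermat.Agent.S40x.Thick.ThetaX4K
import Fermat.Agent.S40x.Thick.RatOrders
import Fermat.Agent.S40x.Thick.T1QSeries

set_option autoImplicit false

/-!
# S40x / Thick / Count : the package (L9*) = hypothesis `hT9` of `Main.node_coprime`

`k` a field of odd characteristic `p`, `x̄ = xK k` the reduction of the Hauptmodul `x₄`,
`δ = Dk` a Laurent series with `θ δ = x̄^p (G^p - G)`, `G x̄ = θ x̄` (T1: `δ` = reduction of
`(x₄(q^p) - x₄^p)/p`).  If `δ = r(x̄)` for a rational function `r = N/D`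
(`N(x̄) = δ · D(x̄)`), then `p - 1 ≤ 2 deg D`.

Proof: quotient rule + polynomial chain rule for `θ`, `G^(p-1) = A(x̄)/B(x̄)`
(`ThetaX4K.exists_denominator`), injectivity of `P ↦ P(x̄)` (`x̄` has a pole), and the pole count
`RatOrders.le_two_mul_natDegree_denom`.
-/

namespace Fermat.Agent.S40x.Thick.Count

open Polynomial ModularCurve
open Fermat.Agent.S16.Two Fermat.Agent.Gateway.AuxLevel
open Fermat.Agent.S40x.Thick.ThetaX4 Fermat.Agent.S40x.Thick.ThetaX4K

noncomputable section

section ChainRule

variable {K : Type*} [CommRing K]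

theorem thetaL_C (c : K) : thetaL (HahnSeries.C c : LaurentSeries K) = 0 := by
  ext n
  rw [thetaL_coeff, HahnSeries.C_apply]
  by_cases hn : n = 0
  · subst hn; simp
  · rw [HahnSeries.coeff_single_of_ne hn, mul_zero, HahnSeries.coeff_zero]

/-- evaluation of a polynomial over `K` at a Laurent series. -/
def evP (x : LaurentSeries K) : K[X] →+* LaurentSeries K :=
  eval₂RingHom (HahnSeries.C : K →+* LaurentSeries K) x

theorem evP_apply (x : LaurentSeries K) (P : K[X]) :
    evP x P = P.eval₂ (HahnSeries.C : K →+* LaurentSeries K) x := rfl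

@[simp] theorem evP_X (x : LaurentSeries K) : evP x X = x := by simp [evP]

@[simp] theorem evP_C (x : LaurentSeries K) (c : K) : evP x (C c) = HahnSeries.C c := by
  simp [evP]

/-- **Chain rule** for `θ` and polynomials with coefficients in `K`. -/
theorem thetaL_evP (x : LaurentSeries K) (P : K[X]) :
    thetaL (evP x P) = evP x (derivative P) * thetaL x := by
  induction P using Polynomial.induction_on' with
  | add p q hp hq => simp only [map_add, thetaL_add, hp, hq, add_mul]
  | monomial n a =>
    rw [← C_mul_X_pow_eq_monomial]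
    cases n with
    | zero =>
      simp only [pow_zero, mul_one, evP_C, derivative_C, map_zero, zero_mul, thetaL_C]
    | succ n =>
      simp only [map_mul, evP_C, map_pow, evP_X, derivative_mul, derivative_C, zero_mul,
        zero_add, derivative_X_pow, map_natCast, Nat.add_sub_cancel]
      rw [thetaL_mul, thetaL_C, zero_mul, zero_add, thetaL_pow_succ]
      push_cast
      ring

end ChainRule

section Field

variable (k : Type*) [Field k]

theorem xK_order_neg : (xK k).order < 0 := by
  have h : (xK k).order ≤ -1 :=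
    HahnSeries.order_le_of_coeff_ne_zero (by rw [xK_coeff_neg_one]; exact one_ne_zero)
  linarith

/-- `P ↦ P(x̄)` is injective on `k[X]`. -/
theorem evP_xK_injective : Function.Injective (evP (xK k)) := by
  rw [injective_iff_map_eq_zero]
  intro P hP
  by_contra hP0
  refine Fermat.Agent.S28.transcendental_of_order_neg (xK_order_neg k) ⟨P, hP0, ?_⟩
  rw [aeval_def, ← hP, evP_apply]
  congr 1
  exact RingHom.ext fun c => (Fermat.Agent.S28.C_eq_algebraMap_laurent c).symm

theorem thetaL_xK_ne_zero : thetaL (xK k) ≠ 0 := by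
  intro h
  have h1 : (thetaL (xK k)).coeff (-1) = -1 := by
    rw [thetaL_coeff, xK_coeff_neg_one]
    simp
  rw [h, HahnSeries.coeff_zero] at h1
  exact one_ne_zero (neg_eq_zero.mp h1.symm)

/-- `A = ((X - 16) A4)^(p-1)`, the numerator of `Rb`. -/
def Apoly (p : ℕ) : k[X] := ((X - C 16) * A4k k) ^ (p - 1)

theorem evP_Apoly (p : ℕ) :
    evP (xK k) (Apoly k p) = ((xK k - 16) * aeval (xK k) A4) ^ (p - 1) := by
  rw [Apoly, map_pow, map_mul, map_sub, evP_X, evP_C, evP_apply, A4k, eval₂_map_int,
    map_ofNat (HahnSeries.C : k →+* LaurentSeries k) 16]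

variable (p : ℕ) [Fact p.Prime] [CharP k p]

/-- **The package (L9\*)**, hypothesis style in `δ = Dk`: if `θ δ = x̄^p (G^p - G)` with
`G x̄ = θ x̄`, and `δ = r(x̄)` for `r : RatFunc k` (in the form `N(x̄) = δ D(x̄)`), then
`p - 1 ≤ 2 deg (r.denom)`. -/
theorem count_of (hp2 : p ≠ 2) (r : RatFunc k) (Dk G : LaurentSeries k)
    (hG : G * xK k = thetaL (xK k))
    (hD : thetaL Dk = xK k ^ p * (G ^ p - G))
    (hr : evP (xK k) r.num = Dk * evP (xK k) r.denom) :
    p - 1 ≤ 2 * r.denom.natDegree := by
  obtain ⟨B, hBmonic, hBdeg, hB0, hB16, hB⟩ := exists_denominator p k hp2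
  have hpr : p.Prime := Fact.out
  obtain ⟨e, he⟩ : ∃ e, p = e + 1 := ⟨p - 1, (Nat.succ_pred_eq_of_pos hpr.pos).symm⟩
  have he' : p - 1 = e := by omega
  set x := xK k with hx
  have hx0 : x ≠ 0 := xK_ne_zero k
  have hθ0 : thetaL x ≠ 0 := thetaL_xK_ne_zero k
  have hG0 : G ≠ 0 := fun h => hθ0 (by rw [← hG, h, zero_mul])
  set N := r.num with hN
  set D := r.denom with hDd
  -- quotient rule
  have h1 : thetaL Dk * evP x D ^ 2 =
      (evP x (derivative N) * evP x D - evP x N * evP x (derivative D)) * thetaL x := by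
    have h2 := congrArg thetaL hr
    rw [thetaL_mul, thetaL_evP, thetaL_evP] at h2
    linear_combination (-(evP x D)) * h2 + (evP x (derivative D) * thetaL x) * hr
  -- `B(x̄) G^(p-1) = A(x̄)`
  have h3 : evP x B * G ^ e = evP x (Apoly k p) := by
    rw [evP_Apoly, he']
    rw [← evP_apply, ← hG, he', mul_pow, mul_assoc x, mul_pow x] at hB
    apply mul_left_cancel₀ (pow_ne_zero e hx0)
    linear_combination hB
  -- the evaluated polynomial identity
  have h4 : evP x ((derivative N * D - N * derivative D) * B) =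
      evP x (X ^ e * (Apoly k p - B) * D ^ 2) := by
    simp only [map_mul, map_sub, map_pow, evP_X]
    rw [← h3]
    apply mul_left_cancel₀ (mul_ne_zero hG0 hx0)
    rw [hD, he] at h1
    rw [← hG] at h1
    linear_combination (-(evP x B)) * h1
  have h5 := evP_xK_injective k h4
  -- pass to `RatFunc` and apply the pole count
  have hD0 : D ≠ 0 := r.denom_ne_zero
  have hB0' : B ≠ 0 := hBmonic.ne_zero
  have hD' : algebraMap k[X] (RatFunc k) D ≠ 0 := by
    rwa [Ne, map_eq_zero_iff _ (RatFunc.algebraMap_injective k)]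
  have hB' : algebraMap k[X] (RatFunc k) B ≠ 0 := by
    rwa [Ne, map_eq_zero_iff _ (RatFunc.algebraMap_injective k)]
  have h6 : algebraMap k[X] (RatFunc k) (derivative N * D - N * derivative D) /
        algebraMap k[X] (RatFunc k) D ^ 2 =
      RatFunc.X ^ e * (algebraMap k[X] (RatFunc k) (Apoly k p) / algebraMap k[X] (RatFunc k) B
        - 1) := by
    have h7 := congrArg (algebraMap k[X] (RatFunc k)) h5
    simp only [map_mul, map_sub, map_pow, RatFunc.algebraMap_X] at h7
    rw [div_eq_iff (pow_ne_zero 2 hD'), div_sub_one hB', mul_div_assoc', div_mul_eq_mul_div,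
      eq_div_iff hB']
    simp only [map_mul, map_sub]
    linear_combination h7
  have hA0 : Apoly k p ≠ 0 := by
    rw [Apoly]
    refine pow_ne_zero _ (mul_ne_zero (X_sub_C_ne_zero 16) ?_)
    rw [A4k_eq]
    exact (by monicity! : (X ^ 2 + 224 * X + 256 : k[X]).Monic).ne_zero
  have hAdvd : (X - C (16 : k)) ^ e ∣ Apoly k p := by
    rw [Apoly, he', mul_pow]
    exact dvd_mul_right _ _
  have hAdeg : (Apoly k p).natDegree ≤ B.natDegree := by
    rw [hBdeg, Apoly, he']
    have hodd : Odd p := hpr.odd_of_ne_two hp2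
    obtain ⟨i, hi⟩ := hodd
    have h8 : ((X - C 16) * A4k k).natDegree ≤ 3 := by
      refine natDegree_mul_le.trans ?_
      rw [natDegree_X_sub_C, A4k_eq]
      have : (X ^ 2 + 224 * X + 256 : k[X]).natDegree ≤ 2 := by compute_degree
      omega
    refine natDegree_pow_le.trans ?_
    have : (e + 1 - 1) / 2 = i := by omega
    rw [he] at hi
    have h9 : e * ((X - C 16) * A4k k).natDegree ≤ e * 3 := Nat.mul_le_mul_left _ h8
    rw [← he] at this
    omega
  have := Fermat.Agent.S40x.Thick.RatOrders.le_two_mul_natDegree_denom (e := e) e 16 r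
    (Apoly k p) B hB0 hB16 hA0 hAdvd hAdeg h6
  rw [he']
  exact this

/-- **The package (L9\*)**, concrete form: `δ` = reduction mod `p` of `(x₄(q^p) - x₄^p)/p`. -/
theorem count (hp2 : p ≠ 2) (r : RatFunc k)
    (hr : evP (xK k) r.num =
      coeffMap (Int.castRingHom k) (Fermat.Agent.S40x.Thick.T1QSeries.frobQuot p L4.x4) *
        evP (xK k) r.denom) :
    p - 1 ≤ 2 * r.denom.natDegree := by
  refine count_of k p hp2 r _
    (coeffMap (Int.castRingHom k)
      (HahnSeries.ofPowerSeries ℤ ℤ Fermat.Agent.S40x.Thick.T1QSeries.G4)) ?_ ?_ hr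
  · have h := congrArg (coeffMap (Int.castRingHom k)) Fermat.Agent.S40x.Thick.T1QSeries.thetaL_x4
    rw [map_mul, Fermat.Agent.S40x.Thick.ThetaX4K.coeffMap_thetaL] at h
    rw [xK, Fermat.Agent.S40x.Thick.ModM.cK, h, mul_comm]
  · exact Fermat.Agent.S40x.Thick.T1QSeries.thetaL_frobQuot_x4_bar p k

/-- Transfer of the relation `N(x̄) = δ D(x̄)` to the reduced fraction of `N / D`. -/
theorem evP_num_denom_of_div (Dk : LaurentSeries k) (N D : k[X]) (hD0 : D ≠ 0)
    (h : evP (xK k) N = Dk * evP (xK k) D) :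
    evP (xK k) (algebraMap k[X] (RatFunc k) N / algebraMap k[X] (RatFunc k) D).num =
      Dk * evP (xK k) (algebraMap k[X] (RatFunc k) N / algebraMap k[X] (RatFunc k) D).denom := by
  set r : RatFunc k := algebraMap k[X] (RatFunc k) N / algebraMap k[X] (RatFunc k) D with hr
  have h1 : r.num * D = N * r.denom := (RatFunc.num_mul_eq_mul_denom_iff hD0).mpr hr
  have h2 := congrArg (evP (xK k)) h1
  rw [map_mul, map_mul, h] at h2
  have hD1 : evP (xK k) D ≠ 0 := by
    rwa [Ne, map_eq_zero_iff _ (evP_xK_injective k)]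
  apply mul_right_cancel₀ hD1
  linear_combination h2

/-- **(L9\*)** for an arbitrary fraction `N / D`. -/
theorem count_div (hp2 : p ≠ 2) (N D : k[X]) (hD0 : D ≠ 0)
    (h : evP (xK k) N =
      coeffMap (Int.castRingHom k) (Fermat.Agent.S40x.Thick.T1QSeries.frobQuot p L4.x4) *
        evP (xK k) D) :
    p - 1 ≤ 2 * (algebraMap k[X] (RatFunc k) N / algebraMap k[X] (RatFunc k) D).denom.natDegree :=
  count k p hp2 _ (evP_num_denom_of_div k _ N D hD0 h)

end Field

end

end Fermat.Agent.S40x.Thick.Count
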