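/-
P-S44/S40, block R1, T-block leaf (o0/o1) (helper81): the residue function field at level `4`
is the rational function field of the Hauptmodul `x̄ = x4k k`.

* `Fk_four_eq` : `Fk k 4 = k⟮x̄⟯` (from the landed `gens_x4k` + `x4k_mem_four`);
* `transcendental_x4k`, `aeval_x4k_injective` : `aeval x̄ : k[X] → k((q))` is injective;
* `evX4 : RatFunc k →ₐ[k] LaurentSeries k`, the extension of `aeval x̄`, and for ANY ring hom
  `ev : RatFunc k →+* LaurentSeries k` extending `aeval x̄` : `Set.range ev = k⟮x̄⟯`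
  (`range_ev`, `mem_adjoin_iff_exists_ev`);
* `exists_poly_of_isIntegral` : an element of `k⟮x̄⟯` integral over `Algebra.adjoin k {x̄}` is a
  polynomial in `x̄` (`k[X]` is integrally closed); `exists_poly_of_isIntegral_Fk` : same for
  an element of `Fk k 4`.
-/
import Mathlib
import Fermat.Agent.Gateway.AuxLevel.MembershipFk
import Fermat.Agent.Gateway.GoodRed.Instantiate.UpperBound4

set_option autoImplicit false

noncomputable section

namespace Fermat.Agent.S40x.Thick.Haupt4k

open Polynomial IntermediateField ModularCurve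
open Fermat.Agent.Gateway.GoodRed.ConjFamily (Fk)
open Fermat.Agent.Gateway.AuxLevel.L4 (x4k gens_x4k x4k_mem_four)

variable {k : Type} [Field k]

/-! ### (o0) the function field of level `4` -/

/-- **(o0)** `Fk k 4 = k(x̄)` inside `k((q))`. -/
theorem Fk_four_eq [IsAlgClosed k] (h4 : ((4 : ℕ) : k) ≠ 0) : Fk k 4 = k⟮x4k k⟯ := by
  apply le_antisymm
  · rw [Fk, modularFunctionFieldFullC, adjoin_le_iff]
    rintro y ⟨d, hd0, hd, rfl⟩
    exact gens_x4k k d hd
  · rw [adjoin_simple_le_iff]
    exact x4k_mem_four h4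

/-! ### (o1) `x̄` is transcendental; evaluation of rational functions -/

theorem transcendental_x4k : Transcendental k (x4k k) :=
  Fermat.Agent.Gateway.GoodRed.UpperBound4.transcendental_x4k

theorem aeval_x4k_injective :
    Function.Injective (aeval (x4k k) : k[X] →ₐ[k] LaurentSeries k) :=
  transcendental_iff_injective.mp transcendental_x4k

theorem aeval_x4k_eq_zero_iff (P : k[X]) : aeval (x4k k) P = 0 ↔ P = 0 := by
  constructor
  · intro h
    exact aeval_x4k_injective (by rw [h, map_zero])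
  · rintro rfl
    exact map_zero _

/-- The extension of `aeval x̄` to rational functions. -/
def evX4 : RatFunc k →ₐ[k] LaurentSeries k :=
  RatFunc.liftAlgHom (aeval (x4k k))
    (nonZeroDivisors_le_comap_nonZeroDivisors_of_injective _ aeval_x4k_injective)

theorem evX4_algebraMap (P : k[X]) :
    evX4 (algebraMap k[X] (RatFunc k) P) = aeval (x4k k) P := by
  have h := RatFunc.liftAlgHom_apply_div' (aeval (x4k k))
    (nonZeroDivisors_le_comap_nonZeroDivisors_of_injective _ aeval_x4k_injective) P 1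
  simpa [evX4] using h

theorem evX4_injective : Function.Injective (evX4 : RatFunc k →ₐ[k] LaurentSeries k) :=
  (evX4 : RatFunc k →ₐ[k] LaurentSeries k).toRingHom.injective

theorem evX4_X : evX4 (RatFunc.X : RatFunc k) = x4k k := by
  rw [← RatFunc.algebraMap_X, evX4_algebraMap, aeval_X]

/-! ### the range of ANY extension of `aeval x̄` -/

section AnyEv

variable (ev : RatFunc k →+* LaurentSeries k)
  (hev : ∀ P : k[X], ev (algebraMap k[X] (RatFunc k) P) = aeval (x4k k) P)

include hev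

/-- `ev (P / Q) = P(x̄) / Q(x̄)`. -/
theorem ev_div (P Q : k[X]) :
    ev (algebraMap k[X] (RatFunc k) P / algebraMap k[X] (RatFunc k) Q) =
      aeval (x4k k) P / aeval (x4k k) Q := by
  rw [map_div₀, hev, hev]

/-- every value of `ev` is a quotient of polynomials in `x̄`. -/
theorem ev_eq_num_div_denom (r : RatFunc k) :
    ev r = aeval (x4k k) r.num / aeval (x4k k) r.denom := by
  conv_lhs => rw [← RatFunc.num_div_denom r]
  exact ev_div ev hev _ _

/-- **(o1)** the range of `ev` is `k(x̄)`. -/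
theorem mem_adjoin_iff_exists_ev (f : LaurentSeries k) :
    f ∈ k⟮x4k k⟯ ↔ ∃ r : RatFunc k, ev r = f := by
  rw [mem_adjoin_simple_iff]
  constructor
  · rintro ⟨P, Q, rfl⟩
    exact ⟨algebraMap k[X] (RatFunc k) P / algebraMap k[X] (RatFunc k) Q, ev_div ev hev P Q⟩
  · rintro ⟨r, rfl⟩
    exact ⟨r.num, r.denom, ev_eq_num_div_denom ev hev r⟩

theorem range_ev : Set.range ev = (k⟮x4k k⟯ : Set (LaurentSeries k)) := by
  ext f
  rw [SetLike.mem_coe, mem_adjoin_iff_exists_ev ev hev, Set.mem_range]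

theorem ev_mem_adjoin (r : RatFunc k) : ev r ∈ k⟮x4k k⟯ :=
  (mem_adjoin_iff_exists_ev ev hev _).mpr ⟨r, rfl⟩

/-- **(o1)** an element of `k(x̄)` integral over `k[x̄]` is a polynomial in `x̄`, in the form
"`ev r` integral over `k[x̄]` implies `r` is a polynomial". -/
theorem exists_poly_of_isIntegral_ev (r : RatFunc k)
    (hint : IsIntegral (Algebra.adjoin k {x4k k}) (ev r)) :
    ∃ P : k[X], r = algebraMap k[X] (RatFunc k) P := by
  classical
  set A := Algebra.adjoin k {x4k k} with hA
  -- the surjection `k[X] → A`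
  have hmem : ∀ P : k[X], aeval (x4k k) P ∈ A := fun P => by
    rw [hA, Algebra.adjoin_singleton_eq_range_aeval]
    exact ⟨P, rfl⟩
  let φ : k[X] →+* A :=
    { toFun := fun P => ⟨aeval (x4k k) P, hmem P⟩
      map_one' := by ext; simp
      map_mul' := fun a b => by ext; simp
      map_zero' := by ext; simp
      map_add' := fun a b => by ext; simp }
  have hφ : Function.Surjective φ := by
    rintro ⟨a, ha⟩
    rw [hA, Algebra.adjoin_singleton_eq_range_aeval] at ha
    obtain ⟨P, rfl⟩ := ha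
    exact ⟨P, rfl⟩
  obtain ⟨p, hpm, hp0⟩ := hint
  obtain ⟨q, hqp, -, hqm⟩ := Polynomial.lifts_and_natDegree_eq_and_monic
    ((Polynomial.mem_lifts p).mpr (Polynomial.map_surjective φ hφ p)) hpm
  -- transport the integrality equation through `ev`
  have hcomp : (algebraMap A (LaurentSeries k)).comp φ =
      ev.comp (algebraMap k[X] (RatFunc k)) := by
    refine RingHom.ext fun P => ?_
    rw [RingHom.comp_apply, RingHom.comp_apply, hev]
    rfl
  have h0 : ev (eval₂ (algebraMap k[X] (RatFunc k)) r q) = 0 := by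
    rw [Polynomial.hom_eval₂, ← hcomp, ← Polynomial.eval₂_map, hqp]
    exact hp0
  have h1 : eval₂ (algebraMap k[X] (RatFunc k)) r q = 0 := by
    apply ev.injective
    rw [h0, map_zero]
  have hr : IsIntegral k[X] r := ⟨q, hqm, h1⟩
  obtain ⟨P, hP⟩ := IsIntegrallyClosed.isIntegral_iff.mp hr
  exact ⟨P, hP.symm⟩

/-- **(o1)** an element of `k(x̄)` integral over `k[x̄] = Algebra.adjoin k {x̄}` is a polynomial
in `x̄`. -/
theorem exists_poly_of_isIntegral' {f : LaurentSeries k} (hf : f ∈ k⟮x4k k⟯)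
    (hint : IsIntegral (Algebra.adjoin k {x4k k}) f) :
    ∃ P : k[X], f = aeval (x4k k) P := by
  obtain ⟨r, rfl⟩ := (mem_adjoin_iff_exists_ev ev hev f).mp hf
  obtain ⟨P, rfl⟩ := exists_poly_of_isIntegral_ev ev hev r hint
  exact ⟨P, hev P⟩

end AnyEv

/-! ### consumer forms (no `ev` in the statement) -/

/-- **(o1)** an element of `k(x̄)` integral over `k[x̄] = Algebra.adjoin k {x̄}` is a polynomial
in `x̄`. -/
theorem exists_poly_of_isIntegral {f : LaurentSeries k} (hf : f ∈ k⟮x4k k⟯)
    (hint : IsIntegral (Algebra.adjoin k {x4k k}) f) :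
    ∃ P : k[X], f = aeval (x4k k) P :=
  exists_poly_of_isIntegral' (evX4 : RatFunc k →ₐ[k] LaurentSeries k).toRingHom
    (fun P => evX4_algebraMap P) hf hint

/-- **(o0)+(o1)** an element of the level-`4` function field integral over `k[x̄]` is a
polynomial in `x̄`. -/
theorem exists_poly_of_isIntegral_Fk [IsAlgClosed k] (h4 : ((4 : ℕ) : k) ≠ 0)
    {f : LaurentSeries k} (hf : f ∈ Fk k 4)
    (hint : IsIntegral (Algebra.adjoin k {x4k k}) f) :
    ∃ P : k[X], f = aeval (x4k k) P :=
  exists_poly_of_isIntegral (Fk_four_eq h4 ▸ hf) hint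

/-- every element of `Fk k 4` is `evX4 r` for a unique rational function `r`. -/
theorem existsUnique_evX4_eq [IsAlgClosed k] (h4 : ((4 : ℕ) : k) ≠ 0)
    {f : LaurentSeries k} (hf : f ∈ Fk k 4) : ∃! r : RatFunc k, evX4 r = f := by
  have hf' : f ∈ k⟮x4k k⟯ := Fk_four_eq h4 ▸ hf
  obtain ⟨r, hr⟩ := (mem_adjoin_iff_exists_ev
    (evX4 : RatFunc k →ₐ[k] LaurentSeries k).toRingHom (fun P => evX4_algebraMap P) f).mp hf'
  exact ⟨r, hr, fun r' hr' => evX4_injective (hr'.trans hr.symm)⟩

/-- `evX4 r ∈ Fk k 4`. -/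
theorem evX4_mem_Fk [IsAlgClosed k] (h4 : ((4 : ℕ) : k) ≠ 0) (r : RatFunc k) :
    evX4 r ∈ Fk k 4 := by
  rw [Fk_four_eq h4]
  exact ev_mem_adjoin (evX4 : RatFunc k →ₐ[k] LaurentSeries k).toRingHom
    (fun P => evX4_algebraMap P) r

/-! ### the same with codomain `Fk k 4` (the form consumed by `PolesNodes`: `ev : RatFunc k →+* κ₁`
surjective, `ev (algebraMap P) = aeval x̄ P`) -/

section Cod

variable [IsAlgClosed k] (h4 : ((4 : ℕ) : k) ≠ 0)

/-- The Hauptmodul as an element of `Fk k 4` (`= L4.tFk (dvd_refl 4) _`). -/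
def xFk : Fk k 4 := ⟨x4k k, x4k_mem_four h4⟩

theorem coe_xFk : ((xFk h4 : Fk k 4) : LaurentSeries k) = x4k k := rfl

/-- `evX4` with codomain the level-`4` function field. -/
def evFk : RatFunc k →ₐ[k] Fk k 4 :=
  (evX4 : RatFunc k →ₐ[k] LaurentSeries k).codRestrict (Fk k 4).toSubalgebra
    (fun r => evX4_mem_Fk h4 r)

theorem coe_evFk (r : RatFunc k) : ((evFk h4 r : Fk k 4) : LaurentSeries k) = evX4 r := rfl

theorem evFk_algebraMap (P : k[X]) :
    evFk h4 (algebraMap k[X] (RatFunc k) P) = aeval (xFk h4) P := by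
  apply Subtype.ext
  rw [coe_evFk, evX4_algebraMap]
  exact Subalgebra.aeval_coe (Fk k 4).toSubalgebra (xFk h4) P

theorem evFk_injective : Function.Injective (evFk h4) :=
  (evFk h4).toRingHom.injective

theorem evFk_surjective : Function.Surjective (evFk h4) := by
  rintro ⟨f, hf⟩
  obtain ⟨r, hr, -⟩ := existsUnique_evX4_eq h4 hf
  exact ⟨r, Subtype.ext hr⟩

/-- `RatFunc k ≃ₐ[k] Fk k 4`, `X ↦ x̄`. -/
def evFkEquiv : RatFunc k ≃ₐ[k] Fk k 4 :=
  AlgEquiv.ofBijective (evFk h4) ⟨evFk_injective h4, evFk_surjective h4⟩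

theorem evFkEquiv_apply (r : RatFunc k) : evFkEquiv h4 r = evFk h4 r := rfl

set_option synthInstance.maxHeartbeats 400000 in
set_option maxHeartbeats 1000000 in
/-- an element of `Fk k 4` integral over `k[x̄]` (inside `Fk k 4`) is a polynomial in `x̄`. -/
theorem exists_poly_of_isIntegral_xFk {f : Fk k 4}
    (hint : IsIntegral (Algebra.adjoin k {xFk h4}) f) : ∃ P : k[X], f = aeval (xFk h4) P := by
  obtain ⟨r, rfl⟩ := evFk_surjective h4 f
  obtain ⟨p, hpm, hp0⟩ := hint
  -- lift the integrality equation to `k[X]`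
  have hmem : ∀ P : k[X], aeval (xFk h4) P ∈ Algebra.adjoin k {xFk h4} := fun P => by
    rw [Algebra.adjoin_singleton_eq_range_aeval]
    exact ⟨P, rfl⟩
  let φ : k[X] →+* Algebra.adjoin k {xFk h4} :=
    { toFun := fun P => ⟨aeval (xFk h4) P, hmem P⟩
      map_one' := by ext; simp
      map_mul' := fun a b => by ext; simp
      map_zero' := by ext; simp
      map_add' := fun a b => by ext; simp }
  have hφ : Function.Surjective φ := by
    rintro ⟨a, ha⟩
    rw [Algebra.adjoin_singleton_eq_range_aeval] at ha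
    obtain ⟨P, rfl⟩ := ha
    exact ⟨P, rfl⟩
  obtain ⟨q, hqp, -, hqm⟩ := Polynomial.lifts_and_natDegree_eq_and_monic
    ((Polynomial.mem_lifts p).mpr (Polynomial.map_surjective φ hφ p)) hpm
  have hcomp : (algebraMap (Algebra.adjoin k {xFk h4}) (Fk k 4)).comp φ =
      (evFk h4 : RatFunc k →+* Fk k 4).comp (algebraMap k[X] (RatFunc k)) := by
    refine RingHom.ext fun P => ?_
    rw [RingHom.comp_apply, RingHom.comp_apply]
    exact (evFk_algebraMap h4 P).symm
  have h0 : (evFk h4 : RatFunc k →+* Fk k 4) (eval₂ (algebraMap k[X] (RatFunc k)) r q) = 0 := by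
    rw [Polynomial.hom_eval₂, ← hcomp, ← Polynomial.eval₂_map, hqp]
    exact hp0
  have h1 : eval₂ (algebraMap k[X] (RatFunc k)) r q = 0 := by
    apply (evFk h4 : RatFunc k →+* Fk k 4).injective
    rw [h0, map_zero]
  have hr : IsIntegral k[X] r := ⟨q, hqm, h1⟩
  obtain ⟨P, hP⟩ := IsIntegrallyClosed.isIntegral_iff.mp hr
  exact ⟨P, by rw [← hP, evFk_algebraMap]⟩

end Cod

end Fermat.Agent.S40x.Thick.Haupt4k
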