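/-
P-S44/S40, block R1, T-block glue (helper81): the evaluation maps `evX4 / evFk` of `Haupt4k`
in the num/denom shape consumed by `Count.count` (helper65), and the resulting pole count `hT9`
for `ev := evFk h4` (hypothesis `hT9` of `Assemble.thick_bezout` up to the identification of
`red_∞ w` with the reduction of the Frobenius quotient, T2/T3).

* `xK_eq_x4k : ThetaX4.xK k = x4k k` (rfl), `evP_eq_aeval`;
* `evP_num_eq_mul (r) : evP x̄ r.num = evX4 r * evP x̄ r.denom` (and the `evFk` form);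
* `count_evX4`, `count_evFk` : `ev r = δ̄` (`δ̄` = reduction of `(x₄(q^p) - x₄^p)/p`)
  implies `p - 1 ≤ 2 * r.denom.natDegree`.
-/
import Mathlib
import Fermat.Agent.S40x.Thick.Haupt4k
import Fermat.Agent.S40x.Thick.Count

set_option autoImplicit false

noncomputable section

namespace Fermat.Agent.S40x.Thick.Haupt4kCount

open Polynomial IntermediateField ModularCurve
open Fermat.Agent.Gateway.GoodRed.ConjFamily (Fk)
open Fermat.Agent.Gateway.AuxLevel
open Fermat.Agent.Gateway.AuxLevel.L4 (x4k)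
open Fermat.Agent.S40x.Thick.Haupt4k
open Fermat.Agent.S40x.Thick.ThetaX4 (xK)
open Fermat.Agent.S40x.Thick.Count (evP)

variable {k : Type} [Field k]

/-- the two names of the reduced Hauptmodul agree definitionally. -/
theorem xK_eq_x4k : xK k = x4k k := rfl

theorem evP_eq_aeval (x : LaurentSeries k) (P : k[X]) : evP x P = aeval x P := by
  rw [Fermat.Agent.S40x.Thick.Count.evP_apply, aeval_def]
  congr 1
  exact RingHom.ext fun c => Fermat.Agent.S28.C_eq_algebraMap_laurent c

theorem evP_xK_eq_aeval (P : k[X]) : evP (xK k) P = aeval (x4k k) P :=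
  evP_eq_aeval _ P

/-- **num/denom form** of `evX4`: `N(x̄) = evX4 r · D(x̄)` for `r = N / D` in lowest terms. -/
theorem evP_num_eq_mul (r : RatFunc k) :
    evP (xK k) r.num = evX4 r * evP (xK k) r.denom := by
  rw [evP_xK_eq_aeval, evP_xK_eq_aeval]
  have h := ev_eq_num_div_denom (evX4 : RatFunc k →ₐ[k] LaurentSeries k).toRingHom
    (fun P => evX4_algebraMap P) r
  have hd : aeval (x4k k) r.denom ≠ 0 := by
    rw [Ne, aeval_x4k_eq_zero_iff]
    exact RatFunc.denom_ne_zero r
  have h' : evX4 r = aeval (x4k k) r.num / aeval (x4k k) r.denom := h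
  rw [h', div_mul_cancel₀ _ hd]

/-- **num/denom form** of `evFk`. -/
theorem evP_num_eq_mul_evFk [IsAlgClosed k] (h4 : ((4 : ℕ) : k) ≠ 0) (r : RatFunc k) :
    evP (xK k) r.num = ((evFk h4 r : Fk k 4) : LaurentSeries k) * evP (xK k) r.denom := by
  rw [coe_evFk]
  exact evP_num_eq_mul r

/-- conversely, a relation `N(x̄) = f · D(x̄)` with `D ≠ 0` identifies `f` with `evX4 (N / D)`. -/
theorem evX4_div_eq_of_mul {f : LaurentSeries k} {N D : k[X]} (hD : D ≠ 0)
    (h : evP (xK k) N = f * evP (xK k) D) :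
    evX4 (algebraMap k[X] (RatFunc k) N / algebraMap k[X] (RatFunc k) D) = f := by
  rw [evP_xK_eq_aeval, evP_xK_eq_aeval] at h
  have hd : aeval (x4k k) D ≠ 0 := by
    rwa [Ne, aeval_x4k_eq_zero_iff]
  rw [map_div₀, evX4_algebraMap, evX4_algebraMap, h, mul_div_cancel_right₀ _ hd]

section Count

variable (p : ℕ) [Fact p.Prime] [CharP k p]

/-- **(L9\*) for `evX4`**: if `r(x̄)` is the reduction of `(x₄(q^p) - x₄^p)/p`, the denominator
of `r` has degree at least `(p - 1)/2`. -/
theorem count_evX4 (hp2 : p ≠ 2) (r : RatFunc k)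
    (h : evX4 r =
      coeffMap (Int.castRingHom k) (Fermat.Agent.S40x.Thick.T1QSeries.frobQuot p L4.x4)) :
    p - 1 ≤ 2 * r.denom.natDegree :=
  Fermat.Agent.S40x.Thick.Count.count k p hp2 r (by rw [evP_num_eq_mul, h])

/-- **(L9\*) for `evFk`** = hypothesis `hT9` of `Assemble.thick_bezout` with `ev := evFk h4`,
once `red_∞ w` is known to be the reduction of the Frobenius quotient (T2/T3, `UPsi`). -/
theorem count_evFk [IsAlgClosed k] (h4 : ((4 : ℕ) : k) ≠ 0) (hp2 : p ≠ 2) (δ : Fk k 4)
    (hδ : ((δ : Fk k 4) : LaurentSeries k) =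
      coeffMap (Int.castRingHom k) (Fermat.Agent.S40x.Thick.T1QSeries.frobQuot p L4.x4))
    (r : RatFunc k) (hr : evFk h4 r = δ) : p - 1 ≤ 2 * r.denom.natDegree := by
  apply count_evX4 p hp2 r
  rw [← coe_evFk h4 r, hr, hδ]

end Count

end Fermat.Agent.S40x.Thick.Haupt4kCount
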