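/-
P-S44/S40, block R1-T (thickness), items T2 + T3 (helper20).

`M` a level, `q ∤ M` a prime (the residue characteristic), `x : ℤ((t))` an integer Laurent series
lying in `F_M` (for the thickness lemma: `x = x₄`, the Hauptmodul of `X₀(4)`, `4 ∣ M`).  With
`t' := tInt M x hx ∈ F_M` (vocabulary of `S34x/Inst/ElementYRed`) put, in `F_{Mq}`,

  `u  := nodeEltInf t' t'  = β t' - (α t')^q`,      `u' := nodeEltZero t' t' = α t' - (β t')^q`.

Let `D' ∈ ℤ((t))` be the Kronecker quotient, `x(t^q) - x(t)^q = q D'` (`exists_kronecker_int`).  Then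

* (T2) `u, u' ∈ Ov_∞ ∩ Ov_0`;  `red_∞ u = 0`, `red_∞ u' = x̄ - x̄^(q²)`, `red_0 u = x̄ - x̄^(q²)`,
  `red_0 u' = 0`;  `u = q • dInf` with `dInf ∈ Ov_∞` (so `v_∞(u) ≥ 1`), `u' = q • dZero` with
  `dZero ∈ Ov_0` (so `v_0(u') ≥ 1`);  `Ψ := dInf * u' = u * dZero` lies in `Ov_∞ ∩ Ov_0`,
  `u * u' = q • Ψ`, and `red_∞ Ψ = D̄' (x̄ - x̄^(q²)) = red_0 Ψ`;
* (T3) `δ := red_∞ (u / q) = D̄'`, the coefficientwise reduction of `D'` (and `red_0 (u'/q) = D̄'`).
-/
import Fermat.Agent.S34x.Inst.ElementYRed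
import Fermat.Agent.S34x.TwoVal.NodeElt
import Fermat.Agent.Gateway.AuxLevel.MembershipFBar
import Fermat.Agent.S40x.Thick.T1QSeries

set_option autoImplicit false
set_option linter.style.haveILetI false
set_option linter.unusedSectionVars false

noncomputable section

namespace Fermat.Agent.S40x.Thick.UPsi

open ModularCurve AlgebraicCurve IntermediateField
open Fermat.Agent.Gateway.Hecke Fermat.Agent.Gateway.Red Fermat.Agent.Gateway.GoodRed
open Fermat.Agent.S34x.TwoVal Fermat.Agent.S34x.Inst.ElementYRed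

/-! ### The Kronecker quotient of an integer series -/

section Kronecker

variable (q : ℕ) [hq : Fact q.Prime]

/-- **Kronecker congruence** for an arbitrary integer Laurent series:
`x(t^q) - x(t)^q = q D'` with `D' ∈ ℤ((t))`. -/
theorem exists_kronecker_int (x : LaurentSeries ℤ) :
    haveI : NeZero q := ⟨hq.out.ne_zero⟩
    ∃ D' : LaurentSeries ℤ, qExpand ℤ q x - x ^ q = HahnSeries.C (q : ℤ) * D' := by
  haveI : NeZero q := ⟨hq.out.ne_zero⟩
  set D : LaurentSeries ℤ := qExpand ℤ q x - x ^ q with hD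
  have hred : coeffMap (Int.castRingHom (ZMod q)) D = 0 := by
    rw [hD, map_sub, map_pow, Fermat.Agent.Gateway.Kummer.coeffMap_qExpand,
      qExpand_coeffMap_int (k := ZMod q) q x, sub_self]
  have hdvd : ∀ n, (q : ℤ) ∣ D.coeff n := by
    intro n
    have := congrArg (fun y : LaurentSeries (ZMod q) => y.coeff n) hred
    simp only [coeffMap_coeff, HahnSeries.coeff_zero] at this
    exact (ZMod.intCast_zmod_eq_zero_iff_dvd _ _).mp this
  refine ⟨⟨fun n => D.coeff n / (q : ℤ), D.isPWO_support.mono ?_⟩, ?_⟩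
  · intro n hn
    simp only [Function.mem_support, ne_eq] at hn ⊢
    intro h0
    apply hn
    rw [h0, Int.zero_ediv]
  · ext n
    rw [HahnSeries.C_mul_eq_smul, HahnSeries.coeff_smul]
    show D.coeff n = (q : ℤ) • (D.coeff n / (q : ℤ))
    rw [smul_eq_mul, Int.mul_ediv_cancel' (hdvd n)]

end Kronecker

/-! ### Integer series: coefficient maps -/

section IntSeries

variable {L : Type*} [Field L] [CharZero L]

/-- the Kronecker relation transported to coefficients in a field of characteristic zero -/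
theorem coeffMap_kron (q : ℕ) [NeZero q] (x D' : LaurentSeries ℤ)
    (hD' : qExpand ℤ q x - x ^ q = HahnSeries.C (q : ℤ) * D') :
    qExpand L q (coeffMap (Int.castRingHom L) x) - (coeffMap (Int.castRingHom L) x) ^ q =
      HahnSeries.C (q : L) * coeffMap (Int.castRingHom L) D' := by
  have h := congrArg (coeffMap (Int.castRingHom L)) hD'
  rw [map_sub, map_pow, Fermat.Agent.Gateway.Kummer.coeffMap_qExpand, map_mul] at h
  rw [h]
  congr 1
  rw [HahnSeries.C_apply, HahnSeries.C_apply, coeffMap_single]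
  simp

end IntSeries

/-! ### Level `M q`: the node elements of an integer series -/

section LevelMq

variable {L : Type} [Field L] [Algebra ℚ L] [IsAlgClosed L] (A : ValuationSubring L)
  {k : Type} [Field k] (π : A →+* k) (M q : ℕ) [NeZero M] [NeZero q] [Fact q.Prime] [CharP k q]
  (hdeg : finrankAlong L (heckeAlphaBar L M q) = q + 1) (hq : q.Prime) (hqM : ¬ q ∣ M)
  (x : LaurentSeries ℤ) (hx : coeffMap (Int.castRingHom L) x ∈ FBar L M)

/-- `u := β t' - (α t')^q` -/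
def uElt : FL L (M * q) := nodeEltInf L M q (tInt M x hx) (tInt M x hx)

/-- `u' := α t' - (β t')^q` -/
def uElt' : FL L (M * q) := nodeEltZero L M q (tInt M x hx) (tInt M x hx)

/-! #### memberships (landed `NodeElt`) -/

theorem uElt_mem_Ov : uElt M q x hx ∈ Ov A π (FBar L (M * q)) :=
  nodeEltInf_mem_Ov A π M q _ _ (tInt_mem_Ov A π M x hx) (tInt_mem_Ov A π M x hx)

theorem uElt'_mem_Ov : uElt' M q x hx ∈ Ov A π (FBar L (M * q)) :=
  nodeEltZero_mem_Ov A π M q _ _ (tInt_mem_Ov A π M x hx) (tInt_mem_Ov A π M x hx)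

theorem uElt_mem_Ov0 : uElt M q x hx ∈ Ov0 A π M q hdeg hq hqM :=
  nodeEltInf_mem_Ov0 A π M q hdeg hq hqM _ _ (tInt_mem_Ov A π M x hx) (tInt_mem_Ov A π M x hx)

theorem uElt'_mem_Ov0 : uElt' M q x hx ∈ Ov0 A π M q hdeg hq hqM :=
  nodeEltZero_mem_Ov0 A π M q hdeg hq hqM _ _ (tInt_mem_Ov A π M x hx) (tInt_mem_Ov A π M x hx)

/-! #### the four reductions (K1a-K1d for a series with coefficients in the prime field) -/

/-- `red_∞ u = 0` -/
theorem redV_uElt :
    redV A π (FBar L (M * q)) ⟨uElt M q x hx, uElt_mem_Ov A π M q x hx⟩ = 0 := by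
  have h := redV_nodeEltInf A π M q (tInt M x hx) (tInt M x hx)
    (tInt_mem_Ov A π M x hx) (tInt_mem_Ov A π M x hx)
  rw [redV_tInt A π M x hx, tbar, qExpand_coeffMap_int q x, sub_self] at h
  exact h

/-- `red_∞ u' = x̄ - x̄^(q²)` -/
theorem redV_uElt' :
    redV A π (FBar L (M * q)) ⟨uElt' M q x hx, uElt'_mem_Ov A π M q x hx⟩ =
      tbar k x - tbar k x ^ (q ^ 2) := by
  have h := redV_nodeEltZero A π M q (tInt M x hx) (tInt M x hx)
    (tInt_mem_Ov A π M x hx) (tInt_mem_Ov A π M x hx)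
  rw [redV_tInt A π M x hx, tbar, qExpand_coeffMap_int q x, ← pow_mul, ← sq] at h
  exact h

/-- `red_0 u = x̄ - x̄^(q²)` -/
theorem red0_uElt :
    red0 A π M q hdeg hq hqM ⟨uElt M q x hx, uElt_mem_Ov0 A π M q hdeg hq hqM x hx⟩ =
      tbar k x - tbar k x ^ (q ^ 2) := by
  have h := red0_nodeEltInf A π M q hdeg hq hqM (tInt M x hx) (tInt M x hx)
    (tInt_mem_Ov A π M x hx) (tInt_mem_Ov A π M x hx)
  rw [redV_tInt A π M x hx, tbar, qExpand_coeffMap_int q x, ← pow_mul, ← sq] at h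
  exact h

/-- `red_0 u' = 0` -/
theorem red0_uElt' :
    red0 A π M q hdeg hq hqM ⟨uElt' M q x hx, uElt'_mem_Ov0 A π M q hdeg hq hqM x hx⟩ = 0 := by
  have h := red0_nodeEltZero A π M q hdeg hq hqM (tInt M x hx) (tInt M x hx)
    (tInt_mem_Ov A π M x hx) (tInt_mem_Ov A π M x hx)
  rw [redV_tInt A π M x hx, tbar, qExpand_coeffMap_int q x, sub_self] at h
  exact h

/-! #### `q`-expansions of `u`, `u'` at the two cusps -/

/-- the `q`-expansion of `u` at `∞`: `x(t^q) - x(t)^q` -/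
theorem coe_uElt :
    ((uElt M q x hx : FL L (M * q)) : LaurentSeries L) =
      qExpand L q (coeffMap (Int.castRingHom L) x) - (coeffMap (Int.castRingHom L) x) ^ q := by
  show ((heckeBetaBar L M q (tInt M x hx) - (heckeAlphaBar L M q (tInt M x hx)) ^ q :
    FL L (M * q)) : LaurentSeries L) = _
  rw [AddSubgroupClass.coe_sub, SubmonoidClass.coe_pow, coe_heckeBetaBar, coe_heckeAlphaBar,
    coe_tInt]

/-- the expansion of `u'` at the cusp `0`: `x(s^q) - x(s)^q` -/
theorem iota0_uElt' :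
    iota0 L M q hdeg hq hqM (uElt' M q x hx) =
      qExpand L q (coeffMap (Int.castRingHom L) x) - (coeffMap (Int.castRingHom L) x) ^ q := by
  show iota0 L M q hdeg hq hqM
    (heckeAlphaBar L M q (tInt M x hx) - (heckeBetaBar L M q (tInt M x hx)) ^ q) = _
  rw [map_sub, map_pow, iota0_alpha, iota0_beta, coe_tInt]

variable (D' : LaurentSeries ℤ) (hD' : qExpand ℤ q x - x ^ q = HahnSeries.C (q : ℤ) * D')

/-- `u / q` -/
def dInf : FL L (M * q) := ((q : L)⁻¹) • uElt M q x hx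

/-- `u' / q` -/
def dZero : FL L (M * q) := ((q : L)⁻¹) • uElt' M q x hx

theorem natCast_ne_zero_L : (q : L) ≠ 0 := by
  haveI : CharZero L := algebraRat.charZero L
  exact Nat.cast_ne_zero.mpr (NeZero.ne q)

/-- `u = q • (u/q)` -/
theorem uElt_eq_smul : uElt M q x hx = (q : L) • dInf M q x hx := by
  rw [dInf, smul_smul, mul_inv_cancel₀ (natCast_ne_zero_L q), one_smul]

/-- `u' = q • (u'/q)` -/
theorem uElt'_eq_smul : uElt' M q x hx = (q : L) • dZero M q x hx := by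
  rw [dZero, smul_smul, mul_inv_cancel₀ (natCast_ne_zero_L q), one_smul]

include hD' in
/-- **(T3)** the `q`-expansion of `u / q` at `∞` is the Kronecker quotient `D'` -/
theorem coe_dInf :
    ((dInf M q x hx : FL L (M * q)) : LaurentSeries L) = coeffMap (Int.castRingHom L) D' := by
  haveI : CharZero L := algebraRat.charZero L
  have hC : algebraMap L (LaurentSeries L) ((q : L)⁻¹) = HahnSeries.C ((q : L)⁻¹) :=
    algebraMap_laurentSeries_eq_single L _
  rw [dInf, IntermediateField.coe_smul, coe_uElt, coeffMap_kron q x D' hD',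
    Algebra.smul_def, hC, ← mul_assoc, ← map_mul, inv_mul_cancel₀ (natCast_ne_zero_L q),
    map_one, one_mul]

include hD' in
/-- the expansion of `u' / q` at the cusp `0` is the Kronecker quotient `D'` -/
theorem iota0_dZero :
    iota0 L M q hdeg hq hqM (dZero M q x hx) = coeffMap (Int.castRingHom L) D' := by
  haveI : CharZero L := algebraRat.charZero L
  rw [dZero, Algebra.smul_def, map_mul, iota0_algebraMap, iota0_uElt', coeffMap_kron q x D' hD',
    ← mul_assoc, ← map_mul, inv_mul_cancel₀ (natCast_ne_zero_L q), map_one, one_mul]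

include hD' in
/-- **(T2)** `v_∞(u) ≥ 1`: `u / q` lies in the Gauss ring at `∞` -/
theorem dInf_mem_Ov : dInf M q x hx ∈ Ov A π (FBar L (M * q)) := by
  rw [mem_Ov_iff, coe_dInf M q x hx D' hD', coeffMap_int_eq_embA A]
  exact embA_mem_gaussRing A π _

include hD' in
/-- **(T3)** `δ := red_∞ (u / q) = D̄'` -/
theorem redV_dInf :
    redV A π (FBar L (M * q)) ⟨dInf M q x hx, dInf_mem_Ov A π M q x hx D' hD'⟩ = tbar k D' := by
  rw [redV_of_eq_embA A π (FBar L (M * q)) _ (a := coeffMap (Int.castRingHom A) D')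
    ((coe_dInf M q x hx D' hD').trans (coeffMap_int_eq_embA A D')), redA_coeffMap_int]
  rfl

include hD' in
/-- **(T2)** `v_0(u') ≥ 1`: `u' / q` lies in the Gauss ring at `0` -/
theorem dZero_mem_Ov0 : dZero M q x hx ∈ Ov0 A π M q hdeg hq hqM := by
  rw [mem_Ov0_iff, iota0_dZero M q hdeg hq hqM x hx D' hD', coeffMap_int_eq_embA A]
  exact embA_mem_gaussRing A π _

include hD' in
/-- `red_0 (u' / q) = D̄'` -/
theorem red0_dZero :
    red0 A π M q hdeg hq hqM
      ⟨dZero M q x hx, dZero_mem_Ov0 A π M q hdeg hq hqM x hx D' hD'⟩ = tbar k D' := by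
  rw [red0_apply]
  rw [gaussRed_of_eq_embA A π _ (a := coeffMap (Int.castRingHom A) D')
    ((iota0_dZero M q hdeg hq hqM x hx D' hD').trans (coeffMap_int_eq_embA A D')),
    redA_coeffMap_int]
  rfl

/-! #### `Ψ = u u' / q` -/

/-- `Ψ := (u / q) * u'` -/
def psiElt : FL L (M * q) := dInf M q x hx * uElt' M q x hx

theorem psiElt_eq : psiElt M q x hx = uElt M q x hx * dZero M q x hx := by
  rw [psiElt, dInf, dZero, smul_mul_assoc, mul_smul_comm]

/-- `u * u' = q • Ψ` -/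
theorem uElt_mul_uElt' : uElt M q x hx * uElt' M q x hx = (q : L) • psiElt M q x hx := by
  rw [psiElt, ← smul_mul_assoc, ← uElt_eq_smul]

include hD' in
/-- **(T2)** `Ψ` is integral at `∞` -/
theorem psiElt_mem_Ov : psiElt M q x hx ∈ Ov A π (FBar L (M * q)) :=
  mul_mem (dInf_mem_Ov A π M q x hx D' hD') (uElt'_mem_Ov A π M q x hx)

include hD' in
/-- **(T2)** `Ψ` is integral at `0` -/
theorem psiElt_mem_Ov0 : psiElt M q x hx ∈ Ov0 A π M q hdeg hq hqM := by
  rw [psiElt_eq]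
  exact mul_mem (uElt_mem_Ov0 A π M q hdeg hq hqM x hx)
    (dZero_mem_Ov0 A π M q hdeg hq hqM x hx D' hD')

include hD' in
/-- **(T4 input)** `red_∞ Ψ = δ (x̄ - x̄^(q²))`, `δ = D̄'` -/
theorem redV_psiElt :
    redV A π (FBar L (M * q)) ⟨psiElt M q x hx, psiElt_mem_Ov A π M q x hx D' hD'⟩ =
      tbar k D' * (tbar k x - tbar k x ^ (q ^ 2)) := by
  have h1 : (⟨psiElt M q x hx, psiElt_mem_Ov A π M q x hx D' hD'⟩ :
      Ov A π (FBar L (M * q))) =
      ⟨dInf M q x hx, dInf_mem_Ov A π M q x hx D' hD'⟩ *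
        ⟨uElt' M q x hx, uElt'_mem_Ov A π M q x hx⟩ := rfl
  rw [h1, map_mul, redV_dInf A π M q x hx D' hD', redV_uElt' A π M q x hx]

include hD' in
/-- `red_0 Ψ = (x̄ - x̄^(q²)) δ`: the same series as at `∞` -/
theorem red0_psiElt :
    red0 A π M q hdeg hq hqM
      ⟨psiElt M q x hx, psiElt_mem_Ov0 A π M q hdeg hq hqM x hx D' hD'⟩ =
      (tbar k x - tbar k x ^ (q ^ 2)) * tbar k D' := by
  have h1 : (⟨psiElt M q x hx, psiElt_mem_Ov0 A π M q hdeg hq hqM x hx D' hD'⟩ :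
      Ov0 A π M q hdeg hq hqM) =
      ⟨uElt M q x hx, uElt_mem_Ov0 A π M q hdeg hq hqM x hx⟩ *
        ⟨dZero M q x hx, dZero_mem_Ov0 A π M q hdeg hq hqM x hx D' hD'⟩ :=
    Subtype.ext (psiElt_eq M q x hx)
  rw [h1, map_mul, red0_uElt A π M q hdeg hq hqM x hx,
    red0_dZero A π M q hdeg hq hqM x hx D' hD']

/-! #### poles only over `x = ∞`: everything lies in `L[α t', β t']` -/

theorem uElt_mem_adjoin :
    uElt M q x hx ∈ Algebra.adjoin L
      {heckeAlphaBar L M q (tInt M x hx), heckeBetaBar L M q (tInt M x hx)} :=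
  sub_mem (Algebra.subset_adjoin (by simp)) (pow_mem (Algebra.subset_adjoin (by simp)) q)

theorem uElt'_mem_adjoin :
    uElt' M q x hx ∈ Algebra.adjoin L
      {heckeAlphaBar L M q (tInt M x hx), heckeBetaBar L M q (tInt M x hx)} :=
  sub_mem (Algebra.subset_adjoin (by simp)) (pow_mem (Algebra.subset_adjoin (by simp)) q)

theorem dInf_mem_adjoin :
    dInf M q x hx ∈ Algebra.adjoin L
      {heckeAlphaBar L M q (tInt M x hx), heckeBetaBar L M q (tInt M x hx)} :=
  Subalgebra.smul_mem _ (uElt_mem_adjoin M q x hx) _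

theorem dZero_mem_adjoin :
    dZero M q x hx ∈ Algebra.adjoin L
      {heckeAlphaBar L M q (tInt M x hx), heckeBetaBar L M q (tInt M x hx)} :=
  Subalgebra.smul_mem _ (uElt'_mem_adjoin M q x hx) _

theorem psiElt_mem_adjoin :
    psiElt M q x hx ∈ Algebra.adjoin L
      {heckeAlphaBar L M q (tInt M x hx), heckeBetaBar L M q (tInt M x hx)} :=
  mul_mem (dInf_mem_adjoin M q x hx) (uElt'_mem_adjoin M q x hx)

/-! #### the board literals (L2/3), existential form -/

include hD' in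
/-- **(L2/3) `exists_d`**: `u = q * d`, `d ∈ Ov_∞ ∩ L[α t', β t']`, `red_∞ d = D̄'`. -/
theorem exists_d :
    ∃ (d : FL L (M * q)) (hd : d ∈ Ov A π (FBar L (M * q))),
      nodeEltInf L M q (tInt M x hx) (tInt M x hx) =
        algebraMap L (FL L (M * q)) (q : L) * d ∧
      redV A π (FBar L (M * q)) ⟨d, hd⟩ = coeffMap (Int.castRingHom k) D' ∧
      d ∈ Algebra.adjoin L
        {heckeAlphaBar L M q (tInt M x hx), heckeBetaBar L M q (tInt M x hx)} :=
  ⟨dInf M q x hx, dInf_mem_Ov A π M q x hx D' hD',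
    by rw [← Algebra.smul_def]; exact uElt_eq_smul M q x hx,
    redV_dInf A π M q x hx D' hD', dInf_mem_adjoin M q x hx⟩

include hD' in
/-- **(L2/3) `exists_d'`**: `u' = q * d'`, `d' ∈ Ov_0 ∩ L[α t', β t']`, `red_0 d' = D̄'`. -/
theorem exists_d' :
    ∃ (d' : FL L (M * q)) (hd' : d' ∈ Ov0 A π M q hdeg hq hqM),
      nodeEltZero L M q (tInt M x hx) (tInt M x hx) =
        algebraMap L (FL L (M * q)) (q : L) * d' ∧
      red0 A π M q hdeg hq hqM ⟨d', hd'⟩ = coeffMap (Int.castRingHom k) D' ∧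
      d' ∈ Algebra.adjoin L
        {heckeAlphaBar L M q (tInt M x hx), heckeBetaBar L M q (tInt M x hx)} :=
  ⟨dZero M q x hx, dZero_mem_Ov0 A π M q hdeg hq hqM x hx D' hD',
    by rw [← Algebra.smul_def]; exact uElt'_eq_smul M q x hx,
    red0_dZero A π M q hdeg hq hqM x hx D' hD', dZero_mem_adjoin M q x hx⟩

include hD' in
/-- **(L2/3) `exists_psi`**: `Ψ = d * u' = u * d'`, `u * u' = q * Ψ`, `Ψ ∈ Ov_∞ ∩ Ov_0 ∩ L[α t', β t']`,
`red_∞ Ψ = D̄' (x̄ - x̄^(q²))`, `red_0 Ψ = (x̄ - x̄^(q²)) D̄'`. -/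
theorem exists_psi :
    ∃ (Ψ : FL L (M * q)) (hinf : Ψ ∈ Ov A π (FBar L (M * q)))
      (h0 : Ψ ∈ Ov0 A π M q hdeg hq hqM),
      nodeEltInf L M q (tInt M x hx) (tInt M x hx) *
          nodeEltZero L M q (tInt M x hx) (tInt M x hx) =
        algebraMap L (FL L (M * q)) (q : L) * Ψ ∧
      redV A π (FBar L (M * q)) ⟨Ψ, hinf⟩ =
        coeffMap (Int.castRingHom k) D' *
          (coeffMap (Int.castRingHom k) x - coeffMap (Int.castRingHom k) x ^ (q ^ 2)) ∧
      red0 A π M q hdeg hq hqM ⟨Ψ, h0⟩ =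
        (coeffMap (Int.castRingHom k) x - coeffMap (Int.castRingHom k) x ^ (q ^ 2)) *
          coeffMap (Int.castRingHom k) D' ∧
      Ψ ∈ Algebra.adjoin L
        {heckeAlphaBar L M q (tInt M x hx), heckeBetaBar L M q (tInt M x hx)} :=
  ⟨psiElt M q x hx, psiElt_mem_Ov A π M q x hx D' hD',
    psiElt_mem_Ov0 A π M q hdeg hq hqM x hx D' hD',
    by rw [← Algebra.smul_def]; exact uElt_mul_uElt' M q x hx,
    redV_psiElt A π M q x hx D' hD', red0_psiElt A π M q hdeg hq hqM x hx D' hD',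
    psiElt_mem_adjoin M q x hx⟩

end LevelMq

/-! ### The instance `x = x₄` (levels `N` with `4 ∣ N`), `D = frobQuot p x₄` of `T1QSeries` -/

section X4

open Fermat.Agent.Gateway.AuxLevel
open Fermat.Agent.S40x.Thick.T1QSeries (frobQuot C_mul_frobQuot)

variable {L : Type} [Field L] [Algebra ℚ L] [IsAlgClosed L] (A : ValuationSubring L)
  {k : Type} [Field k] (π : A →+* k) (N p : ℕ) [NeZero N] [NeZero p] [Fact p.Prime] [CharP k p]
  (hdeg : finrankAlong L (heckeAlphaBar L N p) = p + 1) (hp : p.Prime) (hpN : ¬ p ∣ N)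
  (h4 : 4 ∣ N)

/-- the Hauptmodul `x₄ ∈ F_N` of `MembershipFBar` is the `tInt` of the integer series `x₄` -/
theorem tInt_x4 : tInt N L4.x4 (L4.x4k_mem_FBar L h4) = L4.tFL L h4 := rfl

/-- the reduction of `x₄`: `x̄ = x4k k` -/
theorem tbar_x4 : tbar k L4.x4 = L4.x4k k := rfl

/-- **(L2/3) `exists_d`** for `x = x₄`, `D = frobQuot p x₄`. -/
theorem exists_d_x4 :
    ∃ (d : FL L (N * p)) (hd : d ∈ Ov A π (FBar L (N * p))),
      nodeEltInf L N p (L4.tFL L h4) (L4.tFL L h4) =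
        algebraMap L (FL L (N * p)) (p : L) * d ∧
      redV A π (FBar L (N * p)) ⟨d, hd⟩ = coeffMap (Int.castRingHom k) (frobQuot p L4.x4) ∧
      d ∈ Algebra.adjoin L
        {heckeAlphaBar L N p (L4.tFL L h4), heckeBetaBar L N p (L4.tFL L h4)} :=
  exists_d A π N p L4.x4 (L4.x4k_mem_FBar L h4) (frobQuot p L4.x4) (C_mul_frobQuot p L4.x4).symm

/-- **(L2/3) `exists_d'`** for `x = x₄`, `D = frobQuot p x₄`. -/
theorem exists_d'_x4 :
    ∃ (d' : FL L (N * p)) (hd' : d' ∈ Ov0 A π N p hdeg hp hpN),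
      nodeEltZero L N p (L4.tFL L h4) (L4.tFL L h4) =
        algebraMap L (FL L (N * p)) (p : L) * d' ∧
      red0 A π N p hdeg hp hpN ⟨d', hd'⟩ = coeffMap (Int.castRingHom k) (frobQuot p L4.x4) ∧
      d' ∈ Algebra.adjoin L
        {heckeAlphaBar L N p (L4.tFL L h4), heckeBetaBar L N p (L4.tFL L h4)} :=
  exists_d' A π N p hdeg hp hpN L4.x4 (L4.x4k_mem_FBar L h4) (frobQuot p L4.x4)
    (C_mul_frobQuot p L4.x4).symm

/-- **(L2/3) `exists_psi`** for `x = x₄`: `u u' = p Ψ`, `Ψ ∈ Ov_∞ ∩ Ov_0 ∩ L[α x, β x]`,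
`red_∞ Ψ = Dk (x̄ - x̄^(p²))`, `red_0 Ψ = (x̄ - x̄^(p²)) Dk`. -/
theorem exists_psi_x4 :
    ∃ (Ψ : FL L (N * p)) (hinf : Ψ ∈ Ov A π (FBar L (N * p)))
      (h0 : Ψ ∈ Ov0 A π N p hdeg hp hpN),
      nodeEltInf L N p (L4.tFL L h4) (L4.tFL L h4) *
          nodeEltZero L N p (L4.tFL L h4) (L4.tFL L h4) =
        algebraMap L (FL L (N * p)) (p : L) * Ψ ∧
      redV A π (FBar L (N * p)) ⟨Ψ, hinf⟩ =
        coeffMap (Int.castRingHom k) (frobQuot p L4.x4) * (L4.x4k k - L4.x4k k ^ (p ^ 2)) ∧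
      red0 A π N p hdeg hp hpN ⟨Ψ, h0⟩ =
        (L4.x4k k - L4.x4k k ^ (p ^ 2)) * coeffMap (Int.castRingHom k) (frobQuot p L4.x4) ∧
      Ψ ∈ Algebra.adjoin L
        {heckeAlphaBar L N p (L4.tFL L h4), heckeBetaBar L N p (L4.tFL L h4)} :=
  exists_psi A π N p hdeg hp hpN L4.x4 (L4.x4k_mem_FBar L h4) (frobQuot p L4.x4)
    (C_mul_frobQuot p L4.x4).symm

end X4

end Fermat.Agent.S40x.Thick.UPsi
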