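/-
P-S44/S40, block R1-T (thickness), items T2 + T3, INSTANCE (helper20).

The outputs of `Thick/UPsi` stated as EXACTLY the hypotheses of `PolesNodes.exists_package` /
`Assemble.thick_bezout` (helper24 / helper73) at the concrete two-valuation chart of level `M q`:

  `R₁ := RedSetupInst.redSetupInfty H hA`,  `R₂ := RedSetupInst.redSetupZero H hA`,  `hπ := rfl`,
  `C  := ChartInst.chart H hA Hx x rfl`  (`t = α t'`, `t' = tInt M x hx`),
  `ϖ  := piA hA = ⟨(q : L), _⟩ : A`,
  `u  := uElt M q x hx = β t' - (α t')^q`,   `u' := uElt' M q x hx = α t' - (β t')^q`,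
  `w  := dInf M q x hx = u / q`,             `w' := dZero M q x hx = u' / q`.

Generic integer series `x` (hypotheses: the good level facts `Hx`, (Y3) `hY3 : β t'` integral over
`L[α t']`, the Kronecker quotient `hD' : x(t^q) - x^q = q D'`), then the instance `x = x₄`, `4 ∣ M`,
`D' = frobQuot q x₄` over `Kbar` (no hypothesis besides `H`, `hA`, `h4`, `hq2`).
-/
import Fermat.Agent.S40x.Thick.UPsi
import Fermat.Agent.S40x.Thick.PolesNodes
import Fermat.Agent.S40x.Thick.Assemble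
import Fermat.Agent.S34x.Inst.ChartInst
import Fermat.Agent.S34x.Inst.TheoremBHaupt

set_option autoImplicit false
set_option linter.style.haveILetI false
set_option linter.unusedSectionVars false

noncomputable section

namespace Fermat.Agent.S40x.Thick.UPsiInst

open Polynomial ModularCurve AlgebraicCurve IntermediateField IsLocalRing
open Fermat.Agent.Gateway.Hecke Fermat.Agent.Gateway.ESC
open Fermat.Agent.Gateway.Red Fermat.Agent.Gateway.GoodRed
open Fermat.Agent.Gateway.GoodRed.ConjFamily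
open Fermat.Agent.S34x Fermat.Agent.S34x.TwoVal Fermat.Agent.S34x.C0two
open Fermat.Agent.S34x.Lattice2
open Fermat.Agent.S34x.Inst.L2 Fermat.Agent.S34x.Inst.RedSetupInst
open Fermat.Agent.S34x.Inst.ElementYRed
open Fermat.Agent.S33x.H1.InstC1 Fermat.Agent.S33x.H1.InstBBasic
open Fermat.Agent.S40x.Thick.UPsi Fermat.Agent.S40x.Thick.PolesNodes

attribute [-instance] IsScalarTower.of_algHom

section Generic

variable {L : Type} [Field L] [Algebra ℚ L] [IsAlgClosed L] [Algebra.IsAlgebraic ℚ L]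
  {A : ValuationSubring L} {k : Type} [Field k] {π : A →+* k} [IsAlgClosed k]
  {M q : ℕ} [NeZero M] [NeZero q] [Fact q.Prime] [CharP k q]
  {hdeg : finrankAlong L (heckeAlphaBar L M q) = q + 1} {hq : q.Prime} {hqM : ¬ q ∣ M}
  {hrk : ∀ x ∈ maximalIdeal A, ∀ c : A, c ≠ 0 → ∃ j : ℕ, c ∣ x ^ j}
  {hπ : Function.Surjective π}
  (H : ResidueFacts A π M q hdeg hq hqM hrk hπ) (hA : A.LiesOverPrime q)
  (x : LaurentSeries ℤ) (hx : coeffMap (Int.castRingHom L) x ∈ FBar L M)
  (Hx : GoodLevelFactsT A π M q hπ hqM (tInt M x hx))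

/-- `ϖ = q`, as an element of `A`. -/
def piA : A :=
  ⟨(q : L), (A.valuation_le_one_iff _).mp (le_of_lt ((A.mem_nonunits_iff).mp hA))⟩

theorem coe_piA : ((piA hA : A) : L) = (q : L) := rfl

theorem piA_ne_zero : piA hA ≠ 0 := by
  haveI : CharZero L := algebraRat.charZero L
  intro h
  have := congrArg Subtype.val h
  simp only [coe_piA, ZeroMemClass.coe_zero, Nat.cast_eq_zero] at this
  exact (Fact.out : q.Prime).ne_zero this

theorem piA_mem_maximalIdeal : piA hA ∈ maximalIdeal A := by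
  rw [mem_maximalIdeal, mem_nonunits_iff]
  intro hu
  have h1 := (A.valuation_eq_one_iff (piA hA)).mp hu
  exact ne_of_lt ((A.mem_nonunits_iff).mp hA) h1

/-- the concrete chart `t = α t'`, `t' = tInt M x hx`. -/
abbrev chartX : ChartCoord (redSetup2 H hA) :=
  Fermat.Agent.S34x.Inst.ChartInst.chart H hA Hx x rfl

theorem chartX_t : (chartX H hA x hx Hx).t = tA M q x hx := rfl

/-! ### memberships in the two valuation rings -/

theorem uElt_mem_valInfty : uElt M q x hx ∈ valInfty A π M q hrk hπ hqM :=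
  uElt_mem_Ov A π M q x hx

theorem uElt'_mem_valInfty : uElt' M q x hx ∈ valInfty A π M q hrk hπ hqM :=
  uElt'_mem_Ov A π M q x hx

theorem uElt_mem_valZero : uElt M q x hx ∈ valZero A π M q hdeg hq hqM hrk hπ :=
  uElt_mem_Ov0 A π M q hdeg hq hqM x hx

theorem uElt'_mem_valZero : uElt' M q x hx ∈ valZero A π M q hdeg hq hqM hrk hπ :=
  uElt'_mem_Ov0 A π M q hdeg hq hqM x hx

theorem uElt_mem_O : uElt M q x hx ∈
    (twoVal (valInfty A π M q hrk hπ hqM) (valZero A π M q hdeg hq hqM hrk hπ)).O :=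
  ⟨uElt_mem_valInfty x hx, uElt_mem_valZero x hx⟩

theorem uElt'_mem_O : uElt' M q x hx ∈
    (twoVal (valInfty A π M q hrk hπ hqM) (valZero A π M q hdeg hq hqM hrk hπ)).O :=
  ⟨uElt'_mem_valInfty x hx, uElt'_mem_valZero x hx⟩

/-! ### `u, u' ∈ B∞` -/

variable (hY3 : IsIntegral (Algebra.adjoin L {tA M q x hx}) (tB M q x hx))

include hY3 in
theorem isIntegral_uElt : IsIntegral (Algebra.adjoin L {tA M q x hx}) (uElt M q x hx) :=
  hY3.sub ((isIntegral_gen (tA M q x hx)).pow q)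

include hY3 in
theorem isIntegral_uElt' : IsIntegral (Algebra.adjoin L {tA M q x hx}) (uElt' M q x hx) :=
  (isIntegral_gen (tA M q x hx)).sub (hY3.pow q)

include hY3 in
/-- an element of `O_∞ ⊓ O_0` integral over `L[α t']` lies in the chart ring `B∞`. -/
theorem mem_BooAlg_of_isIntegral {f : FL L (M * q)}
    (hf : IsIntegral (Algebra.adjoin L {tA M q x hx}) f)
    (hfO : f ∈ (twoVal (valInfty A π M q hrk hπ hqM) (valZero A π M q hdeg hq hqM hrk hπ)).O) :
    f ∈ BooAlg (chartX H hA x hx Hx) := by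
  obtain ⟨b, hb⟩ := (isIntegral_iff_exists_mem_twoPole (chartX H hA x hx Hx).t_mul_tinv).mp hf
  exact ⟨b, hb, hfO⟩

include hY3 in
/-- **`u ∈ B∞`** -/
theorem uElt_mem_BooAlg : uElt M q x hx ∈ BooAlg (chartX H hA x hx Hx) :=
  mem_BooAlg_of_isIntegral H hA x hx Hx hY3 (isIntegral_uElt x hx hY3) (uElt_mem_O x hx)

include hY3 in
/-- **`u' ∈ B∞`** -/
theorem uElt'_mem_BooAlg : uElt' M q x hx ∈ BooAlg (chartX H hA x hx Hx) :=
  mem_BooAlg_of_isIntegral H hA x hx Hx hY3 (isIntegral_uElt' x hx hY3) (uElt'_mem_O x hx)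

/-! ### the reductions of `u'` -/

/-- `x̄ = red_∞ (α t')`, as a Laurent series. -/
theorem coe_xb :
    ((xb (redSetupInfty H hA) (redSetupZero H hA) rfl (chartX H hA x hx Hx) : Fk k M) :
      LaurentSeries k) = tbar k x :=
  redV_tA A π M q x hx

/-- **`hg`**: `red_∞ u' = x̄ - x̄ ^ (q ^ 2)`. -/
theorem res_infty_uElt' :
    (redSetupInfty H hA).res ⟨uElt' M q x hx, uElt'_mem_valInfty x hx⟩ =
      aeval (xb (redSetupInfty H hA) (redSetupZero H hA) rfl (chartX H hA x hx Hx))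
        (X - X ^ (q ^ 2) : k[X]) := by
  have h1 : aeval (xb (redSetupInfty H hA) (redSetupZero H hA) rfl (chartX H hA x hx Hx))
      (X - X ^ (q ^ 2) : k[X]) =
      xb (redSetupInfty H hA) (redSetupZero H hA) rfl (chartX H hA x hx Hx) -
        xb (redSetupInfty H hA) (redSetupZero H hA) rfl (chartX H hA x hx Hx) ^ (q ^ 2) := by
    rw [map_sub, map_pow, aeval_X]
  rw [h1]
  apply Subtype.ext
  rw [AddSubgroupClass.coe_sub, SubmonoidClass.coe_pow, coe_xb]
  exact redV_uElt' A π M q x hx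

/-- **`hg0`**: `red_0 u' = 0`. -/
theorem res_zero_uElt' :
    (redSetupZero H hA).res ⟨uElt' M q x hx, uElt'_mem_valZero x hx⟩ = 0 :=
  Subtype.ext (red0_uElt' A π M q hdeg hq hqM x hx)

/-- `red_∞ u = 0`. -/
theorem res_infty_uElt :
    (redSetupInfty H hA).res ⟨uElt M q x hx, uElt_mem_valInfty x hx⟩ = 0 :=
  Subtype.ext (redV_uElt A π M q x hx)

/-! ### `u = ϖ • w`, `u' = ϖ • w'` -/

/-- **`huw`** -/
theorem uElt_eq_piA_smul : uElt M q x hx = piA hA • dInf M q x hx :=
  uElt_eq_smul M q x hx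

/-- **`huw'`** -/
theorem uElt'_eq_piA_smul : uElt' M q x hx = piA hA • dZero M q x hx :=
  uElt'_eq_smul M q x hx

variable (D' : LaurentSeries ℤ) (hD' : qExpand ℤ q x - x ^ q = HahnSeries.C (q : ℤ) * D')

include hD' in
/-- **`hw`** -/
theorem dInf_mem_valInfty : dInf M q x hx ∈ valInfty A π M q hrk hπ hqM :=
  dInf_mem_Ov A π M q x hx D' hD'

include hD' in
/-- **`hw'`** -/
theorem dZero_mem_valZero : dZero M q x hx ∈ valZero A π M q hdeg hq hqM hrk hπ :=
  dZero_mem_Ov0 A π M q hdeg hq hqM x hx D' hD'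

/-- **(T3)**: `δ = red_∞ (u / q)` is the coefficientwise reduction of the Kronecker quotient. -/
theorem coe_res_infty_dInf :
    (((redSetupInfty H hA).res ⟨dInf M q x hx, dInf_mem_valInfty x hx D' hD'⟩ : Fk k M) :
      LaurentSeries k) = coeffMap (Int.castRingHom k) D' :=
  redV_dInf A π M q x hx D' hD'

/-- `red_0 (u' / q)` is the same series. -/
theorem coe_res_zero_dZero :
    (((redSetupZero H hA).res ⟨dZero M q x hx, dZero_mem_valZero x hx D' hD'⟩ : Fk k M) :
      LaurentSeries k) = coeffMap (Int.castRingHom k) D' :=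
  red0_dZero A π M q hdeg hq hqM x hx D' hD'

include hY3 hD' in
/-- **The hypotheses of `PolesNodes.exists_package` / `Assemble.thick_bezout`, bundled.** -/
theorem exists_upsi :
    ∃ (u u' w w' : FL L (M * q)) (_ : u ∈ BooAlg (chartX H hA x hx Hx))
      (hu' : u' ∈ BooAlg (chartX H hA x hx Hx)) (hw : w ∈ valInfty A π M q hrk hπ hqM)
      (_ : w' ∈ valZero A π M q hdeg hq hqM hrk hπ),
      u = piA hA • w ∧ u' = piA hA • w' ∧
      (redSetupInfty H hA).res ⟨u', (BooAlg_le_O (redSetupInfty H hA) (redSetupZero H hA) rfl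
          (chartX H hA x hx Hx) hu').1⟩ =
        aeval (xb (redSetupInfty H hA) (redSetupZero H hA) rfl (chartX H hA x hx Hx))
          (X - X ^ (q ^ 2) : k[X]) ∧
      (redSetupZero H hA).res ⟨u', (BooAlg_le_O (redSetupInfty H hA) (redSetupZero H hA) rfl
          (chartX H hA x hx Hx) hu').2⟩ = 0 ∧
      (((redSetupInfty H hA).res ⟨w, hw⟩ : Fk k M) : LaurentSeries k) =
        coeffMap (Int.castRingHom k) D' :=
  ⟨uElt M q x hx, uElt' M q x hx, dInf M q x hx, dZero M q x hx,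
    uElt_mem_BooAlg H hA x hx Hx hY3, uElt'_mem_BooAlg H hA x hx Hx hY3,
    dInf_mem_valInfty x hx D' hD', dZero_mem_valZero x hx D' hD',
    uElt_eq_piA_smul hA x hx, uElt'_eq_piA_smul hA x hx,
    res_infty_uElt' H hA x hx Hx, res_zero_uElt' H hA x hx,
    coe_res_infty_dInf H hA x hx D' hD'⟩

/-! ### The plumbing check: `Assemble.thick_bezout` at the concrete chart -/

section Bezout

open Fermat.Agent.S40x.Thick.Assemble

variable (ev : RatFunc k →+* Fk k M)
  (hev : ∀ P : k[X], ev (algebraMap k[X] (RatFunc k) P) =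
    aeval (xb (redSetupInfty H hA) (redSetupZero H hA) rfl (chartX H hA x hx Hx)) P)
  (hgen : Function.Surjective ev)

include hY3 hD' hev hgen in
/-- **(T-b) at the concrete chart**, hypothesis style on the rational parametrisation `ev` of
`Fk k M` (o0), the pole count (T9, series form) and the node count (T10):
`E + b Ψ + E' = 1` in `B∞` with `red_0 E = 0`, `red_∞ E' = 0`, `Ψ = psiElt = (u / q) u'`,
`u u' = q • Ψ` (`UPsi.uElt_mul_uElt'`). -/
theorem thick_bezout_chartX
    (hT9 : ∀ r : RatFunc k, ((ev r : Fk k M) : LaurentSeries k) =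
      coeffMap (Int.castRingHom k) D' → q - 1 ≤ 2 * r.denom.natDegree)
    (hT10 : ∃ f : k[X], f ≠ 0 ∧
      f ∈ I1 (redSetupInfty H hA) (redSetupZero H hA) rfl (chartX H hA x hx Hx) ∧
      2 * f.natDegree ≤ q - 1) :
    ∃ (hΨ : psiElt M q x hx ∈ BooAlg (chartX H hA x hx Hx))
      (E b E' : BooAlg (chartX H hA x hx Hx)),
      rho₂ (redSetupInfty H hA) (redSetupZero H hA) rfl (chartX H hA x hx Hx) E = 0 ∧
      rho₁ (redSetupInfty H hA) (redSetupZero H hA) rfl (chartX H hA x hx Hx) E' = 0 ∧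
        E + b * ⟨psiElt M q x hx, hΨ⟩ + E' = 1 :=
  thick_bezout (redSetupInfty H hA) (redSetupZero H hA) rfl (chartX H hA x hx Hx) ev hev hgen q
    (piA_ne_zero hA) (uElt_mem_BooAlg H hA x hx Hx hY3) (uElt'_mem_BooAlg H hA x hx Hx hY3)
    (uElt_eq_piA_smul hA x hx) (dInf_mem_valInfty x hx D' hD') (uElt'_eq_piA_smul hA x hx)
    (dZero_mem_valZero x hx D' hD') (res_infty_uElt' H hA x hx Hx) (res_zero_uElt' H hA x hx)
    (fun r hr => hT9 r (by rw [hr]; exact coe_res_infty_dInf H hA x hx D' hD')) hT10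

end Bezout

end Generic

/-! ### The instance `x = x₄`, `4 ∣ M`, `q` odd, over `Kbar` -/

section Four

open Fermat.Agent.Gateway.AuxLevel Fermat.Agent.S24.Setup
open Fermat.Agent.S34x.Inst.ElementYInt
open Fermat.Agent.S40x.Thick.T1QSeries (frobQuot C_mul_frobQuot)

variable {A : ValuationSubring Kbar} {k : Type} [Field k] {π : A →+* k} [IsAlgClosed k]
  {M q : ℕ} [NeZero M] [NeZero q] [Fact q.Prime] [CharP k q]
  {hdeg : finrankAlong Kbar (heckeAlphaBar Kbar M q) = q + 1} {hq : q.Prime} {hqM : ¬ q ∣ M}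
  {hrk : ∀ x ∈ maximalIdeal A, ∀ c : A, c ≠ 0 → ∃ j : ℕ, c ∣ x ^ j}
  {hπ : Function.Surjective π}
  (h4 : 4 ∣ M) (hq2 : q ≠ 2)
  (H : ResidueFacts A π M q hdeg hq hqM hrk hπ) (hA : A.LiesOverPrime q)

/-- the good level facts for `x₄` (as in `TheoremBHaupt.exists_const_mul_pow_x4`). -/
theorem goodLevelFacts_x4 :
    GoodLevelFactsT A π M q hπ hqM (tInt M L4.x4 (x4_mem_FBar (L := Kbar) M h4)) :=
  Fermat.Agent.S34x.Inst.LevelFactsTHaupt.l2Facts_x4 A π M q hπ hqM h4

/-- the chart `t = α x₄` of level `M q`. -/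
abbrev chart4 : ChartCoord (redSetup2 H hA) :=
  haveI : Algebra.IsAlgebraic ℚ Kbar := AlgebraicClosure.isAlgebraic ℚ
  chartX H hA L4.x4 (x4_mem_FBar (L := Kbar) M h4) (goodLevelFacts_x4 h4)

include hq2 in
/-- **The hypotheses of `PolesNodes.exists_package` / `Assemble.thick_bezout` for `x = x₄`**,
with `δ = red_∞ (u / q) = ` the reduction of `frobQuot q x₄` (the input of `Thick/Count`). -/
theorem exists_upsi_x4 :
    ∃ (u u' w w' : FL Kbar (M * q)) (_ : u ∈ BooAlg (chart4 h4 H hA))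
      (hu' : u' ∈ BooAlg (chart4 h4 H hA)) (hw : w ∈ valInfty A π M q hrk hπ hqM)
      (_ : w' ∈ valZero A π M q hdeg hq hqM hrk hπ),
      u = piA hA • w ∧ u' = piA hA • w' ∧
      (redSetupInfty H hA).res ⟨u', (BooAlg_le_O (redSetupInfty H hA) (redSetupZero H hA) rfl
          (chart4 h4 H hA) hu').1⟩ =
        aeval (xb (redSetupInfty H hA) (redSetupZero H hA) rfl (chart4 h4 H hA))
          (X - X ^ (q ^ 2) : k[X]) ∧
      (redSetupZero H hA).res ⟨u', (BooAlg_le_O (redSetupInfty H hA) (redSetupZero H hA) rfl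
          (chart4 h4 H hA) hu').2⟩ = 0 ∧
      (((redSetupInfty H hA).res ⟨w, hw⟩ : Fk k M) : LaurentSeries k) =
        coeffMap (Int.castRingHom k) (frobQuot q L4.x4) := by
  haveI : Algebra.IsAlgebraic ℚ Kbar := AlgebraicClosure.isAlgebraic ℚ
  exact exists_upsi H hA L4.x4 (x4_mem_FBar (L := Kbar) M h4) (goodLevelFacts_x4 h4)
    (isIntegral_tB_x4 (x4_mem_FBar (L := Kbar) M h4) h4 hq hq2) (frobQuot q L4.x4)
    (C_mul_frobQuot q L4.x4).symm

/-- `x̄ = red_∞ (α x₄)` is the series `x4k k`. -/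
theorem coe_xb_x4 :
    ((xb (redSetupInfty H hA) (redSetupZero H hA) rfl (chart4 h4 H hA) : Fk k M) :
      LaurentSeries k) = L4.x4k k := by
  haveI : Algebra.IsAlgebraic ℚ Kbar := AlgebraicClosure.isAlgebraic ℚ
  exact coe_xb H hA L4.x4 (x4_mem_FBar (L := Kbar) M h4) (goodLevelFacts_x4 h4)

section Bezout4

open Fermat.Agent.S40x.Thick.Assemble

variable (ev : RatFunc k →+* Fk k M)
  (hev : ∀ P : k[X], ev (algebraMap k[X] (RatFunc k) P) =
    aeval (xb (redSetupInfty H hA) (redSetupZero H hA) rfl (chart4 h4 H hA)) P)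
  (hgen : Function.Surjective ev)

include hq2 hev hgen in
/-- **(T-b) for `x = x₄`**: `Ψ = psiElt M q x₄ = (u / q) u'`, `u = β x₄ - (α x₄)^q`,
`u' = α x₄ - (β x₄)^q`, satisfies `E + b Ψ + E' = 1` in `B∞` with `red_0 E = 0`, `red_∞ E' = 0`. -/
theorem thick_bezout_x4
    (hT9 : ∀ r : RatFunc k, ((ev r : Fk k M) : LaurentSeries k) =
      coeffMap (Int.castRingHom k) (frobQuot q L4.x4) → q - 1 ≤ 2 * r.denom.natDegree)
    (hT10 : ∃ f : k[X], f ≠ 0 ∧
      f ∈ I1 (redSetupInfty H hA) (redSetupZero H hA) rfl (chart4 h4 H hA) ∧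
      2 * f.natDegree ≤ q - 1) :
    ∃ (hΨ : psiElt M q L4.x4 (x4_mem_FBar (L := Kbar) M h4) ∈ BooAlg (chart4 h4 H hA))
      (E b E' : BooAlg (chart4 h4 H hA)),
      rho₂ (redSetupInfty H hA) (redSetupZero H hA) rfl (chart4 h4 H hA) E = 0 ∧
      rho₁ (redSetupInfty H hA) (redSetupZero H hA) rfl (chart4 h4 H hA) E' = 0 ∧
        E + b * ⟨psiElt M q L4.x4 (x4_mem_FBar (L := Kbar) M h4), hΨ⟩ + E' = 1 := by
  haveI : Algebra.IsAlgebraic ℚ Kbar := AlgebraicClosure.isAlgebraic ℚ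
  exact thick_bezout_chartX H hA L4.x4 (x4_mem_FBar (L := Kbar) M h4) (goodLevelFacts_x4 h4)
    (isIntegral_tB_x4 (x4_mem_FBar (L := Kbar) M h4) h4 hq hq2) (frobQuot q L4.x4)
    (C_mul_frobQuot q L4.x4).symm ev hev hgen hT9 hT10

end Bezout4

end Four

end Fermat.Agent.S40x.Thick.UPsiInst
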