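/-
P-S44/S40, block R1 (T/N seam: existence of nodes at EVERY level `M p`, `4 ∣ M`) (helper20).

`δ := red_∞ (u / p)`, `u = β x₄ - (α x₄)^p`, at level `M p` (`4 ∣ M`, `p` odd, `p ∤ M`).  Its
`q`-expansion is the reduction `Dk` of the Frobenius quotient `(x₄(q^p) - x₄^p)/p`, THE SAME series at
every level (`UPsiInst.coe_res_infty_dInf`).  The level-`4` facts are free
(`ResidueInst.residueFacts` + `HDeg.finrankAlong_alpha` at `M = 4`), so `Dk ∈ Fk k 4 = k(x̄)`, and
the pole count `Haupt4kCount.count_evX4` shows that `Dk` is NOT a polynomial in `x̄`; as `k[x̄]` is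
integrally closed in `k(x̄)` (`Haupt4k.exists_poly_of_isIntegral_Fk`):

* `frobQuot_mem_Fk_four` : `Dk ∈ Fk k 4`;
* `not_isIntegral_frobQuot` : `Dk` is not integral over `k[x̄]` inside `k((q))`;
* `not_isIntegral_delta` : `δ` is not integral over `k[x̄]` inside `Fk k M` (level `M p`);
* `isIntegral_adjoin_map`, `isIntegral_res_of_mem_BooAlg`, `isIntegral_res_of_I1_eq_top` : GENERIC
  two-valuation chart (vocabulary of `PolesNodes`): if `I1 = ⊤` then `red_∞ (u / ϖ)` is integral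
  over `k[x̄]`;
* **`I1_ne_top`** : the Goursat ideal `PolesNodes.I1` of the chart `chart4` (level `M p`) is proper:
  if `(1, 0) = res E`, `E ∈ B∞`, then helper24's T5 (`PolesNodes.exists_pow_mul_mem_BooAlg`) puts
  `E ^ n * (u / p)` in `B∞`, whose first reduction `δ` would be integral over `k[x̄]`.
  Hence there IS a node at every level `M p` (no genus numerics at level `M`).
-/
import Fermat.Agent.S40x.Thick.UPsiInst
import Fermat.Agent.S40x.Thick.Haupt4kCount
import Fermat.Agent.S34x.Inst.HDeg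
import Fermat.Agent.S34x.TwoVal.ResidueInst

set_option autoImplicit false
set_option linter.style.haveILetI false
set_option linter.unusedSectionVars false

noncomputable section

namespace Fermat.Agent.S40x.Thick.DeltaNotIntegral

open Polynomial ModularCurve AlgebraicCurve IntermediateField IsLocalRing
open Fermat.Agent.Gateway.Hecke Fermat.Agent.Gateway.ESC
open Fermat.Agent.Gateway.Red Fermat.Agent.Gateway.GoodRed
open Fermat.Agent.Gateway.GoodRed.ConjFamily Fermat.Agent.Gateway.AuxLevel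
open Fermat.Agent.S24.Setup
open Fermat.Agent.S34x Fermat.Agent.S34x.TwoVal Fermat.Agent.S34x.C0two
open Fermat.Agent.S34x.Lattice2
open Fermat.Agent.S34x.Inst.L2 Fermat.Agent.S34x.Inst.RedSetupInst
open Fermat.Agent.S34x.Inst.ElementYRed Fermat.Agent.S34x.Inst.ElementYInt
open Fermat.Agent.S33x.H1.InstC1 Fermat.Agent.S33x.H1.InstBBasic
open Fermat.Agent.S40x.Thick.UPsi Fermat.Agent.S40x.Thick.PolesNodes
open Fermat.Agent.S40x.Thick.UPsiInst
open Fermat.Agent.S40x.Thick.Haupt4k Fermat.Agent.S40x.Thick.Haupt4kCount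
open Fermat.Agent.S40x.Thick.T1QSeries (frobQuot C_mul_frobQuot)

attribute [-instance] IsScalarTower.of_algHom

/-! ### Transfer of integrality over `k[T]` along an algebra homomorphism -/

section Transfer

variable {k : Type*} [Field k] {κ κ' : Type*} [CommRing κ] [CommRing κ'] [Algebra k κ]
  [Algebra k κ']

/-- integrality over `k[T]` is preserved by `k`-algebra homomorphisms. -/
theorem isIntegral_adjoin_map (φ : κ →ₐ[k] κ') {T y : κ}
    (h : IsIntegral (Algebra.adjoin k {T}) y) : IsIntegral (Algebra.adjoin k {φ T}) (φ y) := by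
  rw [isIntegral_adjoin_iff_isIntegralElem] at h ⊢
  obtain ⟨P, hP, hPy⟩ := h
  refine ⟨P, hP, ?_⟩
  have hcomp : ((Polynomial.aeval (φ T) : k[X] →ₐ[k] κ') : k[X] →+* κ') =
      (φ : κ →+* κ').comp ((Polynomial.aeval T : k[X] →ₐ[k] κ) : k[X] →+* κ) := by
    apply Polynomial.ringHom_ext
    · intro a
      simp
    · simp
  have hy : φ y = (φ : κ →+* κ') y := rfl
  rw [hcomp, hy, ← Polynomial.hom_eval₂, hPy, map_zero]

end Transfer

/-! ### Generic two-valuation chart: `1 ∈ I1` makes `red_∞ (u / ϖ)` integral over `k[x̄]` -/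

section Generic

variable {K : Type*} [Field K] {A : ValuationSubring K} {F : Type*} [Field F] [Algebra K F]
  {O₁ O₂ : ValuationSubring F} {k κ₁ κ₂ : Type*} [Field k] [Field κ₁] [Field κ₂]
  [Algebra k κ₁] [Algebra k κ₂]
  (R₁ : Fermat.Agent.Gateway.C0.RedSetup A O₁ k κ₁)
  (R₂ : Fermat.Agent.Gateway.C0.RedSetup A O₂ k κ₂) (hπ : R₁.π = R₂.π)
  (C : ChartCoord (redSetupTwoVal R₁ R₂ hπ))

/-- the first reduction of an element of `B∞` is integral over `k[x̄]` (no `ev` needed). -/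
theorem isIntegral_res_of_mem_BooAlg {f : F} (hf : f ∈ BooAlg C) :
    IsIntegral (Algebra.adjoin k {xb R₁ R₂ hπ C})
      (R₁.res ⟨f, (BooAlg_le_O R₁ R₂ hπ C hf).1⟩) := by
  obtain ⟨b, hfL, hfO⟩ := hf
  have hint : IsIntegral (Algebra.adjoin K {C.t}) f := by
    have := hfL.1
    rwa [pow_zero, one_mul] at this
  have h1 := C.hint1 f hfO hint
  have h2 : IsIntegral (Algebra.adjoin k {((xb R₁ R₂ hπ C, xb' R₁ R₂ hπ C) : κ₁ × κ₂)})
      ((R₁.res ⟨f, hfO.1⟩, R₂.res ⟨f, hfO.2⟩) : κ₁ × κ₂) := h1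
  rw [isIntegral_adjoin_prod_iff] at h2
  exact h2.1

/-- if `I1 = ⊤` (no node), `δ = red_∞ (u / ϖ)` is integral over `k[x̄]`. -/
theorem isIntegral_res_of_I1_eq_top {u w : F} {ϖ : A} (hϖ : ϖ ≠ 0) (hu : u ∈ BooAlg C)
    (huw : u = ϖ • w) (hw : w ∈ O₁) (htop : I1 R₁ R₂ hπ C = ⊤) :
    IsIntegral (Algebra.adjoin k {xb R₁ R₂ hπ C}) (R₁.res ⟨w, hw⟩) := by
  have hone : (1 : k[X]) ∈ I1 R₁ R₂ hπ C := by
    rw [htop]
    exact Submodule.mem_top
  obtain ⟨E, hE, hE1, hE2⟩ := hone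
  rw [map_one] at hE1
  obtain ⟨n, hn⟩ := exists_pow_mul_mem_BooAlg R₁ R₂ hπ C hϖ hu huw hw hE
    ((R₂.res_ker _).mp hE2)
  have h := isIntegral_res_of_mem_BooAlg R₁ R₂ hπ C hn
  have hEO := BooAlg_le_O R₁ R₂ hπ C hE
  have hres : R₁.res ⟨E ^ n * w, (BooAlg_le_O R₁ R₂ hπ C hn).1⟩ = R₁.res ⟨w, hw⟩ := by
    have h1 : (⟨E ^ n * w, (BooAlg_le_O R₁ R₂ hπ C hn).1⟩ : O₁) = ⟨E, hEO.1⟩ ^ n * ⟨w, hw⟩ := rfl
    rw [h1, map_mul, map_pow, hE1, one_pow, one_mul]
  rwa [hres] at h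

end Generic

/-- `p ∤ 4` for an odd prime. -/
theorem not_dvd_four {p : ℕ} (hp : p.Prime) (hp2 : p ≠ 2) : ¬ p ∣ 4 := by
  intro h1
  have h2 : p ∣ 2 ^ 2 := by norm_num; exact h1
  have h3 : p ∣ 2 := hp.dvd_of_dvd_pow h2
  exact hp2 ((Nat.prime_dvd_prime_iff_eq hp Nat.prime_two).mp h3)

/-- `4 ≠ 0` in a field of odd prime characteristic. -/
theorem four_ne_zero_of_char' {k : Type} [Field k] (p : ℕ) [Fact p.Prime] [CharP k p]
    (hp2 : p ≠ 2) : ((4 : ℕ) : k) ≠ 0 := fun h =>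
  not_dvd_four (Fact.out : p.Prime) hp2 ((CharP.cast_eq_zero_iff k p 4).mp h)

section Main

variable {A : ValuationSubring Kbar} {k : Type} [Field k] {π : A →+* k} [IsAlgClosed k]
  {M p : ℕ} [NeZero M] [NeZero p] [Fact p.Prime] [CharP k p]
  {hdeg : finrankAlong Kbar (heckeAlphaBar Kbar M p) = p + 1} {hq : p.Prime} {hpM : ¬ p ∣ M}
  {hrk : ∀ x ∈ maximalIdeal A, ∀ c : A, c ≠ 0 → ∃ j : ℕ, c ∣ x ^ j}
  {hπ : Function.Surjective π}

include hrk hπ in
/-- **`Dk ∈ Fk k 4`**: the reduction of the Frobenius quotient of `x₄` is a rational function of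
`x̄` (it is `red_∞ (u / p)` at level `4 p`). -/
theorem frobQuot_mem_Fk_four (hp2 : p ≠ 2) (hA : A.LiesOverPrime p) :
    coeffMap (Int.castRingHom k) (frobQuot p L4.x4) ∈ Fk k 4 := by
  haveI : Algebra.IsAlgebraic ℚ Kbar := AlgebraicClosure.isAlgebraic ℚ
  have hq' : p.Prime := Fact.out
  have hp4 : ¬ p ∣ 4 := not_dvd_four hq' hp2
  have hdeg₄ : finrankAlong Kbar (heckeAlphaBar Kbar 4 p) = p + 1 :=
    Fermat.Agent.S34x.Inst.HDeg.finrankAlong_alpha Kbar 4 p hq' hp4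
  have H₄ : ResidueFacts A π 4 p hdeg₄ hq' hp4 hrk hπ :=
    Fermat.Agent.S34x.TwoVal.ResidueInst.residueFacts A π 4 p hdeg₄ hq' hp4 hrk hπ
  have h := coe_res_infty_dInf H₄ hA L4.x4 (x4_mem_FBar (L := Kbar) 4 (dvd_refl 4))
    (frobQuot p L4.x4) (C_mul_frobQuot p L4.x4).symm
  rw [← h]
  exact Subtype.property _

include hrk hπ in
/-- **`Dk` is not integral over `k[x̄]`** (inside `k((q))`). -/
theorem not_isIntegral_frobQuot (hp2 : p ≠ 2) (hA : A.LiesOverPrime p) :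
    ¬ IsIntegral (Algebra.adjoin k {L4.x4k k})
      (coeffMap (Int.castRingHom k) (frobQuot p L4.x4)) := by
  intro hint
  have h4k : ((4 : ℕ) : k) ≠ 0 := four_ne_zero_of_char' p hp2
  obtain ⟨P, hP⟩ := exists_poly_of_isIntegral_Fk h4k
    (frobQuot_mem_Fk_four (hrk := hrk) (hπ := hπ) hp2 hA) hint
  have h1 := count_evX4 (k := k) p hp2 (algebraMap k[X] (RatFunc k) P)
    (by rw [evX4_algebraMap]; exact hP.symm)
  rw [RatFunc.denom_algebraMap, natDegree_one] at h1
  have h2 := (Fact.out : p.Prime).two_le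
  omega

variable (h4 : 4 ∣ M) (hp2 : p ≠ 2)
  (H : ResidueFacts A π M p hdeg hq hpM hrk hπ) (hA : A.LiesOverPrime p)

/-- `δ = red_∞ (u / p)` at level `M p`, as an element of `Fk k M`. -/
def delta : Fk k M :=
  (redSetupInfty H hA).res ⟨dInf M p L4.x4 (x4_mem_FBar (L := Kbar) M h4),
    dInf_mem_Ov A π M p L4.x4 (x4_mem_FBar (L := Kbar) M h4) (frobQuot p L4.x4)
      (C_mul_frobQuot p L4.x4).symm⟩

theorem coe_delta :
    ((delta h4 H hA : Fk k M) : LaurentSeries k) =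
      coeffMap (Int.castRingHom k) (frobQuot p L4.x4) := by
  haveI : Algebra.IsAlgebraic ℚ Kbar := AlgebraicClosure.isAlgebraic ℚ
  exact coe_res_infty_dInf H hA L4.x4 (x4_mem_FBar (L := Kbar) M h4) (frobQuot p L4.x4)
    (C_mul_frobQuot p L4.x4).symm

include hp2 in
/-- **`δ` is not integral over `k[x̄]`** at level `M p`. -/
theorem not_isIntegral_delta :
    ¬ IsIntegral
      (Algebra.adjoin k {xb (redSetupInfty H hA) (redSetupZero H hA) rfl (chart4 h4 H hA)})
      (delta h4 H hA) := by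
  intro hint
  have h1 := isIntegral_adjoin_map (Fk k M).val hint
  have h2 : (Fk k M).val (xb (redSetupInfty H hA) (redSetupZero H hA) rfl (chart4 h4 H hA)) =
      L4.x4k k := coe_xb_x4 h4 H hA
  have h3 : (Fk k M).val (delta h4 H hA) = coeffMap (Int.castRingHom k) (frobQuot p L4.x4) :=
    coe_delta h4 H hA
  rw [h2, h3] at h1
  exact not_isIntegral_frobQuot (hrk := hrk) (hπ := hπ) hp2 hA h1

include hp2 in
/-- **The Goursat ideal `I1` is proper at every level `M p`**, `4 ∣ M`: there is a node. -/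
theorem I1_ne_top :
    I1 (redSetupInfty H hA) (redSetupZero H hA) rfl (chart4 h4 H hA) ≠ ⊤ := by
  haveI : Algebra.IsAlgebraic ℚ Kbar := AlgebraicClosure.isAlgebraic ℚ
  intro htop
  have hY3 := isIntegral_tB_x4 (x4_mem_FBar (L := Kbar) M h4) h4 hq hp2
  have h := isIntegral_res_of_I1_eq_top (redSetupInfty H hA) (redSetupZero H hA) rfl
    (chart4 h4 H hA) (piA_ne_zero hA)
    (uElt_mem_BooAlg H hA L4.x4 (x4_mem_FBar (L := Kbar) M h4) (goodLevelFacts_x4 h4) hY3)
    (uElt_eq_piA_smul hA L4.x4 (x4_mem_FBar (L := Kbar) M h4))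
    (dInf_mem_valInfty L4.x4 (x4_mem_FBar (L := Kbar) M h4) (frobQuot p L4.x4)
      (C_mul_frobQuot p L4.x4).symm) htop
  exact not_isIntegral_delta h4 hp2 H hA h

end Main

end Fermat.Agent.S40x.Thick.DeltaNotIntegral
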