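/-
P-S44/S40, block R1-T (thickness) / N-alpha seam (helper24): THE NODE SET IS NONEMPTY, generic half.

GENERIC two-valuation chart, vocabulary of `Thick/PolesNodes`: `R₁ R₂ : Gateway.C0.RedSetup`,
`R := redSetupTwoVal R₁ R₂ hπ`, `C : ChartCoord R`, `B∞ := BooAlg C`, `x̄ := xb R₁ R₂ hπ C`,
`u ∈ B∞`, `u = ϖ • w`, `w ∈ O₁`, `δ := R₁.res w`.

* `isIntegral_res_of_mem_BooAlg` : `red_∞ f` is integral over `k[x̄]` for every `f ∈ B∞` ((L1));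
* `isIntegral_delta_of_one_mem_I1` : if `1 ∈ I1` (i.e. `(1, 0)` is the reduction of an element of
  `B∞`) then `δ` is integral over `k[x̄]` (T5 with `e = E`, `red E = (1, 0)`);
* `I1_ne_top_of_not_isIntegral` : so `I1 ≠ ⊤` as soon as `δ` is NOT integral over `k[x̄]`;
* `mem_BbarT_iff_exists` : the reduced chart ring `C.BbarT ≤ C.B₁ × C.B₂` of `Lattice2/L2` is the
  set of reductions of `B∞`; `one_mem_I1_iff` : `1 ∈ I1 ↔ (1, 0) ∈ C.BbarT`, and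
  `mem_I1_iff_mem_BbarT`: `f ∈ I1 ↔ (f(x̄), 0) ∈ C.BbarT` (`PolesNodes.I1` is the pull-back of
  `Goursat.I1 C.BbarT` along `k[X] → C.B₁`);
* `not_mem_BbarT_of_not_isIntegral`, `nonempty_nodes_of_not_isIntegral` : if `δ` is not integral
  over `k[x̄]` then `(1, 0) ∉ C.BbarT` and the glue ring has a node
  (`Nonempty (Goursat.Nodes C.BbarT hL2.h2)`, via `Node/NodeNonempty.nonempty_nodes_iff`).
-/
import Mathlib
import Fermat.Agent.S40x.Thick.PolesNodes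
import Fermat.Agent.S34x.Lattice2.L2
import Fermat.Agent.S40x.Node.NodeNonempty

set_option autoImplicit false
set_option linter.unusedSectionVars false
set_option linter.style.haveILetI false

noncomputable section

namespace Fermat.Agent.S40x.Thick.NodesNonemptyGen

open IsLocalRing Polynomial
open Fermat.Agent.S34x Fermat.Agent.S34x.C0two Fermat.Agent.S34x.Lattice2
open Fermat.Agent.S33x.H1.InstC1 Fermat.Agent.S33x.H1.InstBBasic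
open Fermat.Agent.S40x.Thick.PolesNodes

variable {K : Type*} [Field K] {A : ValuationSubring K} {F : Type*} [Field F] [Algebra K F]
  {O₁ O₂ : ValuationSubring F} {k κ₁ κ₂ : Type*} [Field k] [Field κ₁] [Field κ₂]
  [Algebra k κ₁] [Algebra k κ₂]
  (R₁ : Fermat.Agent.Gateway.C0.RedSetup A O₁ k κ₁)
  (R₂ : Fermat.Agent.Gateway.C0.RedSetup A O₂ k κ₂) (hπ : R₁.π = R₂.π)
  (C : ChartCoord (redSetupTwoVal R₁ R₂ hπ))

/-- **(L1) on the first component**: the first reduction of an element of `B∞` is integral over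
`k[x̄]`. -/
theorem isIntegral_res_of_mem_BooAlg {f : F} (hf : f ∈ BooAlg C) :
    IsIntegral (Algebra.adjoin k {xb R₁ R₂ hπ C})
      (R₁.res ⟨f, (BooAlg_le_O R₁ R₂ hπ C hf).1⟩) := by
  obtain ⟨b, hfL, hfO⟩ := hf
  have hint : IsIntegral (Algebra.adjoin K {C.t}) f := by
    have := hfL.1
    rwa [pow_zero, one_mul] at this
  have h1 := C.hint1 f hfO hint
  have h2 : IsIntegral (Algebra.adjoin k {((xb R₁ R₂ hπ C, xb' R₁ R₂ hπ C) : κ₁ × κ₂)})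
      ((R₁.res ⟨f, hfO.1⟩, R₂.res ⟨f, hfO.2⟩) : κ₁ × κ₂) := h1
  rw [isIntegral_adjoin_prod_iff] at h2
  exact h2.1

/-- **T5 at `e = E`, `red E = (1, 0)`**: if `1 ∈ I1` then `δ = red_∞ (u / ϖ)` is integral over
`k[x̄]`. -/
theorem isIntegral_delta_of_one_mem_I1 {u w : F} {ϖ : A} (hϖ : ϖ ≠ 0) (hu : u ∈ BooAlg C)
    (huw : u = ϖ • w) (hw : w ∈ O₁) (h1 : (1 : k[X]) ∈ I1 R₁ R₂ hπ C) :
    IsIntegral (Algebra.adjoin k {xb R₁ R₂ hπ C}) (R₁.res ⟨w, hw⟩) := by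
  obtain ⟨E, hE, hE1, hE2⟩ := h1
  obtain ⟨n, hn⟩ := exists_pow_mul_mem_BooAlg R₁ R₂ hπ C hϖ hu huw hw hE
    ((R₂.res_ker _).mp hE2)
  have h3 := isIntegral_res_of_mem_BooAlg R₁ R₂ hπ C hn
  have h4 : R₁.res ⟨E ^ n * w, (BooAlg_le_O R₁ R₂ hπ C hn).1⟩ = R₁.res ⟨w, hw⟩ := by
    have h5 : (⟨E ^ n * w, (BooAlg_le_O R₁ R₂ hπ C hn).1⟩ : O₁) =
        ⟨E, (BooAlg_le_O R₁ R₂ hπ C hE).1⟩ ^ n * ⟨w, hw⟩ := rfl
    rw [h5, map_mul, map_pow, hE1, map_one, one_pow, one_mul]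
  rwa [h4] at h3

/-- **`I1 ≠ ⊤` as soon as `δ` is not integral over `k[x̄]`.** -/
theorem I1_ne_top_of_not_isIntegral {u w : F} {ϖ : A} (hϖ : ϖ ≠ 0) (hu : u ∈ BooAlg C)
    (huw : u = ϖ • w) (hw : w ∈ O₁)
    (hδ : ¬ IsIntegral (Algebra.adjoin k {xb R₁ R₂ hπ C}) (R₁.res ⟨w, hw⟩)) :
    I1 R₁ R₂ hπ C ≠ ⊤ := by
  intro h
  apply hδ
  refine isIntegral_delta_of_one_mem_I1 R₁ R₂ hπ C hϖ hu huw hw ?_
  rw [h]
  exact Submodule.mem_top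

/-! ### The link with the glue ring `C.BbarT ≤ C.B₁ × C.B₂` of `Lattice2/L2` -/

/-- the reduced chart ring `B̄` is the set of reductions of `B∞`. -/
theorem mem_Bbar_iff_exists {y : κ₁ × κ₂} : y ∈ C.Bbar ↔ ∃ (E : F) (hE : E ∈ BooAlg C),
    R₁.res ⟨E, (BooAlg_le_O R₁ R₂ hπ C hE).1⟩ = y.1 ∧
    R₂.res ⟨E, (BooAlg_le_O R₁ R₂ hπ C hE).2⟩ = y.2 := by
  constructor
  · rintro ⟨b, x, hx, hxL, rfl⟩
    exact ⟨x, ⟨b, hxL, hx⟩, rfl, rfl⟩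
  · rintro ⟨E, ⟨b, hEL, hEO⟩, h1, h2⟩
    refine ⟨b, E, hEO, hEL, ?_⟩
    exact Prod.ext h1 h2

/-- the glue ring inside `B₁ × B₂` is the set of reductions of `B∞`. -/
theorem mem_BbarT_iff_exists {z : C.B₁ × C.B₂} : z ∈ C.BbarT ↔ ∃ (E : F) (hE : E ∈ BooAlg C),
    R₁.res ⟨E, (BooAlg_le_O R₁ R₂ hπ C hE).1⟩ = (z.1 : κ₁) ∧
    R₂.res ⟨E, (BooAlg_le_O R₁ R₂ hπ C hE).2⟩ = (z.2 : κ₂) := by
  rw [ChartCoord.mem_BbarT_iff, mem_Bbar_iff_exists R₁ R₂ hπ C]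
  rfl

/-- `f(x̄)` lies in the coordinate ring `B₁` of the first component. -/
theorem aeval_xb_mem_B₁ (f : k[X]) : aeval (xb R₁ R₂ hπ C) f ∈ C.B₁ := by
  rw [ChartCoord.mem_B₁_iff]
  have h1 : aeval (xb R₁ R₂ hπ C) f ∈ Algebra.adjoin k {xb R₁ R₂ hπ C} := by
    rw [Algebra.adjoin_singleton_eq_range_aeval]
    exact ⟨f, rfl⟩
  have h2 : aeval (xb R₁ R₂ hπ C) f =
      algebraMap (Algebra.adjoin k {xb R₁ R₂ hπ C}) κ₁ ⟨_, h1⟩ := rfl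
  rw [h2]
  exact isIntegral_algebraMap

/-- **`PolesNodes.I1` is the pull-back of the Goursat ideal**: `f ∈ I1 ↔ (f(x̄), 0) ∈ B̄`. -/
theorem mem_I1_iff_mem_BbarT (f : k[X]) : f ∈ I1 R₁ R₂ hπ C ↔
    ((⟨aeval (xb R₁ R₂ hπ C) f, aeval_xb_mem_B₁ R₁ R₂ hπ C f⟩, 0) : C.B₁ × C.B₂) ∈ C.BbarT := by
  rw [mem_I1, mem_BbarT_iff_exists R₁ R₂ hπ C]
  rfl

/-- `1 ∈ I1 ↔ (1, 0) ∈ B̄`. -/
theorem one_mem_I1_iff : (1 : k[X]) ∈ I1 R₁ R₂ hπ C ↔ ((1, 0) : C.B₁ × C.B₂) ∈ C.BbarT := by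
  rw [mem_I1, mem_BbarT_iff_exists R₁ R₂ hπ C]
  simp only [map_one]
  rfl

/-- `I1 = ⊤ ↔ (1, 0) ∈ B̄`. -/
theorem I1_eq_top_iff : I1 R₁ R₂ hπ C = ⊤ ↔ ((1, 0) : C.B₁ × C.B₂) ∈ C.BbarT := by
  rw [Ideal.eq_top_iff_one, one_mem_I1_iff]

/-- **the idempotent `(1, 0)` is not in the glue ring** when `δ` is not integral over `k[x̄]`. -/
theorem not_mem_BbarT_of_not_isIntegral {u w : F} {ϖ : A} (hϖ : ϖ ≠ 0) (hu : u ∈ BooAlg C)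
    (huw : u = ϖ • w) (hw : w ∈ O₁)
    (hδ : ¬ IsIntegral (Algebra.adjoin k {xb R₁ R₂ hπ C}) (R₁.res ⟨w, hw⟩)) :
    ((1, 0) : C.B₁ × C.B₂) ∉ C.BbarT := by
  rw [← I1_eq_top_iff]
  exact I1_ne_top_of_not_isIntegral R₁ R₂ hπ C hϖ hu huw hw hδ

/-- **the glue ring has a node** when `δ` is not integral over `k[x̄]`. -/
theorem nonempty_nodes_of_not_isIntegral [IsAlgClosed k] (hL2 : C.IsL2)
    [Module.Finite k ((C.B₁ × C.B₂) ⧸ Subalgebra.toSubmodule C.BbarT)]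
    {u w : F} {ϖ : A} (hϖ : ϖ ≠ 0) (hu : u ∈ BooAlg C)
    (huw : u = ϖ • w) (hw : w ∈ O₁)
    (hδ : ¬ IsIntegral (Algebra.adjoin k {xb R₁ R₂ hπ C}) (R₁.res ⟨w, hw⟩)) :
    Nonempty (Goursat.Nodes C.BbarT hL2.h2) :=
  (Fermat.Agent.S40x.Node.NodeNonempty.nonempty_nodes_iff hL2).mpr
    (not_mem_BbarT_of_not_isIntegral R₁ R₂ hπ C hϖ hu huw hw hδ)

end Fermat.Agent.S40x.Thick.NodesNonemptyGen
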