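/-
P-S44/S40, block R1-T (thickness) / N-alpha seam (helper24): THE NODE SET IS NONEMPTY at every
level `M p`, `4 ∣ M`, `p` odd (item (a) of the seam gap `hG3` of DIAG / GEO).

Chart vocabulary of `Thick/PolesNodes` + `Thick/UPsiInst`: over `Kbar`, `R₁ := redSetupInfty H hA`,
`R₂ := redSetupZero H hA`, `C := UPsiInst.chart4 h4 H hA` (the chart `t = α x₄` of level `M p`).

* helper20's `DeltaNotIntegral.I1_ne_top` : `PolesNodes.I1 R₁ R₂ rfl C ≠ ⊤` (no genus numerics);
* `NodesNonemptyGen.I1_eq_top_iff` : `I1 = ⊤ ↔ (1, 0) ∈ C.BbarT` (`PolesNodes.I1` is the pull-back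
  of `Goursat.I1 C.BbarT`);
* `not_mem_BbarT_x4`, `not_mem_BbarT_x4'` : the idempotents `(1, 0)`, `(0, 1)` are NOT in the glue
  ring `C.BbarT`;
* `exists_ctx_x4`, `isL2_x4`, `finite_quotient_x4` : the context bundle of the chart, (L2), finite
  codimension of the glue ring (through `Cech/CtxMq.ctx_of_chart`);
* **`nonempty_nodes_x4`** : `Nonempty (Goursat.Nodes C.BbarT hL2.h2)` for every proof `hL2` of (L2);
* `chartCoord_ext`, **`nonempty_nodes_of_t_eq`** : the same for ANY chart `C` of `redSetup2 H hA`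
  with `C.t = tA M p x₄` (the form of the N-block, `Node/FixedQb.bundle_Mq`);
* `goursat_I1_ne_top`, `goursat_I2_ne_top` : the Goursat ideals `I₁ ≤ C.B₁`, `I₂ ≤ C.B₂` are proper.
-/
import Fermat.Agent.S40x.Thick.NodesNonemptyGen
import Fermat.Agent.S40x.Thick.DeltaNotIntegral
import Fermat.Agent.S33x.Cech.CtxMq
import Fermat.Agent.S33x.Cech.InstQbCtx
import Fermat.Agent.S34x.Lattice2.AssembleCounts

set_option autoImplicit false
set_option linter.style.haveILetI false
set_option linter.unusedSectionVars false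

noncomputable section

namespace Fermat.Agent.S40x.Thick.NodesNonempty

open Polynomial ModularCurve AlgebraicCurve IntermediateField IsLocalRing Module
open Fermat.Agent.Gateway.Hecke Fermat.Agent.Gateway.ESC
open Fermat.Agent.Gateway.Red Fermat.Agent.Gateway.GoodRed
open Fermat.Agent.Gateway.GoodRed.ConjFamily Fermat.Agent.Gateway.AuxLevel
open Fermat.Agent.S24.Setup
open Fermat.Agent.S34x Fermat.Agent.S34x.TwoVal Fermat.Agent.S34x.C0two
open Fermat.Agent.S34x.Lattice2
open Fermat.Agent.S34x.Inst.L2 Fermat.Agent.S34x.Inst.RedSetupInst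
open Fermat.Agent.S34x.Inst.ElementYRed Fermat.Agent.S34x.Inst.ElementYInt
open Fermat.Agent.S34x.Inst.TheoremBMq
open Fermat.Agent.S33x.H1.InstC1 Fermat.Agent.S33x.H1.InstBBasic
open Fermat.Agent.S33x.Cech.CtxMq Fermat.Agent.S33x.Cech.InstQbCtx
open Fermat.Agent.S40x.Thick.UPsi Fermat.Agent.S40x.Thick.PolesNodes
open Fermat.Agent.S40x.Thick.UPsiInst Fermat.Agent.S40x.Thick.NodesNonemptyGen

attribute [-instance] IsScalarTower.of_algHom

/-! ### Abstract helpers -/

section Abstract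

variable {K : Type*} [Field K] {A : ValuationSubring K} {F : Type*} [Field F] [Algebra K F]
  {S : SmallRing F} {k κ : Type*} [Field k] [CommRing κ] [Algebra k κ]
  {R : RedSetup2 A S k κ}

/-- a chart coordinate is determined by its coordinate function. -/
theorem chartCoord_ext {C C' : ChartCoord R} (h : C.t = C'.t) : C = C' := by
  cases C
  cases C'
  simp only at h
  subst h
  rfl

end Abstract

section Ctx

variable {K : Type*} [Field K] [IsAlgClosed K] [CharZero K] {A : ValuationSubring K}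
  {F : Type*} [Field F] [Algebra K F] {S : SmallRing F}
  {k : Type*} [Field k] [IsAlgClosed k] {E : Type*} [Field E] [Algebra k E]
  {R : RedSetup2 A S k (E × E)} {C : ChartCoord R} {p q : ℕ} {x : E} {Dt : Divisor K F}

/-- the glue ring has finite codimension in `B₁ × B₂`, inside the context bundle
(as `Node/NodeInstQb.finite_quotient`). -/
theorem finite_quotient_of_ctx (h : Ctx R C p q x Dt) :
    Module.Finite k ((C.B₁ × C.B₂) ⧸ Subalgebra.toSubmodule C.BbarT) := by
  haveI := h.fin_t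
  haveI : ∀ b, FiniteDimensional k (C.Pk 0 b) := fun b => h.finite_Pk 0 b
  obtain ⟨b₀, hgen⟩ := h.exists_hgen
  obtain ⟨δ, -, b₁, hdimS, -⟩ := h.exists_counts
  exact (finite_quotient_BbarT C h.ht h.hDt h.hcart hgen h.hL2 h.hL2₀ h.he h.he₀ δ b₁ hdimS).1.1

end Ctx

/-! ### The chart `t = α x₄` of level `M p` -/

section Four

variable {A : ValuationSubring Kbar} {k : Type} [Field k] {π : A →+* k} [IsAlgClosed k]
  {M p : ℕ} [NeZero M] [NeZero p] [Fact p.Prime] [CharP k p]
  {hdeg : finrankAlong Kbar (heckeAlphaBar Kbar M p) = p + 1} {hq : p.Prime} {hpM : ¬ p ∣ M}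
  {hrk : ∀ x ∈ maximalIdeal A, ∀ c : A, c ≠ 0 → ∃ j : ℕ, c ∣ x ^ j}
  {hπ : Function.Surjective π}
  (h4 : 4 ∣ M) (hp2 : p ≠ 2)
  (H : ResidueFacts A π M p hdeg hq hpM hrk hπ) (hA : A.LiesOverPrime p)

include hp2 in
/-- **the idempotent `(1, 0)` is not in the glue ring** of the chart `t = α x₄` at level `M p`. -/
theorem not_mem_BbarT_x4 :
    ((1, 0) : (chart4 h4 H hA).B₁ × (chart4 h4 H hA).B₂) ∉ (chart4 h4 H hA).BbarT := by
  intro h
  exact Fermat.Agent.S40x.Thick.DeltaNotIntegral.I1_ne_top h4 hp2 H hA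
    ((I1_eq_top_iff (redSetupInfty H hA) (redSetupZero H hA) rfl (chart4 h4 H hA)).mpr h)

include hp2 in
/-- the idempotent `(0, 1)` is not in the glue ring either. -/
theorem not_mem_BbarT_x4' :
    ((0, 1) : (chart4 h4 H hA).B₁ × (chart4 h4 H hA).B₂) ∉ (chart4 h4 H hA).BbarT := by
  intro h
  apply not_mem_BbarT_x4 h4 hp2 H hA
  have h1 : ((1, 1) : (chart4 h4 H hA).B₁ × (chart4 h4 H hA).B₂) ∈ (chart4 h4 H hA).BbarT :=
    (chart4 h4 H hA).BbarT.one_mem
  have := (chart4 h4 H hA).BbarT.sub_mem h1 h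
  simpa using this

include hp2 in
/-- **the context bundle** of the chart `t = α x₄` at level `M p`. -/
theorem exists_ctx_x4 :
    ∃ Dt : Divisor Kbar (FL Kbar (M * p)),
      Ctx (redSetup2 H hA) (chart4 h4 H hA) p p (chart4 h4 H hA).T.1 Dt := by
  haveI : Algebra.IsAlgebraic ℚ Kbar := AlgebraicClosure.isAlgebraic ℚ
  haveI : CharZero Kbar := algebraRat.charZero Kbar
  haveI : PerfectRing k p := inferInstance
  have Hx : GoodLevelFactsT A π M p hπ hpM (tInt M L4.x4 (x4_mem_FBar (L := Kbar) M h4)) :=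
    goodLevelFacts_x4 h4
  have ht : Transcendental Kbar (chart4 h4 H hA).t :=
    Fermat.Agent.S34x.Inst.Charts.transcendental_tα Kbar M p Hx.trans
  haveI hfin : FiniteDimensional Kbar⟮(chart4 h4 H hA).t⟯ (FL Kbar (M * p)) :=
    finiteDimensional_tA L4.x4 (x4_mem_FBar (L := Kbar) M h4) Hx
  exact ⟨Fermat.Agent.S34x.Inst.Charts.divT ht,
    ctx_of_chart H hA L4.x4 (x4_mem_FBar (L := Kbar) M h4) Hx
      (chart4 h4 H hA) rfl (L4.x4k_ne_zero k) (x4_hY h4 hq hp2)
      (Fermat.Agent.S34x.Inst.Charts.divT_apply ht)⟩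

include hp2 in
/-- **(L2)** for the chart `t = α x₄` at level `M p`. -/
theorem isL2_x4 : (chart4 h4 H hA).IsL2 := by
  obtain ⟨Dt, h⟩ := exists_ctx_x4 h4 hp2 H hA
  exact h.hL2

include hp2 in
/-- the glue ring of the chart `t = α x₄` has finite codimension in `B₁ × B₂`. -/
theorem finite_quotient_x4 :
    Module.Finite k (((chart4 h4 H hA).B₁ × (chart4 h4 H hA).B₂) ⧸
      Subalgebra.toSubmodule (chart4 h4 H hA).BbarT) := by
  haveI : CharZero Kbar := algebraRat.charZero Kbar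
  obtain ⟨Dt, h⟩ := exists_ctx_x4 h4 hp2 H hA
  exact finite_quotient_of_ctx h

include hp2 in
/-- **THE NODE SET IS NONEMPTY** at every level `M p`, `4 ∣ M`, `p` odd. -/
theorem nonempty_nodes_x4 (hL2 : (chart4 h4 H hA).IsL2) :
    Nonempty (Goursat.Nodes (chart4 h4 H hA).BbarT hL2.h2) := by
  haveI := finite_quotient_x4 h4 hp2 H hA
  exact (Fermat.Agent.S40x.Node.NodeNonempty.nonempty_nodes_iff hL2).mpr
    (not_mem_BbarT_x4 h4 hp2 H hA)

include hp2 in
/-- **THE NODE SET IS NONEMPTY**, for any chart with coordinate `t = α x₄` (the form of the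
N-block: `C` arbitrary with `hCt`). -/
theorem nonempty_nodes_of_t_eq (C : ChartCoord (redSetup2 H hA))
    (hCt : C.t = tA M p L4.x4 (x4_mem_FBar (L := Kbar) M h4)) (hL2 : C.IsL2) :
    Nonempty (Goursat.Nodes C.BbarT hL2.h2) := by
  obtain rfl : C = chart4 h4 H hA := chartCoord_ext hCt
  exact nonempty_nodes_x4 h4 hp2 H hA hL2

include hp2 in
/-- the idempotent `(1, 0)` is not in the glue ring, for any chart with coordinate `t = α x₄`. -/
theorem not_mem_BbarT_of_t_eq (C : ChartCoord (redSetup2 H hA))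
    (hCt : C.t = tA M p L4.x4 (x4_mem_FBar (L := Kbar) M h4)) :
    ((1, 0) : C.B₁ × C.B₂) ∉ C.BbarT := by
  obtain rfl : C = chart4 h4 H hA := chartCoord_ext hCt
  exact not_mem_BbarT_x4 h4 hp2 H hA

include hp2 in
/-- the Goursat ideal `I₁ ≤ C.B₁` is proper. -/
theorem goursat_I1_ne_top (hL2 : (chart4 h4 H hA).IsL2) :
    Goursat.I1 (chart4 h4 H hA).BbarT hL2.h1 ≠ ⊤ := by
  intro h
  apply not_mem_BbarT_x4 h4 hp2 H hA
  rw [← Goursat.mem_I1 (chart4 h4 H hA).BbarT hL2.h1, h]
  exact Submodule.mem_top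

include hp2 in
/-- the Goursat ideal `I₂ ≤ C.B₂` is proper. -/
theorem goursat_I2_ne_top (hL2 : (chart4 h4 H hA).IsL2) :
    Goursat.I2 (chart4 h4 H hA).BbarT hL2.h2 ≠ ⊤ := by
  intro h
  apply not_mem_BbarT_x4' h4 hp2 H hA
  rw [← Goursat.mem_I2 (chart4 h4 H hA).BbarT hL2.h2, h]
  exact Submodule.mem_top

end Four

end Fermat.Agent.S40x.Thick.NodesNonempty
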