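/-
P-S44 / R1-T (T6, helper25): the formal derivative on `RatFunc k`.  Mathlib only.
-/
import Mathlib

set_option autoImplicit false

namespace Fermat.Agent.S40x.Thick.RatDeriv

open Polynomial

variable {k : Type*} [Field k]

local notation "ι" => algebraMap k[X] (RatFunc k)

/-- The formal derivative of a rational function. -/
noncomputable def rderiv (r : RatFunc k) : RatFunc k :=
  ι (derivative r.num * r.denom - r.num * derivative r.denom) / (ι r.denom) ^ 2

theorem ι_ne_zero {D : k[X]} (hD : D ≠ 0) : ι D ≠ 0 :=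
  (map_ne_zero_iff _ (IsFractionRing.injective k[X] (RatFunc k))).2 hD

/-- The quotient rule, for an arbitrary presentation `N / D`. -/
theorem rderiv_div (N D : k[X]) (hD : D ≠ 0) :
    rderiv (ι N / ι D) = ι (derivative N * D - N * derivative D) / (ι D) ^ 2 := by
  set r : RatFunc k := ι N / ι D with hr
  have hd : r.denom ≠ 0 := r.denom_ne_zero
  have h : r.num * D = N * r.denom := (RatFunc.num_mul_eq_mul_denom_iff hD).2 hr
  have h' : derivative r.num * D + r.num * derivative D =
      derivative N * r.denom + N * derivative r.denom := by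
    have := congrArg derivative h
    simpa [derivative_mul] using this
  have key : (derivative r.num * r.denom - r.num * derivative r.denom) * D ^ 2 =
      (derivative N * D - N * derivative D) * r.denom ^ 2 := by
    linear_combination (r.denom * D) * h' -
      (derivative r.denom * D + derivative D * r.denom) * h
  unfold rderiv
  rw [div_eq_div_iff (pow_ne_zero 2 (ι_ne_zero hd)) (pow_ne_zero 2 (ι_ne_zero hD))]
  rw [← map_pow, ← map_pow, ← map_mul, ← map_mul, key]

theorem rderiv_algebraMap (P : k[X]) : rderiv (ι P) = ι (derivative P) := by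
  have h := rderiv_div P 1 one_ne_zero
  simpa using h

@[simp]
theorem rderiv_C (a : k) : rderiv (RatFunc.C a : RatFunc k) = 0 := by
  have : (RatFunc.C a : RatFunc k) = ι (Polynomial.C a) := (RatFunc.algebraMap_C a).symm
  rw [this, rderiv_algebraMap, derivative_C, map_zero]

@[simp]
theorem rderiv_zero : rderiv (0 : RatFunc k) = 0 := by
  have := rderiv_algebraMap (0 : k[X])
  simpa using this

@[simp]
theorem rderiv_one : rderiv (1 : RatFunc k) = 0 := by
  have := rderiv_algebraMap (1 : k[X])
  simpa using this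

@[simp]
theorem rderiv_X : rderiv (RatFunc.X : RatFunc k) = 1 := by
  have := rderiv_algebraMap (X : k[X])
  simpa using this

/-- every rational function is `N / D` -/
theorem exists_eq_div (r : RatFunc k) : ∃ N D : k[X], D ≠ 0 ∧ r = ι N / ι D :=
  ⟨r.num, r.denom, r.denom_ne_zero, (RatFunc.num_div_denom r).symm⟩

theorem rderiv_add (r s : RatFunc k) : rderiv (r + s) = rderiv r + rderiv s := by
  obtain ⟨N₁, D₁, h₁, rfl⟩ := exists_eq_div r
  obtain ⟨N₂, D₂, h₂, rfl⟩ := exists_eq_div s
  have e₁ := ι_ne_zero h₁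
  have e₂ := ι_ne_zero h₂
  have hsum : ι N₁ / ι D₁ + ι N₂ / ι D₂ = ι (N₁ * D₂ + N₂ * D₁) / ι (D₁ * D₂) := by
    rw [map_add, map_mul, map_mul, map_mul]
    field_simp
  rw [hsum, rderiv_div _ _ (mul_ne_zero h₁ h₂), rderiv_div _ _ h₁, rderiv_div _ _ h₂]
  simp only [derivative_mul, map_add, map_sub, map_mul]
  field_simp
  ring

theorem rderiv_mul (r s : RatFunc k) : rderiv (r * s) = rderiv r * s + r * rderiv s := by
  obtain ⟨N₁, D₁, h₁, rfl⟩ := exists_eq_div r
  obtain ⟨N₂, D₂, h₂, rfl⟩ := exists_eq_div s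
  have e₁ := ι_ne_zero h₁
  have e₂ := ι_ne_zero h₂
  have hprod : ι N₁ / ι D₁ * (ι N₂ / ι D₂) = ι (N₁ * N₂) / ι (D₁ * D₂) := by
    rw [map_mul, map_mul]
    field_simp
  rw [hprod, rderiv_div _ _ (mul_ne_zero h₁ h₂), rderiv_div _ _ h₁, rderiv_div _ _ h₂]
  simp only [derivative_mul, map_add, map_sub, map_mul]
  field_simp
  ring

theorem rderiv_neg (r : RatFunc k) : rderiv (-r) = -rderiv r := by
  have h := rderiv_add r (-r)
  rw [add_neg_cancel, rderiv_zero] at h
  exact eq_neg_of_add_eq_zero_right h.symm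

theorem rderiv_sub (r s : RatFunc k) : rderiv (r - s) = rderiv r - rderiv s := by
  rw [sub_eq_add_neg, rderiv_add, rderiv_neg, sub_eq_add_neg]

theorem rderiv_C_mul (a : k) (r : RatFunc k) :
    rderiv (RatFunc.C a * r) = RatFunc.C a * rderiv r := by
  rw [rderiv_mul, rderiv_C, zero_mul, zero_add]

theorem rderiv_pow (r : RatFunc k) (n : ℕ) :
    rderiv (r ^ (n + 1)) = ((n + 1 : ℕ) : RatFunc k) * r ^ n * rderiv r := by
  induction n with
  | zero => simp
  | succ n ih =>
    rw [pow_succ, rderiv_mul, ih]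
    push_cast
    ring

theorem rderiv_inv (r : RatFunc k) (hr : r ≠ 0) : rderiv r⁻¹ = -rderiv r / r ^ 2 := by
  have h := rderiv_mul r r⁻¹
  rw [mul_inv_cancel₀ hr, rderiv_one] at h
  have h2 : r * rderiv r⁻¹ = -(rderiv r * r⁻¹) := eq_neg_of_add_eq_zero_right h.symm
  rw [eq_div_iff (pow_ne_zero 2 hr)]
  calc rderiv r⁻¹ * r ^ 2 = r * (r * rderiv r⁻¹) := by ring
    _ = r * -(rderiv r * r⁻¹) := by rw [h2]
    _ = -rderiv r * (r * r⁻¹) := by ring
    _ = -rderiv r := by rw [mul_inv_cancel₀ hr, mul_one]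

theorem rderiv_div' (r s : RatFunc k) (hs : s ≠ 0) :
    rderiv (r / s) = (rderiv r * s - r * rderiv s) / s ^ 2 := by
  rw [div_eq_mul_inv, rderiv_mul, rderiv_inv s hs]
  field_simp
  ring

/-- `rderiv` as a derivation-like additive map: packaged additivity. -/
noncomputable def rderivAddHom : RatFunc k →+ RatFunc k where
  toFun := rderiv
  map_zero' := rderiv_zero
  map_add' := rderiv_add

end Fermat.Agent.S40x.Thick.RatDeriv
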