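/-
P-S44 / R1-T (T6, helper25): the field of rational functions of a Laurent series with a pole,
and the chain rule for `θ = q d/dq`.
-/
import Fermat.Agent.S40x.Thick.RatDeriv
import Fermat.Agent.S16.Two.QSeries

set_option autoImplicit false

namespace Fermat.Agent.S40x.Thick.ChainRule

open Polynomial
open Fermat.Agent.S16.Two Fermat.Agent.S40x.Thick.RatDeriv

noncomputable section

section CommRingPart

variable {R : Type*} [CommRing R]

theorem thetaL_C (c : R) : thetaL (HahnSeries.C c : LaurentSeries R) = 0 := by
  rw [thetaL, Fermat.Agent.Lib.Residue.D_C, mul_zero]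

theorem thetaL_algebraMap (c : R) : thetaL (algebraMap R (LaurentSeries R) c) = 0 := by
  rw [HahnSeries.algebraMap_apply', PowerSeries.algebraMap_apply, Algebra.algebraMap_self_apply,
    HahnSeries.ofPowerSeries_C, thetaL_C]

/-- Chain rule for `θ` and polynomials with coefficients in the base ring. -/
theorem thetaL_aeval (f : LaurentSeries R) (P : R[X]) :
    thetaL (aeval f P) = aeval f (derivative P) * thetaL f := by
  induction P using Polynomial.induction_on' with
  | add p q hp hq => simp only [map_add, thetaL_add, hp, hq, add_mul]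
  | monomial n a =>
    rw [← C_mul_X_pow_eq_monomial]
    cases n with
    | zero =>
      simp only [pow_zero, mul_one, aeval_C, derivative_C, map_zero, zero_mul]
      exact thetaL_algebraMap a
    | succ n =>
      simp only [map_mul, aeval_C, map_pow, aeval_X, derivative_mul, derivative_C, zero_mul,
        zero_add, derivative_X_pow, map_natCast, Nat.add_sub_cancel]
      rw [thetaL_mul, thetaL_algebraMap, zero_mul, zero_add, thetaL_pow_succ]
      push_cast
      ring

end CommRingPart

section Field

variable {k : Type*} [Field k]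

local notation "ι" => algebraMap k[X] (RatFunc k)
local notation "κ" => HahnSeries.ofPowerSeries ℤ k

/-- A Laurent series `x` with a pole, presented by its inverse `y₀` (a power series without
constant term), is transcendental over `k`. -/
theorem aeval_ne_zero {x : LaurentSeries k} {y₀ : PowerSeries k}
    (hy : PowerSeries.constantCoeff y₀ = 0) (hxy : x * κ y₀ = 1) {P : k[X]} (hP : P ≠ 0) :
    aeval x P ≠ 0 := by
  intro h0
  set n := P.natDegree with hn
  -- the reversed polynomial evaluated at `y₀`
  set S : PowerSeries k :=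
    ∑ i ∈ Finset.range (n + 1), PowerSeries.C (P.coeff i) * y₀ ^ (n - i) with hS
  have hSκ : κ S = aeval x P * (κ y₀) ^ n := by
    rw [aeval_eq_sum_range, Finset.sum_mul, hS, map_sum]
    refine Finset.sum_congr rfl fun i hi => ?_
    have hi' : i ≤ n := Nat.lt_succ_iff.1 (Finset.mem_range.1 hi)
    rw [map_mul, map_pow, HahnSeries.ofPowerSeries_C, Algebra.smul_def,
      LaurentSeries.algebraMap_apply]
    have hsplit : (κ y₀) ^ n = (κ y₀) ^ i * (κ y₀) ^ (n - i) := by
      rw [← pow_add, Nat.add_sub_cancel' hi']
    rw [hsplit, mul_assoc, ← mul_assoc (x ^ i), ← mul_pow, hxy, one_pow, one_mul]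
  have hS0 : S = 0 := by
    apply HahnSeries.ofPowerSeries_injective (Γ := ℤ)
    rw [hSκ, h0, zero_mul, map_zero]
  have hconst : PowerSeries.constantCoeff S = P.coeff n := by
    rw [hS, map_sum, Finset.sum_eq_single n]
    · simp
    · intro i hi hin
      have hi' : i < n := lt_of_le_of_ne (Nat.lt_succ_iff.1 (Finset.mem_range.1 hi)) hin
      have : n - i ≠ 0 := Nat.sub_ne_zero_of_lt hi'
      simp [hy, this]
    · intro hnot
      exact absurd (Finset.mem_range.2 (Nat.lt_succ_self n)) hnot
  rw [hS0, map_zero] at hconst
  have : P.leadingCoeff = 0 := by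
    rw [Polynomial.leadingCoeff, ← hn, ← hconst]
  exact hP (leadingCoeff_eq_zero.1 this)

/-- A Laurent series `x` with a pole, presented by its inverse `y₀`, a power series without
constant term. -/
structure Pole (k : Type*) [Field k] where
  /-- the series with a pole -/
  x : LaurentSeries k
  /-- its inverse, a power series -/
  y₀ : PowerSeries k
  hy : PowerSeries.constantCoeff y₀ = 0
  hxy : x * HahnSeries.ofPowerSeries ℤ k y₀ = 1

namespace Pole

variable (p : Pole k)

theorem aeval_ne_zero {P : k[X]} (hP : P ≠ 0) : aeval p.x P ≠ 0 :=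
  ChainRule.aeval_ne_zero p.hy p.hxy hP

theorem nzd_le :
    nonZeroDivisors k[X] ≤ Submonoid.comap (aeval p.x : k[X] →ₐ[k] LaurentSeries k).toRingHom
      (nonZeroDivisors (LaurentSeries k)) := by
  intro P hP
  rw [Submonoid.mem_comap, mem_nonZeroDivisors_iff_ne_zero]
  exact p.aeval_ne_zero (nonZeroDivisors.ne_zero hP)

/-- `r ↦ r(x)`: the embedding of `k(X)` into `k((q))` determined by a series `x` with a pole. -/
def evX : RatFunc k →+* LaurentSeries k :=
  RatFunc.liftRingHom (aeval p.x : k[X] →ₐ[k] LaurentSeries k).toRingHom p.nzd_le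

theorem evX_div (N D : k[X]) : p.evX (ι N / ι D) = aeval p.x N / aeval p.x D :=
  RatFunc.liftRingHom_apply_div _ p.nzd_le N D

theorem evX_algebraMap (P : k[X]) : p.evX (ι P) = aeval p.x P := by
  have h := p.evX_div P 1
  simpa using h

theorem evX_X : p.evX RatFunc.X = p.x := by
  have := p.evX_algebraMap (X : k[X])
  simpa using this

theorem evX_C (a : k) : p.evX (RatFunc.C a) = HahnSeries.C a := by
  have := p.evX_algebraMap (Polynomial.C a)
  rw [RatFunc.algebraMap_C, aeval_C, LaurentSeries.algebraMap_apply] at this
  exact this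

theorem evX_injective : Function.Injective p.evX :=
  p.evX.injective

/-- quotient rule for `θ` in a field of Laurent series -/
theorem thetaL_div_aux {g h θg θh t : LaurentSeries k} (hh : h ≠ 0)
    (hg : thetaL g = θg * t) (hh' : thetaL h = θh * t) :
    thetaL (g / h) = (θg * h - g * θh) / h ^ 2 * t := by
  set f := g / h with hf
  have hfh : f * h = g := by rw [hf, div_mul_cancel₀ _ hh]
  have h1 : thetaL (f * h) = thetaL g := by rw [hfh]
  rw [thetaL_mul, hg, hh'] at h1
  have h2 : thetaL f * h = θg * t - f * (θh * t) := eq_sub_of_add_eq h1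
  have h3 : thetaL f = (θg * t - f * (θh * t)) / h := by
    rw [eq_div_iff hh, h2]
  rw [h3, hf]
  field_simp

/-- **Chain rule** (T6): `θ (r(x)) = r'(x) · θ x` for every rational function `r`. -/
theorem thetaL_evX (r : RatFunc k) :
    thetaL (p.evX r) = p.evX (rderiv r) * thetaL p.x := by
  obtain ⟨N, D, hD, rfl⟩ := exists_eq_div r
  have hDx : aeval p.x D ≠ 0 := p.aeval_ne_zero hD
  have e1 : p.evX (ι N / ι D) = aeval p.x N / aeval p.x D := p.evX_div N D
  have e2 : p.evX (rderiv (ι N / ι D)) =
      (aeval p.x (derivative N) * aeval p.x D - aeval p.x N * aeval p.x (derivative D)) /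
        aeval p.x D ^ 2 := by
    rw [rderiv_div N D hD, ← map_pow, evX_div]
    simp only [map_sub, map_mul, map_pow]
  rw [e1, e2]
  exact thetaL_div_aux hDx (thetaL_aeval p.x N) (thetaL_aeval p.x D)

end Pole

end Field

end

end Fermat.Agent.S40x.Thick.ChainRule
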