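/-
P-S44 / R1-T (T6/T7, helper25): Laurent series with a simple pole `x = q⁻¹ u`, `u` a power series
with constant term `1`; the reversed-polynomial lemma and `θ x · x⁻¹`.
-/
import Fermat.Agent.S40x.Thick.ChainRule

set_option autoImplicit false

namespace Fermat.Agent.S40x.Thick.ChainRule

open Polynomial
open Fermat.Agent.S16.Two Fermat.Agent.S16.SD Fermat.Agent.S40x.Thick.RatDeriv

noncomputable section

variable {k : Type*} [Field k]

local notation "κ" => HahnSeries.ofPowerSeries ℤ k
local notation "qinv" => (HahnSeries.single (-1 : ℤ) (1 : k) : LaurentSeries k)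

theorem qinv_mul_X : qinv * κ PowerSeries.X = 1 := by
  rw [HahnSeries.ofPowerSeries_X, HahnSeries.single_mul_single]
  simp

theorem thetaL_qinv : thetaL qinv = -qinv := by
  ext n
  rw [thetaL_coeff, HahnSeries.coeff_neg, HahnSeries.coeff_single]
  split_ifs with h
  · subst h; simp
  · simp

/-- The series `q⁻¹ u` as a `Pole`. -/
def Pole.ofUnit (u : PowerSeries k) (hu : PowerSeries.constantCoeff u = 1) : Pole k where
  x := qinv * κ u
  y₀ := PowerSeries.X * u⁻¹
  hy := by simp
  hxy := by
    have hu0 : PowerSeries.constantCoeff u ≠ 0 := by rw [hu]; exact one_ne_zero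
    rw [map_mul, mul_mul_mul_comm, qinv_mul_X, one_mul, ← map_mul,
      PowerSeries.mul_inv_cancel u hu0, map_one]

namespace Pole

variable (p : Pole k)

/-- **Reversed polynomial**: `P(x) · yⁿ` is a power series with constant term `P.coeff n`,
for `n ≥ deg P`. -/
theorem exists_rev (P : k[X]) {n : ℕ} (hn : P.natDegree ≤ n) :
    ∃ S : PowerSeries k, κ S = aeval p.x P * (κ p.y₀) ^ n ∧
      PowerSeries.constantCoeff S = P.coeff n := by
  refine ⟨∑ i ∈ Finset.range (n + 1), PowerSeries.C (P.coeff i) * p.y₀ ^ (n - i), ?_, ?_⟩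
  · rw [aeval_eq_sum_range' (Nat.lt_succ_of_le hn), Finset.sum_mul, map_sum]
    refine Finset.sum_congr rfl fun i hi => ?_
    have hi' : i ≤ n := Nat.lt_succ_iff.1 (Finset.mem_range.1 hi)
    rw [map_mul, map_pow, HahnSeries.ofPowerSeries_C, Algebra.smul_def,
      LaurentSeries.algebraMap_apply]
    have hsplit : (κ p.y₀) ^ n = (κ p.y₀) ^ i * (κ p.y₀) ^ (n - i) := by
      rw [← pow_add, Nat.add_sub_cancel' hi']
    rw [hsplit, mul_assoc, ← mul_assoc (p.x ^ i), ← mul_pow, p.hxy, one_pow, one_mul]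
  · rw [map_sum, Finset.sum_eq_single n]
    · simp
    · intro i hi hin
      have hi' : i < n := lt_of_le_of_ne (Nat.lt_succ_iff.1 (Finset.mem_range.1 hi)) hin
      have : n - i ≠ 0 := Nat.sub_ne_zero_of_lt hi'
      simp [p.hy, this]
    · intro hnot
      exact absurd (Finset.mem_range.2 (Nat.lt_succ_self n)) hnot

theorem x_ne_zero : p.x ≠ 0 := by
  intro h
  have := p.hxy
  rw [h, zero_mul] at this
  exact zero_ne_one this

theorem y_ne_zero : κ p.y₀ ≠ 0 := by
  intro h
  have := p.hxy
  rw [h, mul_zero] at this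
  exact zero_ne_one this

end Pole

section OfUnit

variable (u : PowerSeries k) (hu : PowerSeries.constantCoeff u = 1)

theorem ofUnit_x : (Pole.ofUnit u hu).x = qinv * κ u := rfl

theorem ofUnit_y₀ : (Pole.ofUnit u hu).y₀ = PowerSeries.X * u⁻¹ := rfl

/-- `θ (q⁻¹ u) = q⁻¹ (θ u - u)`. -/
theorem thetaL_ofUnit : thetaL (Pole.ofUnit u hu).x = qinv * κ (theta u - u) := by
  rw [ofUnit_x, thetaL_mul, thetaL_qinv, thetaL_ofPowerSeries, map_sub]
  ring

/-- `θ x · y = (θ u - u) u⁻¹`, a power series with constant term `-1`. -/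
theorem thetaL_ofUnit_mul_y :
    thetaL (Pole.ofUnit u hu).x * κ (Pole.ofUnit u hu).y₀ = κ ((theta u - u) * u⁻¹) := by
  rw [thetaL_ofUnit, ofUnit_y₀, map_mul, map_mul, mul_mul_mul_comm, qinv_mul_X, one_mul]

theorem constantCoeff_theta (f : PowerSeries k) : PowerSeries.constantCoeff (theta f) = 0 := by
  rw [← PowerSeries.coeff_zero_eq_constantCoeff_apply, coeff_theta]
  simp

include hu in
theorem constantCoeff_theta_sub_mul_inv :
    PowerSeries.constantCoeff ((theta u - u) * u⁻¹) = -1 := by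
  rw [map_mul, map_sub, constantCoeff_theta, PowerSeries.constantCoeff_inv, hu]
  simp

theorem thetaL_ofUnit_ne_zero : thetaL (Pole.ofUnit u hu).x ≠ 0 := by
  intro h
  have h1 := thetaL_ofUnit_mul_y u hu
  rw [h, zero_mul] at h1
  have h2 : (theta u - u) * u⁻¹ = 0 := by
    apply HahnSeries.ofPowerSeries_injective (Γ := ℤ)
    rw [← h1, map_zero]
  have h3 := constantCoeff_theta_sub_mul_inv u hu
  rw [h2, map_zero] at h3
  exact absurd h3 (by norm_num)

end OfUnit

end

end Fermat.Agent.S40x.Thick.ChainRule
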