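/-
P-S44 / R1-T (T7, helper25): `θ x₄` in terms of `θ j`, over any coefficient ring, and the
resulting formula for `(θ x₄ / x₄)^(p-1)` in characteristic `p` (with the modular input (M)).
-/
import Fermat.Agent.S40x.Thick.UnitPole
import Fermat.Agent.S40x.Thick.ModM
import Fermat.Agent.Gateway.AuxLevel.Level4Haupt

set_option autoImplicit false

namespace Fermat.Agent.S40x.Thick.ThetaX4B

open Polynomial ModularCurve
open Fermat.Agent.S16.Two Fermat.Agent.S16.SD Fermat.Agent.Gateway.AuxLevel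
open Fermat.Agent.S40x.Thick.RatDeriv Fermat.Agent.S40x.Thick.ChainRule
open Fermat.Agent.S40x.Thick.ModM

noncomputable section

section General

variable (K : Type*) [CommRing K]

/-- `x₄` with coefficients in `K`. -/
def xK : LaurentSeries K := cK K L4.x4

/-- the unit part of `x₄` over `K`: `x₄ = q⁻¹ u₄`. -/
def u4K : PowerSeries K := PowerSeries.map (Int.castRingHom K) L4.u4

theorem constantCoeff_u4K : PowerSeries.constantCoeff (u4K K) = 1 := by
  rw [u4K, ← PowerSeries.coeff_zero_eq_constantCoeff_apply, PowerSeries.coeff_map,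
    PowerSeries.coeff_zero_eq_constantCoeff_apply, L4.constantCoeff_u4, map_one]

theorem xK_eq :
    xK K = HahnSeries.single (-1 : ℤ) (1 : K) * HahnSeries.ofPowerSeries ℤ K (u4K K) := by
  rw [xK, L4.x4, map_mul, cK_ofPowerSeries, Fermat.Agent.S28.H2.qInv, cK, coeffMap_single,
    map_one]
  rfl

/-- the polynomials of the level `4` relation `j = N₄³ / D₄`. -/
def N4 : K[X] := X ^ 2 + 224 * X + 256
/-- denominator of `j` as a function of `x₄`. -/
def D4 : K[X] := X * (X - 16) ^ 4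
/-- the cubic factor of the Wronskian. -/
def C4 : K[X] := X ^ 3 - 528 * X ^ 2 - 8448 * X + 4096

theorem aeval_N4 : aeval (xK K) (N4 K) = xK K ^ 2 + 224 * xK K + 256 := by
  simp [N4, map_ofNat]

theorem aeval_D4 : aeval (xK K) (D4 K) = xK K * (xK K - 16) ^ 4 := by
  simp [D4, map_ofNat]

/-- `j · D₄(x₄) = N₄(x₄)³` over `K`. -/
theorem jq_rel : jqModC K * aeval (xK K) (D4 K) = aeval (xK K) (N4 K) ^ 3 := by
  have h := congrArg (cK K) L4.jq_x4
  have hC : ∀ a : ℕ, cK K (HahnSeries.C ((a : ℤ))) = (a : LaurentSeries K) := by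
    intro a
    have : (HahnSeries.C ((a : ℤ)) : LaurentSeries ℤ) = ((a : ℕ) : LaurentSeries ℤ) := by
      simp
    rw [this, map_natCast]
  have h16 := hC 16
  have h224 := hC 224
  have h256 := hC 256
  simp only [Nat.cast_ofNat] at h16 h224 h256
  simp only [map_mul, map_pow, map_sub, map_add, cK_jq, h16, h224, h256] at h
  rw [aeval_N4, aeval_D4]
  exact h

/-- The Wronskian of `N₄³` and `D₄`. -/
theorem W4_eq : derivative (N4 K ^ 3) * D4 K - N4 K ^ 3 * derivative (D4 K) =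
    N4 K ^ 2 * (X - 16) ^ 3 * C4 K := by
  simp only [N4, D4, C4, derivative_pow, derivative_mul, derivative_add, derivative_sub,
    derivative_X, derivative_ofNat, map_natCast]
  push_cast
  ring

/-- `θ j · D₄(x)² = θ x · (N₄² (X - 16)³ C₄)(x)`. -/
theorem theta_rel : thetaL (jqModC K) * aeval (xK K) (D4 K) ^ 2 =
    thetaL (xK K) * aeval (xK K) (N4 K ^ 2 * (X - 16) ^ 3 * C4 K) := by
  have hj : jqModC K * aeval (xK K) (D4 K) = aeval (xK K) (N4 K ^ 3) := by
    rw [jq_rel K, map_pow]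
  have h := congrArg thetaL hj
  rw [thetaL_mul, ChainRule.thetaL_aeval, ChainRule.thetaL_aeval] at h
  rw [← W4_eq, map_sub, map_mul, map_mul]
  linear_combination (aeval (xK K) (D4 K)) * h -
    (thetaL (xK K) * aeval (xK K) (derivative (D4 K))) * hj

end General

section Field

variable (k : Type*) [Field k]

local notation "κ" => HahnSeries.ofPowerSeries ℤ k

/-- `x₄` over a field as a series with a simple pole. -/
def poleX : Pole k := Pole.ofUnit (u4K k) (constantCoeff_u4K k)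

theorem poleX_x : (poleX k).x = xK k := (xK_eq k).symm

/-- `j` over a field as a series with a simple pole. -/
def jNumK : PowerSeries k := PowerSeries.map (Int.castRingHom k) jNum

theorem constantCoeff_jNumK : PowerSeries.constantCoeff (jNumK k) = 1 := by
  rw [jNumK, ← PowerSeries.coeff_zero_eq_constantCoeff_apply, PowerSeries.coeff_map,
    PowerSeries.coeff_zero_eq_constantCoeff_apply, constantCoeff_jNum, map_one]

/-- `j` over a field as a series with a simple pole. -/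
def poleJ : Pole k := Pole.ofUnit (jNumK k) (constantCoeff_jNumK k)

theorem poleJ_x : (poleJ k).x = jqModC k := rfl

variable {k}

theorem sixteen_poly_ne : (X - 16 : k[X]) ≠ 0 := by
  have : (16 : k[X]) = C (16 : k) := (map_ofNat C 16).symm
  rw [this]
  exact X_sub_C_ne_zero 16

theorem aeval_X_sub_ne : aeval (xK k) (X - 16 : k[X]) ≠ 0 := by
  rw [← poleX_x]
  exact (poleX k).aeval_ne_zero sixteen_poly_ne

/-- `θ j · (X² (X - 16)⁵)(x) = θ x · (N₄² C₄)(x)` over a field. -/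
theorem theta_rel' : thetaL (jqModC k) * aeval (xK k) (X ^ 2 * (X - 16) ^ 5 : k[X]) =
    thetaL (xK k) * aeval (xK k) (N4 k ^ 2 * C4 k) := by
  have h := theta_rel k
  have ht := aeval_X_sub_ne (k := k)
  have eD : (D4 k) ^ 2 = (X - 16 : k[X]) ^ 3 * (X ^ 2 * (X - 16) ^ 5) := by
    simp only [D4]
    ring
  have eN : N4 k ^ 2 * (X - 16) ^ 3 * C4 k = (X - 16 : k[X]) ^ 3 * (N4 k ^ 2 * C4 k) := by
    ring
  have hD : aeval (xK k) (D4 k) ^ 2 =
      aeval (xK k) (X - 16 : k[X]) ^ 3 * aeval (xK k) (X ^ 2 * (X - 16) ^ 5 : k[X]) := by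
    rw [← map_pow, eD, map_mul, map_pow]
  have hN : aeval (xK k) (N4 k ^ 2 * (X - 16) ^ 3 * C4 k) =
      aeval (xK k) (X - 16 : k[X]) ^ 3 * aeval (xK k) (N4 k ^ 2 * C4 k) := by
    rw [eN, map_mul, map_pow]
  rw [hD, hN] at h
  have h3 : aeval (xK k) (X - 16 : k[X]) ^ 3 ≠ 0 := pow_ne_zero 3 ht
  apply mul_left_cancel₀ h3
  linear_combination h

end Field

section BaseChange

variable {R S : Type*} [CommRing R] [CommRing S] (f : R →+* S)

theorem coeffMap_thetaL (g : LaurentSeries R) :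
    coeffMap f (thetaL g) = thetaL (coeffMap f g) := by
  ext n
  rw [coeffMap_coeff, thetaL_coeff, thetaL_coeff, coeffMap_coeff]
  simp

theorem coeffMap_jq : coeffMap f (jqModC R) = jqModC S :=
  map_jqModC f

theorem coeffMap_C (a : R) : coeffMap f (HahnSeries.C a) = HahnSeries.C (f a) :=
  coeffMap_single f 0 a

theorem coeffMap_evJ (H : R[X]) : coeffMap f (evJ R H) = evJ S (H.map f) := by
  rw [evJ_apply, evJ_apply, Polynomial.hom_eval₂, Polynomial.eval₂_map, coeffMap_jq]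
  congr 1
  ext a : 1
  exact coeffMap_C f a

end BaseChange

section CharP

variable (p : ℕ) [Fact p.Prime] (k : Type*) [Field k] [CharP k p]

local notation "κ" => HahnSeries.ofPowerSeries ℤ k

theorem evJ_eq_aeval (H : k[X]) : evJ k H = aeval (jqModC k) H := by
  rw [evJ_apply, aeval_def]
  congr 1
  ext a : 1
  exact (LaurentSeries.algebraMap_apply k a).symm

/-- The modular input (M) over any field of characteristic `p` (odd). -/
theorem exists_hasse_poly_field (hp2 : p ≠ 2) :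
    ∃ H : k[X], H.natDegree ≤ (p - 1) / 2 ∧
      aeval (jqModC k) H * thetaL (jqModC k) ^ (p - 1) =
        (jqModC k - 1728) ^ ((p - 1) / 2) * jqModC k ^ (p - 1) := by
  obtain ⟨H, -, hdeg, hM⟩ := exists_hasse_poly p hp2
  let φ : ZMod p →+* k := ZMod.castHom (dvd_refl p) k
  refine ⟨H.map φ, le_trans (natDegree_map_le) hdeg, ?_⟩
  have h := congrArg (coeffMap φ) hM
  simp only [map_mul, map_pow, map_sub, coeffMap_evJ, coeffMap_thetaL, coeffMap_jq,
    map_ofNat] at h
  rw [← evJ_eq_aeval]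
  exact h

variable {p k}

omit [CharP k p] in
/-- The polynomial `H` of (M) has `m`-th coefficient `1` (so it is monic of degree `m`). -/
theorem coeff_eq_one_of_hasse (hp2 : p ≠ 2) {H : k[X]} (hdeg : H.natDegree ≤ (p - 1) / 2)
    (hM : aeval (jqModC k) H * thetaL (jqModC k) ^ (p - 1) =
        (jqModC k - 1728) ^ ((p - 1) / 2) * jqModC k ^ (p - 1)) :
    H.coeff ((p - 1) / 2) = 1 := by
  set m := (p - 1) / 2 with hm
  have hpr : p.Prime := Fact.out
  have hodd : Odd p := hpr.odd_of_ne_two hp2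
  have hp1 : p - 1 = 2 * m := by
    obtain ⟨t, ht⟩ := hodd
    omega
  set P := poleJ k with hP
  set y := κ P.y₀ with hy
  have hjy : jqModC k * y = 1 := P.hxy
  obtain ⟨S, hS, hS0⟩ := P.exists_rev H hdeg
  obtain ⟨T, hT, hT0⟩ : ∃ T : PowerSeries k, thetaL (jqModC k) * y = κ T ∧
      PowerSeries.constantCoeff T = -1 :=
    ⟨_, thetaL_ofUnit_mul_y (jNumK k) (constantCoeff_jNumK k),
      constantCoeff_theta_sub_mul_inv (jNumK k) (constantCoeff_jNumK k)⟩
  -- multiply (M) by `y^m * y^(p-1)`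
  have h1 : κ S * κ T ^ (p - 1) = κ ((1 - 1728 * P.y₀) ^ m) := by
    have e1 : κ S * κ T ^ (p - 1) =
        (aeval (jqModC k) H * thetaL (jqModC k) ^ (p - 1)) * (y ^ m * y ^ (p - 1)) := by
      rw [hS, ← hT]
      show aeval (jqModC k) H * y ^ m * (thetaL (jqModC k) * y) ^ (p - 1) = _
      rw [mul_pow]
      ring
    have e2 : κ ((1 - 1728 * P.y₀) ^ m) =
        ((jqModC k - 1728) ^ m * jqModC k ^ (p - 1)) * (y ^ m * y ^ (p - 1)) := by
      have : ((jqModC k - 1728) ^ m * jqModC k ^ (p - 1)) * (y ^ m * y ^ (p - 1)) =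
          ((jqModC k - 1728) * y) ^ m * (jqModC k * y) ^ (p - 1) := by
        rw [mul_pow, mul_pow]
        ring
      rw [this, hjy, one_pow, mul_one, sub_mul, hjy, map_pow, map_sub, map_mul, map_one,
        map_ofNat]
    rw [e1, e2, hM]
  have h2 : S * T ^ (p - 1) = (1 - 1728 * P.y₀) ^ m := by
    apply HahnSeries.ofPowerSeries_injective (Γ := ℤ)
    rw [map_mul, map_pow, h1]
  have c1 : PowerSeries.constantCoeff (S * T ^ (p - 1)) = H.coeff m := by
    rw [map_mul, map_pow, hS0, hT0, hp1, pow_mul, neg_one_sq, one_pow, mul_one]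
  have c2 : PowerSeries.constantCoeff ((1 - 1728 * P.y₀) ^ m) = 1 := by
    rw [map_pow, map_sub, map_mul, P.hy, mul_zero, map_one, sub_zero, one_pow]
  rw [← c1, h2, c2]


variable (k) in
/-- Homogenisation of `H` with respect to `j = N₄³ / D₄`: `Σ_{i ≤ m} Hᵢ N₄^{3i} D₄^{m-i}`. -/
def Hh (m : ℕ) (H : k[X]) : k[X] :=
  ∑ i ∈ Finset.range (m + 1), C (H.coeff i) * N4 k ^ (3 * i) * D4 k ^ (m - i)

omit [Fact p.Prime] [CharP k p] in
theorem aeval_Hh {m : ℕ} {H : k[X]} (hdeg : H.natDegree ≤ m) :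
    aeval (jqModC k) H * aeval (xK k) (D4 k) ^ m = aeval (xK k) (Hh k m H) := by
  have hj := jq_rel k
  rw [aeval_eq_sum_range' (Nat.lt_succ_of_le hdeg), Finset.sum_mul, Hh, map_sum]
  refine Finset.sum_congr rfl fun i hi => ?_
  have hi' : i ≤ m := Nat.lt_succ_iff.1 (Finset.mem_range.1 hi)
  have hsplit : aeval (xK k) (D4 k) ^ m =
      aeval (xK k) (D4 k) ^ i * aeval (xK k) (D4 k) ^ (m - i) := by
    rw [← pow_add, Nat.add_sub_cancel' hi']
  rw [map_mul, map_mul, map_pow, map_pow, aeval_C, Algebra.smul_def, hsplit, pow_mul, ← hj,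
    mul_pow]
  ring

/-- **(T7)** In characteristic `p` (odd): with `m = (p-1)/2` there is a polynomial `H`, monic of
degree `m`, such that
`(Hh · C₄^(p-1))(x) · (θ x)^(p-1) = ((N₄³ - 1728 D₄)^m · N₄^(p-1) · X^(p-1) · (X-16)^(p-1))(x)`,
`x = x₄ mod p`. -/
theorem theta_pow (hp2 : p ≠ 2) :
    ∃ H : k[X], H.natDegree ≤ (p - 1) / 2 ∧ H.coeff ((p - 1) / 2) = 1 ∧
      aeval (xK k) (Hh k ((p - 1) / 2) H * C4 k ^ (p - 1)) * thetaL (xK k) ^ (p - 1) =
        aeval (xK k) ((N4 k ^ 3 - 1728 * D4 k) ^ ((p - 1) / 2) * N4 k ^ (p - 1) * X ^ (p - 1) *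
          (X - 16) ^ (p - 1)) := by
  obtain ⟨H, hdeg, hM⟩ := exists_hasse_poly_field p k hp2
  refine ⟨H, hdeg, coeff_eq_one_of_hasse hp2 hdeg hM, ?_⟩
  set m := (p - 1) / 2 with hm
  set P1 := p - 1 with hP1
  -- abbreviations
  set s := xK k with hs
  set t := aeval s (X - 16 : k[X]) with ht
  set a := aeval s (D4 k) with ha
  set n := aeval s (N4 k) with hn
  set c := aeval s (C4 k) with hc
  set hh := aeval s (Hh k m H) with hhh
  set j := jqModC k with hj
  set Hj := aeval j H with hHj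
  have hat : a = s * t ^ 4 := by
    rw [ha, ht, D4, map_mul, map_pow, aeval_X]
  have h1 : thetaL j * (s ^ 2 * t ^ 5) = thetaL s * (n ^ 2 * c) := by
    have := theta_rel' (k := k)
    simpa only [map_mul, map_pow, aeval_X] using this
  have h3 : Hj * a ^ m = hh := aeval_Hh hdeg
  have h4 : j * a = n ^ 3 := jq_rel k
  have hn0 : n ≠ 0 := by
    rw [hn, hs, ← poleX_x]
    refine (poleX k).aeval_ne_zero ?_
    intro h0
    have := congrArg (Polynomial.coeff · 2) h0
    simp [N4, coeff_X] at this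
  have e1 : thetaL j ^ P1 * (s ^ 2 * t ^ 5) ^ P1 = thetaL s ^ P1 * (n ^ 2 * c) ^ P1 := by
    rw [← mul_pow, ← mul_pow, h1]
  have e4 : (j - 1728) ^ m * a ^ m = (n ^ 3 - 1728 * a) ^ m := by
    rw [← mul_pow, sub_mul, h4]
  have e5 : j ^ P1 * (s ^ 2 * t ^ 5) ^ P1 = (n ^ 3 * (s * t)) ^ P1 := by
    rw [← mul_pow, ← h4, hat]
    ring
  have goal' : hh * c ^ P1 * thetaL s ^ P1 =
      (n ^ 3 - 1728 * a) ^ m * n ^ P1 * s ^ P1 * t ^ P1 := by
    apply mul_left_cancel₀ (pow_ne_zero (2 * P1) hn0)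
    calc n ^ (2 * P1) * (hh * c ^ P1 * thetaL s ^ P1)
        = hh * (thetaL s ^ P1 * (n ^ 2 * c) ^ P1) := by ring
      _ = hh * (thetaL j ^ P1 * (s ^ 2 * t ^ 5) ^ P1) := by rw [e1]
      _ = (Hj * thetaL j ^ P1) * a ^ m * (s ^ 2 * t ^ 5) ^ P1 := by rw [← h3]; ring
      _ = ((j - 1728) ^ m * a ^ m) * (j ^ P1 * (s ^ 2 * t ^ 5) ^ P1) := by rw [hM]; ring
      _ = (n ^ 3 - 1728 * a) ^ m * (n ^ 3 * (s * t)) ^ P1 := by rw [e4, e5]
      _ = n ^ (2 * P1) * ((n ^ 3 - 1728 * a) ^ m * n ^ P1 * s ^ P1 * t ^ P1) := by ring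
  have ht' : s - 16 = t := by rw [ht, map_sub, aeval_X, map_ofNat]
  simp only [map_mul, map_pow, map_sub, aeval_X, map_ofNat]
  rw [ht']
  exact goal'

end CharP

end

end Fermat.Agent.S40x.Thick.ThetaX4B
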