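/-
P-S44 / R1-T (T6 consumer form, helper25): the rational function `Rb = (θ x₄ / x₄)^(p-1)` mod `p`
and the derivative of any `r ∈ k(X)` with `θ (r(x)) = (θ x)^p - x^(p-1) θ x`.
-/
import Fermat.Agent.S40x.Thick.ThetaX4B

set_option autoImplicit false

namespace Fermat.Agent.S40x.Thick.ThetaX4B

open Polynomial ModularCurve
open Fermat.Agent.S16.Two Fermat.Agent.S16.SD Fermat.Agent.Gateway.AuxLevel
open Fermat.Agent.S40x.Thick.RatDeriv Fermat.Agent.S40x.Thick.ChainRule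
open Fermat.Agent.S40x.Thick.ModM

noncomputable section

variable (p : ℕ) [Fact p.Prime] (k : Type*) [Field k] [CharP k p]

local notation "ι" => algebraMap k[X] (RatFunc k)

/-- numerator of `Rb`. -/
def RbNum : k[X] :=
  (N4 k ^ 3 - 1728 * D4 k) ^ ((p - 1) / 2) * N4 k ^ (p - 1) * (X - 16) ^ (p - 1)

/-- denominator of `Rb`. -/
def RbDen (H : k[X]) : k[X] := Hh k ((p - 1) / 2) H * C4 k ^ (p - 1)

/-- `Rb = ρ^(p-1) · r₁(J)`: the rational function with `Rb(x₄) = (θ x₄ / x₄)^(p-1)` mod `p`. -/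
def Rb (H : k[X]) : RatFunc k := ι (RbNum p k) / ι (RbDen p k H)

variable {p k}

include p in
theorem two_ne_zero_of_char (hp2 : p ≠ 2) : (2 : k) ≠ 0 := by
  have hpr : p.Prime := Fact.out
  intro h
  have h2 : ((2 : ℕ) : k) = 0 := by exact_mod_cast h
  rw [CharP.cast_eq_zero_iff k p] at h2
  exact hp2 ((Nat.prime_dvd_prime_iff_eq hpr Nat.prime_two).1 h2)

omit [Fact p.Prime] [CharP k p] in
theorem X_poly_ne : (X : k[X]) ≠ 0 := X_ne_zero

omit [Fact p.Prime] [CharP k p] in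
theorem N4_ne : N4 k ≠ 0 := by
  intro h0
  have := congrArg (Polynomial.coeff · 2) h0
  simp [N4, coeff_X] at this

include p in
theorem N4cube_sub_ne (hp2 : p ≠ 2) : N4 k ^ 3 - 1728 * D4 k ≠ 0 := by
  intro h0
  have h := congrArg (Polynomial.eval 0) h0
  simp only [N4, D4, eval_sub, eval_pow, eval_add, eval_mul, eval_X, eval_ofNat, eval_zero] at h
  have h2 := two_ne_zero_of_char (p := p) (k := k) hp2
  norm_num at h
  have : (16777216 : k) = 2 ^ 24 := by norm_num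
  rw [this] at h
  exact h2 (pow_eq_zero_iff (by norm_num) |>.1 h)

/-- the right-hand side polynomial of `theta_pow` is nonzero. -/
theorem rhs_ne (hp2 : p ≠ 2) : RbNum p k * X ^ (p - 1) ≠ 0 := by
  unfold RbNum
  refine mul_ne_zero (mul_ne_zero (mul_ne_zero ?_ ?_) ?_) ?_
  · exact pow_ne_zero _ (N4cube_sub_ne (p := p) hp2)
  · exact pow_ne_zero _ N4_ne
  · exact pow_ne_zero _ sixteen_poly_ne
  · exact pow_ne_zero _ X_ne_zero

/-- If `H` satisfies the identity of `theta_pow`, the denominator `RbDen` is nonzero and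
`Rb(x) = (θ x)^(p-1) / x^(p-1)`. -/
theorem evX_Rb (hp2 : p ≠ 2) {H : k[X]}
    (hH : aeval (xK k) (Hh k ((p - 1) / 2) H * C4 k ^ (p - 1)) * thetaL (xK k) ^ (p - 1) =
      aeval (xK k) ((N4 k ^ 3 - 1728 * D4 k) ^ ((p - 1) / 2) * N4 k ^ (p - 1) * X ^ (p - 1) *
        (X - 16) ^ (p - 1))) :
    RbDen p k H ≠ 0 ∧
      (poleX k).evX (Rb p k H) * xK k ^ (p - 1) = thetaL (xK k) ^ (p - 1) := by
  have hrhs : aeval (xK k) ((N4 k ^ 3 - 1728 * D4 k) ^ ((p - 1) / 2) * N4 k ^ (p - 1) *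
      X ^ (p - 1) * (X - 16) ^ (p - 1)) = aeval (xK k) (RbNum p k) * xK k ^ (p - 1) := by
    unfold RbNum
    simp only [map_mul, map_pow, aeval_X]
    ring
  have hne : aeval (xK k) (RbNum p k * X ^ (p - 1)) ≠ 0 := by
    rw [← poleX_x]
    exact (poleX k).aeval_ne_zero (rhs_ne hp2)
  have hden : RbDen p k H ≠ 0 := by
    intro h0
    unfold RbDen at h0
    rw [h0, map_zero, zero_mul, hrhs] at hH
    apply hne
    rw [map_mul, map_pow, aeval_X]
    exact hH.symm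
  refine ⟨hden, ?_⟩
  have hdx : aeval (xK k) (RbDen p k H) ≠ 0 := by
    rw [← poleX_x]
    exact (poleX k).aeval_ne_zero hden
  rw [Rb, Pole.evX_div, poleX_x, div_mul_eq_mul_div, div_eq_iff hdx, ← hrhs, ← hH]
  unfold RbDen
  ring

/-- **(T6, consumer form)**. Let `r ∈ k(X)` with `θ (r(x)) = (θ x)^p - x^(p-1) θ x`
(`x = x₄ mod p`; this is what the `q`-expansion of `δ = red_∞(u/p)` satisfies).  Then
`r' = X^(p-1) (Rb - 1)`. -/
theorem rderiv_eq (hp2 : p ≠ 2) {H : k[X]}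
    (hH : aeval (xK k) (Hh k ((p - 1) / 2) H * C4 k ^ (p - 1)) * thetaL (xK k) ^ (p - 1) =
      aeval (xK k) ((N4 k ^ 3 - 1728 * D4 k) ^ ((p - 1) / 2) * N4 k ^ (p - 1) * X ^ (p - 1) *
        (X - 16) ^ (p - 1)))
    {r : RatFunc k}
    (hr : thetaL ((poleX k).evX r) = thetaL (xK k) ^ p - xK k ^ (p - 1) * thetaL (xK k)) :
    rderiv r = RatFunc.X ^ (p - 1) * (Rb p k H - 1) := by
  have hpr : p.Prime := Fact.out
  obtain ⟨-, hRb⟩ := evX_Rb hp2 hH
  have hθ : thetaL (xK k) ≠ 0 := by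
    rw [← poleX_x]
    exact thetaL_ofUnit_ne_zero (u4K k) (constantCoeff_u4K k)
  apply (poleX k).evX_injective
  have hchain := (poleX k).thetaL_evX r
  rw [poleX_x, hr] at hchain
  rw [map_mul, map_pow, map_sub, map_one, Pole.evX_X, poleX_x]
  apply mul_right_cancel₀ hθ
  rw [← hchain, mul_sub, mul_one, mul_comm (xK k ^ (p - 1)) ((poleX k).evX (Rb p k H)), hRb]
  have hpow : thetaL (xK k) ^ p = thetaL (xK k) ^ (p - 1) * thetaL (xK k) := by
    rw [← pow_succ, Nat.sub_add_cancel hpr.one_le]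
  rw [hpow]
  ring

/-- **(T7 + T6), packaged**: existence of the monic `H` of degree `(p-1)/2` with all the
properties used by the pole count (T8, T9). -/
theorem exists_Rb (hp2 : p ≠ 2) :
    ∃ H : k[X], H.natDegree ≤ (p - 1) / 2 ∧ H.coeff ((p - 1) / 2) = 1 ∧ RbDen p k H ≠ 0 ∧
      (poleX k).evX (Rb p k H) * xK k ^ (p - 1) = thetaL (xK k) ^ (p - 1) ∧
      ∀ r : RatFunc k,
        thetaL ((poleX k).evX r) = thetaL (xK k) ^ p - xK k ^ (p - 1) * thetaL (xK k) →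
          rderiv r = RatFunc.X ^ (p - 1) * (Rb p k H - 1) := by
  obtain ⟨H, hdeg, hcoeff, hH⟩ := theta_pow (p := p) (k := k) hp2
  obtain ⟨hden, hRb⟩ := evX_Rb hp2 hH
  exact ⟨H, hdeg, hcoeff, hden, hRb, fun r hr => rderiv_eq hp2 hH hr⟩

end

end Fermat.Agent.S40x.Thick.ThetaX4B
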