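/-
P-S44/S40, block R1-T (helper73): the by-products of `Main.node_coprime` (T11), exported for DIAG
(`D-REFORD`) and for the node places: under the hypotheses of `node_coprime`,

* `r.denom` is squarefree and divides `X - X ^ (p ^ 2)`;
* the node ideal is `I1 = (r.denom)`: the nodes are exactly the poles of `δ = r(x̄)`;
* `2 deg r.denom = p - 1` (for `p` odd): there are exactly `(p - 1) / 2` nodes at level `4p`.

Mathlib only.
-/
import Fermat.Agent.S40x.Thick.Main

set_option autoImplicit false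
set_option linter.unusedSectionVars false

namespace Fermat.Agent.S40x.Thick.DenomData

open Polynomial
open Fermat.Agent.S40x.Thick.Main

variable {k : Type*} [Field k] {p : ℕ} [Fact p.Prime] [CharP k p]

/-- `r (X - X^(p^2)) = ψ` a polynomial implies that `r.denom` divides `X - X^(p^2)`; in particular
it is squarefree. -/
theorem denom_dvd_frob (r : RatFunc k) (ψ : k[X])
    (hψ : r * algebraMap k[X] (RatFunc k) (X - X ^ (p ^ 2)) = algebraMap k[X] (RatFunc k) ψ) :
    r.denom ∣ (X - X ^ (p ^ 2) : k[X]) := by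
  have hwneg : (X - X ^ (p ^ 2) : k[X]) = -(X ^ (p ^ 2) - X) := by ring
  have hw0 : (X - X ^ (p ^ 2) : k[X]) ≠ 0 := by
    rw [hwneg, neg_ne_zero]
    exact frob_sq_ne_zero k p
  have hwK : algebraMap k[X] (RatFunc k) (X - X ^ (p ^ 2)) ≠ 0 := RatFunc.algebraMap_ne_zero hw0
  rw [RatFunc.denom_dvd hw0]
  exact ⟨ψ, by rw [← hψ, mul_div_assoc, div_self hwK, mul_one]⟩

theorem separable_X_sub_frob : (X - X ^ (p ^ 2) : k[X]).Separable := by
  have hwneg : (X - X ^ (p ^ 2) : k[X]) = -(X ^ (p ^ 2) - X) := by ring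
  refine (separable_frob_sq k p).of_dvd ?_
  rw [hwneg, neg_dvd]

theorem squarefree_denom (r : RatFunc k) (ψ : k[X])
    (hψ : r * algebraMap k[X] (RatFunc k) (X - X ^ (p ^ 2)) = algebraMap k[X] (RatFunc k) ψ) :
    Squarefree r.denom :=
  (separable_X_sub_frob (k := k) (p := p)).squarefree.squarefree_of_dvd (denom_dvd_frob r ψ hψ)

/-- **The node ideal is generated by the denominator of `δ`**, and the node count is exact. -/
theorem span_denom_eq (I1 : Ideal k[X]) (r : RatFunc k) (ψ : k[X])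
    (hψ : r * algebraMap k[X] (RatFunc k) (X - X ^ (p ^ 2)) = algebraMap k[X] (RatFunc k) ψ)
    (hu' : (X - X ^ (p ^ 2) : k[X]) ∈ I1)
    (hT5 : ∀ f ∈ I1, ∃ n : ℕ, ∃ c : k[X],
      algebraMap k[X] (RatFunc k) (f ^ n) * r = algebraMap k[X] (RatFunc k) c)
    (hT9 : p - 1 ≤ 2 * r.denom.natDegree)
    (hT10 : ∃ f : k[X], f ≠ 0 ∧ f ∈ I1 ∧ 2 * f.natDegree ≤ p - 1) :
    I1 = Ideal.span {r.denom} ∧ 2 * r.denom.natDegree = p - 1 ∧
      ∀ f ∈ I1, r.denom ∣ f := by
  classical
  set w : k[X] := X - X ^ (p ^ 2) with hw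
  have hwsep : w.Separable := separable_X_sub_frob
  have hw0 : w ≠ 0 := hwsep.ne_zero
  set den := r.denom with hden
  have hden0 : den ≠ 0 := RatFunc.denom_ne_zero r
  have hdw : den ∣ w := denom_dvd_frob r ψ hψ
  have hprinc : I1.IsPrincipal := IsPrincipalIdealRing.principal I1
  set g := Submodule.IsPrincipal.generator I1 with hg
  have hgmem : g ∈ I1 := Submodule.IsPrincipal.generator_mem I1
  have hgdvd : ∀ f ∈ I1, g ∣ f := fun f hf =>
    (Submodule.IsPrincipal.mem_iff_generator_dvd I1).mp hf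
  have hg0 : g ≠ 0 := by
    intro h0
    have := hgdvd w hu'
    rw [h0, zero_dvd_iff] at this
    exact hw0 this
  obtain ⟨n, c, hc⟩ := hT5 g hgmem
  have hgn0 : g ^ n ≠ 0 := pow_ne_zero n hg0
  have hgnK : algebraMap k[X] (RatFunc k) (g ^ n) ≠ 0 := RatFunc.algebraMap_ne_zero hgn0
  have hdgn : den ∣ g ^ n := by
    rw [hden, RatFunc.denom_dvd hgn0]
    exact ⟨c, by rw [← hc, mul_comm, mul_div_assoc, div_self hgnK, mul_one]⟩
  have hdsq : Squarefree den := hwsep.squarefree.squarefree_of_dvd hdw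
  have hdg : den ∣ g := by
    rcases Nat.eq_zero_or_pos n with hn | hn
    · rw [hn, pow_zero] at hdgn
      exact (isUnit_of_dvd_one hdgn).dvd
    · exact (hdsq.dvd_pow_iff_dvd hn.ne').mp hdgn
  obtain ⟨f, hf0, hfI, hfdeg⟩ := hT10
  have h1 : g.natDegree ≤ f.natDegree := natDegree_le_of_dvd (hgdvd f hfI) hf0
  have h2 : den.natDegree ≤ g.natDegree := natDegree_le_of_dvd hdg hg0
  have hdeg : g.natDegree = den.natDegree := by omega
  obtain ⟨e, he⟩ := hdg
  have he0 : e ≠ 0 := by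
    rintro rfl
    rw [mul_zero] at he
    exact hg0 he
  have hedeg : e.natDegree = 0 := by
    have := natDegree_mul hden0 he0
    rw [← he] at this
    omega
  obtain ⟨a, ha⟩ : ∃ a : k, e = C a := ⟨e.coeff 0, eq_C_of_natDegree_eq_zero hedeg⟩
  have ha0 : a ≠ 0 := by
    rintro rfl
    rw [map_zero] at ha
    exact he0 ha
  have hdeng : den = g * C a⁻¹ := by
    rw [he, ha, mul_assoc, ← C_mul, mul_inv_cancel₀ ha0, C_1, mul_one]
  have hgden : g ∣ den := ⟨C a⁻¹, hdeng⟩
  refine ⟨?_, by omega, fun f' hf' => (Dvd.intro _ he.symm).trans (hgdvd f' hf')⟩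
  rw [← Ideal.span_singleton_generator I1]
  exact Ideal.span_singleton_eq_span_singleton.mpr
    (associated_of_dvd_dvd hgden (Dvd.intro _ he.symm))

end Fermat.Agent.S40x.Thick.DenomData
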