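/-
helper84 (P-S44, block R1-T / DIAG seam, requested by helper35 + helper73): the denominator of the
T1 function `δ` does not vanish at the cuspidal values `0`, `16` of the Hauptmodul `x̄` of `X_0(4)`;
hence the poles of `δ` (= the node places of the component `C_∞`) with `x̄` regular are
NON-CUSPIDAL, and there is at least one of them.

`k` a field of odd characteristic `p`, `x̄ = xK k`, `δ = Dk` with `θ δ = x̄^p (G^p - G)`,
`G x̄ = θ x̄` (T1), `N(x̄) = δ Dn(x̄)`, `Dn ≠ 0`, `2 deg Dn ≤ p - 1`.  By helper43's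
`Diag/RefOrd.exists_ref_form` (on `Thick/RatOrders`) with `H = B = Dn`, `a = b = 0`:
`numRb * Dn^2 = C u * (X - 16)^(p-1) * Bθ`, `u ≠ 0`, `Bθ(0) ≠ 0 ≠ Bθ(16)`
(`ThetaX4K.exists_denominator`); evaluate at `0`, and at `16` after cancelling `(X - 16)^(p-1)`.

* `eval_ne_zero_of`, `denom_eval_ne_zero`, `isCoprime_denom` : the polynomial statements
  (hypothesis style / concrete `δ = ` reduction of `frobQuot p x₄`).
* `ord_aeval_of_eval_ne_zero'`, `ord_nonneg_of_eval_ne_zero`, `isRoot_of_ord_neg` : generic places,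
  only `0 < ord_P (t - s)` needed.
* at `Fk k N`, `4 ∣ N`, `ℓ ∤ N`: `ord_j_nonneg_of_ne`, `ord_j_nonneg_of_pole` (`hSnc`),
  `exists_pole_nc` (`hne`), and the bundle `reford_package` = the hypotheses
  `hNd, hne, hEN, hES, he₀` of `Diag/Asm.diag_Mq` for `φE = Ub`, `e₀ = 12`.
-/
import Mathlib
import Fermat.Agent.S40x.Diag.RefOrdInst
import Fermat.Agent.S40x.Thick.Count
import Fermat.Agent.S40x.C2.HurwitzFibre

set_option autoImplicit false
set_option linter.unusedSectionVars false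
set_option linter.style.haveILetI false

noncomputable section

namespace Fermat.Agent.S40x.Thick.DenomNonCusp

open Polynomial ModularCurve AlgebraicCurve
open Fermat.Agent.S16.Two Fermat.Agent.S16.SD Fermat.Agent.S40x.Thick.ThetaX4
open Fermat.Agent.S40x.Thick.ThetaX4K
open Fermat.Agent.S40x.Thick.ModM
open Fermat.Agent.S40x.Thick.RatOrders Fermat.Agent.S40x.Thick.RatOrdersT9
open Fermat.Agent.S40x.Diag.RefOrdInst
open Fermat.Agent.Gateway.AuxLevel

/-! ### Part 1: the polynomial statement -/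

section Poly

variable {k : Type*} [Field k] (p : ℕ) [Fact p.Prime] [CharP k p]

local notation "Ck" => (HahnSeries.C : k →+* LaurentSeries k)

/-- **the denominator of `δ` does not vanish at `0` and `16`**, hypothesis style. -/
theorem eval_ne_zero_of (hp2 : p ≠ 2) (N Dn : k[X]) (Dk G : LaurentSeries k)
    (hr : N.eval₂ Ck (xK k) = Dk * Dn.eval₂ Ck (xK k))
    (hD : thetaL Dk = xK k ^ p * (G ^ p - G)) (hG : G * xK k = thetaL (xK k))
    (hDn0 : Dn ≠ 0) (hcount : 2 * Dn.natDegree ≤ p - 1) :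
    Dn.eval 0 ≠ 0 ∧ Dn.eval 16 ≠ 0 := by
  have hp : p.Prime := Fact.out
  obtain ⟨B, -, hBdeg, hB0, hB16, hB⟩ := exists_denominator p k hp2
  obtain ⟨m, hm⟩ : ∃ m, p = m + 1 := ⟨p - 1, (Nat.succ_pred_eq_of_pos hp.pos).symm⟩
  have hm' : p - 1 = m := by omega
  rw [hm'] at hB hcount
  rw [hm] at hD
  have hrel := poly_rel m N Dn B Dk G hr hD hG hB
  have hdeg : (numRb k m).natDegree ≤ B.natDegree := by
    rw [natDegree_numRb, hBdeg, hm']
    obtain ⟨j, hj⟩ := hp.eq_two_or_odd'.resolve_left hp2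
    omega
  obtain ⟨u, hu, hform⟩ := Fermat.Agent.S40x.Diag.RefOrd.exists_ref_form m m 16 N Dn (numRb k m) B
    Dn 0 0 hDn0 hB0 hB16 (numRb_monic m).ne_zero (pow_dvd_numRb m) hdeg hrel
    (by rw [pow_zero, pow_zero, one_mul, one_mul]) hcount
  have h2 : (2 : k) ≠ 0 := two_ne_zero_of_odd p k hp2
  have h16 : (16 : k) ≠ 0 := by
    have : (16 : k) = 2 ^ 4 := by norm_num
    rw [this]
    exact pow_ne_zero _ h2
  constructor
  · intro h0
    have h1 := congrArg (eval 0) hform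
    rw [eval_mul, eval_pow, h0, eval_mul, eval_mul, eval_C, eval_pow, eval_sub, eval_X, eval_C,
      zero_sub] at h1
    have h3 : u * (-16) ^ m * B.eval 0 ≠ 0 :=
      mul_ne_zero (mul_ne_zero hu (pow_ne_zero _ (neg_ne_zero.mpr h16))) hB0
    apply h3
    rw [← h1]
    ring
  · intro h0
    rw [numRb_eq, mul_pow, l16] at hform
    have hc : q2 k ^ m * Dn ^ 2 = C u * B := by
      apply mul_left_cancel₀ (pow_ne_zero m (X_sub_C_ne_zero (16 : k)))
      linear_combination hform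
    have h1 := congrArg (eval 16) hc
    rw [eval_mul, eval_pow, eval_pow, h0, eval_mul, eval_C] at h1
    have h3 : u * B.eval 16 ≠ 0 := mul_ne_zero hu hB16
    apply h3
    rw [← h1]
    ring

open Fermat.Agent.S40x.Thick.Count in
/-- **the denominator of `δ` does not vanish at `0` and `16`**, concrete form:
`δ` = the reduction mod `p` of `(x₄(q^p) - x₄^p) / p`. -/
theorem eval_ne_zero (hp2 : p ≠ 2) (N Dn : k[X])
    (hr : evP (xK k) N =
      coeffMap (Int.castRingHom k) (Fermat.Agent.S40x.Thick.T1QSeries.frobQuot p L4.x4) *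
        evP (xK k) Dn)
    (hDn0 : Dn ≠ 0) (hcount : 2 * Dn.natDegree ≤ p - 1) :
    Dn.eval 0 ≠ 0 ∧ Dn.eval 16 ≠ 0 := by
  refine eval_ne_zero_of p hp2 N Dn _
    (coeffMap (Int.castRingHom k)
      (HahnSeries.ofPowerSeries ℤ ℤ Fermat.Agent.S40x.Thick.T1QSeries.G4)) hr ?_ ?_ hDn0 hcount
  · exact Fermat.Agent.S40x.Thick.T1QSeries.thetaL_frobQuot_x4_bar p k
  · have h := congrArg (coeffMap (Int.castRingHom k)) Fermat.Agent.S40x.Thick.T1QSeries.thetaL_x4
    rw [map_mul, Fermat.Agent.S40x.Thick.ThetaX4K.coeffMap_thetaL] at h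
    rw [xK, Fermat.Agent.S40x.Thick.ModM.cK, h, mul_comm]

open Fermat.Agent.S40x.Thick.Count in
/-- the same for the reduced fraction `r` of `Level4pData.exists_denom_data`. -/
theorem denom_eval_ne_zero (hp2 : p ≠ 2) (r : RatFunc k)
    (hr : evP (xK k) r.num =
      coeffMap (Int.castRingHom k) (Fermat.Agent.S40x.Thick.T1QSeries.frobQuot p L4.x4) *
        evP (xK k) r.denom)
    (hcount : 2 * r.denom.natDegree ≤ p - 1) :
    r.denom.eval 0 ≠ 0 ∧ r.denom.eval 16 ≠ 0 :=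
  eval_ne_zero p hp2 r.num r.denom hr r.denom_ne_zero hcount

/-- coprimality form: `Dn` is prime to `X (X - 16)` (the finite cuspidal divisor of the
`x̄`-line). -/
theorem isCoprime_of_eval_ne_zero {Dn : k[X]} (h : Dn.eval 0 ≠ 0 ∧ Dn.eval 16 ≠ 0) :
    IsCoprime Dn (X * (X - C 16)) := by
  apply IsCoprime.mul_right
  · have := isCoprime_X_sub_C_of_eval_ne_zero h.1
    rw [C_0, sub_zero] at this
    exact this.symm
  · exact (isCoprime_X_sub_C_of_eval_ne_zero h.2).symm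

open Fermat.Agent.S40x.Thick.Count in
theorem isCoprime_denom (hp2 : p ≠ 2) (r : RatFunc k)
    (hr : evP (xK k) r.num =
      coeffMap (Int.castRingHom k) (Fermat.Agent.S40x.Thick.T1QSeries.frobQuot p L4.x4) *
        evP (xK k) r.denom)
    (hcount : 2 * r.denom.natDegree ≤ p - 1) :
    IsCoprime r.denom (X * (X - C 16)) :=
  isCoprime_of_eval_ne_zero (denom_eval_ne_zero p hp2 r hr hcount)

end Poly

/-! ### Part 2: places of a function field, `0 < ord_P (t - s)` only -/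

section Place

variable {k κ : Type*} [Field k] [Field κ] [Algebra k κ]

open Fermat.Agent.S40x.Diag.RefOrd

theorem sub_ne_zero_of_ord_pos (P : Place k κ) {t : κ} {a : k}
    (hP : 0 < P.ord (t - algebraMap k κ a)) : t - algebraMap k κ a ≠ 0 :=
  ne_zero_of_ord_ne_zero P hP.ne'

theorem mem_of_ord_sub_pos (P : Place k κ) {t : κ} {a : k}
    (hP : 0 < P.ord (t - algebraMap k κ a)) : t ∈ P.toValuationSubring := by
  have h0 := sub_ne_zero_of_ord_pos P hP
  have h1 : t - algebraMap k κ a ∈ P.toValuationSubring := by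
    rw [Fermat.Agent.S24.place_mem_iff_ord_nonneg P h0]
    exact hP.le
  have : t = (t - algebraMap k κ a) + algebraMap k κ a := by ring
  rw [this]
  exact P.toValuationSubring.add_mem _ _ h1 (P.algebraMap_mem' a)

/-- a polynomial not vanishing at `a` is a unit at every place with `t(P) = a`
(`RefOrd.ord_aeval_of_eval_ne_zero` without the uniformiser hypothesis). -/
theorem ord_aeval_of_eval_ne_zero' (P : Place k κ) {t : κ} {a : k}
    (hP : 0 < P.ord (t - algebraMap k κ a)) (g : k[X]) (hg : g.eval a ≠ 0) :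
    aeval t g ≠ 0 ∧ P.ord (aeval t g) = 0 := by
  have h0 := sub_ne_zero_of_ord_pos P hP
  obtain ⟨h, hh⟩ : X - C a ∣ g - C (g.eval a) := X_sub_C_dvd_sub_C_eval
  have e1 : aeval t g = algebraMap k κ (g.eval a) + (t - algebraMap k κ a) * aeval t h := by
    have := congrArg (aeval t) hh
    simp only [map_sub, map_mul, aeval_X, aeval_C] at this
    linear_combination this
  have hc0 : algebraMap k κ (g.eval a) ≠ 0 := by rwa [ne_eq, map_eq_zero]
  have hcord : P.ord (algebraMap k κ (g.eval a)) = 0 := ord_const P hg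
  rcases eq_or_ne (aeval t h) 0 with h1 | h1
  · rw [e1, h1, mul_zero, add_zero]
    exact ⟨hc0, hcord⟩
  · have h2 : (t - algebraMap k κ a) * aeval t h ≠ 0 := mul_ne_zero h0 h1
    have h3 : 0 ≤ P.ord (aeval t h) :=
      (Fermat.Agent.S24.place_mem_iff_ord_nonneg P h1).mp
        (aeval_mem P (mem_of_ord_sub_pos P hP) h)
    have h4 : P.ord (algebraMap k κ (g.eval a)) < P.ord ((t - algebraMap k κ a) * aeval t h) := by
      rw [hcord, P.ord_mul h0 h1]
      omega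
    have h5 := (Fermat.Agent.S24.isAddVal_ord P).map_add_of_lt hc0 h2 h4
    rw [← e1, hcord] at h5
    refine ⟨?_, h5⟩
    rw [e1]
    intro h6
    have h7 : algebraMap k κ (g.eval a) = -((t - algebraMap k κ a) * aeval t h) :=
      eq_neg_of_add_eq_zero_left h6
    rw [h7, (Fermat.Agent.S24.isAddVal_ord P).map_neg h2] at h4
    exact lt_irrefl _ h4

/-- `δ = N(t)/Dn(t)` is regular at a place over `t = a` with `Dn(a) ≠ 0`. -/
theorem ord_nonneg_of_eval_ne_zero (P : Place k κ) {t δ : κ} {a : k}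
    (hP : 0 < P.ord (t - algebraMap k κ a)) (N Dn : k[X])
    (hδ : δ * aeval t Dn = aeval t N) (hDa : Dn.eval a ≠ 0) : 0 ≤ P.ord δ := by
  obtain ⟨hD0, hDord⟩ := ord_aeval_of_eval_ne_zero' P hP Dn hDa
  by_cases h0 : δ = 0
  · rw [h0, P.ord_zero]
  have hN0 : aeval t N ≠ 0 := by
    rw [← hδ]
    exact mul_ne_zero h0 hD0
  have h1 : 0 ≤ P.ord (aeval t N) :=
    (Fermat.Agent.S24.place_mem_iff_ord_nonneg P hN0).mp
      (aeval_mem P (mem_of_ord_sub_pos P hP) N)
  have h2 := congrArg P.ord hδ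
  rw [P.ord_mul h0 hD0, hDord, add_zero] at h2
  omega

/-- a pole of `δ = N(t)/Dn(t)` over `t = a` forces `Dn(a) = 0`. -/
theorem isRoot_of_ord_neg (P : Place k κ) {t δ : κ} {a : k}
    (hP : 0 < P.ord (t - algebraMap k κ a)) (N Dn : k[X])
    (hδ : δ * aeval t Dn = aeval t N) (hpole : P.ord δ < 0) : Dn.IsRoot a := by
  by_contra h
  have := ord_nonneg_of_eval_ne_zero P hP N Dn hδ h
  omega

end Place

/-! ### Part 3: the special fibre `Fk k N` at a good level `4 ∣ N`, `ℓ ∤ N` -/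

section Fk

open Fermat.Agent.S24.Setup Fermat.Agent.Gateway.GoodRed Fermat.Agent.S40x.Diag.Abs
open Fermat.Agent.Gateway.GoodRed.ConjFamily

variable {N : ℕ} [NeZero N] (ℓ : ℕ) [Fact ℓ.Prime] (A : ValuationSubring Kbar)
  {k : Type} [Field k] [IsAlgClosed k] [CharP k ℓ] (π : A →+* k)
  (hπ : Function.Surjective π) (hℓN : ¬ ℓ ∣ N)

omit [IsAlgClosed k] in
/-- `j̄ · D4(t) = N4(t)` in `Fk k N`. -/
theorem j_rel (t : Fk k N) (ht : (t : LaurentSeries k) = xK k) :
    jFk k N * aeval t (D4k k) = aeval t (N4k k) := by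
  apply Subtype.ext
  push_cast
  rw [coe_aeval (Fk k N) ht, coe_aeval (Fk k N) ht, D4k, N4k, eval₂_map_int, eval₂_map_int]
  exact jq_relK k

omit [IsAlgClosed k] in
/-- `j̄` is regular at every place over `x̄ = s`, `s ≠ 0, 16`. -/
theorem ord_j_nonneg_of_ne (t : Fk k N) (ht : (t : LaurentSeries k) = xK k)
    (P : Place k (Fk k N)) {s : k} (hs : 0 < P.ord (t - algebraMap k (Fk k N) s))
    (hs0 : s ≠ 0) (hs16 : s ≠ 16) : 0 ≤ P.ord (jFk k N) := by
  refine ord_nonneg_of_eval_ne_zero P hs (N4k k) (D4k k) (j_rel t ht) ?_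
  rw [D4k_eq, eval_mul, eval_X, eval_pow, eval_sub, eval_X]
  have : (16 : k[X]).eval s = 16 := by
    rw [← map_ofNat C 16, eval_C]
  rw [this]
  exact mul_ne_zero hs0 (pow_ne_zero _ (sub_ne_zero.mpr hs16))

include hℓN in
/-- a place at which `x̄` is regular lies over a value `s : k` of `x̄`. -/
theorem exists_value (t : Fk k N) (ht : (t : LaurentSeries k) = xK k)
    (P : Place k (Fk k N)) (htP : 0 ≤ P.ord t) :
    ∃ s : k, 0 < P.ord (t - algebraMap k (Fk k N) s) := by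
  have hNk : ((N : ℕ) : k) ≠ 0 := natCast_ne_zero_final ℓ hℓN
  have hx := TLineHurwitz.transcendental_t4 N t ht
  haveI := TLineHurwitz.finiteDimensional_t4 N hNk t ht
  haveI := TLineHurwitz.isSeparable_t4 N hNk t ht
  have hmem : t ∈ P.toValuationSubring :=
    (Fermat.Agent.S24.ZD.PlaceLemmas.mem_iff_ord P t).mpr (Or.inr htP)
  obtain ⟨c, hc | hc⟩ := Fermat.Agent.Gateway.FkBasics.exists_const_sub_ord_pos hx P hmem
  · exact absurd (hc ▸ isAlgebraic_algebraMap c) hx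
  · exact ⟨c, hc⟩

include hℓN in
/-- **`hSnc`: the poles of `δ` with `x̄` regular are non-cuspidal.** -/
theorem ord_j_nonneg_of_pole (h4 : 4 ∣ N) {t δ : Fk k N} (ht : (t : LaurentSeries k) = xK k)
    (Nn Dn : k[X]) (G : LaurentSeries k) (hδ : δ * aeval t Dn = aeval t Nn)
    (hD : thetaL (δ : LaurentSeries k) = xK k ^ ℓ * (G ^ ℓ - G)) (hG : G * xK k = thetaL (xK k))
    (hDn0 : Dn ≠ 0) (hcount : 2 * Dn.natDegree ≤ ℓ - 1)
    (P : Place k (Fk k N)) (htP : 0 ≤ P.ord t) (hpole : P.ord δ < 0) :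
    0 ≤ P.ord (jFk k N) := by
  obtain ⟨s, hs⟩ := exists_value ℓ hℓN t ht P htP
  have hroot : Dn.IsRoot s := isRoot_of_ord_neg P hs Nn Dn hδ hpole
  have hr : Nn.eval₂ (HahnSeries.C : k →+* LaurentSeries k) (xK k) =
      (δ : LaurentSeries k) * Dn.eval₂ (HahnSeries.C : k →+* LaurentSeries k) (xK k) := by
    have h := congrArg (fun y : Fk k N => (y : LaurentSeries k)) hδ
    push_cast at h
    rw [coe_aeval (Fk k N) ht, coe_aeval (Fk k N) ht] at h
    exact h.symm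
  obtain ⟨h0, h16⟩ := eval_ne_zero_of ℓ (ell_ne_two ℓ h4 hℓN) Nn Dn (δ : LaurentSeries k) G hr hD hG
    hDn0 hcount
  refine ord_j_nonneg_of_ne t ht P hs ?_ ?_
  · rintro rfl
    exact h0 hroot
  · rintro rfl
    exact h16 hroot

include hπ hℓN in
/-- **`hne`: there is a non-cuspidal pole of `δ`.** -/
theorem exists_pole_nc (h4 : 4 ∣ N) (hA : A.LiesOverPrime ℓ) {t δ : Fk k N}
    (ht : (t : LaurentSeries k) = xK k)
    (Nn Dn : k[X]) (hcop : IsCoprime Nn Dn) (G : LaurentSeries k)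
    (hδ : δ * aeval t Dn = aeval t Nn)
    (hD : thetaL (δ : LaurentSeries k) = xK k ^ ℓ * (G ^ ℓ - G)) (hG : G * xK k = thetaL (xK k))
    (hpos : 0 < Dn.natDegree) (hcount : 2 * Dn.natDegree ≤ ℓ - 1) :
    ∃ P : Place k (Fk k N), 0 ≤ P.ord (jFk k N) ∧ P.ord δ < 0 := by
  have hDn0 : Dn ≠ 0 := by
    rintro rfl
    simp at hpos
  have hdeg0 : Dn.degree ≠ 0 := by
    intro h
    have := natDegree_eq_of_degree_eq_some (n := 0) h
    omega
  obtain ⟨s, hs⟩ := IsAlgClosed.exists_root Dn hdeg0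
  have hr : Nn.eval₂ (HahnSeries.C : k →+* LaurentSeries k) (xK k) =
      (δ : LaurentSeries k) * Dn.eval₂ (HahnSeries.C : k →+* LaurentSeries k) (xK k) := by
    have h := congrArg (fun y : Fk k N => (y : LaurentSeries k)) hδ
    push_cast at h
    rw [coe_aeval (Fk k N) ht, coe_aeval (Fk k N) ht] at h
    exact h.symm
  obtain ⟨h0, h16⟩ := eval_ne_zero_of ℓ (ell_ne_two ℓ h4 hℓN) Nn Dn (δ : LaurentSeries k) G hr hD hG
    hDn0 hcount
  have hs0 : s ≠ 0 := by
    rintro rfl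
    exact h0 hs
  have hs16 : s ≠ 16 := by
    rintro rfl
    exact h16 hs
  -- a place over `x̄ = s`
  have hNk : ((N : ℕ) : k) ≠ 0 := natCast_ne_zero_final ℓ hℓN
  have hx := TLineHurwitz.transcendental_t4 N t ht
  haveI := TLineHurwitz.finiteDimensional_t4 N hNk t ht
  haveI := TLineHurwitz.isSeparable_t4 N hNk t ht
  obtain ⟨Z, hZ, hsum⟩ := Fermat.Agent.S40x.C2.HurwitzFibre.exists_zeros_sum_eq_finrank hx s
  have hZne : Z.Nonempty := by
    by_contra hemp
    rw [Finset.not_nonempty_iff_eq_empty] at hemp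
    rw [hemp, Finset.sum_empty] at hsum
    have hpos' : 0 < Module.finrank (IntermediateField.adjoin k {t}) (Fk k N) := Module.finrank_pos
    omega
  obtain ⟨P, hPZ⟩ := hZne
  have hPs : 0 < P.ord (t - algebraMap k (Fk k N) s) := (hZ P).mp hPZ
  have hj : 0 ≤ P.ord (jFk k N) := ord_j_nonneg_of_ne t ht P hPs hs0 hs16
  have hP1 : P.ord (t - algebraMap k (Fk k N) s) = 1 :=
    Fermat.Agent.S40x.C2.HurwitzEqB.ord_sub_eq_one_four ℓ A π hπ hℓN h4 hA t ht P s hj hPs
  exact ⟨P, hj, (isRoot_iff_ord_neg (Fk k N) ht Nn Dn hcop hδ P hP1).mp hs⟩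

/-! ### The bundle for `Diag/Asm.diag_Mq` -/

/-- the non-cuspidal places of `Fk k N` -/
def NCset (k : Type) [Field k] (N : ℕ) [NeZero N] : Set (Place k (Fk k N)) :=
  {P | 0 ≤ P.ord (jFk k N)}

/-- the non-cuspidal poles of `δ` -/
def Ndset {k : Type} [Field k] {N : ℕ} [NeZero N] (δ : Fk k N) : Set (Place k (Fk k N)) :=
  {P | 0 ≤ P.ord (jFk k N) ∧ P.ord δ < 0}

omit [IsAlgClosed k] in
theorem mem_NCset (P : Place k (Fk k N)) : P ∈ NCset k N ↔ 0 ≤ P.ord (jFk k N) := Iff.rfl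

omit [IsAlgClosed k] in
theorem mem_Ndset (δ : Fk k N) (P : Place k (Fk k N)) :
    P ∈ Ndset δ ↔ 0 ≤ P.ord (jFk k N) ∧ P.ord δ < 0 := Iff.rfl

omit [IsAlgClosed k] in
theorem Ndset_subset (δ : Fk k N) : Ndset δ ⊆ NCset k N := fun _ hP => hP.1

/-- **REF-ORD package**: the hypotheses `hNd, hne, hEN, hES, he₀` of `Diag/Asm.diag_Mq` for
`φE = Ub`, `e₀ = 12`, `NC = NCset k N`, `Nd = Ndset δ`, plus `hSnc`: every pole of `δ` at which
`x̄` is regular is non-cuspidal. -/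
structure RefOrdPackage {k : Type} [Field k] {N : ℕ} [NeZero N] (ℓ : ℕ) (t Ub δ : Fk k N) :
    Prop where
  hNd : Ndset δ ⊆ NCset k N
  hne : (Ndset δ).Nonempty
  hEN : ∀ P ∈ Ndset δ, (ℓ : ℤ) ∣ P.ord Ub - 12
  hES : ∀ P ∈ NCset k N, P ∉ Ndset δ → (ℓ : ℤ) ∣ P.ord Ub
  he₀ : ¬ (ℓ : ℤ) ∣ 12
  hSnc : ∀ P : Place k (Fk k N), 0 ≤ P.ord t → P.ord δ < 0 → P ∈ Ndset δ
  hord : ∀ P ∈ NCset k N, (P.ord δ < 0 → P.ord Ub = 12) ∧ (¬ P.ord δ < 0 → P.ord Ub = 0)

omit [Fact ℓ.Prime] in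
theorem not_dvd_twelve (hℓ : ℓ.Prime) (h5 : 5 ≤ ℓ) : ¬ (ℓ : ℤ) ∣ 12 := by
  intro h
  have h1 : ℓ ∣ 12 := by exact_mod_cast h
  have h2 : ℓ ∣ 2 ^ 2 * 3 := by norm_num; exact h1
  rcases (Nat.Prime.dvd_mul hℓ).mp h2 with h3 | h3
  · have := Nat.le_of_dvd (by norm_num) (hℓ.dvd_of_dvd_pow h3)
    omega
  · have := Nat.le_of_dvd (by norm_num) h3
    omega

include hπ hℓN in
/-- **the REF-ORD package**, hypothesis style in `δ` (T1 identity as hypothesis). -/
theorem refOrdPackage_of (h4 : 4 ∣ N) (hA : A.LiesOverPrime ℓ) (h5 : 5 ≤ ℓ) {t Ub δ : Fk k N}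
    (ht : (t : LaurentSeries k) = xK k)
    (hUb : (Ub : LaurentSeries k) = (iK k (Dq k) ^ (ℓ - 1))⁻¹)
    (Nn Dn : k[X]) (hcop : IsCoprime Nn Dn) (G : LaurentSeries k)
    (hδ : δ * aeval t Dn = aeval t Nn)
    (hD : thetaL (δ : LaurentSeries k) = xK k ^ ℓ * (G ^ ℓ - G)) (hG : G * xK k = thetaL (xK k))
    (hsq : Squarefree Dn) (hdeg : 2 * Dn.natDegree = ℓ - 1) :
    RefOrdPackage ℓ t Ub δ := by
  have hℓ : ℓ.Prime := Fact.out
  have hord := fun P hP => ord_Ub_of_nc ℓ A π hπ hℓN h4 hA ht hUb Nn Dn hcop G hδ hD hG hsq hdeg.le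
    P hP
  refine ⟨Ndset_subset δ, ?_, ?_, ?_, not_dvd_twelve ℓ hℓ h5, ?_, hord⟩
  · obtain ⟨P, hP1, hP2⟩ := exists_pole_nc ℓ A π hπ hℓN h4 hA ht Nn Dn hcop G hδ hD hG
      (by omega) hdeg.le
    exact ⟨P, hP1, hP2⟩
  · intro P hP
    rw [(hord P hP.1).1 hP.2, sub_self]
    exact dvd_zero _
  · intro P hP hPn
    have h1 : ¬ P.ord δ < 0 := fun h => hPn ⟨hP, h⟩
    rw [(hord P hP).2 h1]
    exact dvd_zero _
  · intro P htP hpole
    exact ⟨ord_j_nonneg_of_pole ℓ hℓN h4 ht Nn Dn G hδ hD hG hsq.ne_zero hdeg.le P htP hpole, hpole⟩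

open Fermat.Agent.S40x.Thick.Count in
omit [IsAlgClosed k] [Fact ℓ.Prime] [CharP k ℓ] in
/-- the function `δ = r(x̄)` as an element of `Fk k N`. -/
theorem exists_delta (t : Fk k N) (ht : (t : LaurentSeries k) = xK k) (r : RatFunc k)
    (Dk : LaurentSeries k) (hr : evP (xK k) r.num = Dk * evP (xK k) r.denom) :
    ∃ δ : Fk k N, (δ : LaurentSeries k) = Dk ∧ δ * aeval t r.denom = aeval t r.num := by
  have hd0 : aeval t r.denom ≠ 0 := aeval_ne_zero (Fk k N) ht r.denom_ne_zero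
  refine ⟨aeval t r.num / aeval t r.denom, ?_, div_mul_cancel₀ _ hd0⟩
  have hcoe : ((aeval t r.denom : Fk k N) : LaurentSeries k) ≠ 0 := by
    intro h
    apply hd0
    exact_mod_cast h
  have h1 : ((aeval t r.num / aeval t r.denom : Fk k N) : LaurentSeries k) =
      ((aeval t r.num : Fk k N) : LaurentSeries k) /
        ((aeval t r.denom : Fk k N) : LaurentSeries k) := by
    push_cast
    rfl
  rw [h1, div_eq_iff hcoe, coe_aeval (Fk k N) ht, coe_aeval (Fk k N) ht]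
  exact hr

open Fermat.Agent.S40x.Thick.Count in
include hπ hℓN in
/-- **the REF-ORD package, concrete form**: `δ` = the reduction of `(x₄(q^ℓ) - x₄^ℓ)/ℓ`, with the
data `r` of `Thick/Level4pData.exists_denom_data`. -/
theorem refOrdPackage_x4 (h4 : 4 ∣ N) (hA : A.LiesOverPrime ℓ) (h5 : 5 ≤ ℓ) {t Ub : Fk k N}
    (ht : (t : LaurentSeries k) = xK k)
    (hUb : (Ub : LaurentSeries k) = (iK k (Dq k) ^ (ℓ - 1))⁻¹) (r : RatFunc k)
    (hr : evP (xK k) r.num =
      coeffMap (Int.castRingHom k) (Fermat.Agent.S40x.Thick.T1QSeries.frobQuot ℓ L4.x4) *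
        evP (xK k) r.denom)
    (hsq : Squarefree r.denom) (hdeg : 2 * r.denom.natDegree = ℓ - 1) :
    ∃ δ : Fk k N,
      (δ : LaurentSeries k) =
        coeffMap (Int.castRingHom k) (Fermat.Agent.S40x.Thick.T1QSeries.frobQuot ℓ L4.x4) ∧
      δ * aeval t r.denom = aeval t r.num ∧ RefOrdPackage ℓ t Ub δ := by
  obtain ⟨δ, hδcoe, hδ⟩ := exists_delta t ht r _ hr
  refine ⟨δ, hδcoe, hδ, ?_⟩
  refine refOrdPackage_of ℓ A π hπ hℓN h4 hA h5 ht hUb r.num r.denom (RatFunc.isCoprime_num_denom r)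
    (coeffMap (Int.castRingHom k)
      (HahnSeries.ofPowerSeries ℤ ℤ Fermat.Agent.S40x.Thick.T1QSeries.G4)) hδ ?_ ?_ hsq hdeg
  · rw [hδcoe]
    exact Fermat.Agent.S40x.Thick.T1QSeries.thetaL_frobQuot_x4_bar ℓ k
  · have h := congrArg (coeffMap (Int.castRingHom k)) Fermat.Agent.S40x.Thick.T1QSeries.thetaL_x4
    rw [map_mul, Fermat.Agent.S40x.Thick.ThetaX4K.coeffMap_thetaL] at h
    rw [xK, Fermat.Agent.S40x.Thick.ModM.cK, h, mul_comm]

end Fk

end Fermat.Agent.S40x.Thick.DenomNonCusp
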