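/-
P-S44/S40, block R1, T-block instantiation glue (b)+(c) (helper81): at the CONCRETE chart
`C := ChartInst.chart H hA Hx z hz` of `redSetup2 H hA = redSetupTwoVal (redSetupInfty H hA)
(redSetupZero H hA) rfl` (level `M q`, `q ∤ M` the residue characteristic):

* `coe_xb`  : the first coordinate `x̄ = PolesNodes.xb R₁ R₂ rfl C` of the reduced chart coordinate
  is `z̄ = coeffMap (Int.castRingHom k) z` (as a Laurent series);
* `coe_xb'` : the second coordinate `PolesNodes.xb' R₁ R₂ rfl C` is `z̄ ^ q`;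
* for `M = 4` (level variable `M` with `hM : M = 4`, subst inside), `z = L4.x4`:
  `exists_ev` : ONE statement carrying the hypotheses `ev`, `hev`, `hgen`, `hT9` of
  `Assemble.thick_bezout` (`ev` = `Haupt4k.evFk`, `hT9` = `Haupt4kCount.count_evFk`).
-/
import Mathlib
import Fermat.Agent.S34x.Inst.ChartInst
import Fermat.Agent.S40x.Thick.PolesNodes
import Fermat.Agent.S40x.Thick.Haupt4kCount

set_option autoImplicit false
set_option linter.unusedSectionVars false
set_option linter.style.haveILetI false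

noncomputable section

namespace Fermat.Agent.S40x.Thick.EvChart

open Polynomial ModularCurve AlgebraicCurve IntermediateField Module IsLocalRing
open Fermat.Agent.S28 Fermat.Agent.S28.Tower Fermat.Agent.Gateway.Hecke
open Fermat.Agent.Gateway.Red Fermat.Agent.Gateway.GoodRed Fermat.Agent.Gateway.ESC
open Fermat.Agent.Gateway.GoodRed.ConjFamily
open Fermat.Agent.Gateway.AuxLevel
open Fermat.Agent.Gateway.C0 Fermat.Agent.S34x Fermat.Agent.S34x.C0two Fermat.Agent.S34x.TwoVal
open Fermat.Agent.S34x.Inst.RedSetupInst Fermat.Agent.S34x.Inst.L2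
open Fermat.Agent.S34x.Inst.ChartInst
open Fermat.Agent.S40x.Thick.PolesNodes
open Fermat.Agent.S40x.Thick.Haupt4k Fermat.Agent.S40x.Thick.Haupt4kCount

/-- shortcut (the generic search for this instance takes more than a second) -/
local instance (priority := 100000) algebraFLShortcutEv (L : Type) [Field L] [Algebra ℚ L] (M : ℕ)
    [NeZero M] : Algebra L (FL L M) := inferInstance

variable {L : Type} [Field L] [Algebra ℚ L] [IsAlgClosed L] [Algebra.IsAlgebraic ℚ L]
  {A : ValuationSubring L} {k : Type} [Field k] {π : A →+* k} [IsAlgClosed k]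
  {M q : ℕ} [NeZero M] [Fact q.Prime] [CharP k q]
  {hdeg : finrankAlong L (heckeAlphaBar L M q) = q + 1} {hq : q.Prime} {hqM : ¬ q ∣ M}
  {hrk : ∀ x ∈ maximalIdeal A, ∀ c : A, c ≠ 0 → ∃ j : ℕ, c ∣ x ^ j}
  {hπ : Function.Surjective π}
  (H : ResidueFacts A π M q hdeg hq hqM hrk hπ) (hA : A.LiesOverPrime q)
  {x : FBar L M} (Hx : GoodLevelFactsT A π M q hπ hqM x)

/-! ### (b) the two coordinates of the reduced chart coordinate -/

section Coord

variable (z : LaurentSeries ℤ) (hz : (x : LaurentSeries L) = coeffMap (Int.castRingHom L) z)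

/-- `x̄ = red_∞ (α x) = resFk x`. -/
theorem xb_eq :
    xb (redSetupInfty H hA) (redSetupZero H hA) rfl (chart H hA Hx z hz) =
      resFk A π M q hπ hqM ⟨x, Hx.mem⟩ :=
  res_infty_alpha H hA Hx

/-- `red_0 (α x) = (resFk x) ^ q`. -/
theorem xb'_eq :
    xb' (redSetupInfty H hA) (redSetupZero H hA) rfl (chart H hA Hx z hz) =
      (resFk A π M q hπ hqM ⟨x, Hx.mem⟩) ^ q :=
  res_zero_alpha H hA Hx z hz

/-- **(b)** the first coordinate of the reduced chart coordinate is `z̄`. -/
theorem coe_xb :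
    ((xb (redSetupInfty H hA) (redSetupZero H hA) rfl (chart H hA Hx z hz) :
      modularFunctionFieldFullC k M) : LaurentSeries k) = coeffMap (Int.castRingHom k) z := by
  rw [xb_eq H hA Hx z hz, coe_resFk]
  exact redV_of_int A π M x z hz

/-- the second coordinate of the reduced chart coordinate is `z̄ ^ q`. -/
theorem coe_xb' :
    ((xb' (redSetupInfty H hA) (redSetupZero H hA) rfl (chart H hA Hx z hz) :
      modularFunctionFieldFullC k M) : LaurentSeries k) =
        (coeffMap (Int.castRingHom k) z) ^ q := by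
  rw [xb'_eq H hA Hx z hz, SubmonoidClass.coe_pow, coe_resFk]
  congr 1
  exact redV_of_int A π M x z hz

end Coord

/-! ### (b)+(c) at level `4`: `x̄ = xFk` and the package `ev`, `hev`, `hgen`, `hT9` -/

section Four

variable (hz : (x : LaurentSeries L) = coeffMap (Int.castRingHom L) L4.x4)

/-- `4 ≠ 0` in `k` (residue characteristic `q ∤ 4`). -/
theorem four_ne_zero_of_not_dvd (h : ¬ q ∣ 4) : ((4 : ℕ) : k) ≠ 0 := fun h0 =>
  h ((CharP.cast_eq_zero_iff k q 4).mp h0)

/-- **(b)** at level `4` the reduced chart coordinate is the Hauptmodul `x̄ = L4.x4k k`. -/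
theorem coe_xb_x4 :
    ((xb (redSetupInfty H hA) (redSetupZero H hA) rfl (chart H hA Hx L4.x4 hz) :
      modularFunctionFieldFullC k M) : LaurentSeries k) = L4.x4k k :=
  coe_xb H hA Hx L4.x4 hz

/-- **(b)**, level literally `4`: `x̄ = xFk h4`. -/
theorem xb_eq_xFk {hdeg4 : finrankAlong L (heckeAlphaBar L 4 q) = q + 1} {hq4 : ¬ q ∣ 4}
    (H4 : ResidueFacts A π 4 q hdeg4 hq hq4 hrk hπ) {x4 : FBar L 4}
    (Hx4 : GoodLevelFactsT A π 4 q hπ hq4 x4)
    (hz4 : (x4 : LaurentSeries L) = coeffMap (Int.castRingHom L) L4.x4)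
    (h4 : ((4 : ℕ) : k) ≠ 0) :
    xb (redSetupInfty H4 hA) (redSetupZero H4 hA) rfl (chart H4 hA Hx4 L4.x4 hz4) = xFk h4 :=
  Subtype.ext (coe_xb H4 hA Hx4 L4.x4 hz4)

/-- **(c)** the hypotheses `ev`, `hev`, `hgen`, `hT9` of `Assemble.thick_bezout` at the concrete
chart of level `4 q` in ONE statement (`δ` will be `R₁.res ⟨w, hw⟩`, identified with the reduction
of the Frobenius quotient by T2/T3). -/
theorem exists_ev (hM : M = 4) :
    ∃ ev : RatFunc k →+* modularFunctionFieldFullC k M,
      (∀ P : k[X], ev (algebraMap k[X] (RatFunc k) P) =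
        aeval (xb (redSetupInfty H hA) (redSetupZero H hA) rfl (chart H hA Hx L4.x4 hz)) P) ∧
      Function.Surjective ev ∧
      ∀ δ : modularFunctionFieldFullC k M,
        ((δ : modularFunctionFieldFullC k M) : LaurentSeries k) =
          coeffMap (Int.castRingHom k) (T1QSeries.frobQuot q L4.x4) →
        ∀ r : RatFunc k, ev r = δ → q - 1 ≤ 2 * r.denom.natDegree := by
  subst hM
  have h4 : ((4 : ℕ) : k) ≠ 0 := four_ne_zero_of_not_dvd hqM
  have hq2 : q ≠ 2 := by
    rintro rfl
    exact hqM (by norm_num)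
  refine ⟨(evFk h4 : RatFunc k →+* Fk k 4), fun P => ?_, evFk_surjective h4,
    fun δ hδ r hr => count_evFk q h4 hq2 δ hδ r hr⟩
  rw [xb_eq_xFk hA H Hx hz h4]
  exact evFk_algebraMap h4 P

end Four

end Fermat.Agent.S40x.Thick.EvChart
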