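/-
helper11 (P-S44/S40, block R1-T, leaf T1): the Frobenius defect of an integral Laurent series.

For a prime `p` and `f ∈ ℤ((q))`:
* `exists_frobDefect`     : `f(q^p) - f(q)^p = p • D` for some `D ∈ ℤ((q))` (Kronecker congruence,
                            pattern of `S34x.TwoVal.exists_kronecker_int`, generic in `f`);
* `thetaL_frobDefect`     : `θ D = (θ f)(q^p) - f^(p-1) θ f`  (`θ = q d/dq`);
* `thetaL_frobDefect_mod` : modulo `p`, `θ D̄ = (θ f̄)^p - f̄^(p-1) θ f̄`;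
* `thetaL_frobDefect_mod_div` : if `f̄ ≠ 0` and `Ḡ := θ f̄ / f̄` then `θ D̄ = f̄^p (Ḡ^p - Ḡ)`;
* the instance `f = x₄` (Hauptmodul of `X₀(4)`), with `x̄₄ ≠ 0`.
-/
import Fermat.Agent.S16.Two.QSeries
import Fermat.Agent.S34x.TwoVal.KroneckerInt
import Fermat.Agent.Gateway.AuxLevel.MembershipFk

set_option autoImplicit false
set_option linter.style.haveILetI false

noncomputable section

namespace Fermat.Agent.S40x.Thick.FrobDefect

open ModularCurve HahnSeries
open Fermat.Agent.S16.Two (thetaL thetaL_coeff thetaL_sub thetaL_qExpand thetaL_pow_succ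
  thetaL_intCast_mul)

variable (p : ℕ) [hp : Fact p.Prime]

/-- **Kronecker congruence**, generic integral quantitative form:
`f(q^p) - f(q)^p = p • D` with `D ∈ ℤ((q))`. -/
theorem exists_frobDefect (f : LaurentSeries ℤ) :
    haveI : NeZero p := ⟨hp.out.ne_zero⟩
    ∃ D : LaurentSeries ℤ, qExpand ℤ p f - f ^ p = HahnSeries.C (p : ℤ) * D := by
  haveI : NeZero p := ⟨hp.out.ne_zero⟩
  set E : LaurentSeries ℤ := qExpand ℤ p f - f ^ p with hE
  have hred : coeffMap (Int.castRingHom (ZMod p)) E = 0 := by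
    rw [hE, map_sub, map_pow, Fermat.Agent.Gateway.Kummer.coeffMap_qExpand,
      Fermat.Agent.Gateway.ES.pow_char_eq_qExpand_coeffMap_frobenius p
        (coeffMap (Int.castRingHom (ZMod p)) f)]
    have hfrob : frobenius (ZMod p) p = RingHom.id (ZMod p) := by
      ext a
      simp
    rw [hfrob]
    have hid : coeffMap (RingHom.id (ZMod p)) (coeffMap (Int.castRingHom (ZMod p)) f) =
        coeffMap (Int.castRingHom (ZMod p)) f := by
      ext n
      simp [coeffMap_coeff]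
    rw [hid, sub_self]
  have hdvd : ∀ n, (p : ℤ) ∣ E.coeff n := by
    intro n
    have := congrArg (fun x : LaurentSeries (ZMod p) => x.coeff n) hred
    simp only [coeffMap_coeff, HahnSeries.coeff_zero] at this
    exact (ZMod.intCast_zmod_eq_zero_iff_dvd _ _).mp this
  refine ⟨⟨fun n => E.coeff n / (p : ℤ), E.isPWO_support.mono ?_⟩, ?_⟩
  · intro n hn
    simp only [Function.mem_support, ne_eq] at hn ⊢
    intro h0
    apply hn
    rw [h0, Int.zero_ediv]
  · ext n
    rw [HahnSeries.C_mul_eq_smul, HahnSeries.coeff_smul]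
    show E.coeff n = (p : ℤ) • (E.coeff n / (p : ℤ))
    rw [smul_eq_mul, Int.mul_ediv_cancel' (hdvd n)]

/-- `θ` commutes with change of coefficients. -/
theorem coeffMap_thetaL {R S : Type*} [CommRing R] [CommRing S] (φ : R →+* S)
    (f : LaurentSeries R) : coeffMap φ (thetaL f) = thetaL (coeffMap φ f) := by
  ext n
  rw [coeffMap_coeff, thetaL_coeff, thetaL_coeff, coeffMap_coeff, map_mul, map_intCast]

/-- `θ D = (θ f)(q^p) - f^(p-1) θ f` for the Frobenius defect `D` of `f`. -/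
theorem thetaL_frobDefect (f D : LaurentSeries ℤ)
    (hD : haveI : NeZero p := ⟨hp.out.ne_zero⟩
      qExpand ℤ p f - f ^ p = HahnSeries.C (p : ℤ) * D) :
    haveI : NeZero p := ⟨hp.out.ne_zero⟩
    thetaL D = qExpand ℤ p (thetaL f) - f ^ (p - 1) * thetaL f := by
  haveI : NeZero p := ⟨hp.out.ne_zero⟩
  have hp1 : p - 1 + 1 = p := Nat.sub_add_cancel hp.out.one_le
  have hC : (HahnSeries.C (p : ℤ) : LaurentSeries ℤ) = (((p : ℤ) : ℤ) : LaurentSeries ℤ) := by
    simp
  have h1 := congrArg thetaL hD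
  rw [thetaL_sub, thetaL_qExpand, hC, thetaL_intCast_mul] at h1
  have h2 : thetaL (f ^ p) = HahnSeries.C (p : ℤ) * (f ^ (p - 1) * thetaL f) := by
    have := thetaL_pow_succ f (p - 1)
    rw [hp1] at this
    rw [this, mul_assoc]
    congr 1
  have hcast : (((p : ℤ) : ℤ) : LaurentSeries ℤ) = HahnSeries.C (p : ℤ) := by simp
  have hcast' : ((p : ℕ) : LaurentSeries ℤ) = HahnSeries.C (p : ℤ) := by simp
  rw [h2, hcast, hcast'] at h1
  -- cancel `p` coefficientwise
  ext n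
  have h3 := congrArg (fun x : LaurentSeries ℤ => x.coeff n) h1
  simp only [HahnSeries.C_mul_eq_smul, HahnSeries.coeff_sub, HahnSeries.coeff_smul,
    smul_eq_mul] at h3
  have hp0 : (p : ℤ) ≠ 0 := by exact_mod_cast hp.out.ne_zero
  rw [HahnSeries.coeff_sub]
  have h4 : (p : ℤ) * ((qExpand ℤ p (thetaL f)).coeff n - (f ^ (p - 1) * thetaL f).coeff n) =
      (p : ℤ) * (thetaL D).coeff n := by
    rw [mul_sub]; exact h3
  exact (mul_left_cancel₀ hp0 h4).symm

/-- the `p`-th power map on `𝔽_p((q))` is `q ↦ q^p`. -/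
theorem pow_eq_qExpand_zmod (g : LaurentSeries (ZMod p)) :
    haveI : NeZero p := ⟨hp.out.ne_zero⟩
    g ^ p = qExpand (ZMod p) p g := by
  haveI : NeZero p := ⟨hp.out.ne_zero⟩
  rw [Fermat.Agent.Gateway.ES.pow_char_eq_qExpand_coeffMap_frobenius p g]
  have hfrob : frobenius (ZMod p) p = RingHom.id (ZMod p) := by
    ext a
    simp
  rw [hfrob]
  congr 1

/-- modulo `p`: `θ D̄ = (θ f̄)^p - f̄^(p-1) θ f̄`. -/
theorem thetaL_frobDefect_mod (f D : LaurentSeries ℤ)
    (hD : haveI : NeZero p := ⟨hp.out.ne_zero⟩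
      qExpand ℤ p f - f ^ p = HahnSeries.C (p : ℤ) * D) :
    thetaL (coeffMap (Int.castRingHom (ZMod p)) D) =
      thetaL (coeffMap (Int.castRingHom (ZMod p)) f) ^ p -
        coeffMap (Int.castRingHom (ZMod p)) f ^ (p - 1) *
          thetaL (coeffMap (Int.castRingHom (ZMod p)) f) := by
  haveI : NeZero p := ⟨hp.out.ne_zero⟩
  rw [← coeffMap_thetaL, thetaL_frobDefect p f D hD, map_sub, map_mul, map_pow,
    Fermat.Agent.Gateway.Kummer.coeffMap_qExpand, coeffMap_thetaL, ← pow_eq_qExpand_zmod]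

/-- modulo `p`, in logarithmic form: `θ D̄ = f̄^p (Ḡ^p - Ḡ)` with `Ḡ = θ f̄ / f̄`. -/
theorem thetaL_frobDefect_mod_div (f D : LaurentSeries ℤ)
    (hD : haveI : NeZero p := ⟨hp.out.ne_zero⟩
      qExpand ℤ p f - f ^ p = HahnSeries.C (p : ℤ) * D)
    (hf : coeffMap (Int.castRingHom (ZMod p)) f ≠ 0) :
    thetaL (coeffMap (Int.castRingHom (ZMod p)) D) =
      coeffMap (Int.castRingHom (ZMod p)) f ^ p *
        ((thetaL (coeffMap (Int.castRingHom (ZMod p)) f) /
            coeffMap (Int.castRingHom (ZMod p)) f) ^ p -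
          thetaL (coeffMap (Int.castRingHom (ZMod p)) f) /
            coeffMap (Int.castRingHom (ZMod p)) f) := by
  rw [thetaL_frobDefect_mod p f D hD]
  set fb := coeffMap (Int.castRingHom (ZMod p)) f with hfb
  have hp1 : p - 1 + 1 = p := Nat.sub_add_cancel hp.out.one_le
  have h1 : fb ^ p = fb ^ (p - 1) * fb := by rw [← pow_succ, hp1]
  rw [mul_sub, div_pow, mul_div_cancel₀ _ (pow_ne_zero p hf), h1, mul_assoc,
    mul_div_cancel₀ _ hf]

/-! ### The instance `f = x₄` -/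

open Fermat.Agent.Gateway.AuxLevel

/-- the Frobenius defect of the Hauptmodul `x₄` of `X₀(4)`:
`x₄(q^p) - x₄(q)^p = p • D`, `θ D = (θ x₄)(q^p) - x₄^(p-1) θ x₄`, and modulo `p`
`θ D̄ = x̄₄^p (Ḡ^p - Ḡ)`, `Ḡ = θ x̄₄ / x̄₄`. -/
theorem exists_frobDefect_x4 :
    haveI : NeZero p := ⟨hp.out.ne_zero⟩
    ∃ D : LaurentSeries ℤ,
      qExpand ℤ p L4.x4 - L4.x4 ^ p = HahnSeries.C (p : ℤ) * D ∧
      thetaL D = qExpand ℤ p (thetaL L4.x4) - L4.x4 ^ (p - 1) * thetaL L4.x4 ∧
      thetaL (coeffMap (Int.castRingHom (ZMod p)) D) =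
        L4.x4k (ZMod p) ^ p *
          ((thetaL (L4.x4k (ZMod p)) / L4.x4k (ZMod p)) ^ p -
            thetaL (L4.x4k (ZMod p)) / L4.x4k (ZMod p)) := by
  haveI : NeZero p := ⟨hp.out.ne_zero⟩
  obtain ⟨D, hD⟩ := exists_frobDefect p L4.x4
  exact ⟨D, hD, thetaL_frobDefect p L4.x4 D hD,
    thetaL_frobDefect_mod_div p L4.x4 D hD (L4.x4k_ne_zero (ZMod p))⟩

end Fermat.Agent.S40x.Thick.FrobDefect
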