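/-
helper11 (P-S44/S40, block R1-T, leaf T10, numerics): the genus of `X₀(4p)` for an odd prime `p`
is `(p - 3) / 2`, and the genus of `X₀(4)` is `0` (pattern of `S16/Two/Genus9p`):
`ψ(4p) = 6 (p + 1)`, `ν₂ = ν₃ = 0`, `6` cusps; `ψ(4) = 6`, `3` cusps.
-/
import Fermat.Agent.Gateway.C0.GenusForms

set_option autoImplicit false

namespace Fermat.Agent.S40x.Thick.Genus4p

open ModularCurve

/-! ### Numerics at level `4p` -/

/-- the divisors of `4 p` for a prime `p`. -/
theorem divisors_four_mul {p : ℕ} (hp : p.Prime) :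
    (4 * p).divisors = {1, 2, 4, p, 2 * p, 4 * p} := by
  have h4 : (4 : ℕ).divisors = {1, 2, 4} := by decide
  rw [Nat.divisors_mul, h4, hp.divisors]
  ext d
  simp only [Finset.mem_mul, Finset.mem_insert, Finset.mem_singleton]
  constructor
  · rintro ⟨a, (rfl | rfl | rfl), b, (rfl | rfl), rfl⟩ <;> simp
  · rintro (rfl | rfl | rfl | rfl | rfl | rfl)
    · exact ⟨1, Or.inl rfl, 1, Or.inl rfl, rfl⟩
    · exact ⟨2, Or.inr (Or.inl rfl), 1, Or.inl rfl, rfl⟩
    · exact ⟨4, Or.inr (Or.inr rfl), 1, Or.inl rfl, rfl⟩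
    · exact ⟨1, Or.inl rfl, d, Or.inr rfl, by simp⟩
    · exact ⟨2, Or.inr (Or.inl rfl), p, Or.inr rfl, rfl⟩
    · exact ⟨4, Or.inr (Or.inr rfl), p, Or.inr rfl, rfl⟩

theorem sum_divisors_four_mul {M : Type*} [AddCommMonoid M] {p : ℕ} (hp : p.Prime) (hp2 : p ≠ 2)
    (f : ℕ → M) :
    ∑ d ∈ (4 * p).divisors, f d = f 1 + (f 2 + (f 4 + (f p + (f (2 * p) + f (4 * p))))) := by
  have hp4 : p ≠ 4 := by rintro rfl; norm_num at hp
  have hp2' : 2 ≤ p := hp.two_le
  rw [divisors_four_mul hp]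
  rw [Finset.sum_insert, Finset.sum_insert, Finset.sum_insert, Finset.sum_insert,
    Finset.sum_insert, Finset.sum_singleton]
  all_goals simp only [Finset.mem_insert, Finset.mem_singleton]; omega

/-- `ψ(4p) = 6 (p + 1)` for an odd prime `p`. -/
theorem dedekindPsi_four_mul {p : ℕ} (hp : p.Prime) (hp2 : p ≠ 2) :
    dedekindPsi (4 * p) = 6 * (p + 1) := by
  have hsq2 : Squarefree 2 := Nat.prime_two.prime.squarefree
  have hsqp : Squarefree p := hp.prime.squarefree
  have hsq2p : Squarefree (2 * p) := by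
    rw [Nat.squarefree_mul_iff]
    exact ⟨(Nat.coprime_primes Nat.prime_two hp).mpr (Ne.symm hp2), hsq2, hsqp⟩
  have hn4 : ¬ Squarefree 4 := by
    intro h
    have := h 2 (by norm_num)
    simp at this
  have hn4p : ¬ Squarefree (4 * p) := by
    intro h
    have := h 2 ⟨p, by ring⟩
    simp at this
  unfold dedekindPsi
  rw [Finset.sum_filter, sum_divisors_four_mul hp hp2]
  simp only [squarefree_one, hsq2, hsqp, hsq2p, hn4, hn4p, if_true, if_false]
  have e1 : 4 * p / 2 = 2 * p := by omega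
  have e2 : 4 * p / p = 4 := Nat.mul_div_cancel _ hp.pos
  have e3 : 4 * p / (2 * p) = 2 := by
    rw [show 4 * p = 2 * (2 * p) by ring]
    exact Nat.mul_div_cancel _ (Nat.mul_pos (by norm_num) hp.pos)
  rw [Nat.div_one, e1, e2, e3]
  ring

theorem cuspCount_four_mul {p : ℕ} (hp : p.Prime) (hp2 : p ≠ 2) : cuspCount (4 * p) = 6 := by
  have hc2 : Nat.Coprime 2 p := (Nat.coprime_primes Nat.prime_two hp).mpr (Ne.symm hp2)
  have hc4 : Nat.Coprime 4 p := by
    have : Nat.Coprime (2 ^ 2) p := Nat.Coprime.pow_left 2 hc2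
    simpa using this
  unfold cuspCount
  rw [sum_divisors_four_mul hp hp2]
  have e1 : 4 * p / 2 = 2 * p := by omega
  have e2 : 4 * p / p = 4 := Nat.mul_div_cancel _ hp.pos
  have e3 : 4 * p / (2 * p) = 2 := by
    rw [show 4 * p = 2 * (2 * p) by ring]
    exact Nat.mul_div_cancel _ (Nat.mul_pos (by norm_num) hp.pos)
  have e4 : 4 * p / 4 = p := by omega
  have e5 : 4 * p / (4 * p) = 1 := Nat.div_self (Nat.mul_pos (by norm_num) hp.pos)
  rw [Nat.div_one, e1, e2, e3, e4, e5]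
  have g1 : Nat.gcd 1 (4 * p) = 1 := Nat.gcd_one_left _
  have g2 : Nat.gcd 2 (2 * p) = 2 := Nat.gcd_eq_left ⟨p, rfl⟩
  have g3 : Nat.gcd 4 p = 1 := hc4
  have g4 : Nat.gcd p 4 = 1 := hc4.symm
  have g5 : Nat.gcd (2 * p) 2 = 2 := Nat.gcd_eq_right ⟨p, rfl⟩
  have g6 : Nat.gcd (4 * p) 1 = 1 := Nat.gcd_one_right _
  rw [g1, g2, g3, g4, g5, g6]
  have t2 : Nat.totient 2 = 1 := by decide
  simp [t2]

theorem nuTwo_four_mul (p : ℕ) : nuTwo (4 * p) = 0 := by
  unfold nuTwo
  have : IsEmpty {x : ZMod (4 * p) // x ^ 2 + 1 = 0} := by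
    refine ⟨fun ⟨x, hx⟩ => ?_⟩
    have hdvd : 4 ∣ 4 * p := ⟨p, rfl⟩
    have h := congrArg (ZMod.castHom hdvd (ZMod 4)) hx
    simp only [map_add, map_pow, map_one, map_zero] at h
    revert h
    generalize (ZMod.castHom hdvd (ZMod 4)) x = y
    revert y
    decide
  exact Nat.card_of_isEmpty

theorem nuThree_four_mul (p : ℕ) : nuThree (4 * p) = 0 := by
  unfold nuThree
  have : IsEmpty {x : ZMod (4 * p) // x ^ 2 + x + 1 = 0} := by
    refine ⟨fun ⟨x, hx⟩ => ?_⟩
    have hdvd : 2 ∣ 4 * p := ⟨2 * p, by ring⟩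
    have h := congrArg (ZMod.castHom hdvd (ZMod 2)) hx
    simp only [map_add, map_pow, map_one, map_zero] at h
    revert h
    generalize (ZMod.castHom hdvd (ZMod 2)) x = y
    revert y
    decide
  exact Nat.card_of_isEmpty

/-- the genus formula at level `4p`: `2 g + 3 = p`. -/
theorem genusFormula_four_mul {p : ℕ} (hp : p.Prime) (hp2 : p ≠ 2) :
    2 * genusFormula (4 * p) + 3 = (p : ℚ) := by
  unfold genusFormula
  rw [dedekindPsi_four_mul hp hp2, nuTwo_four_mul, nuThree_four_mul, cuspCount_four_mul hp hp2]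
  push_cast
  ring

/-- the genus formula at level `4`. -/
theorem genusFormula_four : genusFormula 4 = 0 := by
  have hψ : dedekindPsi 4 = 6 := by
    unfold dedekindPsi
    have h4 : (4 : ℕ).divisors = {1, 2, 4} := by decide
    have hsq2 : Squarefree 2 := Nat.prime_two.prime.squarefree
    have hn4 : ¬ Squarefree 4 := by
      intro h
      have := h 2 (by norm_num)
      simp at this
    rw [Finset.sum_filter, h4]
    simp [hsq2, hn4]
  have hc : cuspCount 4 = 3 := by
    unfold cuspCount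
    have h4 : (4 : ℕ).divisors = {1, 2, 4} := by decide
    rw [h4]
    decide
  have h2 : nuTwo 4 = 0 := by
    have := nuTwo_four_mul 1
    simpa using this
  have h3 : nuThree 4 = 0 := by
    have := nuThree_four_mul 1
    simpa using this
  unfold genusFormula
  rw [hψ, hc, h2, h3]
  norm_num

/-! ### The genera of `X₀(4p)` and `X₀(4)` -/

/-- `2 g(X₀(4p)) + 3 = p` for an odd prime `p`. -/
theorem genusFF_four_mul (p : ℕ) [Fact p.Prime] [NeZero (4 * p)] (hp2 : p ≠ 2) :
    2 * AlgebraicCurve.genusFF (AlgebraicClosure ℚ)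
      (Fermat.Agent.Gateway.GoodRed.FBar (AlgebraicClosure ℚ) (4 * p)) + 3 = p := by
  have hpp : p.Prime := Fact.out
  have h1 := Fermat.Agent.Lib.RiemannRoch.Modular.genusFF_modular (4 * p)
  have h2 := genusFormula_four_mul hpp hp2
  rw [← h1] at h2
  exact_mod_cast h2

/-- `g(X₀(4)) = 0`. -/
theorem genusFF_four :
    AlgebraicCurve.genusFF (AlgebraicClosure ℚ)
      (Fermat.Agent.Gateway.GoodRed.FBar (AlgebraicClosure ℚ) 4) = 0 := by
  have h1 := Fermat.Agent.Lib.RiemannRoch.Modular.genusFF_modular 4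
  rw [genusFormula_four] at h1
  exact_mod_cast h1

/-- version at a variable level `N = 4 p` -/
theorem genusFF_of_eq {N p : ℕ} [Fact p.Prime] [NeZero N] (hN : N = 4 * p) (hp2 : p ≠ 2) :
    2 * AlgebraicCurve.genusFF (AlgebraicClosure ℚ)
      (Fermat.Agent.Gateway.GoodRed.FBar (AlgebraicClosure ℚ) N) + 3 = p := by
  subst hN
  exact genusFF_four_mul p hp2

end Fermat.Agent.S40x.Thick.Genus4p
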