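/-
P-S44 / R1-T, leaf T10a (helper36): the genus of `X₀(4p)` for an odd prime `p` is `(p - 3) / 2`,
the genus of `X₀(4)` is `0`; hence the node count `δ = g(F_{4p}) - 2 g(F_4) + 1` of
`S34x/Inst/CountsMq.exists_counts_of_facts` (`M = 4`, `q = p`) satisfies `2 δ = p - 1`.

Numerics of the genus formula at `4p` (`ψ(4p) = 6 (p + 1)`, `ν₂ = ν₃ = 0`, `6` cusps) and at `4`
(`ψ(4) = 6`, `3` cusps) + landed `Gateway/GoodRed/GoodLevelNumerics.genusFF_good`
(`12 g - 12 = ψ(M) - 6 ν_∞(M)` for `4 ∣ M`, from `S24.result`).  Pattern = `S16/Two/Genus9p.lean`.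
-/
import Fermat.Agent.Gateway.GoodRed.GoodLevelNumerics
import Fermat.Agent.Gateway.GoodRed.GaussBar
import Fermat.Agent.Gateway.HK1.Modular

set_option autoImplicit false

namespace Fermat.Agent.S40x.Thick.Genus4pB

open ModularCurve

/-! ### Numerics at level `4p` -/

/-- the divisors of `4 p` for a prime `p`. -/
theorem divisors_four_mul {p : ℕ} (hp : p.Prime) :
    (4 * p).divisors = {1, 2, 4, p, 2 * p, 4 * p} := by
  have h4 : (4 : ℕ).divisors = {1, 2, 4} := by decide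
  rw [Nat.divisors_mul, h4, hp.divisors]
  ext d
  simp only [Finset.mem_mul, Finset.mem_insert, Finset.mem_singleton]
  constructor
  · rintro ⟨a, (rfl | rfl | rfl), b, (rfl | rfl), rfl⟩ <;> simp
  · rintro (rfl | rfl | rfl | rfl | rfl | rfl)
    · exact ⟨1, Or.inl rfl, 1, Or.inl rfl, rfl⟩
    · exact ⟨2, Or.inr (Or.inl rfl), 1, Or.inl rfl, rfl⟩
    · exact ⟨4, Or.inr (Or.inr rfl), 1, Or.inl rfl, rfl⟩
    · exact ⟨1, Or.inl rfl, d, Or.inr rfl, by simp⟩
    · exact ⟨2, Or.inr (Or.inl rfl), p, Or.inr rfl, rfl⟩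
    · exact ⟨4, Or.inr (Or.inr rfl), p, Or.inr rfl, rfl⟩

theorem sum_divisors_four_mul {M : Type*} [AddCommMonoid M] {p : ℕ} (hp : p.Prime) (hp2 : p ≠ 2)
    (f : ℕ → M) :
    ∑ d ∈ (4 * p).divisors, f d = f 1 + (f 2 + (f 4 + (f p + (f (2 * p) + f (4 * p))))) := by
  have hp4 : p ≠ 4 := by rintro rfl; norm_num at hp
  have hp2' : 2 ≤ p := hp.two_le
  rw [divisors_four_mul hp]
  rw [Finset.sum_insert, Finset.sum_insert, Finset.sum_insert, Finset.sum_insert,
    Finset.sum_insert, Finset.sum_singleton]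
  all_goals simp only [Finset.mem_insert, Finset.mem_singleton]; omega

/-- `ψ(4p) = 6 (p + 1)` for an odd prime `p`. -/
theorem dedekindPsi_four_mul {p : ℕ} (hp : p.Prime) (hp2 : p ≠ 2) :
    dedekindPsi (4 * p) = 6 * (p + 1) := by
  have hsq2 : Squarefree 2 := Nat.prime_two.prime.squarefree
  have hsqp : Squarefree p := hp.prime.squarefree
  have hsq2p : Squarefree (2 * p) := by
    rw [Nat.squarefree_mul_iff]
    exact ⟨(Nat.coprime_primes Nat.prime_two hp).mpr (Ne.symm hp2), hsq2, hsqp⟩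
  have hn4 : ¬ Squarefree 4 := by
    intro h
    have := h 2 (by norm_num)
    simp at this
  have hn4p : ¬ Squarefree (4 * p) := by
    intro h
    have := h 2 ⟨p, by ring⟩
    simp at this
  unfold dedekindPsi
  rw [Finset.sum_filter, sum_divisors_four_mul hp hp2]
  simp only [squarefree_one, hsq2, hsqp, hsq2p, hn4, hn4p, if_true, if_false]
  have e1 : 4 * p / 2 = 2 * p := by omega
  have e2 : 4 * p / p = 4 := Nat.mul_div_cancel _ hp.pos
  have e3 : 4 * p / (2 * p) = 2 := by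
    rw [show 4 * p = 2 * (2 * p) by ring]
    exact Nat.mul_div_cancel _ (Nat.mul_pos (by norm_num) hp.pos)
  rw [Nat.div_one, e1, e2, e3]
  ring

/-- `X₀(4p)` has `6` cusps for an odd prime `p`. -/
theorem cuspCount_four_mul {p : ℕ} (hp : p.Prime) (hp2 : p ≠ 2) : cuspCount (4 * p) = 6 := by
  have hc2 : Nat.Coprime 2 p := (Nat.coprime_primes Nat.prime_two hp).mpr (Ne.symm hp2)
  have hc4 : Nat.Coprime 4 p := by
    have : Nat.Coprime (2 ^ 2) p := Nat.Coprime.pow_left 2 hc2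
    simpa using this
  unfold cuspCount
  rw [sum_divisors_four_mul hp hp2]
  have e1 : 4 * p / 2 = 2 * p := by omega
  have e2 : 4 * p / p = 4 := Nat.mul_div_cancel _ hp.pos
  have e3 : 4 * p / (2 * p) = 2 := by
    rw [show 4 * p = 2 * (2 * p) by ring]
    exact Nat.mul_div_cancel _ (Nat.mul_pos (by norm_num) hp.pos)
  have e4 : 4 * p / 4 = p := by omega
  have e5 : 4 * p / (4 * p) = 1 := Nat.div_self (Nat.mul_pos (by norm_num) hp.pos)
  rw [Nat.div_one, e1, e2, e3, e4, e5]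
  have g1 : Nat.gcd 1 (4 * p) = 1 := Nat.gcd_one_left _
  have g2 : Nat.gcd 2 (2 * p) = 2 := Nat.gcd_eq_left ⟨p, rfl⟩
  have g3 : Nat.gcd 4 p = 1 := hc4
  have g4 : Nat.gcd p 4 = 1 := hc4.symm
  have g5 : Nat.gcd (2 * p) 2 = 2 := Nat.gcd_eq_right ⟨p, rfl⟩
  have g6 : Nat.gcd (4 * p) 1 = 1 := Nat.gcd_one_right _
  rw [g1, g2, g3, g4, g5, g6]
  have t2 : Nat.totient 2 = 1 := by decide
  simp [t2]

/-- `ψ(4) = 6`. -/
theorem dedekindPsi_four : dedekindPsi 4 = 6 := by
  have h4 : (4 : ℕ).divisors = {1, 2, 4} := by decide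
  have hsq2 : Squarefree 2 := Nat.prime_two.prime.squarefree
  have hn4 : ¬ Squarefree 4 := by
    intro h
    have := h 2 (by norm_num)
    simp at this
  unfold dedekindPsi
  rw [Finset.sum_filter, h4, Finset.sum_insert (by decide), Finset.sum_insert (by decide),
    Finset.sum_singleton]
  simp only [squarefree_one, hsq2, hn4, if_true, if_false]
  norm_num

/-- `X₀(4)` has `3` cusps. -/
theorem cuspCount_four : cuspCount 4 = 3 := by decide

/-- the genus formula at level `4p`, cleared of denominators. -/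
theorem two_mul_genusFormula_four_mul {p : ℕ} (hp : p.Prime) (hp2 : p ≠ 2) :
    2 * genusFormula (4 * p) = (p : ℚ) - 3 := by
  obtain ⟨h2, h3⟩ := Fermat.Agent.Gateway.GoodRed.GoodLevelNumerics.nuTwo_nuThree_eq_zero
    (M := 4 * p) (Or.inl ⟨p, rfl⟩)
  unfold genusFormula
  rw [dedekindPsi_four_mul hp hp2, h2, h3, cuspCount_four_mul hp hp2]
  push_cast
  ring

/-- the genus formula at level `4`. -/
theorem genusFormula_four : genusFormula 4 = 0 := by
  obtain ⟨h2, h3⟩ := Fermat.Agent.Gateway.GoodRed.GoodLevelNumerics.nuTwo_nuThree_eq_zero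
    (M := 4) (Or.inl dvd_rfl)
  unfold genusFormula
  rw [dedekindPsi_four, h2, h3, cuspCount_four]
  norm_num

/-! ### The genus of `X₀(4p)` and of `X₀(4)` -/

theorem neZero_four_mul (p : ℕ) [Fact p.Prime] : NeZero (4 * p) :=
  ⟨by have := (Fact.out : p.Prime).pos; omega⟩

/-- **The genus of `X₀(M)`, `M = 4 p`, `p` an odd prime**: `2 g + 3 = p`
(variable level: stating things at the literal level `4 * p` makes instance search slow
downstream). -/
theorem two_mul_genusFF_add_three_of_eq {M p : ℕ} [NeZero M] (hM : M = 4 * p) (hp : p.Prime)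
    (hp2 : p ≠ 2) :
    2 * AlgebraicCurve.genusFF (AlgebraicClosure ℚ) ↥(modularFunctionFieldBar M) + 3 = p := by
  have h1 := Fermat.Agent.Gateway.GoodRed.GoodLevelNumerics.genusFF_good M (Or.inl ⟨p, hM⟩)
  have h2 : dedekindPsi M = 6 * (p + 1) := by rw [hM]; exact dedekindPsi_four_mul hp hp2
  have h3 : cuspCount M = 6 := by rw [hM]; exact cuspCount_four_mul hp hp2
  rw [h2, h3] at h1
  push_cast at h1
  omega

/-- **The genus of `X₀(4p)`**, `p` an odd prime: `2 g + 3 = p`. -/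
theorem two_mul_genusFF_four_mul_add_three (p : ℕ) [Fact p.Prime] [NeZero (4 * p)] (hp2 : p ≠ 2) :
    2 * AlgebraicCurve.genusFF (AlgebraicClosure ℚ)
      (Fermat.Agent.Gateway.GoodRed.FBar (AlgebraicClosure ℚ) (4 * p)) + 3 = p :=
  two_mul_genusFF_add_three_of_eq rfl Fact.out hp2

/-- integer form: `2 g(X₀(4p)) = p - 3`. -/
theorem two_mul_genusFF_four_mul (p : ℕ) [Fact p.Prime] [NeZero (4 * p)] (hp2 : p ≠ 2) :
    2 * (AlgebraicCurve.genusFF (AlgebraicClosure ℚ)
      (Fermat.Agent.Gateway.GoodRed.FBar (AlgebraicClosure ℚ) (4 * p)) : ℤ) = (p : ℤ) - 3 := by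
  have h := two_mul_genusFF_four_mul_add_three p hp2
  omega

/-- the same for the type `HK1.FL Kbar (4 * p)` of `S34x/Inst/CountsMq`. -/
theorem two_mul_genusFF_FL_four_mul (p : ℕ) [Fact p.Prime] [NeZero (4 * p)] (hp2 : p ≠ 2) :
    2 * (AlgebraicCurve.genusFF (AlgebraicClosure ℚ)
      (Fermat.Agent.Gateway.HK1.FL (AlgebraicClosure ℚ) (4 * p)) : ℤ) = (p : ℤ) - 3 :=
  two_mul_genusFF_four_mul p hp2

/-- **The genus of `X₀(4)` is `0`.** -/
theorem genusFF_four :
    AlgebraicCurve.genusFF (AlgebraicClosure ℚ)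
      (Fermat.Agent.Gateway.GoodRed.FBar (AlgebraicClosure ℚ) 4) = 0 := by
  have h1 : 12 * (AlgebraicCurve.genusFF (AlgebraicClosure ℚ)
      (Fermat.Agent.Gateway.GoodRed.FBar (AlgebraicClosure ℚ) 4) : ℤ) - 12 =
      (dedekindPsi 4 : ℤ) - 6 * (cuspCount 4 : ℤ) :=
    Fermat.Agent.Gateway.GoodRed.GoodLevelNumerics.genusFF_good 4 (Or.inl dvd_rfl)
  rw [dedekindPsi_four, cuspCount_four] at h1
  omega

/-- the same for the type `HK1.FL Kbar 4`. -/
theorem genusFF_FL_four :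
    AlgebraicCurve.genusFF (AlgebraicClosure ℚ)
      (Fermat.Agent.Gateway.HK1.FL (AlgebraicClosure ℚ) 4) = 0 :=
  genusFF_four

/-! ### The node count at level `4p` -/

/-- **T10a, consumer form**: the `δ` of `CountsMq.exists_counts_of_facts` at `M = 4`, `q = p`
(`(δ : ℤ) = g(F_{4p}) - 2 g(F_4) + 1`) satisfies `2 δ + 1 = p`. -/
theorem two_mul_delta_add_one (p : ℕ) [Fact p.Prime] [NeZero (4 * p)] (hp2 : p ≠ 2) {δ : ℕ}
    (hδ : (δ : ℤ) = AlgebraicCurve.genusFF (AlgebraicClosure ℚ)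
        (Fermat.Agent.Gateway.HK1.FL (AlgebraicClosure ℚ) (4 * p)) -
      2 * AlgebraicCurve.genusFF (AlgebraicClosure ℚ)
        (Fermat.Agent.Gateway.GoodRed.FBar (AlgebraicClosure ℚ) 4) + 1) :
    2 * δ + 1 = p := by
  have h1 := two_mul_genusFF_FL_four_mul p hp2
  have h2 := genusFF_four
  rw [h2] at hδ
  push_cast at hδ
  omega

/-- `2 δ ≤ p - 1`, the form used by (L10). -/
theorem two_mul_delta_le (p : ℕ) [Fact p.Prime] [NeZero (4 * p)] (hp2 : p ≠ 2) {δ : ℕ}
    (hδ : (δ : ℤ) = AlgebraicCurve.genusFF (AlgebraicClosure ℚ)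
        (Fermat.Agent.Gateway.HK1.FL (AlgebraicClosure ℚ) (4 * p)) -
      2 * AlgebraicCurve.genusFF (AlgebraicClosure ℚ)
        (Fermat.Agent.Gateway.GoodRed.FBar (AlgebraicClosure ℚ) 4) + 1) :
    2 * δ ≤ p - 1 := by
  have := two_mul_delta_add_one p hp2 hδ
  omega

end Fermat.Agent.S40x.Thick.Genus4pB
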