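/-
helper11 (P-S44/S40, block R1-T, leaf T10, abstract half): a polynomial of small degree in the
ideal `I₁` of the first component.

Setting of `S34x/Lattice2/Setup`: `R : RedSetup2 A S k (κ₁ × κ₂)`, `C : ChartCoord R` with
`C.T = (x₁, x₂)`, `x₁` transcendental over `k` (`aeval x₁` injective), and the node count
`dim P_k(0,b) = dim red Λ(0,b) + δ` for `b ≥ b₁`.  Then some nonzero `f ∈ k[X]` of degree `≤ δ`
has `(f(x₁), 0) = res E` for an `E` of the chart ring `B∞ = ⋃_b Λ(0,b)`: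
`δ + 1` independent elements `(x₁^i, 0)` of `P_k(0,b)` cannot stay independent modulo a subspace
of codimension `δ`.
-/
import Fermat.Agent.S34x.Lattice2.Setup
import Fermat.Agent.S33x.H1.InstBBasic

set_option autoImplicit false
set_option linter.unusedSectionVars false
set_option linter.style.haveILetI false

noncomputable section

namespace Fermat.Agent.S40x.Thick.NodeCountAbs

open Polynomial Module
open Fermat.Agent.S34x.C0two Fermat.Agent.S34x.Lattice2
open Fermat.Agent.S33x.H1.InstC1 Fermat.Agent.S33x.H1.InstBBasic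

section Idem

variable {k : Type*} [Field k] {κ₁ κ₂ : Type*} [CommRing κ₁] [CommRing κ₂]
  [Algebra k κ₁] [Algebra k κ₂]

/-- `(f(x₁), 0) = f(T) · (1,0)` for `T = (x₁, x₂)`. -/
theorem aeval_prod_mul_idem (x₁ : κ₁) (x₂ : κ₂) (f : k[X]) :
    (((aeval x₁ f : κ₁), (0 : κ₂)) : κ₁ × κ₂) = aeval ((x₁, x₂) : κ₁ × κ₂) f * ((1, 0) : κ₁ × κ₂) := by
  have h1 : (aeval ((x₁, x₂) : κ₁ × κ₂) f).1 = aeval x₁ f := by
    have := Polynomial.aeval_algHom_apply (AlgHom.fst k κ₁ κ₂) ((x₁, x₂) : κ₁ × κ₂) f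
    simpa using this.symm
  ext
  · simp [h1]
  · simp

/-- the idempotent `(1,0)` is integral over every subalgebra. -/
theorem isIntegral_idem (B : Subalgebra k (κ₁ × κ₂)) : IsIntegral B (((1 : κ₁), (0 : κ₂)) : κ₁ × κ₂) := by
  refine ⟨X * (X - C 1), monic_X.mul (monic_X_sub_C 1), ?_⟩
  simp only [eval₂_mul, eval₂_sub, eval₂_X, map_one]
  ext <;> simp

/-- polynomials of degree `≤ b` in the first component lie in `L(b C̄∞)` of the special fibre. -/
theorem mem_twoPole_of_natDegree_le {T Ti : κ₁ × κ₂} (hT : T * Ti = 1) (f : k[X]) (b : ℕ)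
    (hf : f.natDegree ≤ b) :
    aeval T f * (((1 : κ₁), (0 : κ₂)) : κ₁ × κ₂) ∈ twoPole k T Ti 0 b := by
  refine ⟨?_, ?_⟩
  · rw [pow_zero, one_mul]
    refine IsIntegral.mul ?_ (isIntegral_idem _)
    have hmem : aeval T f ∈ Algebra.adjoin k {T} := by
      rw [Algebra.adjoin_singleton_eq_range_aeval]
      exact ⟨f, rfl⟩
    have : aeval T f = algebraMap (Algebra.adjoin k {T}) (κ₁ × κ₂) ⟨aeval T f, hmem⟩ := rfl
    rw [this]
    exact isIntegral_algebraMap
  · rw [← mul_assoc]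
    refine IsIntegral.mul ?_ (isIntegral_idem _)
    -- `Ti^b f(T) = ∑ aᵢ Ti^(b-i)` lies in `k[Ti]`
    have hmem : Ti ^ b * aeval T f ∈ Algebra.adjoin k {Ti} := by
      rw [aeval_eq_sum_range' (Nat.lt_succ_of_le hf), Finset.mul_sum]
      refine Subalgebra.sum_mem _ fun i hi => ?_
      have hib : i ≤ b := Nat.lt_succ_iff.mp (Finset.mem_range.mp hi)
      have h1 : Ti ^ b * (f.coeff i • T ^ i) = f.coeff i • Ti ^ (b - i) := by
        rw [mul_smul_comm]
        congr 1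
        have hsplit : Ti ^ b = Ti ^ (b - i) * Ti ^ i := by
          rw [← pow_add, Nat.sub_add_cancel hib]
        rw [hsplit, mul_assoc, ← mul_pow, mul_comm Ti T, hT, one_pow, mul_one]
      rw [h1]
      exact Subalgebra.smul_mem _ (Subalgebra.pow_mem _ (Algebra.self_mem_adjoin_singleton k Ti) _) _
    have : Ti ^ b * aeval T f =
        algebraMap (Algebra.adjoin k {Ti}) (κ₁ × κ₂) ⟨Ti ^ b * aeval T f, hmem⟩ := rfl
    rw [this]
    exact isIntegral_algebraMap

end Idem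

section Count

variable {K : Type*} [Field K] {A : ValuationSubring K} {F : Type*} [Field F] [Algebra K F]
  {S : SmallRing F} {k : Type*} [Field k] {κ₁ κ₂ : Type*} [CommRing κ₁] [CommRing κ₂]
  [Algebra k κ₁] [Algebra k κ₂]
  {R : RedSetup2 A S k (κ₁ × κ₂)} (C : ChartCoord R)

/-- the `k`-linear map `f ↦ (f(x₁), 0)`. -/
def firstComp (x₁ : κ₁) : k[X] →ₗ[k] κ₁ × κ₂ :=
  (LinearMap.inl k κ₁ κ₂).comp (aeval x₁ : k[X] →ₐ[k] κ₁).toLinearMap

theorem firstComp_apply (x₁ : κ₁) (f : k[X]) :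
    firstComp (κ₂ := κ₂) x₁ f = ((aeval x₁ f, 0) : κ₁ × κ₂) := rfl

theorem firstComp_injective {x₁ : κ₁} (hx : Function.Injective (aeval x₁ : k[X] → κ₁)) :
    Function.Injective (firstComp (k := k) (κ₂ := κ₂) x₁) := by
  intro f g h
  apply hx
  have := congrArg Prod.fst h
  simpa [firstComp_apply] using this

/-- **T10, abstract form.**  If `dim P_k(0,b) = dim red Λ(0,b) + δ` for `b ≥ b₁` (`δ > 0`) and
`C.T = (x₁, x₂)` with `x₁` transcendental, then a nonzero polynomial `f` of degree `≤ δ` has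
`(f(x₁), 0) = res E` with `E` in the chart ring `B∞`. -/
theorem exists_poly_res_eq (x₁ : κ₁) (x₂ : κ₂) (hT : C.T = (x₁, x₂))
    (hx : Function.Injective (aeval x₁ : k[X] → κ₁))
    (δ b₁ : ℕ) (hδ : 0 < δ)
    (hcount : ∀ b, b₁ ≤ b → finrank k (C.Pk 0 b) = finrank k (R.redLat (C.LN 0 b)) + δ) :
    ∃ f : k[X], f ≠ 0 ∧ f.natDegree ≤ δ ∧
      ∃ (E : F) (hE : E ∈ S.O), E ∈ BooAlg C ∧ R.res ⟨E, hE⟩ = ((aeval x₁ f, 0) : κ₁ × κ₂) := by
  classical
  set b := max b₁ δ with hb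
  have hb₁ : b₁ ≤ b := le_max_left _ _
  have hbδ : δ ≤ b := le_max_right _ _
  have hcnt := hcount b hb₁
  -- `P_k(0,b)` is finite-dimensional
  have hpos : 0 < finrank k (C.Pk 0 b) := by omega
  haveI : FiniteDimensional k (C.Pk 0 b) := Module.finite_of_finrank_pos hpos
  -- the space `W` of the `(f(x₁), 0)`, `deg f ≤ δ`
  set Φ : k[X] →ₗ[k] κ₁ × κ₂ := firstComp (k := k) (κ₂ := κ₂) x₁ with hΦ
  have hΦinj : Function.Injective Φ := firstComp_injective hx
  set W : Submodule k (κ₁ × κ₂) := (degreeLT k (δ + 1)).map Φ with hW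
  have hWle : W ≤ C.Pk 0 b := by
    rintro _ ⟨f, hf, rfl⟩
    have hdeg : f.natDegree ≤ δ := by
      by_cases h0 : f = 0
      · simp [h0]
      · have := mem_degreeLT.mp hf
        have h2 : f.natDegree < δ + 1 := (natDegree_lt_iff_degree_lt h0).mpr (by exact_mod_cast this)
        omega
    rw [hΦ, firstComp_apply, aeval_prod_mul_idem x₁ x₂ f, ← hT]
    exact mem_twoPole_of_natDegree_le C.T_mul_Ti f b (hdeg.trans hbδ)
  have hRle : R.redLat (C.LN 0 b) ≤ C.Pk 0 b := C.redLat_LN_le 0 b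
  have hWdim : finrank k W = δ + 1 := by
    have h1 : finrank k W = finrank k (degreeLT k (δ + 1)) :=
      (LinearEquiv.finrank_eq
        (Submodule.equivMapOfInjective Φ hΦinj (degreeLT k (δ + 1)))).symm
    rw [h1, LinearEquiv.finrank_eq (degreeLTEquiv k (δ + 1))]
    simp
  -- dimension count inside `P_k(0,b)`
  have hsup : W ⊔ R.redLat (C.LN 0 b) ≤ C.Pk 0 b := sup_le hWle hRle
  haveI : FiniteDimensional k W := Submodule.finiteDimensional_of_le hWle
  haveI : FiniteDimensional k (R.redLat (C.LN 0 b)) := Submodule.finiteDimensional_of_le hRle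
  have h1 := Submodule.finrank_sup_add_finrank_inf_eq W (R.redLat (C.LN 0 b))
  have h2 : finrank k ↥(W ⊔ R.redLat (C.LN 0 b)) ≤ finrank k (C.Pk 0 b) :=
    Submodule.finrank_mono hsup
  have hinf : 0 < finrank k ↥(W ⊓ R.redLat (C.LN 0 b)) := by omega
  obtain ⟨y, hy0⟩ := (Module.finrank_pos_iff_exists_ne_zero (R := k)).mp hinf
  obtain ⟨hyW, hyR⟩ := Submodule.mem_inf.mp y.2
  obtain ⟨f, hf, hfy⟩ := hyW
  obtain ⟨E, hE, hEL, hres⟩ := hyR
  have hf0 : f ≠ 0 := by
    rintro rfl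
    apply hy0
    apply Subtype.ext
    rw [← hfy, map_zero]
    rfl
  have hdeg : f.natDegree ≤ δ := by
    have := mem_degreeLT.mp hf
    have h2 : f.natDegree < δ + 1 := (natDegree_lt_iff_degree_lt hf0).mpr (by exact_mod_cast this)
    omega
  refine ⟨f, hf0, hdeg, E, hE, ⟨b, ⟨hEL, hE⟩⟩, ?_⟩
  rw [hres, ← hfy, hΦ, firstComp_apply]

end Count

end Fermat.Agent.S40x.Thick.NodeCountAbs
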