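/-
helper11 (P-S44/S40, block R1-T, leaf T10): at level `4p` (`p` an odd prime) the ideal
`I₁ = {f ∈ k[X] | (f(x̄), 0) ∈ res B∞}` of the first component contains a nonzero polynomial of
degree `≤ (p - 1) / 2`.

Inputs: the landed node count `S34x/Inst/CountsMq.exists_counts_of_facts`
(`δ = g(F_{Mp}) - 2 g(F_M) + 1`), the genera `2 g(X₀(4p)) + 3 = p`, `g(X₀(4)) = 0`
(`Genus4p`, from the landed genus formula), and the abstract count `NodeCountAbs`.
Hypothesis style: the chart data `H, hdeg, hCt, hT, hDt, hcart` are exactly the hypotheses of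
`exists_counts_of_facts`; the level is a variable `M` with `hM : M = 4`.
-/
import Fermat.Agent.S34x.Inst.CountsMq
import Fermat.Agent.S40x.Thick.NodeCountAbs
import Fermat.Agent.S40x.Thick.Genus4p

set_option autoImplicit false
set_option linter.unusedSectionVars false
set_option linter.style.haveILetI false

noncomputable section

namespace Fermat.Agent.S40x.Thick.NodeCount

open AlgebraicCurve IntermediateField Module ModularCurve Polynomial
open Fermat.Agent.Gateway Fermat.Agent.Gateway.C0 Fermat.Agent.Gateway.GoodRed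
open Fermat.Agent.Gateway.GoodRed.ConjFamily
open Fermat.Agent.S34x.C0two Fermat.Agent.S34x.Lattice2
open Fermat.Agent.S34x.Inst.KSideInst Fermat.Agent.S34x.Inst.KSideFacts Fermat.Agent.S34x.Inst.L2
open Fermat.Agent.S33x.H1.InstBBasic

local notation "Kbar" => AlgebraicClosure ℚ

variable {A : ValuationSubring Kbar} {k : Type} [Field k] {π : A →+* k} [IsAlgClosed k]
  {M : ℕ} [NeZero M] {p : ℕ} [Fact p.Prime] [CharP k p] {hπ : Function.Surjective π}
  {hpM : ¬ p ∣ M} {x : FBar Kbar M}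
  {S : SmallRing (HK1.FL Kbar (M * p))} {R : RedSetup2 A S k (Fk k M × Fk k M)}
  (C : ChartCoord R)

/-- **T10.**  At level `4p` some nonzero `f ∈ k[X]` with `2 deg f ≤ p - 1` has
`(f(x̄), 0) = res E`, `E` in the chart ring `B∞` (`x̄` = reduction of the chart function). -/
theorem exists_poly_of_facts (hM : M = 4) (hA : A.LiesOverPrime p)
    (H : GoodLevelFactsT A π M p hπ hpM x)
    (hdeg : finrankAlong Kbar (heckeAlphaBar Kbar M p) = p + 1)
    (hCt : C.t = heckeAlphaBar Kbar M p x) (hT : C.T = (coordOfFacts H).T p)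
    {Dt : Divisor Kbar (HK1.FL Kbar (M * p))}
    (hDt : ∀ v : Place Kbar (HK1.FL Kbar (M * p)), Dt v = v.ord C.t)
    (hcart : ∀ E' : Divisor Kbar (HK1.FL Kbar (M * p)), Divisor.degree E' = 0 → ∀ b,
      (R.lat ((TwoCharts.ofDivisor Dt).LM E' 0 b)).FG) :
    ∃ f : k[X], f ≠ 0 ∧ 2 * f.natDegree ≤ p - 1 ∧
      ∃ (E : HK1.FL Kbar (M * p)) (hE : E ∈ S.O), E ∈ BooAlg C ∧
        R.res ⟨E, hE⟩ = ((aeval (coordOfFacts H).x f, 0) : Fk k M × Fk k M) := by
  haveI : Algebra.IsAlgebraic ℚ Kbar := AlgebraicClosure.isAlgebraic ℚ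
  have hpp : p.Prime := Fact.out
  have hp2 : p ≠ 2 := by
    rintro rfl
    exact hpM (by rw [hM]; norm_num)
  obtain ⟨δ, hδ, b₁, hcount, -⟩ :=
    Fermat.Agent.S34x.Inst.CountsMq.exists_counts_of_facts C hA H hdeg hCt hT hDt hcart
  -- the genera
  have hg4 : genusFF Kbar (FBar Kbar M) = 0 := by
    subst hM
    exact Genus4p.genusFF_four
  haveI : NeZero (M * p) := ⟨Nat.mul_ne_zero (NeZero.ne M) hpp.ne_zero⟩
  have hg4p : 2 * genusFF Kbar (FBar Kbar (M * p)) + 3 = p :=
    Genus4p.genusFF_of_eq (by rw [hM]) hp2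
  have hδ2 : 2 * δ + 1 = p := by
    have h1 : (δ : ℤ) = genusFF Kbar (FBar Kbar (M * p)) + 1 := by
      rw [hδ, hg4]
      push_cast
      ring
    have h2 : (2 * genusFF Kbar (FBar Kbar (M * p)) + 3 : ℤ) = p := by exact_mod_cast hg4p
    have h3 : (2 * (δ : ℤ) + 1) = p := by rw [h1]; linarith
    exact_mod_cast h3
  have hδpos : 0 < δ := by
    have := hpp.two_le
    omega
  obtain ⟨f, hf0, hfdeg, E, hE, hEB, hres⟩ :=
    NodeCountAbs.exists_poly_res_eq C (coordOfFacts H).x ((coordOfFacts H).x ^ p) hT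
      (transcendental_iff_injective.mp (coordOfFacts H).transcendental) δ b₁ hδpos hcount
  exact ⟨f, hf0, by omega, E, hE, hEB, hres⟩

end Fermat.Agent.S40x.Thick.NodeCount
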