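/-
helper11 (P-S44/S40, block R1-T, leaf T10, FINAL LITERAL in the vocabulary of `PolesNodes`):
the Goursat ideal `I1 = {f ∈ k[X] | (f(x̄), 0) ∈ res B∞}` of the first component contains a nonzero
polynomial of degree `≤ (p - 1) / 2` at level `4p`:

  `∃ f : k[X], f ≠ 0 ∧ f ∈ PolesNodes.I1 R₁ R₂ hπ C ∧ 2 * f.natDegree ≤ p - 1`

(= hypothesis `hT10` of `Assemble.thick_bezout`).

* `exists_mem_I1_of_count` : GENERIC two-valuation chart (`R₁ R₂ hπ C` of `PolesNodes`): the node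
  count `dim P_k(0,b) = dim red Λ(0,b) + δ` (`b ≥ b₁`, `δ > 0`) and `x̄ = xb` transcendental give a
  nonzero `f ∈ I1` with `deg f ≤ δ`;
* `exists_mem_I1_of_facts` : level `M = 4`, `F = F_{4p}`, both residue fields `Fk k 4`, hypotheses =
  those of `S34x/Inst/CountsMq.exists_counts_of_facts`: `2 deg f ≤ p - 1`;
* `exists_mem_I1_chart` : the landed chart `S34x/Inst/ChartInst.chart H hA Hx z hz` (`t = α x`),
  `R₁ = redSetupInfty H hA`, `R₂ = redSetupZero H hA`: no hypothesis besides `M = 4`;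
* `exists_mem_I1_x4` : the same for `x = x₄` (`tInt M L4.x4 hx`): no hypothesis at all besides
  `M = 4`, `H : ResidueFacts`, `hA`.
-/
import Fermat.Agent.S40x.Thick.NodeCount
import Fermat.Agent.S40x.Thick.PolesNodes
import Fermat.Agent.S34x.Inst.ChartInst
import Fermat.Agent.S34x.Inst.LevelFactsTHaupt

set_option autoImplicit false
set_option linter.unusedSectionVars false
set_option linter.style.haveILetI false

noncomputable section

namespace Fermat.Agent.S40x.Thick.NodeCountI1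

open AlgebraicCurve IntermediateField Module ModularCurve Polynomial IsLocalRing
open Fermat.Agent.Gateway Fermat.Agent.Gateway.C0 Fermat.Agent.Gateway.GoodRed
open Fermat.Agent.Gateway.GoodRed.ConjFamily
open Fermat.Agent.S34x Fermat.Agent.S34x.C0two Fermat.Agent.S34x.Lattice2
open Fermat.Agent.S34x.Inst.KSideInst Fermat.Agent.S34x.Inst.KSideFacts Fermat.Agent.S34x.Inst.L2
open Fermat.Agent.S33x.H1.InstC1 Fermat.Agent.S33x.H1.InstBBasic
open Fermat.Agent.S40x.Thick.PolesNodes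

section Generic

variable {K : Type*} [Field K] {A : ValuationSubring K} {F : Type*} [Field F] [Algebra K F]
  {O₁ O₂ : ValuationSubring F} {k κ₁ κ₂ : Type*} [Field k] [Field κ₁] [Field κ₂]
  [Algebra k κ₁] [Algebra k κ₂]
  (R₁ : Fermat.Agent.Gateway.C0.RedSetup A O₁ k κ₁)
  (R₂ : Fermat.Agent.Gateway.C0.RedSetup A O₂ k κ₂) (hπ : R₁.π = R₂.π)
  (C : ChartCoord (redSetupTwoVal R₁ R₂ hπ))

/-- translation: `(f(x̄), 0) = res E`, `E ∈ B∞`, means `f ∈ I1`. -/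
theorem mem_I1_of_res_eq {f : k[X]} {E : F} (hE : E ∈ (twoVal O₁ O₂).O) (hEB : E ∈ BooAlg C)
    (hres : (redSetupTwoVal R₁ R₂ hπ).res ⟨E, hE⟩ =
      ((aeval (xb R₁ R₂ hπ C) f, 0) : κ₁ × κ₂)) :
    f ∈ I1 R₁ R₂ hπ C :=
  ⟨E, hEB, congrArg Prod.fst hres, congrArg Prod.snd hres⟩

/-- **T10, generic two-valuation chart.**  The node count with defect `δ > 0` gives a nonzero
element of `I1` of degree `≤ δ`. -/
theorem exists_mem_I1_of_count
    (hx : Function.Injective (aeval (xb R₁ R₂ hπ C) : k[X] → κ₁))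
    (δ b₁ : ℕ) (hδ : 0 < δ)
    (hcount : ∀ b, b₁ ≤ b → finrank k (C.Pk 0 b) =
      finrank k ((redSetupTwoVal R₁ R₂ hπ).redLat (C.LN 0 b)) + δ) :
    ∃ f : k[X], f ≠ 0 ∧ f ∈ I1 R₁ R₂ hπ C ∧ f.natDegree ≤ δ := by
  obtain ⟨f, hf0, hfdeg, E, hE, hEB, hres⟩ :=
    NodeCountAbs.exists_poly_res_eq C (xb R₁ R₂ hπ C) (xb' R₁ R₂ hπ C) (T_eq R₁ R₂ hπ C) hx
      δ b₁ hδ hcount
  exact ⟨f, hf0, mem_I1_of_res_eq R₁ R₂ hπ C hE hEB hres, hfdeg⟩

end Generic

local notation "Kbar" => AlgebraicClosure ℚ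

section Facts

variable {A : ValuationSubring Kbar} {k : Type} [Field k] {π : A →+* k} [IsAlgClosed k]
  {M : ℕ} [NeZero M] {p : ℕ} [Fact p.Prime] [CharP k p] {hπ : Function.Surjective π}
  {hpM : ¬ p ∣ M} {x : FBar Kbar M}
  {O₁ O₂ : ValuationSubring (HK1.FL Kbar (M * p))}
  (R₁ : Fermat.Agent.Gateway.C0.RedSetup A O₁ k (Fk k M))
  (R₂ : Fermat.Agent.Gateway.C0.RedSetup A O₂ k (Fk k M)) (hπ' : R₁.π = R₂.π)
  (C : ChartCoord (redSetupTwoVal R₁ R₂ hπ'))

/-- **T10, level `4p`, hypothesis style** (hypotheses verbatim those of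
`S34x/Inst/CountsMq.exists_counts_of_facts`). -/
theorem exists_mem_I1_of_facts (hM : M = 4) (hA : A.LiesOverPrime p)
    (H : GoodLevelFactsT A π M p hπ hpM x)
    (hdeg : finrankAlong Kbar (heckeAlphaBar Kbar M p) = p + 1)
    (hCt : C.t = heckeAlphaBar Kbar M p x) (hT : C.T = (coordOfFacts H).T p)
    {Dt : Divisor Kbar (HK1.FL Kbar (M * p))}
    (hDt : ∀ v : Place Kbar (HK1.FL Kbar (M * p)), Dt v = v.ord C.t)
    (hcart : ∀ E' : Divisor Kbar (HK1.FL Kbar (M * p)), Divisor.degree E' = 0 → ∀ b,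
      ((redSetupTwoVal R₁ R₂ hπ').lat ((TwoCharts.ofDivisor Dt).LM E' 0 b)).FG) :
    ∃ f : k[X], f ≠ 0 ∧ f ∈ I1 R₁ R₂ hπ' C ∧ 2 * f.natDegree ≤ p - 1 := by
  obtain ⟨f, hf0, hfdeg, E, hE, hEB, hres⟩ :=
    NodeCount.exists_poly_of_facts C hM hA H hdeg hCt hT hDt hcart
  have hxb : xb R₁ R₂ hπ' C = (coordOfFacts H).x := by
    have h1 := congrArg Prod.fst hT
    rw [T_eq R₁ R₂ hπ' C] at h1
    exact h1
  refine ⟨f, hf0, mem_I1_of_res_eq R₁ R₂ hπ' C hE hEB ?_, hfdeg⟩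
  rw [hxb]
  exact hres

end Facts

section Chart

open Fermat.Agent.Gateway.Hecke Fermat.Agent.Gateway.ESC Fermat.Agent.Gateway.Red
open Fermat.Agent.S34x.TwoVal Fermat.Agent.S34x.Inst.RedSetupInst

variable {A : ValuationSubring Kbar} {k : Type} [Field k] {π : A →+* k} [IsAlgClosed k]
  {M p : ℕ} [NeZero M] [Fact p.Prime] [CharP k p]
  {hdeg : finrankAlong Kbar (heckeAlphaBar Kbar M p) = p + 1} {hq : p.Prime} {hpM : ¬ p ∣ M}
  {hrk : ∀ x ∈ maximalIdeal A, ∀ c : A, c ≠ 0 → ∃ j : ℕ, c ∣ x ^ j}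
  {hπ : Function.Surjective π}
  (H : ResidueFacts A π M p hdeg hq hpM hrk hπ) (hA : A.LiesOverPrime p)

/-- **T10 at the landed chart `ChartInst.chart`** (`t = α x`), level `M = 4`. -/
theorem exists_mem_I1_chart (hM : M = 4)
    {x : FBar Kbar M} (Hx : GoodLevelFactsT A π M p hπ hpM x) (z : LaurentSeries ℤ)
    (hz : (x : LaurentSeries Kbar) = coeffMap (Int.castRingHom Kbar) z) :
    haveI : Algebra.IsAlgebraic ℚ Kbar := AlgebraicClosure.isAlgebraic ℚ
    ∃ f : k[X], f ≠ 0 ∧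
      f ∈ I1 (redSetupInfty H hA) (redSetupZero H hA) rfl
        (Fermat.Agent.S34x.Inst.ChartInst.chart H hA Hx z hz) ∧
      2 * f.natDegree ≤ p - 1 := by
  haveI : Algebra.IsAlgebraic ℚ Kbar := AlgebraicClosure.isAlgebraic ℚ
  have ht : Transcendental Kbar (Fermat.Agent.S34x.Inst.ChartInst.chart H hA Hx z hz).t :=
    Fermat.Agent.S34x.Inst.Charts.transcendental_tα Kbar M p Hx.trans
  haveI : FiniteDimensional Kbar⟮(Fermat.Agent.S34x.Inst.ChartInst.chart H hA Hx z hz).t⟯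
      (HK1.FL Kbar (M * p)) :=
    Fermat.Agent.S34x.Inst.ChartInst.finiteDimensional_alpha (q := p) Hx
  exact exists_mem_I1_of_facts (redSetupInfty H hA) (redSetupZero H hA) rfl
    (Fermat.Agent.S34x.Inst.ChartInst.chart H hA Hx z hz) hM hA Hx hdeg rfl
    (Fermat.Agent.S34x.Inst.ChartInst.chart_T H hA Hx z hz)
    (Fermat.Agent.S34x.Inst.Charts.divT_apply ht)
    (fun E' _ b => Fermat.Agent.S34x.Inst.ChartInst.hcart H hA Hx z hz _
      ((TwoCharts.ofDivisor _).LM_finite ht E' 0 b))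

/-- **T10 at `x = x₄`** (`HauptRed.x4F M h4`, integer expansion `L4.x4`): everything discharged,
no hypothesis besides `M = 4`, `H : ResidueFacts`, `hA`. -/
theorem exists_mem_I1_x4 (hM : M = 4) (h4 : 4 ∣ M) :
    haveI : Algebra.IsAlgebraic ℚ Kbar := AlgebraicClosure.isAlgebraic ℚ
    ∃ f : k[X], f ≠ 0 ∧
      f ∈ I1 (redSetupInfty H hA) (redSetupZero H hA) rfl
        (Fermat.Agent.S34x.Inst.ChartInst.chart H hA
          (Fermat.Agent.S34x.Inst.LevelFactsTHaupt.l2Facts_x4 A π M p hπ hpM h4)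
          Fermat.Agent.Gateway.AuxLevel.L4.x4 rfl) ∧
      2 * f.natDegree ≤ p - 1 :=
  exists_mem_I1_chart H hA hM _ _ _

end Chart

end Fermat.Agent.S40x.Thick.NodeCountI1
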