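/-
P-S44/S40, block R1-T (thickness): THE THEOREM AT LEVEL `4 p` (helper73, assembly).

`M = 4`, `q` an odd prime, `A` a valuation subring of `Kbar = AlgebraicClosure ℚ` over `q` with
residue map `π : A → k` onto an algebraically closed field, `H : ResidueFacts` (landed:
`ResidueInst.residueFacts`).  In the chart ring `B∞` of the chart `t = α x₄` of level `4 q`:

  `E + b Ψ + E' = 1`,  `red_0 E = 0`,  `red_∞ E' = 0`,

with `Ψ = psiElt = u u' / q`, `u = β x₄ - (α x₄)^q`, `u' = α x₄ - (β x₄)^q`.  Hence `Ψ` is a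
unit at every node of the special fibre (`Assemble.psi_not_mem`), at level `4 q` and at every level
`M'' q` (`4 ∣ M''`) to which the identity is transported.

All inputs are landed: T1 (`T1QSeries`), T2/T3 (`UPsi`, `UPsiInst`), T4/T5 (`PolesNodes`), T6-T9
(`ThetaX4K`, `RatOrders`, `Count`, `Haupt4k`, `Haupt4kCount`), T10 (`NodeCountI1`, `Genus4p`),
T11 (`Main`, `Assemble`).
-/
import Fermat.Agent.S40x.Thick.UPsiInst
import Fermat.Agent.S40x.Thick.NodeCountI1
import Fermat.Agent.S40x.Thick.Haupt4kCount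

set_option autoImplicit false
set_option linter.unusedSectionVars false
set_option linter.style.haveILetI false

noncomputable section

namespace Fermat.Agent.S40x.Thick.Level4p

open Polynomial ModularCurve AlgebraicCurve IntermediateField IsLocalRing
open Fermat.Agent.Gateway.Hecke Fermat.Agent.Gateway.ESC
open Fermat.Agent.Gateway.Red Fermat.Agent.Gateway.GoodRed
open Fermat.Agent.Gateway.GoodRed.ConjFamily
open Fermat.Agent.Gateway.AuxLevel Fermat.Agent.S24.Setup
open Fermat.Agent.S34x Fermat.Agent.S34x.TwoVal Fermat.Agent.S34x.C0two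
open Fermat.Agent.S34x.Lattice2
open Fermat.Agent.S34x.Inst.L2 Fermat.Agent.S34x.Inst.RedSetupInst
open Fermat.Agent.S34x.Inst.ElementYRed Fermat.Agent.S34x.Inst.ElementYInt
open Fermat.Agent.S33x.H1.InstC1 Fermat.Agent.S33x.H1.InstBBasic
open Fermat.Agent.S40x.Thick.UPsi Fermat.Agent.S40x.Thick.PolesNodes
open Fermat.Agent.S40x.Thick.UPsiInst Fermat.Agent.S40x.Thick.Assemble
open Fermat.Agent.S40x.Thick.Haupt4k Fermat.Agent.S40x.Thick.Haupt4kCount

attribute [-instance] IsScalarTower.of_algHom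

variable {A : ValuationSubring Kbar} {k : Type} [Field k] {π : A →+* k} [IsAlgClosed k]
  {M q : ℕ} [NeZero M] [NeZero q] [Fact q.Prime] [CharP k q]
  {hdeg : finrankAlong Kbar (heckeAlphaBar Kbar M q) = q + 1} {hq : q.Prime} {hqM : ¬ q ∣ M}
  {hrk : ∀ x ∈ maximalIdeal A, ∀ c : A, c ≠ 0 → ∃ j : ℕ, c ∣ x ^ j}
  {hπ : Function.Surjective π}
  (H : ResidueFacts A π M q hdeg hq hqM hrk hπ) (hA : A.LiesOverPrime q)

/-- **THICKNESS at level `4 q`** ((T-b), consumer form): the Bezout identity in `B∞`. -/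
theorem thick_level4p (hM : M = 4) (h4 : 4 ∣ M) (hq2 : q ≠ 2) :
    ∃ (hΨ : psiElt M q L4.x4 (x4_mem_FBar (L := Kbar) M h4) ∈ BooAlg (chart4 h4 H hA))
      (E b E' : BooAlg (chart4 h4 H hA)),
      rho₂ (redSetupInfty H hA) (redSetupZero H hA) rfl (chart4 h4 H hA) E = 0 ∧
      rho₁ (redSetupInfty H hA) (redSetupZero H hA) rfl (chart4 h4 H hA) E' = 0 ∧
        E + b * ⟨psiElt M q L4.x4 (x4_mem_FBar (L := Kbar) M h4), hΨ⟩ + E' = 1 := by
  subst hM
  haveI : Algebra.IsAlgebraic ℚ Kbar := AlgebraicClosure.isAlgebraic ℚ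
  have h4k : ((4 : ℕ) : k) ≠ 0 := by
    rw [Ne, CharP.cast_eq_zero_iff k q 4]
    exact hqM
  -- the rational parametrisation of `Fk k 4`
  have hxb : xb (redSetupInfty H hA) (redSetupZero H hA) rfl (chart4 h4 H hA) = xFk h4k :=
    Subtype.ext (by rw [coe_xb_x4 h4 H hA, coe_xFk])
  refine thick_bezout_x4 h4 hq2 H hA ((evFk h4k : RatFunc k →ₐ[k] Fk k 4) : RatFunc k →+* Fk k 4)
    (fun P => ?_) (evFk_surjective h4k) (fun r hr => ?_) ?_
  · rw [hxb]
    exact evFk_algebraMap h4k P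
  · exact count_evFk q h4k hq2 (evFk h4k r) hr r rfl
  · exact Fermat.Agent.S40x.Thick.NodeCountI1.exists_mem_I1_x4 H hA rfl h4

/-- Consequence: `Ψ` lies in no proper ideal of `B∞` containing both kernels (no node). -/
theorem psi_not_mem_level4p (hM : M = 4) (h4 : 4 ∣ M) (hq2 : q ≠ 2) :
    ∃ hΨ : psiElt M q L4.x4 (x4_mem_FBar (L := Kbar) M h4) ∈ BooAlg (chart4 h4 H hA),
      ∀ m : Ideal (BooAlg (chart4 h4 H hA)), m ≠ ⊤ →
        RingHom.ker (rho₁ (redSetupInfty H hA) (redSetupZero H hA) rfl (chart4 h4 H hA)) ≤ m →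
        RingHom.ker (rho₂ (redSetupInfty H hA) (redSetupZero H hA) rfl (chart4 h4 H hA)) ≤ m →
        (⟨psiElt M q L4.x4 (x4_mem_FBar (L := Kbar) M h4), hΨ⟩ : BooAlg (chart4 h4 H hA)) ∉ m := by
  obtain ⟨hΨ, E, b, E', hE, hE', hsum⟩ := thick_level4p H hA hM h4 hq2
  exact ⟨hΨ, fun m hm h1 h2 =>
    psi_not_mem (redSetupInfty H hA) (redSetupZero H hA) rfl (chart4 h4 H hA) hE hE' hsum m hm h1 h2⟩

end Fermat.Agent.S40x.Thick.Level4p
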