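/-
P-S44/S40, block R1-T (thickness), item (e) at level `4 p`, independent SECOND (helper20).

**(T-b) at level `4 p`, UNCONDITIONAL**: for an odd prime `p`, `M = 4`, the concrete two-valuation
chart `C = chart4` (`t = α x₄`) of `F_{4p}` and

  `u = β x₄ - (α x₄)^p`,  `u' = α x₄ - (β x₄)^p`,  `Ψ = psiElt = (u / p) u'`  (`u u' = p • Ψ`),

there are `E, b, E'` in the chart ring `B∞` with `red_0 E = 0`, `red_∞ E' = 0`, `E + b Ψ + E' = 1`.
Hence `Ψ` is a unit at every node (`Assemble.psi_not_mem`).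

One call of `UPsiInst.thick_bezout_x4` (= `Assemble.thick_bezout` at the UPsi facts) with
* `ev := Haupt4k.evFk` (helper81: `Fk k 4 = k(x̄)`), `hev` from `UPsiInst.coe_xb_x4`,
* `hT9 := Haupt4kCount.count_evFk` (helper81 / helper65: pole count),
* `hT10 := NodeCountI1.exists_mem_I1_x4` (helper11: node count).
No hypothesis besides `M = 4`, `p ≠ 2`, `H : ResidueFacts`, `hA`.
-/
import Fermat.Agent.S40x.Thick.UPsiInst
import Fermat.Agent.S40x.Thick.Haupt4kCount
import Fermat.Agent.S40x.Thick.NodeCountI1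

set_option autoImplicit false
set_option linter.style.haveILetI false
set_option linter.unusedSectionVars false

noncomputable section

namespace Fermat.Agent.S40x.Thick.Level4pB

open Polynomial ModularCurve AlgebraicCurve IntermediateField IsLocalRing
open Fermat.Agent.Gateway.Hecke Fermat.Agent.Gateway.ESC
open Fermat.Agent.Gateway.Red Fermat.Agent.Gateway.GoodRed
open Fermat.Agent.Gateway.GoodRed.ConjFamily Fermat.Agent.Gateway.AuxLevel
open Fermat.Agent.S24.Setup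
open Fermat.Agent.S34x Fermat.Agent.S34x.TwoVal Fermat.Agent.S34x.C0two
open Fermat.Agent.S34x.Lattice2
open Fermat.Agent.S34x.Inst.L2 Fermat.Agent.S34x.Inst.RedSetupInst
open Fermat.Agent.S34x.Inst.ElementYRed Fermat.Agent.S34x.Inst.ElementYInt
open Fermat.Agent.S33x.H1.InstC1 Fermat.Agent.S33x.H1.InstBBasic
open Fermat.Agent.S40x.Thick.UPsi Fermat.Agent.S40x.Thick.PolesNodes
open Fermat.Agent.S40x.Thick.UPsiInst Fermat.Agent.S40x.Thick.Assemble
open Fermat.Agent.S40x.Thick.Haupt4k Fermat.Agent.S40x.Thick.Haupt4kCount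

attribute [-instance] IsScalarTower.of_algHom

/-- `4 ≠ 0` in a field of odd prime characteristic. -/
theorem four_ne_zero_of_char {k : Type} [Field k] (p : ℕ) [Fact p.Prime] [CharP k p]
    (hp2 : p ≠ 2) : ((4 : ℕ) : k) ≠ 0 := by
  intro h
  have h1 : p ∣ 4 := (CharP.cast_eq_zero_iff k p 4).mp h
  have h2 : p ∣ 2 ^ 2 := by norm_num; exact h1
  have h3 : p ∣ 2 := (Fact.out : p.Prime).dvd_of_dvd_pow h2
  exact hp2 ((Nat.prime_dvd_prime_iff_eq (Fact.out : p.Prime) Nat.prime_two).mp h3)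

variable {A : ValuationSubring Kbar} {k : Type} [Field k] {π : A →+* k} [IsAlgClosed k]
  {M p : ℕ} [NeZero M] [NeZero p] [Fact p.Prime] [CharP k p]
  {hdeg : finrankAlong Kbar (heckeAlphaBar Kbar M p) = p + 1} {hq : p.Prime} {hpM : ¬ p ∣ M}
  {hrk : ∀ x ∈ maximalIdeal A, ∀ c : A, c ≠ 0 → ∃ j : ℕ, c ∣ x ^ j}
  {hπ : Function.Surjective π}

/-- **(T-b) at level `4 p`, unconditional** (level variable `M` with `hM : M = 4`). -/
theorem thick_bezout_level4p (hM : M = 4) (h4 : 4 ∣ M) (hp2 : p ≠ 2)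
    (H : ResidueFacts A π M p hdeg hq hpM hrk hπ) (hA : A.LiesOverPrime p) :
    ∃ (hΨ : psiElt M p L4.x4 (x4_mem_FBar (L := Kbar) M h4) ∈ BooAlg (chart4 h4 H hA))
      (E b E' : BooAlg (chart4 h4 H hA)),
      rho₂ (redSetupInfty H hA) (redSetupZero H hA) rfl (chart4 h4 H hA) E = 0 ∧
      rho₁ (redSetupInfty H hA) (redSetupZero H hA) rfl (chart4 h4 H hA) E' = 0 ∧
        E + b * ⟨psiElt M p L4.x4 (x4_mem_FBar (L := Kbar) M h4), hΨ⟩ + E' = 1 := by
  subst hM
  have h4k : ((4 : ℕ) : k) ≠ 0 := four_ne_zero_of_char p hp2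
  -- `x̄ = xFk`
  have hxb : xb (redSetupInfty H hA) (redSetupZero H hA) rfl (chart4 h4 H hA) = xFk h4k :=
    Subtype.ext (coe_xb_x4 h4 H hA)
  refine thick_bezout_x4 h4 hp2 H hA ((evFk h4k : RatFunc k →ₐ[k] Fk k 4) : RatFunc k →+* Fk k 4)
    (fun P => ?_) (evFk_surjective h4k) (fun r hr => ?_) ?_
  · rw [hxb]
    exact evFk_algebraMap h4k P
  · exact count_evFk p h4k hp2 (evFk h4k r) hr r rfl
  · exact Fermat.Agent.S40x.Thick.NodeCountI1.exists_mem_I1_x4 H hA rfl h4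

/-- Consequence: `Ψ` lies outside every proper ideal of `B∞` containing both reduction kernels
(every node). -/
theorem psi_not_mem_level4p (hM : M = 4) (h4 : 4 ∣ M) (hp2 : p ≠ 2)
    (H : ResidueFacts A π M p hdeg hq hpM hrk hπ) (hA : A.LiesOverPrime p) :
    ∃ hΨ : psiElt M p L4.x4 (x4_mem_FBar (L := Kbar) M h4) ∈ BooAlg (chart4 h4 H hA),
      ∀ m : Ideal (BooAlg (chart4 h4 H hA)), m ≠ ⊤ →
        RingHom.ker (rho₁ (redSetupInfty H hA) (redSetupZero H hA) rfl (chart4 h4 H hA)) ≤ m →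
        RingHom.ker (rho₂ (redSetupInfty H hA) (redSetupZero H hA) rfl (chart4 h4 H hA)) ≤ m →
        (⟨psiElt M p L4.x4 (x4_mem_FBar (L := Kbar) M h4), hΨ⟩ : BooAlg (chart4 h4 H hA)) ∉ m := by
  obtain ⟨hΨ, E, b, E', hE, hE', hsum⟩ := thick_bezout_level4p hM h4 hp2 H hA
  exact ⟨hΨ, fun m hm h1 h2 =>
    psi_not_mem (redSetupInfty H hA) (redSetupZero H hA) rfl (chart4 h4 H hA) hE hE' hsum m hm
      h1 h2⟩

/-- `u u' = p • Ψ` (recalled from `UPsi`), with `u = β x₄ - (α x₄)^p`, `u' = α x₄ - (β x₄)^p`. -/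
theorem uElt_mul_uElt'_x4 (h4 : 4 ∣ M) :
    uElt M p L4.x4 (x4_mem_FBar (L := Kbar) M h4) * uElt' M p L4.x4 (x4_mem_FBar (L := Kbar) M h4) =
      (p : Kbar) • psiElt M p L4.x4 (x4_mem_FBar (L := Kbar) M h4) :=
  uElt_mul_uElt' M p L4.x4 (x4_mem_FBar (L := Kbar) M h4)

end Fermat.Agent.S40x.Thick.Level4pB
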