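/-
P-S44/S40, block R1-T (helper73): by-products of the thickness theorem at level `4 q`, exported for
DIAG (`D-REFORD`, node places = poles of `δ`):

there is `r : RatFunc k` with `r(x̄) = δ := red_∞ ((x₄(t^q) - x₄^q) / q)` (as Laurent series:
`r.num(x̄) = Dk * r.denom(x̄)`, `Dk` the reduction of `T1QSeries.frobQuot q x₄`) such that
`r.denom` is squarefree, divides `X - X^(q^2)`, generates the node ideal `I1` of the chart
`t = α x₄`, and has degree exactly `(q - 1) / 2`.
-/
import Fermat.Agent.S40x.Thick.Level4p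
import Fermat.Agent.S40x.Thick.DenomData

set_option autoImplicit false
set_option linter.unusedSectionVars false
set_option linter.style.haveILetI false

noncomputable section

namespace Fermat.Agent.S40x.Thick.Level4pData

open Polynomial ModularCurve AlgebraicCurve IntermediateField IsLocalRing
open Fermat.Agent.Gateway.Hecke Fermat.Agent.Gateway.ESC
open Fermat.Agent.Gateway.Red Fermat.Agent.Gateway.GoodRed
open Fermat.Agent.Gateway.GoodRed.ConjFamily
open Fermat.Agent.Gateway.AuxLevel Fermat.Agent.S24.Setup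
open Fermat.Agent.S34x Fermat.Agent.S34x.TwoVal Fermat.Agent.S34x.C0two
open Fermat.Agent.S34x.Lattice2
open Fermat.Agent.S34x.Inst.L2 Fermat.Agent.S34x.Inst.RedSetupInst
open Fermat.Agent.S34x.Inst.ElementYRed Fermat.Agent.S34x.Inst.ElementYInt
open Fermat.Agent.S33x.H1.InstC1 Fermat.Agent.S33x.H1.InstBBasic
open Fermat.Agent.S40x.Thick.UPsi Fermat.Agent.S40x.Thick.PolesNodes
open Fermat.Agent.S40x.Thick.UPsiInst Fermat.Agent.S40x.Thick.Assemble
open Fermat.Agent.S40x.Thick.Haupt4k Fermat.Agent.S40x.Thick.Haupt4kCount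
open Fermat.Agent.S40x.Thick.T1QSeries (frobQuot)
open Fermat.Agent.S40x.Thick.ThetaX4 (xK)

attribute [-instance] IsScalarTower.of_algHom

variable {A : ValuationSubring Kbar} {k : Type} [Field k] {π : A →+* k} [IsAlgClosed k]
  {M q : ℕ} [NeZero M] [NeZero q] [Fact q.Prime] [CharP k q]
  {hdeg : finrankAlong Kbar (heckeAlphaBar Kbar M q) = q + 1} {hq : q.Prime} {hqM : ¬ q ∣ M}
  {hrk : ∀ x ∈ maximalIdeal A, ∀ c : A, c ≠ 0 → ∃ j : ℕ, c ∣ x ^ j}
  {hπ : Function.Surjective π}
  (H : ResidueFacts A π M q hdeg hq hqM hrk hπ) (hA : A.LiesOverPrime q)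

set_option maxHeartbeats 1600000 in
/-- **The denominator of `δ` at level `4 q`**: squarefree, generates the node ideal, degree
`(q - 1) / 2`. -/
theorem exists_denom_data (hM : M = 4) (h4 : 4 ∣ M) (hq2 : q ≠ 2) :
    ∃ r : RatFunc k,
      Fermat.Agent.S40x.Thick.Count.evP (xK k) r.num =
        coeffMap (Int.castRingHom k) (frobQuot q L4.x4) *
          Fermat.Agent.S40x.Thick.Count.evP (xK k) r.denom ∧
      Squarefree r.denom ∧ r.denom ∣ (X - X ^ (q ^ 2) : k[X]) ∧
      I1 (redSetupInfty H hA) (redSetupZero H hA) rfl (chart4 h4 H hA) = Ideal.span {r.denom} ∧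
      2 * r.denom.natDegree = q - 1 := by
  subst hM
  haveI : Algebra.IsAlgebraic ℚ Kbar := AlgebraicClosure.isAlgebraic ℚ
  have h4k : ((4 : ℕ) : k) ≠ 0 := by
    rw [Ne, CharP.cast_eq_zero_iff k q 4]
    exact hqM
  have hxb : xb (redSetupInfty H hA) (redSetupZero H hA) rfl (chart4 h4 H hA) = xFk h4k :=
    Subtype.ext (by rw [coe_xb_x4 h4 H hA, coe_xFk])
  obtain ⟨u, u', w, w', hu, hu', hw, hw', huw, huw', hg, hg0, hDk⟩ := exists_upsi_x4 h4 hq2 H hA
  have hev : ∀ P : k[X],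
      ((evFk h4k : RatFunc k →ₐ[k] Fk k 4) : RatFunc k →+* Fk k 4)
          (algebraMap k[X] (RatFunc k) P) =
        aeval (xb (redSetupInfty H hA) (redSetupZero H hA) rfl (chart4 h4 H hA)) P := by
    intro P
    rw [hxb]
    exact evFk_algebraMap h4k P
  obtain ⟨r, ψ, hΨ, hr, hψ, hrel, hgI, hT5⟩ :=
    exists_package (redSetupInfty H hA) (redSetupZero H hA) rfl (chart4 h4 H hA)
      ((evFk h4k : RatFunc k →ₐ[k] Fk k 4) : RatFunc k →+* Fk k 4) hev (evFk_surjective h4k)
      (piA_ne_zero hA) hu hu' huw hw huw' hw' (X - X ^ (q ^ 2)) hg hg0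
  have hT9 : q - 1 ≤ 2 * r.denom.natDegree :=
    count_evFk q h4k hq2 ((redSetupInfty H hA).res ⟨w, hw⟩) hDk r hr
  have hT10 := Fermat.Agent.S40x.Thick.NodeCountI1.exists_mem_I1_x4 H hA rfl h4
  obtain ⟨hspan, hdegr, -⟩ :=
    Fermat.Agent.S40x.Thick.DenomData.span_denom_eq
      (I1 (redSetupInfty H hA) (redSetupZero H hA) rfl (chart4 h4 H hA)) r ψ hrel hgI hT5 hT9 hT10
  refine ⟨r, ?_, Fermat.Agent.S40x.Thick.DenomData.squarefree_denom r ψ hrel,
    Fermat.Agent.S40x.Thick.DenomData.denom_dvd_frob r ψ hrel, hspan, hdegr⟩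
  rw [evP_num_eq_mul_evFk h4k r]
  have : ((evFk h4k r : Fk k 4) : LaurentSeries k) =
      coeffMap (Int.castRingHom k) (frobQuot q L4.x4) := by
    have h1 : (evFk h4k r : Fk k 4) = (redSetupInfty H hA).res ⟨w, hw⟩ := hr
    rw [h1, hDk]
  rw [this]

end Fermat.Agent.S40x.Thick.Level4pData
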