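/-
P-S44 / R1-T, leaf (L11) `node_coprime` -- INDEPENDENT SECOND (helper36).
Mathlib only.  Literal = board `S44_R1T` v1 (L11).

`k` a field of characteristic `p`, `W := X - X ^ (p ^ 2)` (separable, hence squarefree),
`I1` an ideal of `k[X]` containing `W`, `r : RatFunc k` with `r * W = psi` a polynomial.
(T5)  every `f ∈ I1` has a power killing the poles of `r`;
(T9)  `p - 1 ≤ 2 * deg (denom r)`;
(T10) `I1` contains a non-zero polynomial of degree `≤ (p - 1) / 2`.
Then `I1 + (psi) = (1)`.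

Proof: `I1 = (g)`.  `denom r ∣ W` is squarefree and divides a power of `g`, hence divides `g`;
the degree bounds force `g ~ denom r`;  `W = denom r * h` with `h` prime to `denom r`,
`psi = num r * h` is prime to `denom r`.
-/
import Mathlib

namespace Fermat.Agent.S40x.Thick.NodeCoprimeB

open Polynomial

section Sep

variable (k : Type*) [Field k] (p : ℕ) [CharP k p]

/-- `X - X ^ (p ^ 2)` has derivative `1` in characteristic `p`. -/
theorem derivative_X_sub_X_pow :
    derivative (X - X ^ (p ^ 2) : k[X]) = 1 := by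
  have h0 : ((p ^ 2 : ℕ) : k[X]) = 0 := by
    have : ((p : ℕ) : k) = 0 := CharP.cast_eq_zero k p
    rw [Nat.cast_pow, ← map_natCast (C : k →+* k[X]), this, map_zero]
    exact zero_pow (by norm_num)
  rw [derivative_sub, derivative_X, derivative_X_pow, map_natCast, h0, zero_mul, sub_zero]

theorem separable_X_sub_X_pow : (X - X ^ (p ^ 2) : k[X]).Separable := by
  unfold Polynomial.Separable
  rw [derivative_X_sub_X_pow k p]
  exact isCoprime_one_right

theorem squarefree_X_sub_X_pow : Squarefree (X - X ^ (p ^ 2) : k[X]) :=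
  (separable_X_sub_X_pow k p).squarefree

theorem X_sub_X_pow_ne_zero : (X - X ^ (p ^ 2) : k[X]) ≠ 0 :=
  (squarefree_X_sub_X_pow k p).ne_zero

end Sep

section Denom

variable {k : Type*} [Field k]

/-- If `a * r` is a polynomial (`a ≠ 0`), then the denominator of `r` divides `a`. -/
theorem denom_dvd_of_mul_eq {r : RatFunc k} {a c : k[X]} (ha : a ≠ 0)
    (h : algebraMap k[X] (RatFunc k) a * r = algebraMap k[X] (RatFunc k) c) :
    r.denom ∣ a := by
  rw [RatFunc.denom_dvd ha]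
  refine ⟨c, ?_⟩
  have ha' : algebraMap k[X] (RatFunc k) a ≠ 0 := by
    simpa using (RatFunc.algebraMap_ne_zero ha)
  rw [eq_div_iff ha', mul_comm]
  exact h

/-- `r * a = c` gives `num r * a = c * denom r` in `k[X]`. -/
theorem num_mul_eq_of_mul_eq {r : RatFunc k} {a c : k[X]}
    (h : r * algebraMap k[X] (RatFunc k) a = algebraMap k[X] (RatFunc k) c) :
    r.num * a = c * r.denom := by
  have hd : algebraMap k[X] (RatFunc k) r.denom ≠ 0 :=
    RatFunc.algebraMap_ne_zero r.denom_ne_zero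
  have e : algebraMap k[X] (RatFunc k) r.num = r * algebraMap k[X] (RatFunc k) r.denom :=
    (div_eq_iff hd).1 (RatFunc.num_div_denom r)
  apply IsFractionRing.injective k[X] (RatFunc k)
  rw [map_mul, map_mul, e, ← h]
  ring

end Denom

/-- (L11) `node_coprime`, independent second. -/
theorem node_coprime (k : Type*) [Field k] (p : ℕ) [Fact p.Prime] [CharP k p]
    (I1 : Ideal k[X]) (r : RatFunc k) (psi : k[X])
    (hpsi : r * algebraMap k[X] (RatFunc k) (X - X ^ (p ^ 2)) = algebraMap k[X] (RatFunc k) psi)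
    (hu' : (X - X ^ (p ^ 2) : k[X]) ∈ I1)
    (hT5 : ∀ f ∈ I1, ∃ n : ℕ, ∃ c : k[X],
      algebraMap k[X] (RatFunc k) (f ^ n) * r = algebraMap k[X] (RatFunc k) c)
    (hT9 : p - 1 ≤ 2 * r.denom.natDegree)
    (hT10 : ∃ f : k[X], f ≠ 0 ∧ f ∈ I1 ∧ 2 * f.natDegree ≤ p - 1) :
    I1 ⊔ Ideal.span {psi} = ⊤ := by
  classical
  set W : k[X] := X - X ^ (p ^ 2) with hW
  have hW0 : W ≠ 0 := X_sub_X_pow_ne_zero k p
  have hWsq : Squarefree W := squarefree_X_sub_X_pow k p
  -- generator of `I1`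
  have hprinc : I1.IsPrincipal := IsPrincipalIdealRing.principal I1
  set g : k[X] := Submodule.IsPrincipal.generator I1 with hg
  have hI1 : Ideal.span {g} = I1 := Ideal.span_singleton_generator I1
  have hmem : ∀ f : k[X], f ∈ I1 ↔ g ∣ f := fun f => by
    rw [← hI1, Ideal.mem_span_singleton]
  have hgW : g ∣ W := (hmem W).1 hu'
  have hg0 : g ≠ 0 := ne_zero_of_dvd_ne_zero hW0 hgW
  have hgI : g ∈ I1 := (hmem g).2 dvd_rfl
  -- the denominator of `r`
  set d : k[X] := r.denom with hd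
  have hd0 : d ≠ 0 := r.denom_ne_zero
  have hdW : d ∣ W := by
    have h := hpsi
    rw [mul_comm] at h
    exact denom_dvd_of_mul_eq hW0 h
  have hdsq : Squarefree d := hWsq.squarefree_of_dvd hdW
  have hdg : d ∣ g := by
    obtain ⟨n, c, hc⟩ := hT5 g hgI
    have h1 : d ∣ g ^ n := denom_dvd_of_mul_eq (pow_ne_zero n hg0) hc
    exact hdsq.isRadical n g h1
  -- degrees
  obtain ⟨f, hf0, hfI, hfdeg⟩ := hT10
  have hgf : g ∣ f := (hmem f).1 hfI
  have h1 : g.natDegree ≤ f.natDegree := natDegree_le_of_dvd hgf hf0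
  have h2 : d.natDegree ≤ g.natDegree := natDegree_le_of_dvd hdg hg0
  have h3 : g.natDegree ≤ d.natDegree := by omega
  have hassoc : Associated d g := associated_of_dvd_of_natDegree_le hdg hg0 h3
  -- `W = d * h`, `psi = num r * h`
  obtain ⟨h, hh⟩ := hdW
  have hcop_dh : IsCoprime d h := by
    have hsq : Squarefree (d * h) := hh ▸ hWsq
    exact ((squarefree_mul_iff.1 hsq).1).isCoprime
  have hpsi' : psi = r.num * h := by
    have e := num_mul_eq_of_mul_eq hpsi
    rw [hh] at e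
    have e' : d * (r.num * h) = d * psi := by
      have e2 : r.num * (d * h) = psi * d := e
      calc d * (r.num * h) = r.num * (d * h) := by ring
        _ = psi * d := e2
        _ = d * psi := mul_comm _ _
    exact (mul_left_cancel₀ hd0 e').symm
  have hcop_dnum : IsCoprime d r.num := (RatFunc.isCoprime_num_denom r).symm
  have hcop : IsCoprime d psi := by
    rw [hpsi']
    exact hcop_dnum.mul_right hcop_dh
  have hcop_g : IsCoprime g psi := by
    obtain ⟨u, hu⟩ := hassoc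
    rw [← hu]
    exact (isCoprime_mul_unit_right_left u.isUnit d psi).2 hcop
  rw [← hI1, ← Ideal.isCoprime_iff_sup_eq, Ideal.isCoprime_span_singleton_iff]
  exact hcop_g

/-! ## Abstract lifting: the node ideal `I1` and the Bezout identity (T-b) -/

section Lift

variable {k B L L' : Type*} [Field k] [CommRing B] [CommRing L] [CommRing L']
  (rhoInf : B →+* L) (rho0 : B →+* L') (ev : k[X] →+* L)

/-- The set `I1` of polynomials `f` such that the pair `(f(x̄), 0)` lifts to the chart ring `B`;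
it is an ideal as soon as every polynomial in `x̄` lifts along `rhoInf` (o5). -/
def nodeIdeal (ho5 : ∀ b : k[X], ∃ b' : B, rhoInf b' = ev b) : Ideal k[X] where
  carrier := {f | ∃ E : B, rhoInf E = ev f ∧ rho0 E = 0}
  add_mem' := by
    rintro f f' ⟨E, hE, hE0⟩ ⟨E', hE', hE0'⟩
    exact ⟨E + E', by rw [map_add, map_add, hE, hE'], by rw [map_add, hE0, hE0', add_zero]⟩
  zero_mem' := ⟨0, by rw [map_zero, map_zero], map_zero _⟩
  smul_mem' := by
    rintro c f ⟨E, hE, hE0⟩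
    obtain ⟨c', hc'⟩ := ho5 c
    exact ⟨c' * E, by rw [smul_eq_mul, map_mul, map_mul, hc', hE],
      by rw [map_mul, hE0, mul_zero]⟩

theorem mem_nodeIdeal (ho5 : ∀ b : k[X], ∃ b' : B, rhoInf b' = ev b) {f : k[X]} :
    f ∈ nodeIdeal rhoInf rho0 ev ho5 ↔ ∃ E : B, rhoInf E = ev f ∧ rho0 E = 0 := Iff.rfl

/-- (L11) `exists_bezout`: if `I1 + (psi) = (1)` in `k[X]`, every `f ∈ I1` lifts to some `E` with
`rho0 E = 0`, every polynomial lifts along `rhoInf` (o5), and `rhoInf Psi = psi(x̄)` (o1),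
then `E + b * Psi + E' = 1` in `B` with `rho0 E = 0`, `rhoInf E' = 0`. -/
theorem exists_bezout (Psi : B) (psi : k[X]) (I1 : Ideal k[X])
    (hI1 : ∀ f ∈ I1, ∃ E : B, rhoInf E = ev f ∧ rho0 E = 0)
    (ho5 : ∀ b : k[X], ∃ b' : B, rhoInf b' = ev b)
    (hPsi : rhoInf Psi = ev psi)
    (htop : I1 ⊔ Ideal.span {psi} = ⊤) :
    ∃ E b E' : B, rho0 E = 0 ∧ rhoInf E' = 0 ∧ E + b * Psi + E' = 1 := by
  have h1 : (1 : k[X]) ∈ I1 ⊔ Ideal.span {psi} := by rw [htop]; exact Submodule.mem_top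
  obtain ⟨f, hf, g, hg, hfg⟩ := Submodule.mem_sup.1 h1
  obtain ⟨c, rfl⟩ := Ideal.mem_span_singleton'.1 hg
  obtain ⟨E, hE, hE0⟩ := hI1 f hf
  obtain ⟨b, hb⟩ := ho5 c
  refine ⟨E, b, 1 - E - b * Psi, hE0, ?_, by ring⟩
  rw [map_sub, map_sub, map_one, map_mul, hE, hb, hPsi, ← map_mul, ← map_one ev, ← map_sub,
    ← map_sub, ← hfg]
  have : f + c * psi - f - c * psi = 0 := by ring
  rw [this, map_zero]

/-- The same with `I1 := nodeIdeal`. -/
theorem exists_bezout_nodeIdeal (Psi : B) (psi : k[X])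
    (ho5 : ∀ b : k[X], ∃ b' : B, rhoInf b' = ev b)
    (hPsi : rhoInf Psi = ev psi)
    (htop : nodeIdeal rhoInf rho0 ev ho5 ⊔ Ideal.span {psi} = ⊤) :
    ∃ E b E' : B, rho0 E = 0 ∧ rhoInf E' = 0 ∧ E + b * Psi + E' = 1 :=
  exists_bezout rhoInf rho0 ev Psi psi _ (fun _ hf => hf) ho5 hPsi htop

end Lift

section Consumer

variable {B L L' : Type*} [CommRing B] [CommRing L] [CommRing L']
  (rhoInf : B →+* L) (rho0 : B →+* L')

/-- Consumer of (T-b): at a node (a proper ideal containing both kernels) `Psi` is a unit. -/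
theorem not_mem_of_bezout {Psi : B}
    (h : ∃ E b E' : B, rho0 E = 0 ∧ rhoInf E' = 0 ∧ E + b * Psi + E' = 1)
    (m : Ideal B) (hm : m ≠ ⊤) (hInf : RingHom.ker rhoInf ≤ m) (h0 : RingHom.ker rho0 ≤ m) :
    Psi ∉ m := by
  obtain ⟨E, b, E', hE, hE', h1⟩ := h
  intro hPsi
  apply hm
  rw [Ideal.eq_top_iff_one, ← h1]
  exact m.add_mem (m.add_mem (h0 hE) (m.mul_mem_left b hPsi)) (hInf hE')

/-- (T-b) pulls back verbatim along any morphism of chart rings compatible with the two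
reductions. -/
theorem bezout_map {B₂ L₂ L₂' : Type*} [CommRing B₂] [CommRing L₂] [CommRing L₂']
    (rhoInf₂ : B₂ →+* L₂) (rho0₂ : B₂ →+* L₂') (φ : B →+* B₂)
    (hInf : ∀ x, rhoInf x = 0 → rhoInf₂ (φ x) = 0) (h0 : ∀ x, rho0 x = 0 → rho0₂ (φ x) = 0)
    {Psi : B} (h : ∃ E b E' : B, rho0 E = 0 ∧ rhoInf E' = 0 ∧ E + b * Psi + E' = 1) :
    ∃ E b E' : B₂, rho0₂ E = 0 ∧ rhoInf₂ E' = 0 ∧ E + b * φ Psi + E' = 1 := by
  obtain ⟨E, b, E', hE, hE', h1⟩ := h
  refine ⟨φ E, φ b, φ E', h0 E hE, hInf E' hE', ?_⟩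
  rw [← map_mul, ← map_add, ← map_add, h1, map_one]

end Consumer

/-! ## Assembly: T5 + T9 + T10 (+ o1, o3, o5) give the Bezout identity (T-b) -/

/-- Abstract assembly of the thickness statement (T-b) at level `4p`: all geometric inputs
(o1), (o3), (o5), T5, T9, T10 as hypotheses on an abstract chart ring `B`. -/
theorem thickness_bezout (k : Type*) [Field k] (p : ℕ) [Fact p.Prime] [CharP k p]
    {B L L' : Type*} [CommRing B] [CommRing L] [CommRing L']
    (rhoInf : B →+* L) (rho0 : B →+* L') (ev : k[X] →+* L)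
    (Psi : B) (psi : k[X]) (r : RatFunc k)
    (ho5 : ∀ b : k[X], ∃ b' : B, rhoInf b' = ev b)
    (hPsi : rhoInf Psi = ev psi)
    (hpsi : r * algebraMap k[X] (RatFunc k) (X - X ^ (p ^ 2)) = algebraMap k[X] (RatFunc k) psi)
    (hu' : ∃ E : B, rhoInf E = ev (X - X ^ (p ^ 2)) ∧ rho0 E = 0)
    (hT5 : ∀ f : k[X], (∃ E : B, rhoInf E = ev f ∧ rho0 E = 0) → ∃ n : ℕ, ∃ c : k[X],
      algebraMap k[X] (RatFunc k) (f ^ n) * r = algebraMap k[X] (RatFunc k) c)
    (hT9 : p - 1 ≤ 2 * r.denom.natDegree)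
    (hT10 : ∃ f : k[X], f ≠ 0 ∧ (∃ E : B, rhoInf E = ev f ∧ rho0 E = 0) ∧
      2 * f.natDegree ≤ p - 1) :
    ∃ E b E' : B, rho0 E = 0 ∧ rhoInf E' = 0 ∧ E + b * Psi + E' = 1 := by
  refine exists_bezout_nodeIdeal rhoInf rho0 ev Psi psi ho5 hPsi ?_
  exact node_coprime k p (nodeIdeal rhoInf rho0 ev ho5) r psi hpsi hu' (fun f hf => hT5 f hf) hT9
    hT10

end Fermat.Agent.S40x.Thick.NodeCoprimeB
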