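/-
P-S44/S40, block R1-T (thickness), leaf T10, FINAL literal (L10) on the CONCRETE chart (helper36).

Level `M p` with `M = 4`, `p` an odd prime; `R₁ = redSetupInfty H hA`, `R₂ = redSetupZero H hA`,
`C = ChartInst.chart H hA Hx z hz` (`t = α x`, `x ∈ F_M` a chart function with the level facts `Hx`
and an integer expansion `z`; for the thickness lemma `x = x₄`).  Then the Goursat ideal
`I1 = PolesNodes.I1 R₁ R₂ rfl C` contains a nonzero polynomial `f` with `2 deg f ≤ p - 1`:

  `exists_mem_I1 : ∃ f : k[X], f ≠ 0 ∧ f ∈ PolesNodes.I1 R₁ R₂ rfl C ∧ 2 * f.natDegree ≤ p - 1`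

= hypothesis `hT10` of `Main.node_coprime` / `Assemble.thick_bezout`.

Proof: helper11's hypothesis-style count `NodeCount.exists_poly_of_facts` (landed node count
`CountsMq.exists_counts_of_facts` + genus of `X₀(4p)`) at the concrete chart: `chart_t`, `chart_T`,
`hcart` of `S34x/Inst/ChartInst`, `Dt = Charts.divT`; then unfold `redSetup2 = redSetupTwoVal`.
-/
import Fermat.Agent.S34x.Inst.ChartInst
import Fermat.Agent.S34x.Inst.CountsMq
import Fermat.Agent.S40x.Thick.PolesNodes
import Fermat.Agent.S40x.Thick.NodeCount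
import Fermat.Agent.S34x.Inst.ElementYRed
import Fermat.Agent.S34x.Inst.TheoremBHaupt

set_option autoImplicit false
set_option linter.unusedSectionVars false
set_option linter.style.haveILetI false

noncomputable section

namespace Fermat.Agent.S40x.Thick.NodeCountB

open Polynomial ModularCurve AlgebraicCurve IntermediateField Module IsLocalRing
open Fermat.Agent.Gateway.Hecke
open Fermat.Agent.Gateway.Red Fermat.Agent.Gateway.GoodRed Fermat.Agent.Gateway.ESC
open Fermat.Agent.Gateway.GoodRed.ConjFamily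
open Fermat.Agent.Gateway.C0 Fermat.Agent.S34x Fermat.Agent.S34x.C0two Fermat.Agent.S34x.TwoVal
open Fermat.Agent.S34x.Lattice2 Fermat.Agent.S34x.Inst
open Fermat.Agent.S34x.Inst.RedSetupInst Fermat.Agent.S34x.Inst.L2
open Fermat.Agent.S34x.Inst.KSideInst Fermat.Agent.S34x.Inst.KSideFacts
open Fermat.Agent.S33x.H1.InstBBasic

local notation "Kbar" => AlgebraicClosure ℚ

/-- `Kbar / ℚ` is algebraic (a `Prop`-valued class: any other instance is equal to this one). -/
local instance isAlgebraicKbar : Algebra.IsAlgebraic ℚ Kbar := AlgebraicClosure.isAlgebraic ℚ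

variable {A : ValuationSubring Kbar} {k : Type} [Field k] {π : A →+* k} [IsAlgClosed k]
  {M p : ℕ} [NeZero M] [Fact p.Prime] [CharP k p]
  {hdeg : finrankAlong Kbar (heckeAlphaBar Kbar M p) = p + 1} {hq : p.Prime} {hpM : ¬ p ∣ M}
  {hrk : ∀ x ∈ maximalIdeal A, ∀ c : A, c ≠ 0 → ∃ j : ℕ, c ∣ x ^ j}
  {hπ : Function.Surjective π}
  (H : ResidueFacts A π M p hdeg hq hpM hrk hπ) (hA : A.LiesOverPrime p)
  {x : FBar Kbar M} (Hx : GoodLevelFactsT A π M p hπ hpM x) (z : LaurentSeries ℤ)
  (hz : (x : LaurentSeries Kbar) = coeffMap (Int.castRingHom Kbar) z)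

/-- the raw count at the concrete chart (hypotheses of `NodeCount.exists_poly_of_facts`
discharged by `ChartInst`). -/
theorem exists_poly_chart (hM : M = 4) :
    ∃ f : k[X], f ≠ 0 ∧ 2 * f.natDegree ≤ p - 1 ∧
      ∃ (E : FL Kbar (M * p))
        (hE : E ∈ (twoVal (valInfty A π M p hrk hπ hpM) (valZero A π M p hdeg hq hpM hrk hπ)).O),
        E ∈ BooAlg (ChartInst.chart H hA Hx z hz) ∧
        (redSetup2 H hA).res ⟨E, hE⟩ =
          ((aeval (resFk A π M p hπ hpM ⟨x, Hx.mem⟩) f, 0) : Fk k M × Fk k M) := by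
  haveI : CharZero Kbar := algebraRat.charZero Kbar
  haveI : NeZero p := ⟨(Fact.out : p.Prime).ne_zero⟩
  have hCt : (ChartInst.chart H hA Hx z hz).t = heckeAlphaBar Kbar M p x := rfl
  have ht : Transcendental Kbar (ChartInst.chart H hA Hx z hz).t := by
    rw [hCt]; exact Charts.transcendental_tα Kbar M p Hx.trans
  haveI hfin : FiniteDimensional Kbar⟮(ChartInst.chart H hA Hx z hz).t⟯ (FL Kbar (M * p)) := by
    rw [hCt]; exact ChartInst.finiteDimensional_alpha (q := p) Hx
  have hT : (ChartInst.chart H hA Hx z hz).T = (coordOfFacts Hx).T p :=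
    ChartInst.chart_T H hA Hx z hz
  exact NodeCount.exists_poly_of_facts (ChartInst.chart H hA Hx z hz) hM hA Hx hdeg hCt hT
      (Charts.divT_apply ht)
      (fun E' _ b => ChartInst.hcart H hA Hx z hz _
        ((TwoCharts.ofDivisor (Charts.divT ht)).LM_finite ht E' 0 b))

/-- `x̄ = red_∞ (α x)` : the coordinate `PolesNodes.xb` of the concrete chart is `resFk x`. -/
theorem xb_chart :
    PolesNodes.xb (redSetupInfty H hA) (redSetupZero H hA) rfl (ChartInst.chart H hA Hx z hz) =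
      resFk A π M p hπ hpM ⟨x, Hx.mem⟩ :=
  ChartInst.res_infty_alpha H hA Hx

/-- `red_0 (α x) = x̄ ^ p`. -/
theorem xb'_chart :
    PolesNodes.xb' (redSetupInfty H hA) (redSetupZero H hA) rfl (ChartInst.chart H hA Hx z hz) =
      (resFk A π M p hπ hpM ⟨x, Hx.mem⟩) ^ p :=
  ChartInst.res_zero_alpha H hA Hx z hz

/-- **(L10), final literal at the concrete chart of level `4p`.** -/
theorem exists_mem_I1 (hM : M = 4) :
    ∃ f : k[X], f ≠ 0 ∧
      f ∈ PolesNodes.I1 (redSetupInfty H hA) (redSetupZero H hA) rfl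
        (ChartInst.chart H hA Hx z hz) ∧
      2 * f.natDegree ≤ p - 1 := by
  obtain ⟨f, hf0, hfdeg, E, hE, hEB, hres⟩ := exists_poly_chart H hA Hx z hz hM
  refine ⟨f, hf0, ?_, hfdeg⟩
  refine (PolesNodes.mem_I1 (redSetupInfty H hA) (redSetupZero H hA) rfl
    (ChartInst.chart H hA Hx z hz)).2 ⟨E, hEB, ?_, ?_⟩
  · rw [xb_chart H hA Hx z hz]
    exact congrArg Prod.fst hres
  · exact congrArg Prod.snd hres

/-- **(L10) for the Hauptmodul `x₄`**: the instance `x = tInt M x₄ hx`, `z = x₄` used by the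
thickness lemma (`hx := x4_mem_FBar M h4`, `Hx := LevelFactsTHaupt.l2Facts_x4 A π M p hπ hpM h4`
as in `Inst/TheoremBHaupt.exists_const_mul_pow_x4`). -/
theorem exists_mem_I1_x4 (hM : M = 4)
    (hx : coeffMap (Int.castRingHom Kbar) Fermat.Agent.Gateway.AuxLevel.L4.x4 ∈ FBar Kbar M)
    (Hx4 : GoodLevelFactsT A π M p hπ hpM
      (Fermat.Agent.S34x.Inst.ElementYRed.tInt M Fermat.Agent.Gateway.AuxLevel.L4.x4 hx)) :
    ∃ f : k[X], f ≠ 0 ∧
      f ∈ PolesNodes.I1 (redSetupInfty H hA) (redSetupZero H hA) rfl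
        (ChartInst.chart H hA Hx4 Fermat.Agent.Gateway.AuxLevel.L4.x4 rfl) ∧
      2 * f.natDegree ≤ p - 1 :=
  exists_mem_I1 H hA Hx4 Fermat.Agent.Gateway.AuxLevel.L4.x4 rfl hM

end Fermat.Agent.S40x.Thick.NodeCountB
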