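/-
P-S44/S40, block R1-T (thickness), leaf T1 (helper24): the `q`-series side of the node element
`u = x(q^p) - x(q)^p` for an ARBITRARY integral Laurent series `x`.

* `exists_frob_int`   : `x(q^p) - x^p = p * D'` with `D' in Z((q))` (Kronecker/Frobenius congruence);
* `thetaL_frobQuot`   : for such a `D'`, `theta D' = (theta x)(q^p) - x^(p-1) * theta x` (`theta = q d/dq`);
* `thetaL_frobQuot_mod` : modulo `p`: `theta Db = (theta xb)^p - xb^(p-1) * theta xb`;
* `thetaL_frobQuot_mod_of_eq` : if `theta xb = xb * G` then `theta Db = xb^p * (G^p - G)`.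

Everything is stated for the Prelude `qExpand`, `coeffMap` and the landed derivation
`Fermat.Agent.S16.Two.thetaL`.
-/
import Mathlib
import Fermat.Agent.S16.Two.QSeries
import Fermat.Agent.Gateway.ES.FrobLaurent
import Fermat.Agent.Gateway.Kummer.RedRel

set_option autoImplicit false
set_option linter.style.haveILetI false

noncomputable section

namespace Fermat.Agent.S40x.Thick.QSeriesU

open ModularCurve HahnSeries
open Fermat.Agent.S16.Two

variable (p : ℕ) [hp : Fact p.Prime]

/-- `coeffMap` commutes with `theta`. -/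
theorem coeffMap_thetaL {R S : Type*} [CommRing R] [CommRing S] (f : R →+* S)
    (x : LaurentSeries R) : coeffMap f (thetaL x) = thetaL (coeffMap f x) := by
  ext n
  rw [coeffMap_coeff, thetaL_coeff, thetaL_coeff, coeffMap_coeff, map_mul, map_intCast]

/-- **Frobenius congruence for integral Laurent series**: `x(q^p) - x^p = p * D'`. -/
theorem exists_frob_int (x : LaurentSeries ℤ) :
    haveI : NeZero p := ⟨hp.out.ne_zero⟩
    ∃ D' : LaurentSeries ℤ, qExpand ℤ p x - x ^ p = HahnSeries.C (p : ℤ) * D' := by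
  haveI : NeZero p := ⟨hp.out.ne_zero⟩
  set D : LaurentSeries ℤ := qExpand ℤ p x - x ^ p with hD
  have hred : coeffMap (Int.castRingHom (ZMod p)) D = 0 := by
    rw [hD, map_sub, map_pow, Fermat.Agent.Gateway.Kummer.coeffMap_qExpand,
      Fermat.Agent.Gateway.ES.pow_char_eq_qExpand_coeffMap_frobenius p
        (coeffMap (Int.castRingHom (ZMod p)) x)]
    have hfrob : coeffMap (frobenius (ZMod p) p) (coeffMap (Int.castRingHom (ZMod p)) x) =
        coeffMap (Int.castRingHom (ZMod p)) x := by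
      ext n
      rw [coeffMap_coeff, frobenius_def, ZMod.pow_card]
    rw [hfrob, sub_self]
  have hdvd : ∀ n, (p : ℤ) ∣ D.coeff n := by
    intro n
    have := congrArg (fun y : LaurentSeries (ZMod p) => y.coeff n) hred
    simp only [coeffMap_coeff, HahnSeries.coeff_zero] at this
    exact (ZMod.intCast_zmod_eq_zero_iff_dvd _ _).mp this
  refine ⟨⟨fun n => D.coeff n / (p : ℤ), D.isPWO_support.mono ?_⟩, ?_⟩
  · intro n hn
    simp only [Function.mem_support, ne_eq] at hn ⊢
    intro h0
    apply hn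
    rw [h0, Int.zero_ediv]
  · ext n
    rw [HahnSeries.C_mul_eq_smul, HahnSeries.coeff_smul]
    show D.coeff n = (p : ℤ) • (D.coeff n / (p : ℤ))
    rw [smul_eq_mul, Int.mul_ediv_cancel' (hdvd n)]

/-- multiplication by `C p` is injective on `Z((q))`. -/
theorem C_mul_cancel {a b : LaurentSeries ℤ}
    (h : HahnSeries.C (p : ℤ) * a = HahnSeries.C (p : ℤ) * b) : a = b := by
  ext n
  have := congrArg (fun y : LaurentSeries ℤ => y.coeff n) h
  simp only [HahnSeries.C_mul_eq_smul, HahnSeries.coeff_smul, smul_eq_mul] at this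
  exact mul_left_cancel₀ (by exact_mod_cast hp.out.ne_zero) this

/-- **`theta` of the Frobenius quotient**: if `x(q^p) - x^p = p * D'` then
`theta D' = (theta x)(q^p) - x^(p-1) * theta x`. -/
theorem thetaL_frobQuot (x D' : LaurentSeries ℤ)
    (h : haveI : NeZero p := ⟨hp.out.ne_zero⟩
      qExpand ℤ p x - x ^ p = HahnSeries.C (p : ℤ) * D') :
    haveI : NeZero p := ⟨hp.out.ne_zero⟩
    thetaL D' = qExpand ℤ p (thetaL x) - x ^ (p - 1) * thetaL x := by
  haveI : NeZero p := ⟨hp.out.ne_zero⟩
  apply C_mul_cancel p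
  have hC : (HahnSeries.C (p : ℤ) : LaurentSeries ℤ) = ((p : ℤ) : LaurentSeries ℤ) := by simp
  have h1 : thetaL (HahnSeries.C (p : ℤ) * D') = HahnSeries.C (p : ℤ) * thetaL D' := by
    rw [hC, thetaL_intCast_mul]
  have hp1 : p - 1 + 1 = p := Nat.sub_add_cancel hp.out.one_le
  have h2 : thetaL (x ^ p) = ((p : ℕ) : LaurentSeries ℤ) * x ^ (p - 1) * thetaL x := by
    conv_lhs => rw [← hp1]
    rw [thetaL_pow_succ, hp1]
  rw [← h1, ← h, thetaL_sub, thetaL_qExpand, h2, hC]
  push_cast
  ring

section ModP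

/-- On `F_p((q))` the `p`-th power is `q -> q^p`. -/
theorem pow_eq_qExpand (f : LaurentSeries (ZMod p)) :
    haveI : NeZero p := ⟨hp.out.ne_zero⟩
    f ^ p = qExpand (ZMod p) p f := by
  haveI : NeZero p := ⟨hp.out.ne_zero⟩
  rw [Fermat.Agent.Gateway.ES.pow_char_eq_qExpand_coeffMap_frobenius p f]
  congr 1
  ext n
  rw [coeffMap_coeff, frobenius_def, ZMod.pow_card]

/-- **T1, modulo `p`**: with `xb`, `Db` the reductions of `x`, `D'`:
`theta Db = (theta xb)^p - xb^(p-1) * theta xb`. -/
theorem thetaL_frobQuot_mod (x D' : LaurentSeries ℤ)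
    (h : haveI : NeZero p := ⟨hp.out.ne_zero⟩
      qExpand ℤ p x - x ^ p = HahnSeries.C (p : ℤ) * D') :
    thetaL (coeffMap (Int.castRingHom (ZMod p)) D') =
      thetaL (coeffMap (Int.castRingHom (ZMod p)) x) ^ p -
        coeffMap (Int.castRingHom (ZMod p)) x ^ (p - 1) *
          thetaL (coeffMap (Int.castRingHom (ZMod p)) x) := by
  haveI : NeZero p := ⟨hp.out.ne_zero⟩
  rw [← coeffMap_thetaL, thetaL_frobQuot p x D' h, map_sub, map_mul, map_pow,
    Fermat.Agent.Gateway.Kummer.coeffMap_qExpand, coeffMap_thetaL, pow_eq_qExpand]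

/-- **T1, the form used by T6/T7**: if `theta xb = xb * G` then `theta Db = xb^p * (G^p - G)`. -/
theorem thetaL_frobQuot_mod_of_eq (x D' : LaurentSeries ℤ)
    (h : haveI : NeZero p := ⟨hp.out.ne_zero⟩
      qExpand ℤ p x - x ^ p = HahnSeries.C (p : ℤ) * D')
    (G : LaurentSeries (ZMod p))
    (hG : thetaL (coeffMap (Int.castRingHom (ZMod p)) x) =
      coeffMap (Int.castRingHom (ZMod p)) x * G) :
    thetaL (coeffMap (Int.castRingHom (ZMod p)) D') =
      coeffMap (Int.castRingHom (ZMod p)) x ^ p * (G ^ p - G) := by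
  have hp1 : p - 1 + 1 = p := Nat.sub_add_cancel hp.out.one_le
  rw [thetaL_frobQuot_mod p x D' h, hG, mul_pow]
  have h1 : coeffMap (Int.castRingHom (ZMod p)) x ^ p =
      coeffMap (Int.castRingHom (ZMod p)) x ^ (p - 1) *
        coeffMap (Int.castRingHom (ZMod p)) x := by
    rw [← pow_succ, hp1]
  rw [h1]
  ring

end ModP

end Fermat.Agent.S40x.Thick.QSeriesU
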