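import Mathlib

/-!
# R1-T (thickness one), leaves T8 + T9 and an abstract T10/T11 glue: the rational-function count

P-S44 block R1-T, lemma list of note 2529 / board S44_R1T (helper73).  Independent SECOND of
T8 + T9 (primary: `RatOrders.lean`, helper84), different path and namespace.  Mathlib only.
`k` is a field of odd characteristic `p`; `X` is the reduced Hauptmodul `xb` of `X0(4)`, cusps
at `0, 16, ∞`; `J = N4^3 / (X (X-16)^4)`, `ρ = J / (X J') = N4 (X-16) / C3`.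

* `δ = a/b` is the reduction of `u/p`; (T4) says `b ∣ (X (X-16))^n (X^(p^2) - X)`;
* (T6/T7) say `δ' = X^(p-1) (Rb - 1)`; no derivative on `RatFunc` is used:
  `δ' := (a' b - a b')/b^2`;
* `core_general`: for `Rb = (X-16)^m P1/Q1`, `Q1(0) ≠ 0 ≠ Q1(16)`, `deg Q1 = deg P1 + m` (T8:
  orders `0, m, 0` of `Rb` at the cusps `0, 16, ∞`; e.g. `P1 = A4^(p-1)`, `Q1 = B` from
  `ThetaX4K.exists_denominator`), the reduced denominator `Q0` of `Rb` is prime to `X (X-16)`,
  has degree `≥ m` and divides `b^2` (T9);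
* `le_two_mul_natDegree`, `le_two_mul_natDegree_denom`: literal (L9) of board S44_R1T,
  `p - 1 ≤ 2 * r.denom.natDegree` (with `rderiv r` unfolded);
* `core`: the same for `Rb = ρ^(p-1) r1(J)`, `r1 = A/B`, `deg A = deg B` (`homJ` = explicit
  homogenisation along `J`); `hrel_of_field`: the field form of the hypothesis;
* `exists_pole_factor*`: with (T4), the part `E` of `b` away from `0, 16` is separable, divides
  `X^(p^2) - X` and has degree `≥ (p-1)/2`;
* `nodes_are_poles*`: if moreover the poles of `δ` on `Y` lie in a finite set `nodes` with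
  `2 #nodes ≤ p - 1` (T5 + T10), then every node is a pole and `δ (X^(p^2) - X) = g/h` with
  `g(s) h(s) ≠ 0` at every node `s` (T11 in root form: `Ψbar(P_s) ≠ 0`).
-/

namespace Fermat.Agent.S40x.Thick.RatCount

open Polynomial

variable {k : Type*} [Field k]

/-- `N4 = X^2 + 224 X + 256`. -/
noncomputable def N4 : k[X] := X ^ 2 + C 224 * X + C 256

/-- `C3 = X^3 - 528 X^2 - 8448 X + 4096`. -/
noncomputable def C3 : k[X] := X ^ 3 - C 528 * X ^ 2 - C 8448 * X + C 4096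

/-- numerator of `J = N4^3 / (X (X-16)^4)`. -/
noncomputable def JN : k[X] := N4 ^ 3

/-- denominator of `J`. -/
noncomputable def JD : k[X] := X * (X - C 16) ^ 4

/-- homogenisation of `A` along `J = JN / JD`: `∑_{i ≤ d} a_i JN^i JD^(d-i)`. -/
noncomputable def homJ (A : k[X]) (d : ℕ) : k[X] :=
  ∑ i ∈ Finset.range (d + 1), C (A.coeff i) * JN ^ i * JD ^ (d - i)

theorem N4_natDegree : (N4 : k[X]).natDegree = 2 := by
  unfold N4
  compute_degree!

theorem N4_monic : (N4 : k[X]).Monic := by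
  unfold N4
  monicity!

theorem JN_natDegree : (JN : k[X]).natDegree = 6 := by
  unfold JN
  rw [N4_monic.natDegree_pow, N4_natDegree]

theorem JN_monic : (JN : k[X]).Monic := N4_monic.pow 3

theorem JD_monic : (JD : k[X]).Monic := by
  unfold JD
  exact monic_X.mul ((monic_X_sub_C _).pow 4)

theorem JD_natDegree : (JD : k[X]).natDegree = 5 := by
  unfold JD
  rw [Monic.natDegree_mul monic_X ((monic_X_sub_C _).pow 4), natDegree_X,
    (monic_X_sub_C (16 : k)).natDegree_pow, natDegree_X_sub_C]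

theorem homJ_succ (A : k[X]) (d : ℕ) :
    homJ A d = (∑ i ∈ Finset.range d, C (A.coeff i) * JN ^ i * JD ^ (d - i))
      + C (A.coeff d) * JN ^ d := by
  unfold homJ
  rw [Finset.sum_range_succ, Nat.sub_self, pow_zero, mul_one]

/-- evaluation of `homJ A d` at a zero of `JD` only sees the top coefficient. -/
theorem homJ_eval_of_root (A : k[X]) (d : ℕ) {α : k} (hα : JD.eval α = 0) :
    (homJ A d).eval α = A.coeff d * (JN.eval α) ^ d := by
  rw [homJ_succ, eval_add, eval_finsetSum]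
  rw [Finset.sum_eq_zero, zero_add]
  · simp
  · intro i hi
    have hi' : d - i ≠ 0 := by
      have := Finset.mem_range.1 hi
      omega
    simp [hα, hi']

theorem natDegree_term_lt (A : k[X]) {d i : ℕ} (hi : i < d) :
    (C (A.coeff i) * JN ^ i * JD ^ (d - i) : k[X]).natDegree < 6 * d := by
  have h1 : (C (A.coeff i) * JN ^ i * JD ^ (d - i) : k[X]).natDegree
      ≤ 0 + 6 * i + 5 * (d - i) := by
    refine (natDegree_mul_le).trans ?_
    refine add_le_add ((natDegree_mul_le).trans (add_le_add (natDegree_C _).le ?_)) ?_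
    · rw [JN_monic.natDegree_pow, JN_natDegree, mul_comm]
    · rw [JD_monic.natDegree_pow, JD_natDegree, mul_comm]
  omega

theorem natDegree_sum_lt (A : k[X]) {d : ℕ} (hd : 0 < d) :
    (∑ i ∈ Finset.range d, C (A.coeff i) * JN ^ i * JD ^ (d - i) : k[X]).natDegree
      < 6 * d := by
  have hlt : (∑ i ∈ Finset.range d, C (A.coeff i) * JN ^ i * JD ^ (d - i) : k[X]).degree
      < ((6 * d : ℕ) : WithBot ℕ) := by
    refine (degree_sum_le _ _).trans_lt ?_
    rw [Finset.sup_lt_iff (by exact_mod_cast WithBot.bot_lt_coe _)]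
    intro i hi
    refine lt_of_le_of_lt degree_le_natDegree ?_
    exact_mod_cast natDegree_term_lt A (Finset.mem_range.1 hi)
  by_cases h0 : (∑ i ∈ Finset.range d, C (A.coeff i) * JN ^ i * JD ^ (d - i) : k[X]) = 0
  · rw [h0, natDegree_zero]; omega
  · rw [degree_eq_natDegree h0] at hlt
    exact_mod_cast hlt

theorem homJ_natDegree (A : k[X]) (d : ℕ) (hA : A.coeff d ≠ 0) :
    (homJ A d).natDegree = 6 * d := by
  have htop : (C (A.coeff d) * JN ^ d : k[X]).natDegree = 6 * d := by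
    rw [natDegree_C_mul hA, JN_monic.natDegree_pow, JN_natDegree, mul_comm]
  rcases Nat.eq_zero_or_pos d with rfl | hd
  · rw [homJ_succ]; simp
  · rw [homJ_succ, add_comm, natDegree_add_eq_left_of_natDegree_lt, htop]
    rw [htop]
    exact natDegree_sum_lt A hd

theorem N4_eval_zero : (N4 : k[X]).eval 0 = 2 ^ 8 := by
  simp [N4]; norm_num

theorem N4_eval_16 : (N4 : k[X]).eval 16 = 2 ^ 12 := by
  simp [N4]; norm_num

theorem C3_eval_zero : (C3 : k[X]).eval 0 = 2 ^ 12 := by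
  simp [C3]; norm_num

theorem C3_eval_16 : (C3 : k[X]).eval 16 = -2 ^ 18 := by
  simp [C3]; norm_num

theorem JD_eval_zero : (JD : k[X]).eval 0 = 0 := by simp [JD]

theorem JD_eval_16 : (JD : k[X]).eval 16 = 0 := by simp [JD]

theorem JN_eval_zero : (JN : k[X]).eval 0 = 2 ^ 24 := by
  rw [JN, eval_pow, N4_eval_zero]; norm_num

theorem JN_eval_16 : (JN : k[X]).eval 16 = 2 ^ 36 := by
  rw [JN, eval_pow, N4_eval_16]; norm_num

theorem homJ_eval_zero_ne (h2 : (2 : k) ≠ 0) (A : k[X]) (d : ℕ) (hA : A.coeff d ≠ 0) :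
    (homJ A d).eval 0 ≠ 0 := by
  rw [homJ_eval_of_root A d JD_eval_zero, JN_eval_zero]
  exact mul_ne_zero hA (pow_ne_zero _ (pow_ne_zero _ h2))

theorem homJ_eval_16_ne (h2 : (2 : k) ≠ 0) (A : k[X]) (d : ℕ) (hA : A.coeff d ≠ 0) :
    (homJ A d).eval 16 ≠ 0 := by
  rw [homJ_eval_of_root A d JD_eval_16, JN_eval_16]
  exact mul_ne_zero hA (pow_ne_zero _ (pow_ne_zero _ h2))

theorem homJ_ne_zero (A : k[X]) (d : ℕ) (hA : A.coeff d ≠ 0) : homJ A d ≠ 0 := by
  intro h
  have h1 := homJ_natDegree A d hA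
  rcases Nat.eq_zero_or_pos d with rfl | hd
  · rw [homJ_succ] at h
    simp at h
    exact hA h
  · rw [h, natDegree_zero] at h1
    omega

section Field

variable {L : Type*} [Field L] [Algebra k L]

/-- `A(J) * JD^d = homJ A d` evaluated at `x`, for `J = JN(x)/JD(x)`. -/
theorem aeval_homJ (x : L) (hD : aeval x (JD : k[X]) ≠ 0) (A : k[X]) (d : ℕ)
    (hd : A.natDegree ≤ d) :
    aeval (aeval x (JN : k[X]) / aeval x (JD : k[X])) A * (aeval x (JD : k[X])) ^ d
      = aeval x (homJ A d) := by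
  rw [aeval_eq_sum_range' (Nat.lt_succ_of_le hd), Finset.sum_mul, homJ, map_sum]
  refine Finset.sum_congr rfl fun i hi => ?_
  have hi' : i ≤ d := Nat.lt_succ_iff.1 (Finset.mem_range.1 hi)
  rw [map_mul, map_mul, map_pow, map_pow, aeval_C, Algebra.smul_def, div_pow]
  have : (aeval x (JD : k[X])) ^ d = (aeval x (JD : k[X])) ^ i * (aeval x (JD : k[X])) ^ (d - i) := by
    rw [← pow_add, Nat.add_sub_cancel' hi']
  rw [this]
  field_simp

end Field

/-- lowest terms in `k[X]`. -/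
theorem exists_lowest_terms (P Q : k[X]) :
    ∃ g P0 Q0 : k[X], P = g * P0 ∧ Q = g * Q0 ∧ IsCoprime P0 Q0 := by
  classical
  let _ : GCDMonoid k[X] := EuclideanDomain.gcdMonoid _
  obtain ⟨P0, Q0, h1, h2, h3⟩ := extract_gcd P Q
  exact ⟨gcd P Q, P0, Q0, h1, h2, (gcd_isUnit_iff_isRelPrime.1 h3).isCoprime⟩

theorem isCoprime_X_sub_C_of_eval_ne {f : k[X]} {α : k} (h : f.eval α ≠ 0) :
    IsCoprime (X - C α) f := by
  rw [(irreducible_X_sub_C α).coprime_iff_not_dvd, dvd_iff_isRoot]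
  exact h

theorem isCoprime_X_of_eval_ne {f : k[X]} (h : f.eval 0 ≠ 0) : IsCoprime (X : k[X]) f := by
  have := isCoprime_X_sub_C_of_eval_ne (α := (0 : k)) h
  simpa using this

theorem C3_monic : (C3 : k[X]).Monic := by
  unfold C3
  monicity!

theorem C3_natDegree : (C3 : k[X]).natDegree = 3 := by
  unfold C3
  compute_degree!

/-- **General polynomial core of T8 + T9.**  `m` plays the role of `p - 1`;
`Rb = (X-16)^m P1 / Q1` with `Q1(0) ≠ 0`, `Q1(16) ≠ 0` (orders `0` and `m` at the cusps `0`,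
`16`), `deg Q1 = deg P1 + m` (order `0` at `∞`); `hrel` is
`(a/b)' = X^m (Rb - 1)` cleared of denominators.  Then the reduced denominator `Q0` of
`P1/Q1` is prime to `X (X-16)`, has degree `≥ m`, and divides `b^2`. -/
theorem core_general (m : ℕ) (a b P1 Q1 : k[X]) (hP1 : P1 ≠ 0)
    (hQ1_0 : Q1.eval 0 ≠ 0) (hQ1_16 : Q1.eval 16 ≠ 0)
    (hdegPQ : Q1.natDegree = P1.natDegree + m)
    (hrel : (derivative a * b - a * derivative b) * Q1
        = X ^ m * ((X - C 16) ^ m * P1 - Q1) * b ^ 2) :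
    ∃ Q0 : k[X], Q0 ∣ b ^ 2 ∧ IsCoprime Q0 (X * (X - C 16)) ∧ m ≤ Q0.natDegree := by
  have hQ1 : Q1 ≠ 0 := by rintro rfl; simp at hQ1_0
  obtain ⟨g, P0, Q0, hP, hQ, hcop⟩ := exists_lowest_terms P1 Q1
  have hg : g ≠ 0 := by rintro rfl; exact hQ1 (by rw [hQ, zero_mul])
  have hP0 : P0 ≠ 0 := by rintro rfl; exact hP1 (by rw [hP, mul_zero])
  have hQ0 : Q0 ≠ 0 := by rintro rfl; exact hQ1 (by rw [hQ, mul_zero])
  have hdeg : Q0.natDegree = P0.natDegree + m := by
    have e := hdegPQ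
    rw [hQ, natDegree_mul hg hQ0, hP, natDegree_mul hg hP0] at e
    omega
  -- the polynomial identity with the gcd cancelled
  have hM : Q0 * (derivative a * b - a * derivative b + X ^ m * b ^ 2)
      = (X * (X - C 16)) ^ m * (P0 * b ^ 2) := by
    have h1 : g * (Q0 * (derivative a * b - a * derivative b + X ^ m * b ^ 2))
        = g * ((X * (X - C 16)) ^ m * (P0 * b ^ 2)) := by
      have e1 : g * Q0 = Q1 := hQ.symm
      have e2 : g * P0 = P1 := hP.symm
      rw [mul_pow]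
      linear_combination hrel + (derivative a * b - a * derivative b + X ^ m * b ^ 2) * e1
        - (X ^ m * (X - C 16) ^ m * b ^ 2) * e2
    exact mul_left_cancel₀ hg h1
  have hQ0_0 : Q0.eval 0 ≠ 0 := by
    intro h; apply hQ1_0; rw [hQ, eval_mul, h, mul_zero]
  have hQ0_16 : Q0.eval 16 ≠ 0 := by
    intro h; apply hQ1_16; rw [hQ, eval_mul, h, mul_zero]
  have hcopXX : IsCoprime Q0 (X * (X - C 16)) :=
    IsCoprime.mul_right (isCoprime_X_of_eval_ne hQ0_0).symm
      (isCoprime_X_sub_C_of_eval_ne hQ0_16).symm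
  refine ⟨Q0, ?_, hcopXX, by omega⟩
  have hdvd : Q0 ∣ (X * (X - C 16)) ^ m * (P0 * b ^ 2) := ⟨_, hM.symm⟩
  have h3 : Q0 ∣ P0 * b ^ 2 := (hcopXX.pow_right).dvd_of_dvd_mul_left hdvd
  exact hcop.symm.dvd_of_dvd_mul_left h3

/-- **(L9), polynomial form**: `m ≤ 2 deg b`. -/
theorem le_two_mul_natDegree (m : ℕ) (a b P1 Q1 : k[X]) (hb : b ≠ 0) (hP1 : P1 ≠ 0)
    (hQ1_0 : Q1.eval 0 ≠ 0) (hQ1_16 : Q1.eval 16 ≠ 0)
    (hdegPQ : Q1.natDegree = P1.natDegree + m)
    (hrel : (derivative a * b - a * derivative b) * Q1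
        = X ^ m * ((X - C 16) ^ m * P1 - Q1) * b ^ 2) :
    m ≤ 2 * b.natDegree := by
  obtain ⟨Q0, hQb, -, hQdeg⟩ := core_general m a b P1 Q1 hP1 hQ1_0 hQ1_16 hdegPQ hrel
  have := natDegree_le_of_dvd hQb (pow_ne_zero _ hb)
  rw [natDegree_pow] at this
  omega

/-- **(L9), `RatFunc` form** (literal of board S44_R1T, with `rderiv r` unfolded to
`(num' denom - num denom') / denom^2`): if `r' = X^m (Rb - 1)` with
`Rb = (X-16)^m P1 / Q1` as in `core_general`, then `m ≤ 2 deg (denom r)`. -/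
theorem le_two_mul_natDegree_denom (m : ℕ) (r : RatFunc k) (P1 Q1 : k[X]) (hP1 : P1 ≠ 0)
    (hQ1_0 : Q1.eval 0 ≠ 0) (hQ1_16 : Q1.eval 16 ≠ 0)
    (hdegPQ : Q1.natDegree = P1.natDegree + m)
    (hder : algebraMap k[X] (RatFunc k)
          (derivative r.num * r.denom - r.num * derivative r.denom)
        / (algebraMap k[X] (RatFunc k) r.denom) ^ 2
      = (RatFunc.X) ^ m * ((RatFunc.X - RatFunc.C 16) ^ m
          * (algebraMap k[X] (RatFunc k) P1 / algebraMap k[X] (RatFunc k) Q1) - 1)) :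
    m ≤ 2 * r.denom.natDegree := by
  have hb : r.denom ≠ 0 := r.denom_ne_zero
  have hQ1 : Q1 ≠ 0 := by rintro rfl; simp at hQ1_0
  have hinj := RatFunc.algebraMap_injective k
  have hbx : algebraMap k[X] (RatFunc k) r.denom ≠ 0 := fun h =>
    hb (hinj (by rw [h, map_zero]))
  have hQx : algebraMap k[X] (RatFunc k) Q1 ≠ 0 := fun h =>
    hQ1 (hinj (by rw [h, map_zero]))
  refine le_two_mul_natDegree m r.num r.denom P1 Q1 hb hP1 hQ1_0 hQ1_16 hdegPQ ?_
  apply hinj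
  simp only [map_mul, map_sub, map_pow, RatFunc.algebraMap_X, RatFunc.algebraMap_C]
  simp only [map_mul, map_sub] at hder
  field_simp at hder
  linear_combination hder

/-- **Polynomial core of T8 + T9** for `Rb = ρ^m * r1(J)`, `r1 = A/B`. -/
theorem core (h2 : (2 : k) ≠ 0) (m : ℕ) (a b A B : k[X]) {d : ℕ}
    (hAd : A.coeff d ≠ 0) (hBd : B.coeff d ≠ 0)
    (hrel : (derivative a * b - a * derivative b) * (C3 ^ m * homJ B d)
        = X ^ m * ((X - C 16) ^ m * (N4 ^ m * homJ A d) - C3 ^ m * homJ B d) * b ^ 2) :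
    ∃ Q0 : k[X], Q0 ∣ b ^ 2 ∧ IsCoprime Q0 (X * (X - C 16)) ∧ m ≤ Q0.natDegree := by
  have hN4 : (N4 : k[X]) ^ m ≠ 0 := pow_ne_zero _ N4_monic.ne_zero
  have hC3 : (C3 : k[X]) ^ m ≠ 0 := pow_ne_zero _ C3_monic.ne_zero
  have hA0 := homJ_ne_zero A d hAd
  have hB0 := homJ_ne_zero B d hBd
  have hdegP : ((N4 : k[X]) ^ m * homJ A d).natDegree = 2 * m + 6 * d := by
    rw [natDegree_mul hN4 hA0, N4_monic.natDegree_pow, N4_natDegree, homJ_natDegree A d hAd,
      mul_comm m 2]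
  have hdegQ : ((C3 : k[X]) ^ m * homJ B d).natDegree = 3 * m + 6 * d := by
    rw [natDegree_mul hC3 hB0, C3_monic.natDegree_pow, C3_natDegree, homJ_natDegree B d hBd,
      mul_comm m 3]
  refine core_general m a b _ _ (mul_ne_zero hN4 hA0) ?_ ?_ (by rw [hdegP, hdegQ]; ring) hrel
  · rw [eval_mul, eval_pow, C3_eval_zero]
    exact mul_ne_zero (pow_ne_zero _ (pow_ne_zero _ h2)) (homJ_eval_zero_ne h2 B d hBd)
  · rw [eval_mul, eval_pow, C3_eval_16]
    exact mul_ne_zero (pow_ne_zero _ (neg_ne_zero.2 (pow_ne_zero _ h2)))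
      (homJ_eval_16_ne h2 B d hBd)

section FieldForm

variable {L : Type*} [Field L] [Algebra k L]

/-- the field form of (T6/T7) gives the polynomial identity `hrel` of `core`.  Here `x : L` is
transcendental over `k` (e.g. `L = RatFunc k`, `x = X`; or `L = k((q))`, `x` the reduced
Hauptmodul), `δ = a(x)/b(x)`, `δ' = (a' b - a b')(x) / b(x)^2`, and
`δ' = x^m (ρ(x)^m * A(J)/B(J) - 1)`. -/
theorem hrel_of_field (x : L) (hx : Function.Injective (aeval x : k[X] →ₐ[k] L)) (m : ℕ)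
    (a b A B : k[X]) (hb : b ≠ 0) {d : ℕ} (hAd : A.natDegree ≤ d) (hBd : B.natDegree ≤ d)
    (hB0 : B.coeff d ≠ 0)
    (hder : aeval x (derivative a * b - a * derivative b) / (aeval x b) ^ 2
      = x ^ m * ((aeval x (N4 : k[X]) * (x - 16) / aeval x (C3 : k[X])) ^ m
          * (aeval (aeval x (JN : k[X]) / aeval x (JD : k[X])) A
              / aeval (aeval x (JN : k[X]) / aeval x (JD : k[X])) B) - 1)) :
    (derivative a * b - a * derivative b) * (C3 ^ m * homJ B d)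
        = X ^ m * ((X - C 16) ^ m * (N4 ^ m * homJ A d) - C3 ^ m * homJ B d) * b ^ 2 := by
  have hne : ∀ f : k[X], f ≠ 0 → aeval x f ≠ 0 := fun f hf h =>
    hf (hx (by rw [h, map_zero]))
  have hD := hne _ (JD_monic (k := k)).ne_zero
  have hC3 := hne _ (C3_monic (k := k)).ne_zero
  have hbx := hne _ hb
  have hBh := hne _ (homJ_ne_zero B d hB0)
  have eA := aeval_homJ x hD A d hAd
  have eB := aeval_homJ x hD B d hBd
  have hDd : (aeval x (JD : k[X])) ^ d ≠ 0 := pow_ne_zero _ hD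
  have eA' : aeval (aeval x (JN : k[X]) / aeval x (JD : k[X])) A
      = aeval x (homJ A d) / (aeval x (JD : k[X])) ^ d := by
    rw [← eA]; field_simp
  have eB' : aeval (aeval x (JN : k[X]) / aeval x (JD : k[X])) B
      = aeval x (homJ B d) / (aeval x (JD : k[X])) ^ d := by
    rw [← eB]; field_simp
  rw [eA', eB'] at hder
  apply hx
  simp only [map_mul, map_sub, map_pow, aeval_X, aeval_C]
  have h16 : algebraMap k L 16 = 16 := map_ofNat _ 16
  rw [h16]
  simp only [map_mul, map_sub, div_pow, mul_pow] at hder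
  have hC3m : (aeval x (C3 : k[X])) ^ m ≠ 0 := pow_ne_zero _ hC3
  field_simp at hder
  linear_combination hder

end FieldForm

section CharP

variable (p : ℕ) [hp : Fact p.Prime] [CharP k p]

include hp in
theorem two_ne_zero_of_odd (hp2 : p ≠ 2) : (2 : k) ≠ 0 := by
  intro h
  have h' : ((2 : ℕ) : k) = 0 := by exact_mod_cast h
  rw [CharP.cast_eq_zero_iff k p 2] at h'
  exact hp2 ((Nat.prime_dvd_prime_iff_eq hp.out Nat.prime_two).1 h')

theorem natCast_pow_sq (n : ℕ) : ((n : k)) ^ (p ^ 2) = n := by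
  have h1 : ∀ x : k, x ^ p = frobenius k p x := fun x => (frobenius_def p x).symm
  have h3 : ((n : k)) ^ p = n := by rw [h1, map_natCast]
  rw [pow_two, pow_mul, h3, h3]

/-- `W = X^(p^2) - X`. -/
noncomputable def W : k[X] := X ^ (p ^ 2) - X

omit hp in
theorem W_separable : (W p : k[X]).Separable :=
  galois_poly_separable p (p ^ 2) (dvd_pow_self p two_ne_zero)

omit hp in
theorem W_ne_zero : (W p : k[X]) ≠ 0 := (W_separable p).ne_zero

omit [CharP k p] in
theorem X_dvd_W : (X : k[X]) ∣ W p :=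
  dvd_sub (dvd_pow_self X (pow_ne_zero _ hp.out.ne_zero)) dvd_rfl

theorem X_sub_dvd_W : (X - C 16 : k[X]) ∣ W p := by
  rw [dvd_iff_isRoot, IsRoot, W, eval_sub, eval_pow, eval_X]
  have := natCast_pow_sq (k := k) p 16
  rw [sub_eq_zero]
  exact_mod_cast this

include hp in
theorem isCoprime_X_X_sub (hp2 : p ≠ 2) : IsCoprime (X : k[X]) (X - C 16) := by
  refine isCoprime_X_of_eval_ne ?_
  have h2 := two_ne_zero_of_odd (k := k) p hp2
  have : (16 : k) = 2 ^ 4 := by norm_num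
  simp only [eval_sub, eval_X, eval_C, zero_sub, ne_eq, neg_eq_zero, this]
  exact pow_ne_zero _ h2

include hp in
theorem exists_W1 (hp2 : p ≠ 2) :
    ∃ W1 : k[X], W p = X * (X - C 16) * W1 ∧ IsCoprime (X * (X - C 16)) W1 := by
  obtain ⟨W1, hW1⟩ := (isCoprime_X_X_sub (k := k) p hp2).mul_dvd (X_dvd_W p) (X_sub_dvd_W p)
  refine ⟨W1, hW1, ?_⟩
  have := W_separable (k := k) p
  rw [hW1] at this
  exact this.isCoprime

/-- **T9 with (T4).**  If `Q0 ∣ b^2` is prime to `X (X-16)` of degree `≥ m` (output of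
`core_general` / `core`) and (T4) `b ∣ (X (X-16))^n (X^(p^2) - X)`, then the part `E` of the
denominator `b` away from `0, 16` is separable, divides `X^(p^2) - X` and `m ≤ 2 deg E`. -/
theorem exists_pole_factor_of_core (hp2 : p ≠ 2) (b : k[X]) {n m : ℕ}
    (hT4 : b ∣ (X * (X - C 16)) ^ n * W p)
    (hcore : ∃ Q0 : k[X], Q0 ∣ b ^ 2 ∧ IsCoprime Q0 (X * (X - C 16)) ∧ m ≤ Q0.natDegree) :
    ∃ b1 E W2 : k[X], b = b1 * E ∧ b1 ∣ (X * (X - C 16)) ^ (n + 1) ∧
      W p = X * (X - C 16) * (E * W2) ∧ IsCoprime E W2 ∧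
      IsCoprime E (X * (X - C 16)) ∧ E.Separable ∧ m ≤ 2 * E.natDegree := by
  obtain ⟨Q0, hQb, hQcop, hQdeg⟩ := hcore
  obtain ⟨W1, hW1, hW1cop⟩ := exists_W1 (k := k) p hp2
  have hb' : b ∣ (X * (X - C 16)) ^ (n + 1) * W1 := by
    have : (X * (X - C 16)) ^ n * W p = (X * (X - C 16)) ^ (n + 1) * W1 := by
      rw [hW1, pow_succ]; ring
    rwa [this] at hT4
  obtain ⟨b1, E, hb1, hE, hbE⟩ := exists_dvd_and_dvd_of_dvd_mul hb'
  obtain ⟨W2, hW2⟩ := hE
  have hsepW1 : W1.Separable := by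
    have := W_separable (k := k) p
    rw [hW1] at this
    exact this.of_mul_right
  have hEsep : E.Separable := hsepW1.of_dvd ⟨W2, hW2⟩
  have hEW2 : IsCoprime E W2 := by
    rw [hW2] at hsepW1
    exact hsepW1.isCoprime
  have hEcop : IsCoprime E (X * (X - C 16)) :=
    (hW1cop.of_isCoprime_of_dvd_right ⟨W2, hW2⟩).symm
  refine ⟨b1, E, W2, hbE, hb1, by rw [hW1, hW2], hEW2, hEcop, hEsep, ?_⟩
  have hQ1 : IsCoprime Q0 (b1 ^ 2) :=
    ((hQcop.pow_right (n := n + 1)).of_isCoprime_of_dvd_right hb1).pow_right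
  have hQE : Q0 ∣ E ^ 2 := by
    rw [hbE, mul_pow] at hQb
    exact hQ1.dvd_of_dvd_mul_left hQb
  have hE0 : E ≠ 0 := hEsep.ne_zero
  have := natDegree_le_of_dvd hQE (pow_ne_zero _ hE0)
  rw [natDegree_pow] at this
  omega

/-- **T8 + T9, polynomial form, `Rb = ρ^(p-1) r1(J)`.**  `δ = a / b`; `r1 = A / B` with `A`,
`B` of the same degree `d`; (T4) `b ∣ (X (X-16))^n (X^(p^2) - X)`; (T6/T7) in polynomial form
`hrel`.  Then the part `E` of the denominator `b` away from `0, 16` is separable, divides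
`X^(p^2) - X` and has degree at least `(p-1)/2`. -/
theorem exists_pole_factor (hp2 : p ≠ 2) (a b A B : k[X]) {d n : ℕ}
    (hAd : A.coeff d ≠ 0) (hBd : B.coeff d ≠ 0)
    (hT4 : b ∣ (X * (X - C 16)) ^ n * W p)
    (hrel : (derivative a * b - a * derivative b) * (C3 ^ (p - 1) * homJ B d)
        = X ^ (p - 1) * ((X - C 16) ^ (p - 1) * (N4 ^ (p - 1) * homJ A d)
            - C3 ^ (p - 1) * homJ B d) * b ^ 2) :
    ∃ b1 E W2 : k[X], b = b1 * E ∧ b1 ∣ (X * (X - C 16)) ^ (n + 1) ∧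
      W p = X * (X - C 16) * (E * W2) ∧ IsCoprime E W2 ∧
      IsCoprime E (X * (X - C 16)) ∧ E.Separable ∧ p - 1 ≤ 2 * E.natDegree :=
  exists_pole_factor_of_core p hp2 b hT4
    (core (two_ne_zero_of_odd (k := k) p hp2) (p - 1) a b A B hAd hBd hrel)

/-- **T8 + T9, polynomial form, general `Rb = (X-16)^(p-1) P1/Q1`** (e.g. the output
`P1 = A4^(p-1)`, `Q1 = B` of `ThetaX4K.exists_denominator`). -/
theorem exists_pole_factor_general (hp2 : p ≠ 2) (a b P1 Q1 : k[X]) {n : ℕ} (hP1 : P1 ≠ 0)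
    (hQ1_0 : Q1.eval 0 ≠ 0) (hQ1_16 : Q1.eval 16 ≠ 0)
    (hdegPQ : Q1.natDegree = P1.natDegree + (p - 1))
    (hT4 : b ∣ (X * (X - C 16)) ^ n * W p)
    (hrel : (derivative a * b - a * derivative b) * Q1
        = X ^ (p - 1) * ((X - C 16) ^ (p - 1) * P1 - Q1) * b ^ 2) :
    ∃ b1 E W2 : k[X], b = b1 * E ∧ b1 ∣ (X * (X - C 16)) ^ (n + 1) ∧
      W p = X * (X - C 16) * (E * W2) ∧ IsCoprime E W2 ∧
      IsCoprime E (X * (X - C 16)) ∧ E.Separable ∧ p - 1 ≤ 2 * E.natDegree :=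
  exists_pole_factor_of_core p hp2 b hT4
    (core_general (p - 1) a b P1 Q1 hP1 hQ1_0 hQ1_16 hdegPQ hrel)

omit hp [CharP k p] in
theorem eval_ne_zero_of_isCoprime {f g : k[X]} (h : IsCoprime f g) {s : k}
    (hs : f.eval s = 0) : g.eval s ≠ 0 := by
  obtain ⟨u, v, huv⟩ := h
  intro hg
  have := congrArg (eval s) huv
  simp [hs, hg] at this

/-- **T9 + abstract T10/T11 glue.**  Assume that `X^(p^2) - X` splits in `k` (e.g. `k`
algebraically closed), that `a`, `b` are coprime (`δ = a/b` in lowest terms), (T4), the output of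
`core_general`/`core` with `m = p - 1`, and that the poles of `δ` away from `0, 16` lie in a
finite set `nodes` with `2 * #nodes ≤ p - 1` (T5 + T10).  Then EVERY node `s` is a pole of `δ`
(`b(s) = 0`), `s ≠ 0, 16`, `s^(p^2) = s`, and `δ * (X^(p^2) - X) = g / h` with `g(s) ≠ 0`,
`h(s) ≠ 0` at every node (this is `Ψbar(P_s) ≠ 0`, T11). -/
theorem nodes_are_poles_of_core (hp2 : p ≠ 2) (hW : (W p : k[X]).Splits)
    (a b : k[X]) (hab : IsCoprime a b) {n : ℕ}
    (hT4 : b ∣ (X * (X - C 16)) ^ n * W p)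
    (hcore : ∃ Q0 : k[X], Q0 ∣ b ^ 2 ∧ IsCoprime Q0 (X * (X - C 16)) ∧ p - 1 ≤ Q0.natDegree)
    (nodes : Finset k) (hcard : 2 * nodes.card ≤ p - 1)
    (hT5 : ∀ α : k, α ≠ 0 → α ≠ 16 → b.IsRoot α → α ∈ nodes) :
    2 * nodes.card = p - 1 ∧
    ∃ g h : k[X], a * W p * h = g * b ∧
      ∀ s ∈ nodes, b.IsRoot s ∧ s ≠ 0 ∧ s ≠ 16 ∧ s ^ (p ^ 2) = s ∧
        g.eval s ≠ 0 ∧ h.eval s ≠ 0 := by
  classical
  obtain ⟨b1, E, W2, hbE, hb1, hWE, hEW2, hEcop, hEsep, hEdeg⟩ :=
    exists_pole_factor_of_core p hp2 b hT4 hcore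
  have hE0 : E ≠ 0 := hEsep.ne_zero
  have hEW : E ∣ W p := ⟨X * (X - C 16) * W2, by rw [hWE]; ring⟩
  have hEsplit : E.Splits := hW.of_dvd (W_ne_zero p) hEW
  have hEcard : E.roots.toFinset.card = E.natDegree := by
    rw [Multiset.toFinset_card_of_nodup (nodup_roots hEsep), hEsplit.natDegree_eq_card_roots]
  -- properties of the roots of `E`
  have hroot : ∀ s : k, E.IsRoot s → s ≠ 0 ∧ s ≠ 16 ∧ b.IsRoot s := by
    intro s hs
    have h1 := eval_ne_zero_of_isCoprime hEcop hs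
    rw [eval_mul, eval_X, eval_sub, eval_X, eval_C] at h1
    refine ⟨fun h => h1 (by rw [h, zero_mul]), fun h => h1 (by rw [h, sub_self, mul_zero]), ?_⟩
    rw [IsRoot, hbE, eval_mul, hs, mul_zero]
  have hsub : E.roots.toFinset ⊆ nodes := by
    intro s hs
    rw [Multiset.mem_toFinset, mem_roots hE0] at hs
    obtain ⟨h0, h16, hb⟩ := hroot s hs
    exact hT5 s h0 h16 hb
  have hle := Finset.card_le_card hsub
  have heq : E.roots.toFinset = nodes :=
    Finset.eq_of_subset_of_card_le hsub (by omega)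
  refine ⟨by rw [← heq]; omega, a * (X * (X - C 16)) * W2, b1, ?_, ?_⟩
  · rw [hWE, hbE]; ring
  · intro s hs
    rw [← heq, Multiset.mem_toFinset, mem_roots hE0] at hs
    obtain ⟨h0, h16, hb⟩ := hroot s hs
    have hsW : (W p : k[X]).IsRoot s := by
      obtain ⟨c, hc⟩ := hEW
      rw [IsRoot, hc, eval_mul, hs, zero_mul]
    refine ⟨hb, h0, h16, ?_, ?_, ?_⟩
    · rw [IsRoot, W, eval_sub, eval_pow, eval_X, sub_eq_zero] at hsW
      exact hsW
    · have ha : a.eval s ≠ 0 := eval_ne_zero_of_isCoprime hab.symm hb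
      have hw2 : W2.eval s ≠ 0 := eval_ne_zero_of_isCoprime hEW2 hs
      rw [eval_mul, eval_mul, eval_mul, eval_X, eval_sub, eval_X, eval_C]
      exact mul_ne_zero (mul_ne_zero ha (mul_ne_zero h0 (sub_ne_zero.2 h16))) hw2
    · intro hb1s
      obtain ⟨c, hc⟩ := hb1
      have := congrArg (eval s) hc
      rw [eval_mul, hb1s, zero_mul, eval_pow, eval_mul, eval_X, eval_sub, eval_X, eval_C] at this
      exact (pow_ne_zero _ (mul_ne_zero h0 (sub_ne_zero.2 h16))) this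

/-- `nodes_are_poles_of_core` for `Rb = ρ^(p-1) r1(J)`, `r1 = A/B`. -/
theorem nodes_are_poles (hp2 : p ≠ 2) (hW : (W p : k[X]).Splits)
    (a b A B : k[X]) (hab : IsCoprime a b) {d n : ℕ}
    (hAd : A.coeff d ≠ 0) (hBd : B.coeff d ≠ 0)
    (hT4 : b ∣ (X * (X - C 16)) ^ n * W p)
    (hrel : (derivative a * b - a * derivative b) * (C3 ^ (p - 1) * homJ B d)
        = X ^ (p - 1) * ((X - C 16) ^ (p - 1) * (N4 ^ (p - 1) * homJ A d)
            - C3 ^ (p - 1) * homJ B d) * b ^ 2)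
    (nodes : Finset k) (hcard : 2 * nodes.card ≤ p - 1)
    (hT5 : ∀ α : k, α ≠ 0 → α ≠ 16 → b.IsRoot α → α ∈ nodes) :
    2 * nodes.card = p - 1 ∧
    ∃ g h : k[X], a * W p * h = g * b ∧
      ∀ s ∈ nodes, b.IsRoot s ∧ s ≠ 0 ∧ s ≠ 16 ∧ s ^ (p ^ 2) = s ∧
        g.eval s ≠ 0 ∧ h.eval s ≠ 0 :=
  nodes_are_poles_of_core p hp2 hW a b hab hT4
    (core (two_ne_zero_of_odd (k := k) p hp2) (p - 1) a b A B hAd hBd hrel) nodes hcard hT5

/-- `nodes_are_poles_of_core` for a general `Rb = (X-16)^(p-1) P1/Q1`. -/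
theorem nodes_are_poles_general (hp2 : p ≠ 2) (hW : (W p : k[X]).Splits)
    (a b P1 Q1 : k[X]) (hab : IsCoprime a b) {n : ℕ} (hP1 : P1 ≠ 0)
    (hQ1_0 : Q1.eval 0 ≠ 0) (hQ1_16 : Q1.eval 16 ≠ 0)
    (hdegPQ : Q1.natDegree = P1.natDegree + (p - 1))
    (hT4 : b ∣ (X * (X - C 16)) ^ n * W p)
    (hrel : (derivative a * b - a * derivative b) * Q1
        = X ^ (p - 1) * ((X - C 16) ^ (p - 1) * P1 - Q1) * b ^ 2)
    (nodes : Finset k) (hcard : 2 * nodes.card ≤ p - 1)
    (hT5 : ∀ α : k, α ≠ 0 → α ≠ 16 → b.IsRoot α → α ∈ nodes) :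
    2 * nodes.card = p - 1 ∧
    ∃ g h : k[X], a * W p * h = g * b ∧
      ∀ s ∈ nodes, b.IsRoot s ∧ s ≠ 0 ∧ s ≠ 16 ∧ s ^ (p ^ 2) = s ∧
        g.eval s ≠ 0 ∧ h.eval s ≠ 0 :=
  nodes_are_poles_of_core p hp2 hW a b hab hT4
    (core_general (p - 1) a b P1 Q1 hP1 hQ1_0 hQ1_16 hdegPQ hrel) nodes hcard hT5

omit hp [CharP k p] in
/-- (T4) in membership form gives the divisibility form used above: if
`δ * (X^(p^2) - X) = G / (X (X-16))^n` with `δ = a/b` in lowest terms, then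
`b ∣ (X (X-16))^n (X^(p^2) - X)`. -/
theorem hT4_of_mem (a b G : k[X]) (hab : IsCoprime a b) {n : ℕ}
    (h : a * W p * (X * (X - C 16)) ^ n = G * b) : b ∣ (X * (X - C 16)) ^ n * W p := by
  have h1 : b ∣ a * ((X * (X - C 16)) ^ n * W p) := ⟨G, by rw [← mul_comm G b, ← h]; ring⟩
  exact hab.symm.dvd_of_dvd_mul_left h1

/-- **Field form of T8 + T9 + T10/T11 glue** (the consumer literal).  `x : L` transcendental
over `k`; `δ = a(x)/b(x)` in lowest terms; `r1 = A/B` with `deg A = deg B`;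
(T4) `b ∣ (X (X-16))^n (X^(p^2) - X)`;
(T6/T7) `(a' b - a b')(x)/b(x)^2 = x^(p-1) (ρ(x)^(p-1) A(J(x))/B(J(x)) - 1)` with
`ρ = N4 (x-16)/C3`, `J = N4^3/(x (x-16)^4)`;
(T5/T10) the poles of `δ` away from `0, 16` lie in `nodes`, `2 #nodes ≤ p - 1`. -/
theorem nodes_are_poles_field {L : Type*} [Field L] [Algebra k L] (x : L)
    (hx : Transcendental k x) (hp2 : p ≠ 2) (hW : (W p : k[X]).Splits)
    (a b A B : k[X]) (hab : IsCoprime a b) (hA : A ≠ 0) (hB : B ≠ 0)
    (hdeg : A.natDegree = B.natDegree) {n : ℕ}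
    (hT4 : b ∣ (X * (X - C 16)) ^ n * W p)
    (hder : aeval x (derivative a * b - a * derivative b) / (aeval x b) ^ 2
      = x ^ (p - 1) * ((aeval x (N4 : k[X]) * (x - 16) / aeval x (C3 : k[X])) ^ (p - 1)
          * (aeval (aeval x (JN : k[X]) / aeval x (JD : k[X])) A
              / aeval (aeval x (JN : k[X]) / aeval x (JD : k[X])) B) - 1))
    (nodes : Finset k) (hcard : 2 * nodes.card ≤ p - 1)
    (hT5 : ∀ α : k, α ≠ 0 → α ≠ 16 → b.IsRoot α → α ∈ nodes) :
    2 * nodes.card = p - 1 ∧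
    ∃ g h : k[X], a * W p * h = g * b ∧
      ∀ s ∈ nodes, b.IsRoot s ∧ s ≠ 0 ∧ s ≠ 16 ∧ s ^ (p ^ 2) = s ∧
        g.eval s ≠ 0 ∧ h.eval s ≠ 0 := by
  have hb : b ≠ 0 := by
    rintro rfl
    rw [zero_dvd_iff] at hT4
    exact mul_ne_zero (pow_ne_zero _ (mul_ne_zero X_ne_zero (X_sub_C_ne_zero _))) (W_ne_zero p) hT4
  have hAd : A.coeff B.natDegree ≠ 0 := by
    rw [← hdeg]; exact leadingCoeff_ne_zero.2 hA
  have hBd : B.coeff B.natDegree ≠ 0 := leadingCoeff_ne_zero.2 hB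
  have hrel := hrel_of_field x (transcendental_iff_injective.1 hx) (p - 1) a b A B hb
    hdeg.le le_rfl hBd hder
  exact nodes_are_poles p hp2 hW a b A B hab hAd hBd hT4 hrel nodes hcard hT5

end CharP

end Fermat.Agent.S40x.Thick.RatCount
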