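/-
P-S44 / R1-T, leaf (L12) `T12-abs` -- INDEPENDENT SECOND (helper36).  Mathlib only.
Literal = board `S44_R1T` v1 (L12).

`R` a commutative ring (the local ring of the arithmetic surface at a node upstairs),
`rho1, rho2` the two reductions, `ker rho1 ∩ ker rho2 = (p)`, `p` regular.
`U, U'` lifts of `(0, t')`, `(t, 0)`;  `u, u'` with `rho1 u = 0`, `rho2 u' = 0`, `u * u' = p * Psi`
and `Psi ∉ m` (thickness (T-b) pulled back).  If `rho2 u ∈ (rho2 U)` then `rho1 u' ∉ (rho1 U')^2`: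
`rho_inf u'` is a uniformiser at `P_s`.
-/
import Mathlib

namespace Fermat.Agent.S40x.Thick.T12AbsB

variable {R O1 O2 : Type*} [CommRing R] [CommRing O1] [CommRing O2]

/-- Core computation: under the hypotheses, a decomposition `u = U c' + p b`,
`u' = U'^2 c + p a` forces `Psi ∈ m`. -/
theorem psi_mem_of_decomp (rho1 : R →+* O1) (rho2 : R →+* O2) (p U U' u u' Psi : R) (m : Ideal R)
    (hker : ∀ r, rho1 r = 0 → rho2 r = 0 → p ∣ r)
    (hp : ∀ a b : R, p * a = p * b → a = b)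
    (hpm : p ∈ m) (hUm : U ∈ m) (hU'm : U' ∈ m)
    (hU : rho1 U = 0) (hU' : rho2 U' = 0)
    (huu : u * u' = p * Psi)
    {a b c c' : R} (hub : u = U * c' + p * b) (hua : u' = U' ^ 2 * c + p * a) :
    Psi ∈ m := by
  -- `U * U' = p * w`
  obtain ⟨w, hw⟩ : p ∣ U * U' :=
    hker (U * U') (by rw [map_mul, hU, zero_mul]) (by rw [map_mul, hU', mul_zero])
  have key : p * Psi = p * (w * U' * c * c' + U * c' * a + b * U' ^ 2 * c + p * a * b) := by
    rw [← huu, hub, hua]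
    have e : (U * c' + p * b) * (U' ^ 2 * c + p * a)
        = (U * U') * (U' * c * c') + p * (U * c' * a + b * U' ^ 2 * c + p * a * b) := by ring
    rw [e, hw]
    ring
  rw [hp _ _ key]
  refine m.add_mem (m.add_mem (m.add_mem ?_ ?_) ?_) ?_
  · have : w * U' * c * c' = (w * c * c') * U' := by ring
    rw [this]; exact m.mul_mem_left _ hU'm
  · have : U * c' * a = (c' * a) * U := by ring
    rw [this]; exact m.mul_mem_left _ hUm
  · have : b * U' ^ 2 * c = (b * U' * c) * U' := by ring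
    rw [this]; exact m.mul_mem_left _ hU'm
  · have : p * a * b = (a * b) * p := by ring
    rw [this]; exact m.mul_mem_left _ hpm

/-- (L12) **T12-abs**: semistable node upstairs + `Psi` a unit at the node imply that
`rho1 u'` is not in the square of the ideal generated by `rho1 U'`. -/
theorem t12_abs (rho1 : R →+* O1) (rho2 : R →+* O2) (p U U' u u' Psi : R) (m : Ideal R)
    (hker : ∀ r, rho1 r = 0 → rho2 r = 0 → p ∣ r)
    (hp : ∀ a b : R, p * a = p * b → a = b)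
    (hpm : p ∈ m) (hUm : U ∈ m) (hU'm : U' ∈ m)
    (hU : rho1 U = 0) (hU' : rho2 U' = 0) (hu : rho1 u = 0) (hu' : rho2 u' = 0)
    (huu : u * u' = p * Psi) (hPsi : Psi ∉ m)
    (h2 : ∃ c', rho2 u = rho2 U * rho2 c') :
    ¬ ∃ c, rho1 u' = rho1 U' ^ 2 * rho1 c := by
  rintro ⟨c, hc⟩
  obtain ⟨c', hc'⟩ := h2
  -- `u - U c' ∈ ker rho1 ∩ ker rho2`
  obtain ⟨b, hb⟩ : p ∣ u - U * c' :=
    hker _ (by rw [map_sub, map_mul, hu, hU, zero_mul, sub_zero])
      (by rw [map_sub, map_mul, hc', sub_self])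
  obtain ⟨a, ha⟩ : p ∣ u' - U' ^ 2 * c :=
    hker _ (by rw [map_sub, map_mul, map_pow, hc, sub_self])
      (by rw [map_sub, map_mul, map_pow, hu', hU', zero_pow (by norm_num), zero_mul, sub_zero])
  have hub : u = U * c' + p * b := by rw [← hb]; ring
  have hua : u' = U' ^ 2 * c + p * a := by rw [← ha]; ring
  exact hPsi (psi_mem_of_decomp rho1 rho2 p U U' u u' Psi m hker hp hpm hUm hU'm hU hU' huu hub hua)

/-- (L12), symmetric form: `rho2 u ∉ (rho2 U)^2` when `rho1 u' ∈ (rho1 U')`. -/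
theorem t12_abs_symm (rho1 : R →+* O1) (rho2 : R →+* O2) (p U U' u u' Psi : R) (m : Ideal R)
    (hker : ∀ r, rho1 r = 0 → rho2 r = 0 → p ∣ r)
    (hp : ∀ a b : R, p * a = p * b → a = b)
    (hpm : p ∈ m) (hUm : U ∈ m) (hU'm : U' ∈ m)
    (hU : rho1 U = 0) (hU' : rho2 U' = 0) (hu : rho1 u = 0) (hu' : rho2 u' = 0)
    (huu : u * u' = p * Psi) (hPsi : Psi ∉ m)
    (h1 : ∃ c, rho1 u' = rho1 U' * rho1 c) :
    ¬ ∃ c', rho2 u = rho2 U ^ 2 * rho2 c' :=
  t12_abs rho2 rho1 p U' U u' u Psi m (fun r h2 h1 => hker r h1 h2) hp hpm hU'm hUm hU' hU hu' hu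
    (by rw [mul_comm]; exact huu) hPsi h1

/-- Variant with `p ∈ nonZeroDivisors R`. -/
theorem t12_abs' (rho1 : R →+* O1) (rho2 : R →+* O2) (p U U' u u' Psi : R) (m : Ideal R)
    (hker : ∀ r, rho1 r = 0 → rho2 r = 0 → p ∣ r)
    (hp : p ∈ nonZeroDivisors R)
    (hpm : p ∈ m) (hUm : U ∈ m) (hU'm : U' ∈ m)
    (hU : rho1 U = 0) (hU' : rho2 U' = 0) (hu : rho1 u = 0) (hu' : rho2 u' = 0)
    (huu : u * u' = p * Psi) (hPsi : Psi ∉ m)
    (h2 : ∃ c', rho2 u = rho2 U * rho2 c') :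
    ¬ ∃ c, rho1 u' = rho1 U' ^ 2 * rho1 c :=
  t12_abs rho1 rho2 p U U' u u' Psi m hker
    (fun a b h => by
      have h0 : (a - b) * p = 0 := by
        have : (a - b) * p = p * a - p * b := by ring
        rw [this, h, sub_self]
      exact sub_eq_zero.1 ((mem_nonZeroDivisors_iff.1 hp).2 _ h0))
    hpm hUm hU'm hU hU' hu hu' huu hPsi h2

end Fermat.Agent.S40x.Thick.T12AbsB
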