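/-
P-S44/S40, block R1-T, leaf T1, ADAPTER to the board literal (L1) of `S44_R1T` (helper72).

`Thick/T1QSeries.lean` works with the explicit series `frobQuot p f = (f(q^p) - f^p)/p`.  The board
literal is hypothesis style in a series `D` with `f(q^p) - f^p = p * D`; since multiplication by `p`
is injective on `ℤ((q))`, such a `D` IS `frobQuot p f` (`eq_frobQuot`).  Names of (L1):

* `exists_frobDefect`, `thetaL_frobDefect`, `thetaL_frobDefect_mod`, `thetaL_frobDefect_mod_of_mul`.
-/
import Fermat.Agent.S40x.Thick.T1QSeries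

set_option autoImplicit false
set_option linter.style.haveILetI false
set_option linter.unusedSectionVars false

noncomputable section

namespace Fermat.Agent.S40x.Thick.T1FrobDefect

open ModularCurve HahnSeries
open Fermat.Agent.S16.Two Fermat.Agent.S40x.Thick.T1QSeries

variable (p : ℕ) [hp : Fact p.Prime]

/-- (L1-a) the Frobenius defect of an integral Laurent series is divisible by `p`. -/
theorem exists_frobDefect (f : LaurentSeries ℤ) :
    haveI : NeZero p := ⟨hp.out.ne_zero⟩
    ∃ D : LaurentSeries ℤ, qExpand ℤ p f - f ^ p = HahnSeries.C (p : ℤ) * D :=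
  ⟨frobQuot p f, (C_mul_frobQuot p f).symm⟩

variable {p}

/-- a defect series is THE Frobenius quotient -/
theorem eq_frobQuot {f D : LaurentSeries ℤ}
    (h : haveI : NeZero p := ⟨hp.out.ne_zero⟩
      qExpand ℤ p f - f ^ p = HahnSeries.C (p : ℤ) * D) : D = frobQuot p f := by
  haveI : NeZero p := ⟨hp.out.ne_zero⟩
  apply natCast_mul_cancel p
  have hC : ((p : LaurentSeries ℤ)) = HahnSeries.C ((p : ℕ) : ℤ) := by simp
  rw [natCast_mul_frobQuot, hC, ← h]

/-- (L1-b) `θ D = (θ f)(q^p) - f^(p-1) θ f` over `ℤ`. -/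
theorem thetaL_frobDefect {f D : LaurentSeries ℤ}
    (h : haveI : NeZero p := ⟨hp.out.ne_zero⟩
      qExpand ℤ p f - f ^ p = HahnSeries.C (p : ℤ) * D) :
    haveI : NeZero p := ⟨hp.out.ne_zero⟩
    thetaL D = qExpand ℤ p (thetaL f) - f ^ (p - 1) * thetaL f := by
  rw [eq_frobQuot h]
  exact thetaL_frobQuot p f

/-- (L1-c) modulo `p`, coefficients in any commutative ring `K` of characteristic `p`:
`θ D̄ = (θ f̄)^p - f̄^(p-1) θ f̄`. -/
theorem thetaL_frobDefect_mod (K : Type*) [CommRing K] [CharP K p] {f D : LaurentSeries ℤ}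
    (h : haveI : NeZero p := ⟨hp.out.ne_zero⟩
      qExpand ℤ p f - f ^ p = HahnSeries.C (p : ℤ) * D) :
    thetaL (coeffMap (Int.castRingHom K) D) =
      thetaL (coeffMap (Int.castRingHom K) f) ^ p -
        coeffMap (Int.castRingHom K) f ^ (p - 1) * thetaL (coeffMap (Int.castRingHom K) f) := by
  rw [eq_frobQuot h]
  exact thetaL_frobQuot_bar p K f

/-- (L1-d) with a logarithmic derivative over `K`: if `G * f̄ = θ f̄` then
`θ D̄ = f̄^p (G^p - G)`. -/
theorem thetaL_frobDefect_mod_of_mul (K : Type*) [CommRing K] [CharP K p] {f D : LaurentSeries ℤ}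
    (h : haveI : NeZero p := ⟨hp.out.ne_zero⟩
      qExpand ℤ p f - f ^ p = HahnSeries.C (p : ℤ) * D)
    (G : LaurentSeries K)
    (hG : G * coeffMap (Int.castRingHom K) f = thetaL (coeffMap (Int.castRingHom K) f)) :
    thetaL (coeffMap (Int.castRingHom K) D) =
      coeffMap (Int.castRingHom K) f ^ p * (G ^ p - G) := by
  rw [thetaL_frobDefect_mod K h, ← hG]
  obtain ⟨m, hm⟩ : ∃ m, p = m + 1 := ⟨p - 1, (Nat.succ_pred_eq_of_pos hp.out.pos).symm⟩
  have hm' : p - 1 = m := by omega
  rw [hm']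
  conv_lhs => rw [hm]
  conv_rhs => rw [hm]
  ring

end Fermat.Agent.S40x.Thick.T1FrobDefect
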